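import Mathlib
import Fermat.Prelude.Def_ModularCurve_X0ModL

/-!
# Descent of integrality along an extension of coefficient fields

Let `K/K₀` be a field extension, `O ⊆ K` an integrally closed domain with fraction field `K`,
`O₀ → K₀` with `O ∩ K₀ ⊆ O₀`.  If `j₀, y ∈ K₀((q))`, `j₀` is transcendental and the image of `y`
in `K((q))` is integral over `O[j₀]`, then `y` is integral over `O₀[j₀]`.

Used in the S28 (Igusa) project with `K₀ = ℚ`, `O₀ = ℤ_(ℓ)`, `K = ℚ(ζ_N)`, `O` the localization
at a prime above `ℓ`.
-/

set_option autoImplicit false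

noncomputable section

namespace Fermat.Agent.S28.IntegralDescent

open ModularCurve HahnSeries Polynomial

section Functional

variable {K₀ K : Type*} [Field K₀] [Field K] [Algebra K₀ K]

/-- apply a `K₀`-linear functional `K → K₀` coefficientwise -/
def coeffFun (lam : K →ₗ[K₀] K₀) : LaurentSeries K →+ LaurentSeries K₀ where
  toFun x := x.map lam
  map_zero' := by ext n; simp
  map_add' x y := by ext n; simp

@[simp] theorem coeffFun_coeff (lam : K →ₗ[K₀] K₀) (x : LaurentSeries K) (n : ℤ) :
    (coeffFun lam x).coeff n = lam (x.coeff n) := rfl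

theorem support_coeffMap_subset (a : LaurentSeries K₀) :
    (coeffMap (algebraMap K₀ K) a).support ⊆ a.support := by
  intro n hn
  simp only [HahnSeries.mem_support, coeffMap_coeff, ne_eq] at hn ⊢
  exact fun h => hn (by rw [h, map_zero])

theorem support_coeffFun_subset (lam : K →ₗ[K₀] K₀) (x : LaurentSeries K) :
    (coeffFun lam x).support ⊆ x.support := by
  intro n hn
  simp only [HahnSeries.mem_support, coeffFun_coeff, ne_eq] at hn ⊢
  exact fun h => hn (by rw [h, map_zero])

/-- `coeffFun lam` is semilinear over `K₀((q))`. -/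
theorem coeffFun_coeffMap_mul (lam : K →ₗ[K₀] K₀) (a : LaurentSeries K₀) (x : LaurentSeries K) :
    coeffFun lam (coeffMap (algebraMap K₀ K) a * x) = a * coeffFun lam x := by
  ext n
  rw [coeffFun_coeff, HahnSeries.coeff_mul_left' a.isPWO_support (support_coeffMap_subset a),
    HahnSeries.coeff_mul_right' x.isPWO_support (support_coeffFun_subset lam x), map_sum]
  refine Finset.sum_congr rfl fun ij _ => ?_
  rw [coeffMap_coeff, coeffFun_coeff, ← Algebra.smul_def, map_smul, smul_eq_mul]

theorem coeffFun_mul_coeffMap (lam : K →ₗ[K₀] K₀) (a : LaurentSeries K₀) (x : LaurentSeries K) :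
    coeffFun lam (x * coeffMap (algebraMap K₀ K) a) = coeffFun lam x * a := by
  rw [mul_comm, coeffFun_coeffMap_mul, mul_comm]

theorem coeffFun_one (lam : K →ₗ[K₀] K₀) :
    coeffFun lam (1 : LaurentSeries K) = HahnSeries.C (lam 1) := by
  ext n
  rw [coeffFun_coeff, HahnSeries.coeff_one, HahnSeries.C_apply, HahnSeries.coeff_single]
  split_ifs <;> simp

theorem coeffFun_coeffMap (lam : K →ₗ[K₀] K₀) (a : LaurentSeries K₀) :
    coeffFun lam (coeffMap (algebraMap K₀ K) a) = a * HahnSeries.C (lam 1) := by
  have := coeffFun_coeffMap_mul lam a 1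
  rwa [mul_one, coeffFun_one] at this

theorem coeffFun_C (lam : K →ₗ[K₀] K₀) (α : K) :
    coeffFun lam (HahnSeries.C α) = HahnSeries.C (lam α) := by
  ext n
  rw [coeffFun_coeff, HahnSeries.C_apply, HahnSeries.C_apply, HahnSeries.coeff_single,
    HahnSeries.coeff_single]
  split_ifs <;> simp

theorem coeffMap_injective : Function.Injective (coeffMap (algebraMap K₀ K)) := by
  intro a b h
  ext n
  have := congrArg (fun z => z.coeff n) h
  simp only [coeffMap_coeff] at this
  exact (algebraMap K₀ K).injective this

/-- An element of `K` killed by all functionals that kill `1` lies in `K₀`. -/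
theorem mem_range_of_forall_functional (α : K)
    (h : ∀ lam : K →ₗ[K₀] K₀, lam 1 = 0 → lam α = 0) : α ∈ (algebraMap K₀ K).range := by
  by_contra hα
  have hα' : α ∉ Submodule.span K₀ ({1} : Set K) := by
    intro hmem
    rw [Submodule.mem_span_singleton] at hmem
    obtain ⟨c, hc⟩ := hmem
    exact hα ⟨c, by rw [← hc, Algebra.smul_def, mul_one]⟩
  obtain ⟨f, hf, hf'⟩ := Submodule.exists_dual_map_eq_bot_of_notMem hα' inferInstance
  refine hf (h f ?_)
  have : f 1 ∈ (Submodule.span K₀ ({1} : Set K)).map f :=
    Submodule.mem_map_of_mem (Submodule.subset_span rfl)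
  rw [hf'] at this
  simpa using this

/-- existence of a functional with `lam 1 = 1` -/
theorem exists_functional_one : ∃ lam : K →ₗ[K₀] K₀, lam 1 = 1 := by
  have h1 : (1 : K) ∉ (⊥ : Submodule K₀ K) := by simp
  obtain ⟨f, hf, -⟩ := Submodule.exists_dual_map_eq_bot_of_notMem h1 inferInstance
  refine ⟨(f 1)⁻¹ • f, ?_⟩
  simp [hf]

/-- A Laurent series over `K` killed by all `coeffFun lam` with `lam 1 = 0` has
coefficients in `K₀`. -/
theorem mem_range_coeffMap (x : LaurentSeries K)
    (h : ∀ lam : K →ₗ[K₀] K₀, lam 1 = 0 → coeffFun lam x = 0) :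
    ∃ a : LaurentSeries K₀, coeffMap (algebraMap K₀ K) a = x := by
  obtain ⟨lam₁, h₁⟩ := exists_functional_one (K₀ := K₀) (K := K)
  refine ⟨coeffFun lam₁ x, ?_⟩
  ext n
  rw [coeffMap_coeff, coeffFun_coeff]
  obtain ⟨β, hβ⟩ := mem_range_of_forall_functional (K₀ := K₀) (x.coeff n) (fun lam hl => by
    have := congrArg (fun z => z.coeff n) (h lam hl)
    simpa using this)
  rw [← hβ]
  congr 1
  rw [Algebra.algebraMap_eq_smul_one, map_smul, h₁, smul_eq_mul, mul_one]

end Functional


section Poly

variable {K₀ K : Type*} [Field K₀] [Field K] [Algebra K₀ K]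

theorem algebraMap_comp_eq :
    (algebraMap K (LaurentSeries K)).comp (algebraMap K₀ K) =
      (coeffMap (algebraMap K₀ K)).comp (algebraMap K₀ (LaurentSeries K₀)) := by
  ext a : 1
  simp only [RingHom.comp_apply]
  rw [algebraMap_laurentSeries_eq_single, algebraMap_laurentSeries_eq_single, coeffMap_single]

theorem coeffMap_aeval (j₀ : LaurentSeries K₀) (g : K₀[X]) :
    coeffMap (algebraMap K₀ K) (aeval j₀ g) =
      aeval (coeffMap (algebraMap K₀ K) j₀) (g.map (algebraMap K₀ K)) :=
  Polynomial.map_aeval_eq_aeval_map algebraMap_comp_eq g j₀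

/-- apply a functional to the coefficients of a polynomial -/
def lamPoly (lam : K →ₗ[K₀] K₀) (q : K[X]) : K₀[X] :=
  ∑ n ∈ q.support, Polynomial.monomial n (lam (q.coeff n))

theorem lamPoly_coeff (lam : K →ₗ[K₀] K₀) (q : K[X]) (m : ℕ) :
    (lamPoly lam q).coeff m = lam (q.coeff m) := by
  classical
  rw [lamPoly, Polynomial.finsetSum_coeff]
  simp only [Polynomial.coeff_monomial]
  rw [Finset.sum_ite_eq' q.support m]
  split_ifs with h
  · rfl
  · rw [Polynomial.notMem_support_iff.1 h, map_zero]

theorem coeffFun_aeval (lam : K →ₗ[K₀] K₀) (j₀ : LaurentSeries K₀) (q : K[X]) :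
    coeffFun lam (aeval (coeffMap (algebraMap K₀ K) j₀) q) = aeval j₀ (lamPoly lam q) := by
  rw [Polynomial.aeval_eq_sum_range]
  simp only [Algebra.smul_def]
  rw [map_sum, lamPoly, map_sum]
  have h1 : ∀ i ∈ Finset.range (q.natDegree + 1),
      coeffFun lam (algebraMap K (LaurentSeries K) (q.coeff i) *
        coeffMap (algebraMap K₀ K) j₀ ^ i)
        = algebraMap K₀ (LaurentSeries K₀) (lam (q.coeff i)) * j₀ ^ i := by
    intro i _
    rw [← map_pow, coeffFun_mul_coeffMap, algebraMap_laurentSeries_eq_single,
      ← HahnSeries.C_apply, coeffFun_C, algebraMap_laurentSeries_eq_single,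
      ← HahnSeries.C_apply]
  rw [Finset.sum_congr rfl h1]
  have h2 : ∀ n ∈ q.support, aeval j₀ (Polynomial.monomial n (lam (q.coeff n)))
      = algebraMap K₀ (LaurentSeries K₀) (lam (q.coeff n)) * j₀ ^ n := by
    intro n _
    rw [Polynomial.aeval_monomial]
  rw [Finset.sum_congr rfl h2]
  symm
  apply Finset.sum_subset
  · intro n hn
    rw [Finset.mem_range]
    exact Nat.lt_succ_of_le (Polynomial.le_natDegree_of_mem_supp n hn)
  · intro n _ hn
    rw [Polynomial.notMem_support_iff.1 hn, map_zero, map_zero, zero_mul]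

end Poly


section Main

variable {K₀ K O₀ O : Type*} [Field K₀] [Field K] [Algebra K₀ K]
  [CommRing O₀] [CommRing O] [IsDomain O] [Algebra O₀ K₀] [Algebra O K] [IsFractionRing O K]

omit [IsDomain O] [IsFractionRing O K] in
theorem exists_aeval_of_mem_adjoin {j z : LaurentSeries K} (hz : z ∈ Algebra.adjoin O {j}) :
    ∃ p : O[X], aeval j p = z := by
  rw [Algebra.adjoin_singleton_eq_range_aeval] at hz
  exact hz

omit [IsDomain O] [IsFractionRing O K] in
theorem algebraMap_eq_C (a : O) :
    algebraMap O (LaurentSeries K) a = HahnSeries.C (algebraMap O K a) := by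
  rw [HahnSeries.algebraMap_apply']
  have h1 : algebraMap O (PowerSeries K) a = PowerSeries.C (algebraMap O K a) :=
    PowerSeries.algebraMap_apply
  rw [h1, HahnSeries.ofPowerSeries_C]

omit [IsDomain O] [IsFractionRing O K] in
theorem algebraMap_tower (a : O) :
    algebraMap O (LaurentSeries K) a = algebraMap K (LaurentSeries K) (algebraMap O K a) := by
  rw [algebraMap_eq_C (O := O) a, algebraMap_laurentSeries_eq_single, HahnSeries.C_apply]

omit [IsDomain O] [IsFractionRing O K] in
/-- `aeval` over `O` is `aeval` over `K` of the mapped polynomial -/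
theorem aeval_map_fractionRing (j : LaurentSeries K) (p : O[X]) :
    aeval j (p.map (algebraMap O K)) = aeval j p := by
  have h : (algebraMap K (LaurentSeries K)).comp (algebraMap O K) =
      (RingHom.id (LaurentSeries K)).comp (algebraMap O (LaurentSeries K)) := by
    ext a : 1
    simp only [RingHom.comp_apply, RingHom.id_apply]
    rw [algebraMap_tower (O := O) a]
  have := Polynomial.map_aeval_eq_aeval_map h p j
  simpa using this.symm

/-- clearing denominators of a `K`-polynomial expression in `j` -/
theorem exists_denominator (j : LaurentSeries K) (q : K[X]) :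
    ∃ d : O, d ≠ 0 ∧ ∃ r : O[X], aeval j r = algebraMap O (LaurentSeries K) d * aeval j q := by
  obtain ⟨b, hbM, hb⟩ := IsLocalization.integerNormalization_spec (nonZeroDivisors O) q
  refine ⟨b, nonZeroDivisors.ne_zero hbM,
    IsLocalization.integerNormalization (nonZeroDivisors O) q, ?_⟩
  rw [← aeval_map_fractionRing, hb, Algebra.smul_def, Polynomial.algebraMap_apply, map_mul,
    Polynomial.aeval_C, algebraMap_tower (O := O) b]

omit [IsDomain O] in
theorem transcendental_of_fractionRing {j : LaurentSeries K} (hj : Transcendental K j) :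
    Transcendental O j := by
  rw [transcendental_iff_injective] at hj ⊢
  intro p₁ p₂ h
  have h' : aeval j (p₁.map (algebraMap O K)) = aeval j (p₂.map (algebraMap O K)) := by
    rw [aeval_map_fractionRing, aeval_map_fractionRing, h]
  exact Polynomial.map_injective _ (IsFractionRing.injective O K) (hj h')

theorem transcendental_of_coeffMap {j₀ : LaurentSeries K₀}
    (hj : Transcendental K (coeffMap (algebraMap K₀ K) j₀)) : Transcendental K₀ j₀ := by
  rw [transcendental_iff_injective] at hj ⊢
  intro p₁ p₂ h
  have h' := congrArg (coeffMap (algebraMap K₀ K)) h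
  rw [coeffMap_aeval, coeffMap_aeval] at h'
  exact Polynomial.map_injective _ (algebraMap K₀ K).injective (hj h')

omit [IsDomain O] [IsFractionRing O K] in
/-- membership in `K[j]` is preserved by `coeffMap ∘ coeffFun lam` -/
theorem coeffMap_coeffFun_aeval (lam : K →ₗ[K₀] K₀) (j₀ : LaurentSeries K₀) (p : O[X]) :
    coeffMap (algebraMap K₀ K) (coeffFun lam (aeval (coeffMap (algebraMap K₀ K) j₀) p))
      = aeval (coeffMap (algebraMap K₀ K) j₀)
          ((lamPoly lam (p.map (algebraMap O K))).map (algebraMap K₀ K)) := by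
  rw [← aeval_map_fractionRing, coeffFun_aeval, coeffMap_aeval]

variable [IsIntegrallyClosed O]

/-- **Descent of integrality.** -/
theorem isIntegral_descent
    (hO : ∀ a : K₀, algebraMap K₀ K a ∈ (algebraMap O K).range → a ∈ (algebraMap O₀ K₀).range)
    (j₀ : LaurentSeries K₀) (hj : Transcendental K (coeffMap (algebraMap K₀ K) j₀))
    (y : LaurentSeries K₀)
    (hint : IsIntegral (Algebra.adjoin O {coeffMap (algebraMap K₀ K) j₀})
      (coeffMap (algebraMap K₀ K) y)) :
    IsIntegral (Algebra.adjoin O₀ {j₀}) y := by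
  classical
  set j := coeffMap (algebraMap K₀ K) j₀ with hjdef
  have hjO : Transcendental O j := transcendental_of_fractionRing hj
  have hj₀ : Transcendental K₀ j₀ := transcendental_of_coeffMap hj
  have : IsIntegrallyClosed (Algebra.adjoin O {j}) :=
    IsIntegrallyClosed.of_equiv (Polynomial.algEquivOfTranscendental O j hjO).toRingEquiv
  set μ := minpoly (Algebra.adjoin O {j}) (coeffMap (algebraMap K₀ K) y) with hμ
  have hμm : μ.Monic := minpoly.monic hint
  set n := μ.natDegree with hn
  set μL : (LaurentSeries K)[X] := μ.map (algebraMap (Algebra.adjoin O {j}) (LaurentSeries K))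
    with hμL
  have hμLm : μL.Monic := hμm.map _
  have hμLn : μL.natDegree = n := hμm.natDegree_map _
  have hμL0 : μL.eval (coeffMap (algebraMap K₀ K) y) = 0 := by
    rw [hμL, Polynomial.eval_map_algebraMap, minpoly.aeval]
  have hcoeffR : ∀ i, μL.coeff i ∈ Algebra.adjoin O {j} := by
    intro i
    rw [hμL, Polynomial.coeff_map]
    exact (μ.coeff i).2
  -- Step 3: functionals killing `1` kill all coefficients
  have step3 : ∀ lam : K →ₗ[K₀] K₀, lam 1 = 0 → ∀ i, coeffFun lam (μL.coeff i) = 0 := by
    intro lam hlam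
    by_contra hcon
    push Not at hcon
    obtain ⟨i₀, hi₀⟩ := hcon
    set z : ℕ → LaurentSeries K₀ := fun i => coeffFun lam (μL.coeff i) with hz
    have hzn : z n = 0 := by
      rw [hz]
      simp only
      rw [← hμLn, hμLm.coeff_natDegree, coeffFun_one, hlam, map_zero]
    have hzgt : ∀ i, n < i → z i = 0 := by
      intro i hi
      rw [hz]
      simp only
      rw [Polynomial.coeff_eq_zero_of_natDegree_lt (by rw [hμLn]; exact hi), map_zero]
    have hi₀n : i₀ < n := by
      by_contra hge
      rcases (not_lt.1 hge).eq_or_lt with h | h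
      · exact hi₀ (by rw [← h]; exact hzn)
      · exact hi₀ (hzgt i₀ h)
    -- the relation satisfied by `y`
    have hrel : ∑ i ∈ Finset.range n, z i * y ^ i = 0 := by
      have h1 : coeffFun lam (μL.eval (coeffMap (algebraMap K₀ K) y)) = 0 := by
        rw [hμL0, map_zero]
      rw [Polynomial.eval_eq_sum_range, hμLn, map_sum, Finset.sum_range_succ] at h1
      have h2 : ∀ i, coeffFun lam (μL.coeff i * coeffMap (algebraMap K₀ K) y ^ i)
          = z i * y ^ i := by
        intro i
        rw [← map_pow, coeffFun_mul_coeffMap]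
      simp only [h2] at h1
      rwa [hzn, zero_mul, add_zero] at h1
    -- the polynomial `G`
    set G : (LaurentSeries K₀)[X] := ∑ i ∈ Finset.range n, Polynomial.C (z i) * Polynomial.X ^ i
      with hG
    have hGcoeff : ∀ m, G.coeff m = if m < n then z m else 0 := by
      intro m
      rw [hG, Polynomial.finsetSum_coeff]
      simp only [Polynomial.coeff_C_mul_X_pow]
      rw [Finset.sum_ite_eq (Finset.range n) m]
      simp only [Finset.mem_range]
    have hGeval : G.eval y = 0 := by
      rw [hG, Polynomial.eval_finsetSum]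
      simpa using hrel
    have hGne : G ≠ 0 := by
      intro h0
      have := hGcoeff i₀
      rw [h0, Polynomial.coeff_zero, if_pos hi₀n] at this
      exact hi₀ this.symm
    have hGdeg : G.degree < n := by
      rw [Polynomial.degree_lt_iff_coeff_zero]
      intro m hm
      rw [hGcoeff, if_neg (not_lt.2 hm)]
    -- denominators
    have hden : ∀ i, ∃ d : O, d ≠ 0 ∧ algebraMap O (LaurentSeries K) d *
        coeffMap (algebraMap K₀ K) (z i) ∈ Algebra.adjoin O {j} := by
      intro i
      obtain ⟨p, hp⟩ := exists_aeval_of_mem_adjoin (hcoeffR i)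
      have h1 : coeffMap (algebraMap K₀ K) (z i) = aeval j
          ((lamPoly lam (p.map (algebraMap O K))).map (algebraMap K₀ K)) := by
        rw [hz]
        simp only
        rw [← hp, coeffMap_coeffFun_aeval]
      obtain ⟨d, hd0, r, hr⟩ := exists_denominator (O := O) j
        ((lamPoly lam (p.map (algebraMap O K))).map (algebraMap K₀ K))
      refine ⟨d, hd0, ?_⟩
      rw [h1, ← hr]
      exact Polynomial.aeval_mem_adjoin_singleton O j
    choose dd hdd0 hddmem using hden
    set d : O := ∏ i ∈ Finset.range n, dd i with hd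
    have hd0 : d ≠ 0 := Finset.prod_ne_zero_iff.2 fun i _ => hdd0 i
    have hdmem : ∀ i, i < n → algebraMap O (LaurentSeries K) d *
        coeffMap (algebraMap K₀ K) (z i) ∈ Algebra.adjoin O {j} := by
      intro i hi
      have : d = (∏ k ∈ (Finset.range n).erase i, dd k) * dd i := by
        rw [hd, Finset.prod_erase_mul _ _ (Finset.mem_range.2 hi)]
      rw [this, map_mul, mul_assoc]
      exact (Algebra.adjoin O {j}).mul_mem (Subalgebra.algebraMap_mem _ _) (hddmem i)
    -- the polynomial over `R`
    set PL : (LaurentSeries K)[X] :=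
      Polynomial.C (algebraMap O (LaurentSeries K) d) * G.map (coeffMap (algebraMap K₀ K))
      with hPL
    have hdL : algebraMap O (LaurentSeries K) d ≠ 0 := by
      rw [algebraMap_eq_C (O := O) d]
      intro h0
      have := HahnSeries.C_injective (h0.trans (map_zero _).symm)
      exact hd0 ((IsFractionRing.injective O K) (by rw [this, map_zero]))
    have hGmap : G.map (coeffMap (algebraMap K₀ K)) ≠ 0 := by
      rw [Ne, Polynomial.map_eq_zero_iff coeffMap_injective]
      exact hGne
    have hPLne : PL ≠ 0 := mul_ne_zero (by rwa [Ne, Polynomial.C_eq_zero]) hGmap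
    have hPLdeg : PL.degree < n := by
      rw [hPL, Polynomial.degree_C_mul hdL, Polynomial.degree_map_eq_of_injective coeffMap_injective]
      exact hGdeg
    have hPLlift : PL ∈ Polynomial.lifts (algebraMap (Algebra.adjoin O {j}) (LaurentSeries K)) := by
      rw [Polynomial.lifts_iff_coeff_lifts]
      intro m
      rw [hPL, Polynomial.coeff_C_mul, Polynomial.coeff_map, hGcoeff]
      split_ifs with hm
      · exact ⟨⟨_, hdmem m hm⟩, rfl⟩
      · exact ⟨0, by rw [map_zero, map_zero, mul_zero]⟩
    obtain ⟨P, hPmap, hPdeg⟩ := Polynomial.exists_degree_eq_of_mem_lifts hPLlift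
    have hPne : P ≠ 0 := by
      intro h0
      rw [h0, Polynomial.map_zero] at hPmap
      exact hPLne hPmap.symm
    have hPeval : aeval (coeffMap (algebraMap K₀ K) y) P = 0 := by
      rw [← Polynomial.eval_map_algebraMap, hPmap, hPL, Polynomial.eval_mul, Polynomial.eval_C,
        Polynomial.eval_map, Polynomial.eval₂_at_apply, hGeval, map_zero, mul_zero]
    have hle := minpoly.IsIntegrallyClosed.degree_le_of_ne_zero hPne hPeval
    rw [hPdeg, Polynomial.degree_eq_natDegree hμm.ne_zero] at hle
    exact absurd (lt_of_le_of_lt hle hPLdeg) (lt_irrefl _)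
  -- Step 4: the coefficients come from `K₀((q))`
  have hlift : μL ∈ Polynomial.lifts (coeffMap (algebraMap K₀ K)) := by
    rw [Polynomial.lifts_iff_coeff_lifts]
    intro i
    obtain ⟨a, ha⟩ := mem_range_coeffMap (K₀ := K₀) (μL.coeff i) (fun lam hl => step3 lam hl i)
    exact ⟨a, ha⟩
  obtain ⟨q, hq, hqdeg, hqm⟩ := Polynomial.lifts_and_natDegree_eq_and_monic hlift hμLm
  have hqy : q.eval y = 0 := by
    apply coeffMap_injective (K₀ := K₀) (K := K)
    rw [map_zero, ← Polynomial.eval₂_at_apply, ← Polynomial.eval_map, hq, hμL0]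
  -- Step 5: the coefficients lie in `O₀[j₀]`
  have step5 : ∀ i, q.coeff i ∈ Algebra.adjoin O₀ {j₀} := by
    intro i
    have hqi : coeffMap (algebraMap K₀ K) (q.coeff i) = μL.coeff i := by
      rw [← hq, Polynomial.coeff_map]
    obtain ⟨p, hp⟩ := exists_aeval_of_mem_adjoin (hcoeffR i)
    -- all coefficients of `p` lie in `K₀`
    have hpK₀ : ∀ m, algebraMap O K (p.coeff m) ∈ (algebraMap K₀ K).range := by
      intro m
      apply mem_range_of_forall_functional
      intro lam hlam
      have h1 : coeffFun lam (aeval j p) = 0 := by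
        rw [hp]; exact step3 lam hlam i
      rw [← aeval_map_fractionRing, hjdef, coeffFun_aeval] at h1
      have h2 : lamPoly lam (p.map (algebraMap O K)) = 0 :=
        (transcendental_iff_injective.1 hj₀) (by rw [h1, map_zero])
      have h3 := lamPoly_coeff lam (p.map (algebraMap O K)) m
      rw [h2, Polynomial.coeff_zero, Polynomial.coeff_map] at h3
      exact h3.symm
    have hpO₀ : p.map (algebraMap O K) ∈
        Polynomial.lifts ((algebraMap K₀ K).comp (algebraMap O₀ K₀)) := by
      rw [Polynomial.lifts_iff_coeff_lifts]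
      intro m
      obtain ⟨β, hβ⟩ := hpK₀ m
      obtain ⟨γ, hγ⟩ := hO β (by rw [hβ]; exact ⟨p.coeff m, rfl⟩)
      exact ⟨γ, by rw [RingHom.comp_apply, hγ, hβ, Polynomial.coeff_map]⟩
    obtain ⟨g, hg⟩ := hpO₀
    have hfin : q.coeff i = aeval j₀ g := by
      apply coeffMap_injective (K₀ := K₀) (K := K)
      rw [hqi, ← hp, ← aeval_map_fractionRing, ← aeval_map_fractionRing (O := O₀) (K := K₀) j₀ g,
        coeffMap_aeval, Polynomial.map_map]
      rw [show Polynomial.mapRingHom ((algebraMap K₀ K).comp (algebraMap O₀ K₀)) g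
        = g.map ((algebraMap K₀ K).comp (algebraMap O₀ K₀)) from rfl] at hg
      rw [hg]
    rw [hfin]
    exact Polynomial.aeval_mem_adjoin_singleton O₀ j₀
  have hlift2 : q ∈ Polynomial.lifts (algebraMap (Algebra.adjoin O₀ {j₀}) (LaurentSeries K₀)) :=
    (Polynomial.lifts_iff_coeff_lifts q).mpr fun i => ⟨⟨q.coeff i, step5 i⟩, rfl⟩
  obtain ⟨q', hq'q, -, hq'm⟩ := Polynomial.lifts_and_natDegree_eq_and_monic hlift2 hqm
  exact ⟨q', hq'm, by rw [Polynomial.eval₂_eq_eval_map, hq'q, hqy]⟩

end Main


section Transcendence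

variable (K : Type*) [Field K]

/-- `j` has a pole, hence is transcendental over the constants. -/
theorem transcendental_jqModC : Transcendental K (jqModC K) := by
  rw [transcendental_iff]
  intro p hp
  by_contra hp0
  have hcoeff : (aeval (jqModC K) p).coeff (-(p.natDegree : ℤ)) = p.leadingCoeff := by
    rw [Polynomial.aeval_eq_sum_range]
    simp only [Algebra.smul_def]
    rw [HahnSeries.coeff_sum, Finset.sum_range_succ]
    have h1 : ∀ i ∈ Finset.range p.natDegree,
        (algebraMap K (LaurentSeries K) (p.coeff i) * jqModC K ^ i).coeff (-(p.natDegree : ℤ))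
          = 0 := by
      intro i hi
      rw [algebraMap_laurentSeries_eq_single, HahnSeries.coeff_single_zero_mul,
        coeff_jqModC_pow_of_lt K (by
          rw [Finset.mem_range] at hi
          have : (i : ℤ) < p.natDegree := by exact_mod_cast hi
          omega), mul_zero]
    rw [Finset.sum_eq_zero h1, zero_add, algebraMap_laurentSeries_eq_single,
      HahnSeries.coeff_single_zero_mul, coeff_jqModC_pow_self, mul_one]
    rfl
  rw [hp, HahnSeries.coeff_zero] at hcoeff
  exact hp0 (Polynomial.leadingCoeff_eq_zero.1 hcoeff.symm)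

theorem transcendental_jqModC_inv : Transcendental K (jqModC K)⁻¹ := by
  unfold Transcendental
  rw [IsAlgebraic.inv_iff]
  exact transcendental_jqModC K

end Transcendence

end Fermat.Agent.S28.IntegralDescent
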