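import Fermat.Prelude.Def_ModularCurve_IgusaScheme
import Fermat.Prelude.Def_ModularCurve_X0ModL
import Mathlib

set_option autoImplicit false

noncomputable section

namespace Fermat.Agent.S28

open ModularCurve HahnSeries Polynomial

/-! ### Formal series over an arbitrary commutative ring -/

section Series

variable (R : Type*) [CommRing R]

/-- the formal discriminant `Δ(q) = q ∏ (1 - q^n)^24` -/
def deltaS : LaurentSeries R :=
  HahnSeries.single (1 : ℤ) 1 *
    HahnSeries.ofPowerSeries ℤ R (dedekindEtaUnit.map (Int.castRingHom R))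

/-- the formal inverse discriminant -/
def deltaInvS : LaurentSeries R :=
  HahnSeries.single (-1 : ℤ) 1 *
    HahnSeries.ofPowerSeries ℤ R (dedekindEtaUnitInv.map (Int.castRingHom R))

/-- the formal Eisenstein series `E₄` -/
def e4S : LaurentSeries R :=
  HahnSeries.ofPowerSeries ℤ R (eisenstein4.map (Int.castRingHom R))

theorem deltaS_mul_deltaInvS : deltaS R * deltaInvS R = 1 := by
  rw [deltaS, deltaInvS, mul_mul_mul_comm, HahnSeries.single_mul_single, ← map_mul, ← map_mul,
    dedekindEtaUnit_mul_inv]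
  simp

theorem deltaInvS_mul_deltaS : deltaInvS R * deltaS R = 1 := by
  rw [mul_comm, deltaS_mul_deltaInvS]

theorem jqModC_eq_e4S_deltaInvS : jqModC R = e4S R ^ 3 * deltaInvS R := by
  rw [jqModC, e4S, deltaInvS, jNum, map_mul, map_mul, map_pow, map_pow]
  ring

/-- `j(q^d)` -/
def jS (d : ℕ) [NeZero d] : LaurentSeries R := qExpand R d (jqModC R)

/-- the modular unit `Δ(q^d)/Δ(q)` -/
def uS (d : ℕ) [NeZero d] : LaurentSeries R := qExpand R d (deltaS R) * deltaInvS R

/-- the inverse modular unit `Δ(q)/Δ(q^d)` -/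
def uInvS (d : ℕ) [NeZero d] : LaurentSeries R := qExpand R d (deltaInvS R) * deltaS R

theorem uS_mul_uInvS (d : ℕ) [NeZero d] : uS R d * uInvS R d = 1 := by
  rw [uS, uInvS, mul_mul_mul_comm, ← map_mul, deltaS_mul_deltaInvS, map_one, one_mul,
    deltaInvS_mul_deltaS]

/-- the substitution `q ↦ c q` for a unit `c`, as a function -/
def scaleFun (c : Rˣ) (x : LaurentSeries R) : LaurentSeries R where
  coeff := fun m => ((c ^ m : Rˣ) : R) * x.coeff m
  isPWO_support' := x.isPWO_support.mono fun m hm => by
    simp only [Function.mem_support, ne_eq] at hm ⊢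
    exact fun h => hm (by rw [h, mul_zero])

@[simp] theorem scaleFun_coeff (c : Rˣ) (x : LaurentSeries R) (m : ℤ) :
    (scaleFun R c x).coeff m = ((c ^ m : Rˣ) : R) * x.coeff m := rfl

theorem support_scaleFun (c : Rˣ) (x : LaurentSeries R) :
    (scaleFun R c x).support = x.support := by
  ext m
  simp only [HahnSeries.mem_support, scaleFun_coeff, ne_eq, Units.mul_right_eq_zero]

/-- the substitution `q ↦ c q` for a unit `c` -/
def scaleHom (c : Rˣ) : LaurentSeries R →+* LaurentSeries R where
  toFun := scaleFun R c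
  map_zero' := by ext m; simp
  map_one' := by
    ext m
    simp only [scaleFun_coeff, HahnSeries.coeff_one]
    split_ifs with h
    · subst h; simp
    · simp
  map_add' x y := by ext m; simp [mul_add]
  map_mul' x y := by
    ext m
    rw [scaleFun_coeff, HahnSeries.coeff_mul, HahnSeries.coeff_mul, Finset.mul_sum]
    refine Finset.sum_congr ?_ fun ij hij => ?_
    · ext ij
      simp [support_scaleFun]
    · have h3 : ij.1 + ij.2 = m := by
        simp only [Finset.mem_antidiagonal] at hij
        exact hij.2.2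
      rw [scaleFun_coeff, scaleFun_coeff, ← h3, zpow_add, Units.val_mul]
      ring

@[simp] theorem scaleHom_coeff (c : Rˣ) (x : LaurentSeries R) (m : ℤ) :
    (scaleHom R c x).coeff m = ((c ^ m : Rˣ) : R) * x.coeff m := rfl

/-- the cusp substitution `q ↦ ξ t^e` -/
def cuspS (ξ : Rˣ) (e : ℕ) [NeZero e] : LaurentSeries R →+* LaurentSeries R :=
  (qExpand R e).comp (scaleHom R ξ)

end Series

/-! ### Integral series and the Gauss condition -/

section Gauss

variable (𝒪 k : Type*) [CommRing 𝒪] [Field k] [Algebra 𝒪 k]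

/-- Laurent series over `k` all of whose coefficients come from `𝒪` -/
def intSeries : Subring (LaurentSeries k) := (coeffMap (algebraMap 𝒪 k)).range

variable [IsLocalRing 𝒪]

/-- `x` is Gauss-integral: some integral series with nonzero reduction multiplies `x` into the
integral series. -/
def IsGaussInt (x : LaurentSeries k) : Prop :=
  ∃ h g : LaurentSeries 𝒪, coeffMap (IsLocalRing.residue 𝒪) h ≠ 0 ∧
    coeffMap (algebraMap 𝒪 k) h * x = coeffMap (algebraMap 𝒪 k) g

/-- `x` is a quotient of integral series -/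
def IsFracInt (x : LaurentSeries k) : Prop :=
  ∃ h g : LaurentSeries 𝒪, h ≠ 0 ∧ coeffMap (algebraMap 𝒪 k) h * x = coeffMap (algebraMap 𝒪 k) g

end Gauss

/-! ### The big function field and the cusp datum -/

section Datum

variable (k : Type) [Field k] (N : ℕ)

/-- generators: `j(q^d)`, `Δ(q^d)/Δ(q)`, `Δ(q)/Δ(q^d)` for `d ∣ N` -/
def bigGens : Set (LaurentSeries k) :=
  {x | ∃ (d : ℕ) (_ : NeZero d), d ∣ N ∧ (x = jS k d ∨ x = uS k d ∨ x = uInvS k d)}

/-- the `k`-algebra generated by the generators -/
def bigAlg : Subalgebra k (LaurentSeries k) := Algebra.adjoin k (bigGens k N)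

/-- the field generated by the generators -/
def bigField : IntermediateField k (LaurentSeries k) := IntermediateField.adjoin k (bigGens k N)

theorem jS_mem_bigField {d : ℕ} [NeZero d] (hd : d ∣ N) : jS k d ∈ bigField k N :=
  IntermediateField.subset_adjoin k _ ⟨d, ‹_›, hd, Or.inl rfl⟩

theorem uS_mem_bigField {d : ℕ} [NeZero d] (hd : d ∣ N) : uS k d ∈ bigField k N :=
  IntermediateField.subset_adjoin k _ ⟨d, ‹_›, hd, Or.inr (Or.inl rfl)⟩

theorem uInvS_mem_bigField {d : ℕ} [NeZero d] (hd : d ∣ N) : uInvS k d ∈ bigField k N :=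
  IntermediateField.subset_adjoin k _ ⟨d, ‹_›, hd, Or.inr (Or.inr rfl)⟩

theorem jqModC_mem_bigField : jqModC k ∈ bigField k N := by
  have h := jS_mem_bigField k N (one_dvd N)
  rwa [jS, qExpand_one_apply] at h

theorem bigAlg_le_bigField : (bigAlg k N : Set (LaurentSeries k)) ⊆ bigField k N :=
  IntermediateField.algebra_adjoin_le_adjoin k _

variable (𝒪 : Type) [CommRing 𝒪] [IsLocalRing 𝒪] [Algebra 𝒪 k] [NeZero N]

/-- The cusp datum: all embeddings of the big field into Laurent series in `t = q^{1/N}`
over `k(j)`, with integrality and the orders of the modular units. -/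
structure CuspDatum where
  /-- index set (cosets of `Γ₀(N)` in `SL₂(ℤ)`) -/
  I : Type
  [fintypeI : Fintype I]
  [decEqI : DecidableEq I]
  /-- the cusp `∞` -/
  i₀ : I
  /-- `gcd(c, N)` for the lower left entry `c` of a representative -/
  cI : I → ℕ
  cI_dvd : ∀ i, cI i ∣ N
  cI_eq_iff : ∀ i, cI i = N ↔ i = i₀
  /-- the expansion maps -/
  σ : I → (bigField k N →ₐ[k] LaurentSeries k)
  σ_i₀ : ∀ x : bigField k N, σ i₀ x = qExpand k N (x : LaurentSeries k)
  σ_j : ∀ i, σ i ⟨jqModC k, jqModC_mem_bigField k N⟩ = qExpand k N (jqModC k)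
  /-- the expansions of the generators are integral -/
  σ_int : ∀ i, ∀ x : bigField k N, (x : LaurentSeries k) ∈ bigGens k N → σ i x ∈ intSeries 𝒪 k
  /-- elementary symmetric functions of the expansions of elements of `bigAlg` are
  polynomials in `j` -/
  sym : ∀ x : bigField k N, (x : LaurentSeries k) ∈ bigAlg k N → ∀ m : ℕ,
    (∏ i, (Polynomial.X - Polynomial.C (σ i x))).coeff m ∈
      (qExpand k N) '' (Algebra.adjoin k {jqModC k} : Set (LaurentSeries k))
  /-- orders of the reductions of the modular units -/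
  ord_u : ∀ (i : I) (d : ℕ) [NeZero d] (hd : d ∣ N), ∃ s : LaurentSeries 𝒪,
    coeffMap (algebraMap 𝒪 k) s = σ i ⟨uS k d, uS_mem_bigField k N hd⟩ ∧
    coeffMap (IsLocalRing.residue 𝒪) s ≠ 0 ∧
    (coeffMap (IsLocalRing.residue 𝒪) s).order = ((N / d) * (Nat.gcd (cI i) d) ^ 2 : ℤ) - N

attribute [instance] CuspDatum.fintypeI CuspDatum.decEqI

end Datum

end Fermat.Agent.S28
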