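import Fermat.Agent.S28.Defs

/-!
# The explicit cusp series used as expansions of the generators

For a commutative ring `R`, units `ξ δ : Rˣ` and `e ≥ 1` (`t = q^{1/N}`):

* `cuspJ R ξ e = j(ξ t^e)`,
* `cuspU R N ξ δ e = δ⁻¹² Δ(ξ t^e) / Δ(t^N)`,
* `cuspUInv R N ξ δ e = δ¹² Δ(t^N) / Δ(ξ t^e)`.

We prove naturality in `R` and the special values needed at the cusp `∞`.
-/

set_option autoImplicit false

noncomputable section

namespace Fermat.Agent.S28

open ModularCurve HahnSeries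

section Defs

variable (R : Type*) [CommRing R]

/-- `j(ξ t^e)` -/
def cuspJ (ξ : Rˣ) (e : ℕ) [NeZero e] : LaurentSeries R := cuspS R ξ e (jqModC R)

/-- `δ⁻¹² Δ(ξ t^e) / Δ(t^N)` -/
def cuspU (N : ℕ) [NeZero N] (ξ δ : Rˣ) (e : ℕ) [NeZero e] : LaurentSeries R :=
  HahnSeries.C (((δ⁻¹ : Rˣ) : R) ^ 12) * cuspS R ξ e (deltaS R) * qExpand R N (deltaInvS R)

/-- `δ¹² Δ(t^N) / Δ(ξ t^e)` -/
def cuspUInv (N : ℕ) [NeZero N] (ξ δ : Rˣ) (e : ℕ) [NeZero e] : LaurentSeries R :=
  HahnSeries.C ((δ : R) ^ 12) * cuspS R ξ e (deltaInvS R) * qExpand R N (deltaS R)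

/-- the three series by tag -/
def cuspGen (N : ℕ) [NeZero N] (ξ δ : Rˣ) (e : ℕ) [NeZero e] : Fin 3 → LaurentSeries R
  | 0 => cuspJ R ξ e
  | 1 => cuspU R N ξ δ e
  | 2 => cuspUInv R N ξ δ e

theorem cuspU_mul_cuspUInv (N : ℕ) [NeZero N] (ξ δ : Rˣ) (e : ℕ) [NeZero e] :
    cuspU R N ξ δ e * cuspUInv R N ξ δ e = 1 := by
  have h1 : cuspS R ξ e (deltaS R) * cuspS R ξ e (deltaInvS R) = 1 := by
    rw [← map_mul, deltaS_mul_deltaInvS, map_one]
  have h2 : qExpand R N (deltaInvS R) * qExpand R N (deltaS R) = 1 := by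
    rw [← map_mul, deltaInvS_mul_deltaS, map_one]
  have h3 : (HahnSeries.C (((δ⁻¹ : Rˣ) : R) ^ 12) : LaurentSeries R) * HahnSeries.C ((δ : R) ^ 12)
      = 1 := by
    rw [← map_mul, ← mul_pow, Units.inv_mul, one_pow, map_one]
  calc cuspU R N ξ δ e * cuspUInv R N ξ δ e
      = (HahnSeries.C (((δ⁻¹ : Rˣ) : R) ^ 12) * HahnSeries.C ((δ : R) ^ 12)) *
        (cuspS R ξ e (deltaS R) * cuspS R ξ e (deltaInvS R)) *
        (qExpand R N (deltaInvS R) * qExpand R N (deltaS R)) := by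
        rw [cuspU, cuspUInv]; ring
    _ = 1 := by rw [h1, h2, h3]; simp

theorem scaleHom_one (x : LaurentSeries R) : scaleHom R 1 x = x := by
  ext m
  simp

theorem cuspS_one (e : ℕ) [NeZero e] (x : LaurentSeries R) : cuspS R 1 e x = qExpand R e x := by
  rw [cuspS, RingHom.comp_apply, scaleHom_one]

end Defs

section Naturality

variable {R S : Type*} [CommRing R] [CommRing S] (f : R →+* S)

theorem map_map_intCast (p : PowerSeries ℤ) :
    (p.map (Int.castRingHom R)).map f = p.map (Int.castRingHom S) := by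
  rw [← RingHom.comp_apply (PowerSeries.map f) (PowerSeries.map (Int.castRingHom R)),
    ← PowerSeries.map_comp, RingHom.ext_int (f.comp (Int.castRingHom R)) (Int.castRingHom S)]

theorem coeffMap_deltaS : coeffMap f (deltaS R) = deltaS S := by
  rw [deltaS, map_mul, coeffMap_single, map_one, coeffMap_ofPowerSeries, map_map_intCast]
  rfl

theorem coeffMap_deltaInvS : coeffMap f (deltaInvS R) = deltaInvS S := by
  rw [deltaInvS, map_mul, coeffMap_single, map_one, coeffMap_ofPowerSeries, map_map_intCast]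
  rfl

theorem coeffMap_e4S : coeffMap f (e4S R) = e4S S := by
  rw [e4S, coeffMap_ofPowerSeries, map_map_intCast]
  rfl

theorem coeffMap_C (r : R) : coeffMap f (HahnSeries.C r) = HahnSeries.C (f r) := by
  rw [HahnSeries.C_apply, coeffMap_single, HahnSeries.C_apply]

theorem coeffMap_scaleHom (c : Rˣ) (x : LaurentSeries R) :
    coeffMap f (scaleHom R c x) = scaleHom S (Units.map (f : R →* S) c) (coeffMap f x) := by
  ext m
  rw [coeffMap_coeff, scaleHom_coeff, scaleHom_coeff, coeffMap_coeff, map_mul, ← map_zpow,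
    Units.coe_map]
  rfl

theorem coeffMap_cuspS (ξ : Rˣ) (e : ℕ) [NeZero e] (x : LaurentSeries R) :
    coeffMap f (cuspS R ξ e x) = cuspS S (Units.map (f : R →* S) ξ) e (coeffMap f x) := by
  rw [cuspS, RingHom.comp_apply, coeffMap_qExpand, coeffMap_scaleHom]
  rfl

theorem coeffMap_cuspJ (ξ : Rˣ) (e : ℕ) [NeZero e] :
    coeffMap f (cuspJ R ξ e) = cuspJ S (Units.map (f : R →* S) ξ) e := by
  rw [cuspJ, coeffMap_cuspS, coeffMap_jqModC, cuspJ]

theorem coeffMap_cuspU (N : ℕ) [NeZero N] (ξ δ : Rˣ) (e : ℕ) [NeZero e] :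
    coeffMap f (cuspU R N ξ δ e) =
      cuspU S N (Units.map (f : R →* S) ξ) (Units.map (f : R →* S) δ) e := by
  rw [cuspU, map_mul, map_mul, coeffMap_C, coeffMap_cuspS, coeffMap_qExpand, coeffMap_deltaS,
    coeffMap_deltaInvS, cuspU, map_pow, ← map_inv, Units.coe_map]
  rfl

theorem coeffMap_cuspUInv (N : ℕ) [NeZero N] (ξ δ : Rˣ) (e : ℕ) [NeZero e] :
    coeffMap f (cuspUInv R N ξ δ e) =
      cuspUInv S N (Units.map (f : R →* S) ξ) (Units.map (f : R →* S) δ) e := by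
  rw [cuspUInv, map_mul, map_mul, coeffMap_C, coeffMap_cuspS, coeffMap_qExpand, coeffMap_deltaS,
    coeffMap_deltaInvS, cuspUInv, map_pow, Units.coe_map]
  rfl

theorem coeffMap_cuspGen (N : ℕ) [NeZero N] (ξ δ : Rˣ) (e : ℕ) [NeZero e] (t : Fin 3) :
    coeffMap f (cuspGen R N ξ δ e t) =
      cuspGen S N (Units.map (f : R →* S) ξ) (Units.map (f : R →* S) δ) e t := by
  fin_cases t
  · exact coeffMap_cuspJ f ξ e
  · exact coeffMap_cuspU f N ξ δ e
  · exact coeffMap_cuspUInv f N ξ δ e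

theorem coeffMap_jS (d : ℕ) [NeZero d] : coeffMap f (jS R d) = jS S d := by
  rw [jS, coeffMap_qExpand, coeffMap_jqModC, jS]

theorem coeffMap_uS (d : ℕ) [NeZero d] : coeffMap f (uS R d) = uS S d := by
  rw [uS, map_mul, coeffMap_qExpand, coeffMap_deltaS, coeffMap_deltaInvS, uS]

theorem coeffMap_uInvS (d : ℕ) [NeZero d] : coeffMap f (uInvS R d) = uInvS S d := by
  rw [uInvS, map_mul, coeffMap_qExpand, coeffMap_deltaS, coeffMap_deltaInvS, uInvS]

end Naturality

section AtInfinity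

variable (R : Type*) [CommRing R] (N : ℕ) [NeZero N] (d : ℕ) [NeZero d]

theorem cuspJ_one : cuspJ R 1 (N * d) = qExpand R N (jS R d) := by
  rw [cuspJ, cuspS_one, jS, qExpand_qExpand]

theorem cuspU_one_one : cuspU R N 1 1 (N * d) = qExpand R N (uS R d) := by
  rw [cuspU, cuspS_one, uS, map_mul, qExpand_qExpand]
  simp

theorem cuspUInv_one_one : cuspUInv R N 1 1 (N * d) = qExpand R N (uInvS R d) := by
  rw [cuspUInv, cuspS_one, uInvS, map_mul, qExpand_qExpand]
  simp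

end AtInfinity

end Fermat.Agent.S28
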