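/-
T28 / A5e (helper68): evaluation bridge.

* Abstract part: if a predicate `IsMC` on functions `ℍ → ℂ` and an "expansion" `LE` into
  `LaurentSeries ℂ` are compatible with constants, sums and products, then polynomial expressions
  in functions satisfying `IsMC` satisfy `IsMC`, and `LE` commutes with `MvPolynomial.aeval` /
  `Polynomial.aeval`.
* Formal part: `coeffMap φ` commutes with `MvPolynomial.aeval` / `Polynomial.aeval`, and is
  injective when `φ` is.
-/
import Mathlib
import Fermat.Prelude.Def_ModularCurve_LaurentCoeff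

set_option autoImplicit false

namespace Fermat.Agent.S28.EvalBridge

open UpperHalfPlane ModularCurve

noncomputable section

/-! ### Abstract part -/

lemma algebraMap_laurent_eq_C {k : Type*} [CommRing k] (c : k) :
    algebraMap k (LaurentSeries k) c = HahnSeries.C c := by
  rw [HahnSeries.algebraMap_apply']
  have h1 : algebraMap k (PowerSeries k) c = PowerSeries.C c := rfl
  rw [h1, HahnSeries.ofPowerSeries_C]


/-- Compatibility of a predicate `IsMC` and an expansion map `LE` with the ring operations. -/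
structure MeroExp (IsMC : (ℍ → ℂ) → Prop) (LE : (ℍ → ℂ) → LaurentSeries ℂ) : Prop where
  const : ∀ c : ℂ, IsMC (fun _ => c)
  add : ∀ f g, IsMC f → IsMC g → IsMC (f + g)
  mul : ∀ f g, IsMC f → IsMC g → IsMC (f * g)
  exp_const : ∀ c : ℂ, LE (fun _ => c) = HahnSeries.C c
  exp_add : ∀ f g, IsMC f → IsMC g → LE (f + g) = LE f + LE g
  exp_mul : ∀ f g, IsMC f → IsMC g → LE (f * g) = LE f * LE g

namespace MeroExp

variable {IsMC : (ℍ → ℂ) → Prop} {LE : (ℍ → ℂ) → LaurentSeries ℂ} (H : MeroExp IsMC LE)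
include H

/-- The functions satisfying `IsMC` form a `ℂ`-subalgebra of `ℍ → ℂ`. -/
def subalg : Subalgebra ℂ (ℍ → ℂ) where
  carrier := {f | IsMC f}
  mul_mem' := fun {f g} hf hg => H.mul f g hf hg
  add_mem' := fun {f g} hf hg => H.add f g hf hg
  algebraMap_mem' := fun c => H.const c

lemma mem_subalg {f : ℍ → ℂ} : f ∈ H.subalg ↔ IsMC f := Iff.rfl

/-- The expansion as an algebra hom on the subalgebra. -/
def expHom : H.subalg →ₐ[ℂ] LaurentSeries ℂ where
  toFun f := LE f.1
  map_one' := by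
    show LE (fun _ => (1 : ℂ)) = 1
    rw [H.exp_const 1, map_one]
  map_mul' f g := H.exp_mul f.1 g.1 f.2 g.2
  map_zero' := by
    show LE (fun _ => (0 : ℂ)) = 0
    rw [H.exp_const 0, map_zero]
  map_add' f g := H.exp_add f.1 g.1 f.2 g.2
  commutes' c := by
    show LE (fun _ => c) = algebraMap ℂ (LaurentSeries ℂ) c
    rw [H.exp_const c, algebraMap_laurent_eq_C]

@[simp] lemma expHom_apply (f : H.subalg) : H.expHom f = LE f.1 := rfl

variable {X : Type*}

omit H in
lemma aeval_pi_apply (G : X → ℍ → ℂ) (P : MvPolynomial X ℂ) (τ : ℍ) :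
    (MvPolynomial.aeval G P) τ = MvPolynomial.eval (fun x => G x τ) P := by
  have h1 := (MvPolynomial.comp_aeval_apply (f := G) (Pi.evalAlgHom ℂ (fun _ : ℍ => ℂ) τ) P).symm
  simp only [Pi.evalAlgHom_apply] at h1
  rw [← h1]
  rfl

/-- Polynomial expressions in `IsMC` functions are `IsMC`. -/
theorem isMC_eval (G : X → ℍ → ℂ) (hG : ∀ x, IsMC (G x)) (P : MvPolynomial X ℂ) :
    IsMC (fun τ => MvPolynomial.eval (fun x => G x τ) P) := by
  have h1 : MvPolynomial.aeval G P ∈ H.subalg := by
    have : MvPolynomial.aeval G P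
        = (H.subalg.val) (MvPolynomial.aeval (fun x => (⟨G x, hG x⟩ : H.subalg)) P) := by
      rw [MvPolynomial.comp_aeval_apply]
      rfl
    rw [this]
    exact Subtype.property _
  have h2 : (fun τ => MvPolynomial.eval (fun x => G x τ) P) = MvPolynomial.aeval G P := by
    funext τ
    exact (aeval_pi_apply G P τ).symm
  rw [h2]
  exact h1

/-- The expansion commutes with polynomial expressions. -/
theorem exp_eval (G : X → ℍ → ℂ) (hG : ∀ x, IsMC (G x)) (P : MvPolynomial X ℂ) :
    LE (fun τ => MvPolynomial.eval (fun x => G x τ) P)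
      = MvPolynomial.aeval (fun x => LE (G x)) P := by
  have h2 : (fun τ => MvPolynomial.eval (fun x => G x τ) P) = MvPolynomial.aeval G P := by
    funext τ
    exact (aeval_pi_apply G P τ).symm
  have h3 : MvPolynomial.aeval G P
      = ((MvPolynomial.aeval (fun x => (⟨G x, hG x⟩ : H.subalg)) P : H.subalg) : ℍ → ℂ) := by
    have := MvPolynomial.comp_aeval_apply (f := fun x => (⟨G x, hG x⟩ : H.subalg)) (H.subalg.val) P
    simpa using this.symm
  rw [h2, h3]
  have h4 := MvPolynomial.comp_aeval_apply (f := fun x => (⟨G x, hG x⟩ : H.subalg)) H.expHom P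
  simp only [expHom_apply] at h4
  exact h4

/-- One-variable version. -/
theorem isMC_polyEval (g : ℍ → ℂ) (hg : IsMC g) (P : Polynomial ℂ) :
    IsMC (fun τ => P.eval (g τ)) := by
  have h1 : Polynomial.aeval g P ∈ H.subalg := by
    have : Polynomial.aeval g P
        = (H.subalg.val) (Polynomial.aeval (⟨g, hg⟩ : H.subalg) P) := by
      rw [← Polynomial.aeval_algHom_apply]
      rfl
    rw [this]
    exact Subtype.property _
  have h2 : (fun τ => P.eval (g τ)) = Polynomial.aeval g P := by
    funext τ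
    have := Polynomial.aeval_algHom_apply (Pi.evalAlgHom ℂ (fun _ : ℍ => ℂ) τ) g P
    simp only [Pi.evalAlgHom_apply] at this
    rw [← this, Polynomial.coe_aeval_eq_eval]
  rw [h2]
  exact h1

theorem exp_polyEval (g : ℍ → ℂ) (hg : IsMC g) (P : Polynomial ℂ) :
    LE (fun τ => P.eval (g τ)) = Polynomial.aeval (LE g) P := by
  have h2 : (fun τ => P.eval (g τ)) = Polynomial.aeval g P := by
    funext τ
    have := Polynomial.aeval_algHom_apply (Pi.evalAlgHom ℂ (fun _ : ℍ => ℂ) τ) g P
    simp only [Pi.evalAlgHom_apply] at this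
    rw [← this, Polynomial.coe_aeval_eq_eval]
  have h3 : Polynomial.aeval g P
      = ((Polynomial.aeval (⟨g, hg⟩ : H.subalg) P : H.subalg) : ℍ → ℂ) := by
    have := Polynomial.aeval_algHom_apply (H.subalg.val) (⟨g, hg⟩ : H.subalg) P
    simpa using this
  rw [h2, h3]
  have h4 := Polynomial.aeval_algHom_apply H.expHom (⟨g, hg⟩ : H.subalg) P
  simp only [expHom_apply] at h4
  exact h4.symm

end MeroExp

/-! ### Formal part: `coeffMap` and polynomial evaluation -/

section Formal

variable {k K : Type*} [CommRing k] [CommRing K] (φ : k →+* K) {X : Type*}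

lemma coeffMap_algebraMap' (c : k) :
    coeffMap φ (algebraMap k (LaurentSeries k) c) = algebraMap K (LaurentSeries K) (φ c) := by
  rw [algebraMap_laurent_eq_C, algebraMap_laurent_eq_C, HahnSeries.C_apply, HahnSeries.C_apply,
    coeffMap_single]

/-- `coeffMap` commutes with `MvPolynomial.aeval`. -/
theorem coeffMap_aeval (s : X → LaurentSeries k) (P : MvPolynomial X k) :
    coeffMap φ (MvPolynomial.aeval s P)
      = MvPolynomial.aeval (fun x => coeffMap φ (s x)) (MvPolynomial.map φ P) := by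
  induction P using MvPolynomial.induction_on with
  | C a => simp [coeffMap_algebraMap']
  | add p q hp hq => simp [hp, hq]
  | mul_X p x hp => simp [hp]

/-- `coeffMap` commutes with `Polynomial.aeval`. -/
theorem coeffMap_polyAeval (s : LaurentSeries k) (P : Polynomial k) :
    coeffMap φ (Polynomial.aeval s P)
      = Polynomial.aeval (coeffMap φ s) (Polynomial.map φ P) := by
  induction P using Polynomial.induction_on with
  | C a => simp [coeffMap_algebraMap']
  | add p q hp hq => simp [hp, hq]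
  | monomial n a _ =>
    simp [coeffMap_algebraMap', pow_succ]

theorem coeffMap_injective (hφ : Function.Injective φ) :
    Function.Injective (coeffMap φ) := by
  intro x y hxy
  ext n
  apply hφ
  have := congrArg (fun z => z.coeff n) hxy
  simpa using this

theorem coeffMap_eq_zero_iff (hφ : Function.Injective φ) (x : LaurentSeries k) :
    coeffMap φ x = 0 ↔ x = 0 := by
  rw [← (coeffMap_injective φ hφ).eq_iff, map_zero]

end Formal

/-! ### Kernel comparison (for `CuspInput.hker`) -/

section Kernel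

variable {IsMC₁ IsMC₂ : (ℍ → ℂ) → Prop} {LE₁ LE₂ : (ℍ → ℂ) → LaurentSeries ℂ}

lemma MeroExp.exp_zero {IsMC : (ℍ → ℂ) → Prop} {LE : (ℍ → ℂ) → LaurentSeries ℂ}
    (H : MeroExp IsMC LE) : LE (fun _ => (0 : ℂ)) = 0 := by
  rw [H.exp_const 0, map_zero]

/-- One direction of the kernel comparison: a polynomial relation between the expansions `a x`
of the functions `F x` gives the same relation between the expansions `b x` of the functions
`F' x = F x ∘ g`. -/
theorem aeval_eq_zero_of_aeval_eq_zero (H₁ : MeroExp IsMC₁ LE₁) (H₂ : MeroExp IsMC₂ LE₂)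
    (hinj₁ : ∀ f, IsMC₁ f → LE₁ f = 0 → f = 0)
    {k : Type*} [Field k] (φ : k →+* ℂ) {X : Type*}
    (F F' : X → ℍ → ℂ) (hF : ∀ x, IsMC₁ (F x)) (hF' : ∀ x, IsMC₂ (F' x))
    (g : ℍ → ℍ) (hFF' : ∀ x τ, F' x τ = F x (g τ))
    (a b : X → LaurentSeries k) (ha : ∀ x, LE₁ (F x) = coeffMap φ (a x))
    (hb : ∀ x, LE₂ (F' x) = coeffMap φ (b x))
    (P : MvPolynomial X k) (hP : MvPolynomial.aeval a P = 0) : MvPolynomial.aeval b P = 0 := by
  have h1 : LE₁ (fun τ => MvPolynomial.eval (fun x => F x τ) (MvPolynomial.map φ P)) = 0 := by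
    rw [H₁.exp_eval F hF]
    have : (fun x => LE₁ (F x)) = fun x => coeffMap φ (a x) := funext ha
    rw [this, ← coeffMap_aeval, hP, map_zero]
  have h2 := hinj₁ _ (H₁.isMC_eval F hF _) h1
  have h3 : (fun τ => MvPolynomial.eval (fun x => F' x τ) (MvPolynomial.map φ P))
      = fun _ => (0 : ℂ) := by
    funext τ
    have := congrFun h2 (g τ)
    simp only [hFF']
    exact this
  have h4 : LE₂ (fun τ => MvPolynomial.eval (fun x => F' x τ) (MvPolynomial.map φ P)) = 0 := by
    rw [h3, H₂.exp_zero]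
  rw [H₂.exp_eval F' hF'] at h4
  have : (fun x => LE₂ (F' x)) = fun x => coeffMap φ (b x) := funext hb
  rw [this, ← coeffMap_aeval] at h4
  exact (coeffMap_eq_zero_iff φ φ.injective _).mp h4

/-- **Kernel comparison.**  If `g` is surjective (e.g. the action of an element of `SL(2,ℤ)`),
the families `a` and `b` of expansions satisfy exactly the same polynomial relations. -/
theorem aeval_eq_zero_iff (H₁ : MeroExp IsMC₁ LE₁) (H₂ : MeroExp IsMC₂ LE₂)
    (hinj₁ : ∀ f, IsMC₁ f → LE₁ f = 0 → f = 0) (hinj₂ : ∀ f, IsMC₂ f → LE₂ f = 0 → f = 0)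
    {k : Type*} [Field k] (φ : k →+* ℂ) {X : Type*}
    (F F' : X → ℍ → ℂ) (hF : ∀ x, IsMC₁ (F x)) (hF' : ∀ x, IsMC₂ (F' x))
    (g : ℍ → ℍ) (hg : Function.Surjective g) (hFF' : ∀ x τ, F' x τ = F x (g τ))
    (a b : X → LaurentSeries k) (ha : ∀ x, LE₁ (F x) = coeffMap φ (a x))
    (hb : ∀ x, LE₂ (F' x) = coeffMap φ (b x))
    (P : MvPolynomial X k) : MvPolynomial.aeval a P = 0 ↔ MvPolynomial.aeval b P = 0 := by
  refine ⟨aeval_eq_zero_of_aeval_eq_zero H₁ H₂ hinj₁ φ F F' hF hF' g hFF' a b ha hb P, ?_⟩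
  -- the converse: use a right inverse of `g`
  obtain ⟨g', hg'⟩ := hg.hasRightInverse
  refine aeval_eq_zero_of_aeval_eq_zero H₂ H₁ hinj₂ φ F' F hF' hF g' (fun x τ => ?_) b a hb ha P
  rw [hFF', hg' τ]

end Kernel

/-! ### Symmetric functions (for `CuspInput.sym`) -/

section Sym

open Polynomial

variable {IsMC : (ℍ → ℂ) → Prop} {LE : (ℍ → ℂ) → LaurentSeries ℂ}

/-- The expansion of a coefficient of `∏ (X - f i)` is the corresponding coefficient of
`∏ (X - LE (f i))`. -/
theorem exp_coeff_prod (H : MeroExp IsMC LE) {ι : Type*} [Fintype ι]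
    (f : ι → ℍ → ℂ) (hf : ∀ i, IsMC (f i)) (m : ℕ) :
    IsMC (fun z => (∏ i, (X - C (f i z))).coeff m) ∧
    LE (fun z => (∏ i, (X - C (f i z))).coeff m) = (∏ i, (X - C (LE (f i)))).coeff m := by
  set p : Polynomial H.subalg := ∏ i, (X - C (⟨f i, hf i⟩ : H.subalg)) with hp
  have h1 : ∀ z, (∏ i, (X - C (f i z))).coeff m = ((p.coeff m : H.subalg) : ℍ → ℂ) z := by
    intro z
    have e : (∏ i, (X - C (f i z)))
        = p.map ((Pi.evalRingHom (fun _ : ℍ => ℂ) z).comp H.subalg.val.toRingHom) := by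
      rw [hp, Polynomial.map_prod]
      refine Finset.prod_congr rfl fun i _ => ?_
      simp
    rw [e, Polynomial.coeff_map]
    rfl
  have h2 : (fun z => (∏ i, (X - C (f i z))).coeff m) = ((p.coeff m : H.subalg) : ℍ → ℂ) :=
    funext h1
  refine ⟨h2 ▸ (p.coeff m).2, ?_⟩
  rw [h2]
  have e : (∏ i, (X - C (LE (f i)))) = p.map H.expHom.toRingHom := by
    rw [hp, Polynomial.map_prod]
    refine Finset.prod_congr rfl fun i _ => ?_
    simp
  rw [e, Polynomial.coeff_map]
  rfl

/-- **Symmetric-function bridge.**  If the coefficient functions of `∏ (X - f i)` are polynomials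
`R m` in `J`, and `f i`, `J` have expansions `coeffMap φ (c i)`, `coeffMap φ jN` with `c i`, `jN`
defined over `k`, then the coefficients of `∏ (X - c i)` satisfy
`coeffMap φ (coeff) = (R m)(coeffMap φ jN)`. -/
theorem coeffMap_coeff_prod (H : MeroExp IsMC LE) {k : Type*} [Field k] (φ : k →+* ℂ)
    {ι : Type*} [Fintype ι] (f : ι → ℍ → ℂ) (hf : ∀ i, IsMC (f i))
    (J : ℍ → ℂ) (hJ : IsMC J) (R : ℕ → ℂ[X])
    (hR : ∀ m z, (∏ i, (X - C (f i z))).coeff m = (R m).eval (J z))
    (c : ι → LaurentSeries k) (hc : ∀ i, LE (f i) = coeffMap φ (c i))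
    (jN : LaurentSeries k) (hjN : LE J = coeffMap φ jN) (m : ℕ) :
    coeffMap φ ((∏ i, (X - C (c i))).coeff m) = aeval (coeffMap φ jN) (R m) := by
  have h1 := (exp_coeff_prod H f hf m).2
  have h2 : (fun z => (∏ i, (X - C (f i z))).coeff m) = fun z => (R m).eval (J z) :=
    funext (hR m)
  rw [h2, H.exp_polyEval J hJ, hjN] at h1
  rw [h1]
  have e : (∏ i, (X - C (LE (f i)))) = (∏ i, (X - C (c i))).map (coeffMap φ) := by
    rw [Polynomial.map_prod]
    refine Finset.prod_congr rfl fun i _ => ?_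
    simp [hc]
  rw [e, Polynomial.coeff_map]

end Sym

end

end Fermat.Agent.S28.EvalBridge
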