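import Fermat.Agent.S28.CuspExpansion2
import Fermat.Agent.S28.CuspSeries
import Fermat.Agent.S28.EvalBridge

set_option autoImplicit false

/-!
# T28 / A3, part 3: "Fact 1" and "Fact 2" — expansions of the generators at every cusp

Stated against an abstract analytic interface `AnalyticInput` (a predicate `IsMC₁` "meromorphic at
the cusp with period 1", `IsMCN` the same with period `N`, expansions `LE₁`, `LEN`), so that the
file does not depend on the exact shape of `MeroCusp.lean` / `MeroSubst.lean`.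
To use it: build an `AnalyticInput N (IsMeroCusp 1) (IsMeroCusp N) (laurentExp 1) (laurentExp N)`.
-/

namespace Fermat.Agent.S28

namespace CuspExp

open UpperHalfPlane Matrix MatrixGroups ModularCurve

local notation "Δ" => ModularForm.discriminant

/-- The analytic interface needed for the cusp expansions of the generators. -/
structure AnalyticInput (N : ℕ) (IsMC₁ IsMCN : (ℍ → ℂ) → Prop)
    (LE₁ LEN : (ℍ → ℂ) → LaurentSeries ℂ) : Prop where
  /-- `IsMCN`, `LEN` are compatible with the ring operations -/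
  expN : EvalBridge.MeroExp IsMCN LEN
  /-- substitution `τ ↦ (A τ + B)/D`, with `e D = N A` and `ξ = exp(2πi B/D)` -/
  subst : ∀ (f : ℍ → ℂ), IsMC₁ f → ∀ (A B D : ℤ) (hA : 0 < A) (hD : 0 < D) (e : ℕ) [NeZero e],
    (e : ℤ) * D = N * A → ∀ (ξ : ℂˣ), (ξ : ℂ) = rootExp B D →
      IsMCN (fun τ => f (affPt A B D hA hD τ)) ∧
      LEN (fun τ => f (affPt A B D hA hD τ)) = cuspS ℂ ξ e (LE₁ f)
  j_mc : IsMC₁ jFun
  j_exp : LE₁ jFun = jqModC ℂ
  delta_mc : IsMC₁ Δ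
  delta_exp : LE₁ Δ = deltaS ℂ
  deltaInv_mc : IsMC₁ (fun z => (Δ z)⁻¹)
  deltaInv_exp : LE₁ (fun z => (Δ z)⁻¹) = deltaInvS ℂ

variable {N : ℕ} {IsMC₁ IsMCN : (ℍ → ℂ) → Prop} {LE₁ LEN : (ℍ → ℂ) → LaurentSeries ℂ}

theorem affPt_one_zero_one (z : ℍ) : affPt 1 0 1 one_pos one_pos z = z := by
  apply UpperHalfPlane.ext
  simp

theorem rootExp_zero (D : ℤ) : rootExp 0 D = 1 := by
  simp [rootExp]

/-- period change `1 → N`. -/
theorem AnalyticInput.period_change [NeZero N] (In : AnalyticInput N IsMC₁ IsMCN LE₁ LEN) (f : ℍ → ℂ)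
    (hf : IsMC₁ f) : IsMCN f ∧ LEN f = qExpand ℂ N (LE₁ f) := by
  have h := In.subst f hf 1 0 1 one_pos one_pos N (by simp) 1 (by simp [rootExp_zero])
  simp only [affPt_one_zero_one] at h
  rw [cuspS_one] at h
  exact h

variable {d : ℕ} {g : SL(2, ℤ)}

/-- **Fact 2 for `j`**: `τ ↦ j(d (g • τ))` is meromorphic at the cusp with period `N` and its
expansion is `cuspJ ℂ ξ e`, `e = (N/d) A²`, `ξ = exp(2πi B/D)`. -/
theorem AnalyticInput.fact2_j (In : AnalyticInput N IsMC₁ IsMCN LE₁ LEN) (hd : 0 < d)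
    (hdN : d ∣ N) (H : HermiteData d g) (e : ℕ) [NeZero e] (he : e = H.expo N)
    (ξ : ℂˣ) (hξ : (ξ : ℂ) = rootExp H.B H.D) :
    IsMCN (fun τ => jDil d hd (g • τ)) ∧ LEN (fun τ => jDil d hd (g • τ)) = cuspJ ℂ ξ e := by
  have hfun : (fun τ => jDil d hd (g • τ)) = fun τ => jFun (H.pt hd τ) :=
    funext fun τ => H.jDil_smul hd τ
  have heD : (e : ℤ) * H.D = N * H.A := by rw [he]; exact H.expo_mul_D N hdN
  have h := In.subst jFun In.j_mc H.A H.B H.D H.A_pos (H.D_pos hd) e heD ξ hξ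
  rw [hfun, cuspJ, ← In.j_exp]
  exact h

/-- the unit `δ` with value `D` -/
theorem exists_unit_D (hd : 0 < d) (H : HermiteData d g) : ∃ δ : ℂˣ, (δ : ℂ) = (H.D : ℂ) :=
  ⟨Units.mk0 (H.D : ℂ) (by exact_mod_cast (H.D_pos hd).ne'), rfl⟩

/-- **Fact 2 for the modular unit**: `τ ↦ Δ(d (g•τ))/Δ(g•τ)` has expansion `cuspU ℂ N ξ δ e`,
`(δ : ℂ) = D`. -/
theorem AnalyticInput.fact2_u [NeZero N] (In : AnalyticInput N IsMC₁ IsMCN LE₁ LEN) (hd : 0 < d)
    (hdN : d ∣ N) (H : HermiteData d g) (e : ℕ) [NeZero e] (he : e = H.expo N)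
    (ξ δ : ℂˣ) (hξ : (ξ : ℂ) = rootExp H.B H.D) (hδ : (δ : ℂ) = (H.D : ℂ)) :
    IsMCN (fun τ => modUnit d hd (g • τ)) ∧
      LEN (fun τ => modUnit d hd (g • τ)) = cuspU ℂ N ξ δ e := by
  have heD : (e : ℤ) * H.D = N * H.A := by rw [he]; exact H.expo_mul_D N hdN
  have h1 : IsMCN (fun τ => Δ (H.pt hd τ)) ∧
      LEN (fun τ => Δ (H.pt hd τ)) = cuspS ℂ ξ e (LE₁ Δ) :=
    In.subst Δ In.delta_mc H.A H.B H.D H.A_pos (H.D_pos hd) e heD ξ hξ
  have h2 := In.period_change _ In.deltaInv_mc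
  have hfun : (fun τ => modUnit d hd (g • τ)) =
      ((fun _ => ((δ⁻¹ : ℂˣ) : ℂ) ^ 12) * fun τ => Δ (H.pt hd τ)) * fun τ => (Δ τ)⁻¹ := by
    funext τ
    rw [H.modUnit_smul' hd, ← hδ]
    simp
  have hmc1 : IsMCN ((fun _ => ((δ⁻¹ : ℂˣ) : ℂ) ^ 12) * fun τ => Δ (H.pt hd τ)) :=
    In.expN.mul _ _ (In.expN.const _) h1.1
  refine ⟨?_, ?_⟩
  · rw [hfun]
    exact In.expN.mul _ _ hmc1 h2.1
  · rw [hfun, In.expN.exp_mul _ _ hmc1 h2.1, In.expN.exp_mul _ _ (In.expN.const _) h1.1,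
      In.expN.exp_const, h2.2, cuspU, In.deltaInv_exp, ← In.delta_exp]
    congr 2
    exact h1.2

/-- **Fact 2 for the inverse modular unit**. -/
theorem AnalyticInput.fact2_uInv [NeZero N] (In : AnalyticInput N IsMC₁ IsMCN LE₁ LEN) (hd : 0 < d)
    (hdN : d ∣ N) (H : HermiteData d g) (e : ℕ) [NeZero e] (he : e = H.expo N)
    (ξ δ : ℂˣ) (hξ : (ξ : ℂ) = rootExp H.B H.D) (hδ : (δ : ℂ) = (H.D : ℂ)) :
    IsMCN (fun τ => (modUnit d hd (g • τ))⁻¹) ∧
      LEN (fun τ => (modUnit d hd (g • τ))⁻¹) = cuspUInv ℂ N ξ δ e := by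
  have heD : (e : ℤ) * H.D = N * H.A := by rw [he]; exact H.expo_mul_D N hdN
  have h1 : IsMCN (fun τ => (Δ (H.pt hd τ))⁻¹) ∧
      LEN (fun τ => (Δ (H.pt hd τ))⁻¹) = cuspS ℂ ξ e (LE₁ fun z => (Δ z)⁻¹) :=
    In.subst _ In.deltaInv_mc H.A H.B H.D H.A_pos (H.D_pos hd) e heD ξ hξ
  have h2 := In.period_change _ In.delta_mc
  have hfun : (fun τ => (modUnit d hd (g • τ))⁻¹) =
      ((fun _ => (δ : ℂ) ^ 12) * fun τ => (Δ (H.pt hd τ))⁻¹) * fun τ => Δ τ := by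
    funext τ
    rw [H.modUnit_inv_smul hd, ← hδ]
    simp
  have hmc1 : IsMCN ((fun _ => (δ : ℂ) ^ 12) * fun τ => (Δ (H.pt hd τ))⁻¹) :=
    In.expN.mul _ _ (In.expN.const _) h1.1
  refine ⟨?_, ?_⟩
  · rw [hfun]
    exact In.expN.mul _ _ hmc1 h2.1
  · rw [hfun, In.expN.exp_mul _ _ hmc1 h2.1, In.expN.exp_mul _ _ (In.expN.const _) h1.1,
      In.expN.exp_const, h2.2, cuspUInv, In.delta_exp, ← In.deltaInv_exp]
    congr 2
    exact h1.2


/-! ### Fact 1: the generators themselves (period `1`) -/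

section Fact1

variable {IsMC : (ℍ → ℂ) → Prop} {LE : (ℍ → ℂ) → LaurentSeries ℂ}

theorem dilate_eq_affPt (d : ℕ) (hd : 0 < d) (z : ℍ) :
    dilate d hd z = affPt d 0 1 (by exact_mod_cast hd) one_pos z := by
  apply UpperHalfPlane.ext
  simp

/-- **Fact 1 for `j`**: `τ ↦ j(d τ)` has expansion `j(q^d)`. -/
theorem AnalyticInput.fact1_j (In : AnalyticInput 1 IsMC IsMC LE LE) (d : ℕ) [NeZero d]
    (hd : 0 < d) : IsMC (jDil d hd) ∧ LE (jDil d hd) = jS ℂ d := by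
  have h := In.subst jFun In.j_mc d 0 1 (by exact_mod_cast hd) one_pos d (by simp) 1
    (by simp [rootExp_zero])
  have hfun : jDil d hd = fun τ => jFun (affPt d 0 1 (by exact_mod_cast hd) one_pos τ) := by
    funext τ
    rw [jDil, dilate_eq_affPt]
  rw [hfun, jS, ← In.j_exp, ← cuspS_one]
  exact h

/-- **Fact 1 for the modular unit**: `τ ↦ Δ(d τ)/Δ(τ)` has expansion `uS ℂ d`. -/
theorem AnalyticInput.fact1_u (In : AnalyticInput 1 IsMC IsMC LE LE) (d : ℕ) [NeZero d]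
    (hd : 0 < d) : IsMC (modUnit d hd) ∧ LE (modUnit d hd) = uS ℂ d := by
  have h1 : IsMC (fun τ => Δ (dilate d hd τ)) ∧
      LE (fun τ => Δ (dilate d hd τ)) = cuspS ℂ 1 d (LE Δ) := by
    have h := In.subst Δ In.delta_mc d 0 1 (by exact_mod_cast hd) one_pos d (by simp) 1
      (by simp [rootExp_zero])
    have hfun : (fun τ => Δ (dilate d hd τ)) =
        fun τ => Δ (affPt d 0 1 (by exact_mod_cast hd) one_pos τ) := by
      funext τ
      rw [dilate_eq_affPt]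
    rw [hfun]
    exact h
  have hfun : modUnit d hd = (fun τ => Δ (dilate d hd τ)) * fun τ => (Δ τ)⁻¹ := by
    funext τ
    simp [modUnit, div_eq_mul_inv]
  refine ⟨?_, ?_⟩
  · rw [hfun]
    exact In.expN.mul _ _ h1.1 In.deltaInv_mc
  · rw [hfun, In.expN.exp_mul _ _ h1.1 In.deltaInv_mc, h1.2, cuspS_one, In.delta_exp,
      In.deltaInv_exp, uS]

/-- **Fact 1 for the inverse modular unit**. -/
theorem AnalyticInput.fact1_uInv (In : AnalyticInput 1 IsMC IsMC LE LE) (d : ℕ) [NeZero d]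
    (hd : 0 < d) :
    IsMC (fun τ => (modUnit d hd τ)⁻¹) ∧ LE (fun τ => (modUnit d hd τ)⁻¹) = uInvS ℂ d := by
  have h1 : IsMC (fun τ => (Δ (dilate d hd τ))⁻¹) ∧
      LE (fun τ => (Δ (dilate d hd τ))⁻¹) = cuspS ℂ 1 d (LE fun z => (Δ z)⁻¹) := by
    have h := In.subst _ In.deltaInv_mc d 0 1 (by exact_mod_cast hd) one_pos d (by simp) 1
      (by simp [rootExp_zero])
    have hfun : (fun τ => (Δ (dilate d hd τ))⁻¹) =
        fun τ => (Δ (affPt d 0 1 (by exact_mod_cast hd) one_pos τ))⁻¹ := by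
      funext τ
      rw [dilate_eq_affPt]
    rw [hfun]
    exact h
  have hfun : (fun τ => (modUnit d hd τ)⁻¹) = (fun τ => (Δ (dilate d hd τ))⁻¹) * fun τ => Δ τ := by
    funext τ
    simp [modUnit, div_eq_mul_inv, mul_comm]
  refine ⟨?_, ?_⟩
  · rw [hfun]
    exact In.expN.mul _ _ h1.1 In.delta_mc
  · rw [hfun, In.expN.exp_mul _ _ h1.1 In.delta_mc, h1.2, cuspS_one, In.delta_exp,
      In.deltaInv_exp, uInvS]

end Fact1

end CuspExp

end Fermat.Agent.S28
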