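import Fermat.Agent.S28.Defs

/-!
# Functions on the upper half plane that are meromorphic at the cusp `∞` (T28, module A1)

`IsMeroCusp h f` : `f` is holomorphic on `ℍ`, `h`-periodic and `𝕢_h ^ m * f` is bounded at `i∞`
for some `m`.  `laurentExp h f : LaurentSeries ℂ` is its expansion in the variable `𝕢_h`.
-/

set_option autoImplicit false

noncomputable section

namespace Fermat.Agent.S28

open UpperHalfPlane Filter Topology Function HahnSeries
open scoped Manifold

/-- `f` is holomorphic on `ℍ`, `h`-periodic and meromorphic at the cusp `∞`. -/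
structure IsMeroCusp (h : ℝ) (f : ℍ → ℂ) : Prop where
  mdiff : MDiff f
  periodic : Function.Periodic (f ∘ ofComplex) h
  bdd : ∃ m : ℕ, IsBoundedAtImInfty (fun τ : ℍ => Periodic.qParam h τ ^ m * f τ)

open Classical in
/-- The Laurent expansion of `f` at the cusp `∞` in the variable `𝕢_h = exp (2 π i τ / h)`
(junk value `0` unless some `𝕢_h ^ m * f` is bounded at `i∞`). -/
def laurentExp (h : ℝ) (f : ℍ → ℂ) : LaurentSeries ℂ :=
  if hf : ∃ m : ℕ, IsBoundedAtImInfty (fun τ : ℍ => Periodic.qParam h τ ^ m * f τ) then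
    HahnSeries.single (-(Nat.find hf : ℤ)) (1 : ℂ) *
      HahnSeries.ofPowerSeries ℤ ℂ
        (qExpansion h (fun τ : ℍ => Periodic.qParam h τ ^ Nat.find hf * f τ))
  else 0

namespace MeroCusp

/-- Uniqueness of `q`-expansion coefficients, for plain functions on `ℍ`. -/
theorem qExpansion_coeff_unique_fun {h : ℝ} {f : ℍ → ℂ} {c : ℕ → ℂ} (hh : 0 < h)
    (hfanalytic : AnalyticAt ℂ (cuspFunction h f) 0)
    (hf : ∀ τ : ℍ, HasSum (fun m ↦ c m • Periodic.qParam h τ ^ m) (f τ)) (m : ℕ) :
    c m = (qExpansion h f).coeff m := by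
  have h1 := (hasFPowerSeriesOnBall_cuspFunction hh hfanalytic hf).hasFPowerSeriesAt
  have h2 := hfanalytic.hasFPowerSeriesAt
  have h3 := congr_arg (FormalMultilinearSeries.coeff · m) (h1.eq_formalMultilinearSeries h2)
  simp only [FormalMultilinearSeries.coeff_ofScalars] at h3
  rw [h3, qExpansion_coeff, div_eq_mul_inv, mul_comm]

theorem qParam_add_period {h : ℝ} (hh : h ≠ 0) (w : ℂ) :
    Periodic.qParam h (w + h) = Periodic.qParam h w := by
  have hh' : (h : ℂ) ≠ 0 := Complex.ofReal_ne_zero.mpr hh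
  simp only [Periodic.qParam]
  rw [show 2 * (Real.pi : ℂ) * Complex.I * (w + h) / h
      = 2 * Real.pi * Complex.I * w / h + 2 * Real.pi * Complex.I by field_simp]
  exact Complex.exp_periodic _

/-- To check `h`-periodicity of `F ∘ ofComplex` it suffices to look at the upper half plane. -/
theorem periodic_comp_ofComplex_of_forall {h : ℝ} {F : ℍ → ℂ}
    (hF : ∀ (w : ℂ) (hw : 0 < w.im) (hw' : 0 < (w + (h : ℂ)).im),
      F ⟨w + h, hw'⟩ = F ⟨w, hw⟩) : Periodic (F ∘ ofComplex) h := by
  intro w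
  by_cases hw : 0 < w.im
  · have hw' : 0 < (w + (h : ℂ)).im := by simpa using hw
    simp only [comp_apply, ofComplex_apply_of_im_pos hw, ofComplex_apply_of_im_pos hw']
    exact hF w hw hw'
  · have hw' : ¬ 0 < (w + (h : ℂ)).im := by simpa using hw
    simp only [comp_apply, ofComplex_apply_of_im_nonpos (not_lt.mp hw),
      ofComplex_apply_of_im_nonpos (not_lt.mp hw')]

theorem qExpansion_const (h : ℝ) (c : ℂ) :
    qExpansion h (fun _ : ℍ => c) = PowerSeries.C c := by
  have h1 : (fun _ : ℍ => c) = c • (1 : ℍ → ℂ) := by funext τ; simp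
  have h2 : AnalyticAt ℂ (cuspFunction h (1 : ℍ → ℂ)) 0 := by
    have : cuspFunction h (1 : ℍ → ℂ) = 1 := by
      ext q
      rcases eq_or_ne q 0 with rfl | hq
      · simpa [cuspFunction, Periodic.cuspFunction] using! tendsto_const_nhds.limUnder_eq
      · simp [cuspFunction, Periodic.cuspFunction_eq_of_nonzero h _ hq]
    rw [this]
    exact analyticAt_const
  rw [h1, qExpansion_smul h2, qExpansion_one]
  ext n
  simp [PowerSeries.coeff_one, PowerSeries.coeff_C]

theorem ofPowerSeries_coeff_of_neg (P : PowerSeries ℂ) {n : ℤ} (hn : n < 0) :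
    (HahnSeries.ofPowerSeries ℤ ℂ P).coeff n = 0 := by
  rw [HahnSeries.ofPowerSeries_apply]
  apply HahnSeries.embDomain_of_notMem_range
  rintro ⟨k, hk⟩
  have : (k : ℤ) = n := hk
  omega

theorem single_mul_ofPowerSeries_coeff_of_lt (m : ℕ) (P : PowerSeries ℂ) {n : ℤ}
    (hn : n < -(m : ℤ)) :
    (HahnSeries.single (-(m : ℤ)) (1 : ℂ) * HahnSeries.ofPowerSeries ℤ ℂ P).coeff n = 0 := by
  rw [HahnSeries.coeff_single_mul, one_mul]
  exact ofPowerSeries_coeff_of_neg P (by omega)

theorem single_mul_ofPowerSeries_coeff_sub (m : ℕ) (P : PowerSeries ℂ) (k : ℕ) :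
    (HahnSeries.single (-(m : ℤ)) (1 : ℂ) * HahnSeries.ofPowerSeries ℤ ℂ P).coeff
      ((k : ℤ) - m) = PowerSeries.coeff k P := by
  rw [HahnSeries.coeff_single_mul, one_mul, sub_neg_eq_add, sub_add_cancel,
    HahnSeries.ofPowerSeries_apply_coeff]

end MeroCusp

open MeroCusp

/-! ### The functions `𝕢_h ^ m` -/

section qPow

variable {h : ℝ}

/-- the function `𝕢_h ^ m` on the upper half plane -/
def qPow (h : ℝ) (m : ℕ) : ℍ → ℂ := fun τ => Periodic.qParam h τ ^ m

theorem qPow_apply (m : ℕ) (τ : ℍ) : qPow h m τ = Periodic.qParam h τ ^ m := rfl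

theorem qPow_ne_zero (m : ℕ) (τ : ℍ) : qPow h m τ ≠ 0 :=
  pow_ne_zero _ (Periodic.qParam_ne_zero _)

theorem mdiff_qPow (m : ℕ) : MDiff (qPow h m) := by
  rw [mdifferentiable_iff]
  have : DifferentiableOn ℂ (fun z : ℂ => Periodic.qParam h z ^ m) upperHalfPlaneSet := by
    intro z _
    exact ((Periodic.differentiable_qParam (h := h)).pow m).differentiableAt.differentiableWithinAt
  refine this.congr fun z hz => ?_
  simp [qPow, ofComplex_apply_of_im_pos hz]

theorem periodic_qPow (hh : h ≠ 0) (m : ℕ) : Periodic (qPow h m ∘ ofComplex) h :=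
  periodic_comp_ofComplex_of_forall fun w _ _ => by
    simp only [qPow]
    rw [qParam_add_period hh]

theorem tendsto_qPow_succ (hh : 0 < h) (m : ℕ) : Tendsto (qPow h (m + 1)) atImInfty (𝓝 0) := by
  have := (qParam_tendsto_atImInfty hh).pow (m + 1)
  rw [zero_pow (Nat.succ_ne_zero m)] at this
  exact this

theorem isBoundedAtImInfty_qPow (hh : 0 < h) (m : ℕ) : IsBoundedAtImInfty (qPow h m) := by
  rcases m with _ | m
  · have : qPow h 0 = fun _ => (1 : ℂ) := by funext τ; simp [qPow]
    rw [this]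
    exact (tendsto_const_nhds (x := (1 : ℂ))).isBigO_one ℝ
  · exact (tendsto_qPow_succ hh m).isBigO_one ℝ

theorem analyticAt_cuspFunction_qPow (hh : 0 < h) (m : ℕ) :
    AnalyticAt ℂ (cuspFunction h (qPow h m)) 0 :=
  analyticAt_cuspFunction_zero hh (periodic_qPow hh.ne' m) (mdiff_qPow m)
    (isBoundedAtImInfty_qPow hh m)

theorem qExpansion_qPow (hh : 0 < h) (m : ℕ) :
    qExpansion h (qPow h m) = (PowerSeries.X : PowerSeries ℂ) ^ m := by
  ext n
  have hsum : ∀ τ : ℍ, HasSum (fun k : ℕ => (if k = m then (1 : ℂ) else 0) •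
      Periodic.qParam h τ ^ k) (qPow h m τ) := by
    intro τ
    have := hasSum_ite_eq m (Periodic.qParam h τ ^ m)
    rw [qPow_apply]
    convert this using 2 with k
    split_ifs with hk
    · subst hk; simp
    · simp
  rw [← qExpansion_coeff_unique_fun hh (analyticAt_cuspFunction_qPow hh m) hsum n,
    PowerSeries.coeff_X_pow]

theorem qExpansion_qPow_mul (m : ℕ) {g : ℍ → ℂ} (hh : 0 < h)
    (hg : AnalyticAt ℂ (cuspFunction h g) 0) :
    qExpansion h (qPow h m * g) = (PowerSeries.X : PowerSeries ℂ) ^ m * qExpansion h g := by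
  rw [qExpansion_mul (analyticAt_cuspFunction_qPow hh m) hg, qExpansion_qPow hh]

theorem qPow_add (m n : ℕ) : qPow h (m + n) = qPow h m * qPow h n := by
  funext τ
  simp [qPow, _root_.pow_add]

theorem qPow_zero : qPow h 0 = 1 := by
  funext τ
  simp [qPow]

end qPow

/-! ### Basic properties of `IsMeroCusp` -/

section basic

variable {h : ℝ} {f g : ℍ → ℂ}

/-- the pole order bound as a predicate -/
def PoleBound (h : ℝ) (f : ℍ → ℂ) (m : ℕ) : Prop :=
  IsBoundedAtImInfty (fun τ : ℍ => Periodic.qParam h τ ^ m * f τ)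

theorem poleBound_iff {m : ℕ} : PoleBound h f m ↔ IsBoundedAtImInfty (qPow h m * f) := Iff.rfl

theorem PoleBound.mono (hh : 0 < h) {m n : ℕ} (hm : PoleBound h f m) (hmn : m ≤ n) :
    PoleBound h f n := by
  obtain ⟨k, rfl⟩ := Nat.exists_eq_add_of_le hmn
  rw [poleBound_iff] at hm ⊢
  have : qPow h (m + k) * f = qPow h k * (qPow h m * f) := by
    rw [qPow_add]; ring
  rw [this]
  exact (isBoundedAtImInfty_qPow hh k).mul hm

theorem IsMeroCusp.periodic_qPow_mul (hh : 0 < h) (hf : IsMeroCusp h f) (m : ℕ) :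
    Periodic ((qPow h m * f) ∘ ofComplex) h := by
  intro w
  have h1 := periodic_qPow hh.ne' m w
  have h2 := hf.periodic w
  simp only [comp_apply, Pi.mul_apply] at h1 h2 ⊢
  rw [h1, h2]

theorem IsMeroCusp.mdiff_qPow_mul (hf : IsMeroCusp h f) (m : ℕ) : MDiff (qPow h m * f) :=
  (mdiff_qPow m).mul hf.mdiff

theorem IsMeroCusp.analyticAt (hh : 0 < h) (hf : IsMeroCusp h f) {m : ℕ}
    (hm : PoleBound h f m) : AnalyticAt ℂ (cuspFunction h (qPow h m * f)) 0 :=
  analyticAt_cuspFunction_zero hh (hf.periodic_qPow_mul hh m) (hf.mdiff_qPow_mul m) hm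

/-- The defining formula for `laurentExp`, valid for every admissible pole order bound. -/
theorem laurentExp_eq (hh : 0 < h) (hf : IsMeroCusp h f) {m : ℕ} (hm : PoleBound h f m) :
    laurentExp h f = HahnSeries.single (-(m : ℤ)) (1 : ℂ) *
      HahnSeries.ofPowerSeries ℤ ℂ (qExpansion h (qPow h m * f)) := by
  classical
  have hex : ∃ m : ℕ, IsBoundedAtImInfty (fun τ : ℍ => Periodic.qParam h τ ^ m * f τ) := ⟨m, hm⟩
  rw [laurentExp, dif_pos hex]
  have hm₀ : PoleBound h f (Nat.find hex) := Nat.find_spec hex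
  obtain ⟨k, hk⟩ := Nat.exists_eq_add_of_le (Nat.find_min' hex hm)
  have h1 : qPow h m * f = qPow h k * (qPow h (Nat.find hex) * f) := by
    rw [hk, qPow_add]; ring
  rw [h1, qExpansion_qPow_mul k hh (hf.analyticAt hh hm₀), map_mul, map_pow,
    HahnSeries.ofPowerSeries_X, hk]
  change _ = _ * (_ * HahnSeries.ofPowerSeries ℤ ℂ (qExpansion h (qPow h (Nat.find hex) * f)))
  rw [← mul_assoc, HahnSeries.single_pow, HahnSeries.single_mul_single]
  congr 2
  · push_cast; ring_nf
  · simp

theorem IsMeroCusp.of_bounded (hmd : MDiff f) (hper : Periodic (f ∘ ofComplex) h)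
    (hb : IsBoundedAtImInfty f) : IsMeroCusp h f :=
  ⟨hmd, hper, 0, by simpa using hb⟩

theorem poleBound_zero_iff : PoleBound h f 0 ↔ IsBoundedAtImInfty f := by
  rw [poleBound_iff, qPow_zero, one_mul]

/-- **Bounded case**: the Laurent expansion of a function bounded at `i∞` is its `q`-expansion. -/
theorem laurentExp_of_bounded (hh : 0 < h) (hmd : MDiff f) (hper : Periodic (f ∘ ofComplex) h)
    (hb : IsBoundedAtImInfty f) :
    laurentExp h f = HahnSeries.ofPowerSeries ℤ ℂ (qExpansion h f) := by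
  rw [laurentExp_eq hh (IsMeroCusp.of_bounded hmd hper hb) (poleBound_zero_iff.mpr hb), qPow_zero,
    one_mul]
  simp

theorem IsMeroCusp.add (hh : 0 < h) (hf : IsMeroCusp h f) (hg : IsMeroCusp h g) :
    IsMeroCusp h (f + g) := by
  obtain ⟨m, hm⟩ := hf.bdd
  obtain ⟨n, hn⟩ := hg.bdd
  refine ⟨hf.mdiff.add hg.mdiff, ?_, m + n, ?_⟩
  · intro w
    have h1 := hf.periodic w
    have h2 := hg.periodic w
    simp only [comp_apply, Pi.add_apply] at h1 h2 ⊢
    rw [h1, h2]
  · have h1 : PoleBound h f (m + n) := PoleBound.mono hh hm (Nat.le_add_right m n)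
    have h2 : PoleBound h g (m + n) := PoleBound.mono hh hn (Nat.le_add_left n m)
    change PoleBound h (f + g) (m + n)
    rw [poleBound_iff] at h1 h2 ⊢
    rw [mul_add]
    exact h1.add h2

theorem IsMeroCusp.mul (hf : IsMeroCusp h f) (hg : IsMeroCusp h g) :
    IsMeroCusp h (f * g) := by
  obtain ⟨m, hm⟩ := hf.bdd
  obtain ⟨n, hn⟩ := hg.bdd
  refine ⟨hf.mdiff.mul hg.mdiff, ?_, m + n, ?_⟩
  · intro w
    have h1 := hf.periodic w
    have h2 := hg.periodic w
    simp only [comp_apply, Pi.mul_apply] at h1 h2 ⊢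
    rw [h1, h2]
  · change PoleBound h f m at hm
    change PoleBound h g n at hn
    change PoleBound h (f * g) (m + n)
    rw [poleBound_iff] at hm hn ⊢
    have : qPow h (m + n) * (f * g) = (qPow h m * f) * (qPow h n * g) := by
      rw [qPow_add]; ring
    rw [this]
    exact hm.mul hn

theorem isMeroCusp_const (h : ℝ) (c : ℂ) : IsMeroCusp h (fun _ => c) :=
  IsMeroCusp.of_bounded mdifferentiable_const (fun _ => rfl)
    ((tendsto_const_nhds (x := c)).isBigO_one ℝ)

theorem isMeroCusp_one (h : ℝ) : IsMeroCusp h (1 : ℍ → ℂ) := isMeroCusp_const h 1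

theorem isMeroCusp_zero (h : ℝ) : IsMeroCusp h (0 : ℍ → ℂ) := isMeroCusp_const h 0

theorem IsMeroCusp.neg (hf : IsMeroCusp h f) : IsMeroCusp h (-f) := by
  have : -f = (fun _ => (-1 : ℂ)) * f := by funext τ; simp
  rw [this]
  exact (isMeroCusp_const h (-1)).mul hf

theorem IsMeroCusp.sub (hh : 0 < h) (hf : IsMeroCusp h f) (hg : IsMeroCusp h g) :
    IsMeroCusp h (f - g) := by
  rw [sub_eq_add_neg]
  exact hf.add hh hg.neg

theorem IsMeroCusp.smul (hf : IsMeroCusp h f) (c : ℂ) : IsMeroCusp h (c • f) := by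
  have : c • f = (fun _ => c) * f := by funext τ; simp
  rw [this]
  exact (isMeroCusp_const h c).mul hf

theorem IsMeroCusp.pow (hf : IsMeroCusp h f) (n : ℕ) : IsMeroCusp h (f ^ n) := by
  induction n with
  | zero => simpa using isMeroCusp_one h
  | succ n ih => rw [pow_succ]; exact ih.mul hf

theorem IsMeroCusp.sum (hh : 0 < h) {ι : Type*} (s : Finset ι) {F : ι → ℍ → ℂ}
    (hF : ∀ i ∈ s, IsMeroCusp h (F i)) : IsMeroCusp h (∑ i ∈ s, F i) := by
  classical
  induction s using Finset.induction_on with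
  | empty => simpa using isMeroCusp_zero h
  | insert a s ha ih =>
    rw [Finset.sum_insert ha]
    exact (hF a (Finset.mem_insert_self a s)).add hh
      (ih fun i hi => hF i (Finset.mem_insert_of_mem hi))

theorem IsMeroCusp.prod {ι : Type*} (s : Finset ι) {F : ι → ℍ → ℂ}
    (hF : ∀ i ∈ s, IsMeroCusp h (F i)) : IsMeroCusp h (∏ i ∈ s, F i) := by
  classical
  induction s using Finset.induction_on with
  | empty => simpa using isMeroCusp_one h
  | insert a s ha ih =>
    rw [Finset.prod_insert ha]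
    exact (hF a (Finset.mem_insert_self a s)).mul
      (ih fun i hi => hF i (Finset.mem_insert_of_mem hi))

theorem isMeroCusp_qPow (hh : 0 < h) (m : ℕ) : IsMeroCusp h (qPow h m) :=
  IsMeroCusp.of_bounded (mdiff_qPow m) (periodic_qPow hh.ne' m) (isBoundedAtImInfty_qPow hh m)

end basic

/-! ### Algebraic properties of `laurentExp` -/

section algebra

variable {h : ℝ} {f g : ℍ → ℂ}

theorem laurentExp_add (hh : 0 < h) (hf : IsMeroCusp h f) (hg : IsMeroCusp h g) :
    laurentExp h (f + g) = laurentExp h f + laurentExp h g := by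
  obtain ⟨m, hm⟩ := hf.bdd
  obtain ⟨n, hn⟩ := hg.bdd
  have h1 : PoleBound h f (m + n) := PoleBound.mono hh hm (Nat.le_add_right m n)
  have h2 : PoleBound h g (m + n) := PoleBound.mono hh hn (Nat.le_add_left n m)
  have h3 : PoleBound h (f + g) (m + n) := by
    rw [poleBound_iff] at h1 h2 ⊢
    rw [mul_add]
    exact h1.add h2
  rw [laurentExp_eq hh hf h1, laurentExp_eq hh hg h2, laurentExp_eq hh (hf.add hh hg) h3,
    mul_add (qPow h (m + n)), qExpansion_add (hf.analyticAt hh h1) (hg.analyticAt hh h2), map_add,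
    mul_add]

theorem laurentExp_mul (hh : 0 < h) (hf : IsMeroCusp h f) (hg : IsMeroCusp h g) :
    laurentExp h (f * g) = laurentExp h f * laurentExp h g := by
  obtain ⟨m, hm⟩ := hf.bdd
  obtain ⟨n, hn⟩ := hg.bdd
  change PoleBound h f m at hm
  change PoleBound h g n at hn
  have h0 : qPow h (m + n) * (f * g) = (qPow h m * f) * (qPow h n * g) := by
    rw [qPow_add]; ring
  have h3 : PoleBound h (f * g) (m + n) := by
    rw [poleBound_iff] at hm hn ⊢
    rw [h0]
    exact hm.mul hn
  rw [laurentExp_eq hh hf hm, laurentExp_eq hh hg hn, laurentExp_eq hh (hf.mul hg) h3, h0,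
    qExpansion_mul (hf.analyticAt hh hm) (hg.analyticAt hh hn), map_mul, mul_mul_mul_comm,
    HahnSeries.single_mul_single]
  congr 2
  · push_cast; ring_nf
  · simp

theorem laurentExp_const (hh : 0 < h) (c : ℂ) :
    laurentExp h (fun _ => c) = HahnSeries.C c := by
  rw [laurentExp_of_bounded hh mdifferentiable_const (fun _ => rfl)
    ((tendsto_const_nhds (x := c)).isBigO_one ℝ), qExpansion_const, HahnSeries.ofPowerSeries_C]

theorem laurentExp_one (hh : 0 < h) : laurentExp h (1 : ℍ → ℂ) = 1 := by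
  have := laurentExp_const hh 1
  rwa [map_one] at this

theorem laurentExp_zero (hh : 0 < h) : laurentExp h (0 : ℍ → ℂ) = 0 := by
  have := laurentExp_const hh 0
  rwa [map_zero] at this

theorem laurentExp_smul (hh : 0 < h) (hf : IsMeroCusp h f) (c : ℂ) :
    laurentExp h (c • f) = HahnSeries.C c * laurentExp h f := by
  have : c • f = (fun _ => c) * f := by funext τ; simp
  rw [this, laurentExp_mul hh (isMeroCusp_const h c) hf, laurentExp_const hh]

theorem laurentExp_neg (hh : 0 < h) (hf : IsMeroCusp h f) :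
    laurentExp h (-f) = -laurentExp h f := by
  have h1 := laurentExp_add hh hf hf.neg
  rw [add_neg_cancel, laurentExp_zero hh] at h1
  exact eq_neg_of_add_eq_zero_right h1.symm

theorem laurentExp_sub (hh : 0 < h) (hf : IsMeroCusp h f) (hg : IsMeroCusp h g) :
    laurentExp h (f - g) = laurentExp h f - laurentExp h g := by
  rw [sub_eq_add_neg, laurentExp_add hh hf hg.neg, laurentExp_neg hh hg, ← sub_eq_add_neg]

theorem laurentExp_pow (hh : 0 < h) (hf : IsMeroCusp h f) (n : ℕ) :
    laurentExp h (f ^ n) = laurentExp h f ^ n := by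
  induction n with
  | zero => simpa using laurentExp_one hh
  | succ n ih => rw [pow_succ, laurentExp_mul hh (hf.pow n) hf, ih, pow_succ]

theorem laurentExp_sum (hh : 0 < h) {ι : Type*} (s : Finset ι) {F : ι → ℍ → ℂ}
    (hF : ∀ i ∈ s, IsMeroCusp h (F i)) :
    laurentExp h (∑ i ∈ s, F i) = ∑ i ∈ s, laurentExp h (F i) := by
  classical
  induction s using Finset.induction_on with
  | empty => simpa using laurentExp_zero hh
  | insert a s ha ih =>
    have hs : ∀ i ∈ s, IsMeroCusp h (F i) := fun i hi => hF i (Finset.mem_insert_of_mem hi)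
    rw [Finset.sum_insert ha, Finset.sum_insert ha,
      laurentExp_add hh (hF a (Finset.mem_insert_self a s)) (IsMeroCusp.sum hh s hs), ih hs]

theorem laurentExp_prod (hh : 0 < h) {ι : Type*} (s : Finset ι) {F : ι → ℍ → ℂ}
    (hF : ∀ i ∈ s, IsMeroCusp h (F i)) :
    laurentExp h (∏ i ∈ s, F i) = ∏ i ∈ s, laurentExp h (F i) := by
  classical
  induction s using Finset.induction_on with
  | empty => simpa using laurentExp_one hh
  | insert a s ha ih =>
    have hs : ∀ i ∈ s, IsMeroCusp h (F i) := fun i hi => hF i (Finset.mem_insert_of_mem hi)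
    rw [Finset.prod_insert ha, Finset.prod_insert ha,
      laurentExp_mul hh (hF a (Finset.mem_insert_self a s)) (IsMeroCusp.prod s hs), ih hs]

theorem laurentExp_qPow (hh : 0 < h) (m : ℕ) :
    laurentExp h (qPow h m) = HahnSeries.single (m : ℤ) (1 : ℂ) := by
  rw [laurentExp_of_bounded hh (mdiff_qPow m) (periodic_qPow hh.ne' m)
    (isBoundedAtImInfty_qPow hh m), qExpansion_qPow hh, map_pow, HahnSeries.ofPowerSeries_X,
    HahnSeries.single_pow]
  simp

/-- **Injectivity**: a function meromorphic at the cusp with vanishing Laurent expansion is `0`. -/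
theorem laurentExp_eq_zero (hh : 0 < h) (hf : IsMeroCusp h f) (h0 : laurentExp h f = 0) :
    f = 0 := by
  obtain ⟨m, hm⟩ := hf.bdd
  change PoleBound h f m at hm
  rw [laurentExp_eq hh hf hm] at h0
  have h1 : HahnSeries.ofPowerSeries ℤ ℂ (qExpansion h (qPow h m * f)) = 0 := by
    rcases mul_eq_zero.mp h0 with h | h
    · exact absurd h (by simp)
    · exact h
  have h2 : qExpansion h (qPow h m * f) = 0 :=
    HahnSeries.ofPowerSeries_injective (by rw [h1, map_zero])
  have h3 := (qExpansion_eq_zero_iff hh (hf.periodic_qPow_mul hh m) (hf.mdiff_qPow_mul m) hm).mp h2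
  funext τ
  have := congrFun h3 τ
  simp only [Pi.mul_apply, Pi.zero_apply, mul_eq_zero] at this
  exact this.resolve_left (qPow_ne_zero m τ)

theorem laurentExp_injective (hh : 0 < h) (hf : IsMeroCusp h f) (hg : IsMeroCusp h g)
    (hfg : laurentExp h f = laurentExp h g) : f = g := by
  have := laurentExp_eq_zero hh (hf.sub hh hg) (by rw [laurentExp_sub hh hf hg, hfg, sub_self])
  exact sub_eq_zero.mp this

end algebra

/-! ### Coefficients and convergent expansions -/

section coeff

variable {h : ℝ} {f : ℍ → ℂ}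

theorem laurentExp_coeff_of_lt (hh : 0 < h) (hf : IsMeroCusp h f) {m : ℕ}
    (hm : PoleBound h f m) {n : ℤ} (hn : n < -(m : ℤ)) : (laurentExp h f).coeff n = 0 := by
  rw [laurentExp_eq hh hf hm]
  exact single_mul_ofPowerSeries_coeff_of_lt m _ hn

theorem laurentExp_coeff_sub (hh : 0 < h) (hf : IsMeroCusp h f) {m : ℕ}
    (hm : PoleBound h f m) (k : ℕ) :
    (laurentExp h f).coeff ((k : ℤ) - m) = PowerSeries.coeff k (qExpansion h (qPow h m * f)) := by
  rw [laurentExp_eq hh hf hm]
  exact single_mul_ofPowerSeries_coeff_sub m _ k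

/-- **Existence of the expansion** (shifted, `ℕ`-indexed form). -/
theorem hasSum_laurentExp_nat (hh : 0 < h) (hf : IsMeroCusp h f) {m : ℕ}
    (hm : PoleBound h f m) (τ : ℍ) :
    HasSum (fun k : ℕ => (laurentExp h f).coeff ((k : ℤ) - m) * Periodic.qParam h τ ^ k)
      (Periodic.qParam h τ ^ m * f τ) := by
  have := hasSum_qExpansion hh (hf.periodic_qPow_mul hh m) (hf.mdiff_qPow_mul m) hm τ
  simp only [smul_eq_mul] at this
  simp only [laurentExp_coeff_sub hh hf hm]
  exact this

/-- **Existence of the expansion** (`ℤ`-indexed form). -/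
theorem hasSum_laurentExp (hh : 0 < h) (hf : IsMeroCusp h f) (τ : ℍ) :
    HasSum (fun n : ℤ => (laurentExp h f).coeff n * Periodic.qParam h τ ^ n) (f τ) := by
  obtain ⟨m, hm⟩ := hf.bdd
  change PoleBound h f m at hm
  have hq : Periodic.qParam h τ ≠ 0 := Periodic.qParam_ne_zero _
  have h1 := (hasSum_laurentExp_nat hh hf hm τ).mul_left ((Periodic.qParam h τ ^ m)⁻¹)
  rw [inv_mul_cancel_left₀ (pow_ne_zero m hq)] at h1
  let i : ℕ → ℤ := fun k => (k : ℤ) - m
  have hi : Function.Injective i := fun a b hab => by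
    simp only [i] at hab
    omega
  have h2 : ∀ n : ℤ, n ∉ Set.range i →
      (laurentExp h f).coeff n * Periodic.qParam h τ ^ n = 0 := by
    intro n hn
    rw [laurentExp_coeff_of_lt hh hf hm, zero_mul]
    by_contra hlt
    exact hn ⟨(n + m).toNat, by simp only [i]; omega⟩
  rw [← hi.hasSum_iff h2]
  refine h1.congr_fun fun k => ?_
  change (laurentExp h f).coeff ((k : ℤ) - m) * Periodic.qParam h τ ^ ((k : ℤ) - m) = _
  rw [zpow_sub₀ hq, zpow_natCast, zpow_natCast]
  field_simp

/-- **Uniqueness of the expansion** (shifted, `ℕ`-indexed form): if `𝕢 ^ m * f` is given by a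
convergent power series in `𝕢 = 𝕢_h`, then `f` is meromorphic at the cusp and the power series
gives its Laurent expansion. -/
theorem laurentExp_of_hasSum_nat (hh : 0 < h) (hmd : MDiff f) {c : ℕ → ℂ} {m : ℕ}
    (hsum : ∀ τ : ℍ, HasSum (fun k : ℕ => c k * Periodic.qParam h τ ^ k)
      (Periodic.qParam h τ ^ m * f τ)) :
    IsMeroCusp h f ∧ laurentExp h f = HahnSeries.single (-(m : ℤ)) (1 : ℂ) *
      HahnSeries.ofPowerSeries ℤ ℂ (PowerSeries.mk c) := by
  have hsum' : ∀ τ : ℍ, HasSum (fun k : ℕ => c k • Periodic.qParam h τ ^ k)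
      ((qPow h m * f) τ) := hsum
  have hb : PoleBound h f m := isBoundedAtImInfty_of_hasSum_qExpansion hh hsum'
  have hper : Periodic (f ∘ ofComplex) h := by
    refine periodic_comp_ofComplex_of_forall fun w hw hw' => ?_
    have h1 := hsum ⟨w + h, hw'⟩
    have h2 := hsum ⟨w, hw⟩
    have hq : Periodic.qParam h ((⟨w + h, hw'⟩ : ℍ) : ℂ) = Periodic.qParam h ((⟨w, hw⟩ : ℍ) : ℂ) :=
      qParam_add_period hh.ne' w
    rw [hq] at h1
    have h3 := h1.unique h2
    exact mul_left_cancel₀ (pow_ne_zero m (Periodic.qParam_ne_zero _)) h3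
  have hf : IsMeroCusp h f := ⟨hmd, hper, m, hb⟩
  refine ⟨hf, ?_⟩
  rw [laurentExp_eq hh hf hb]
  congr 2
  ext k
  rw [PowerSeries.coeff_mk]
  exact (qExpansion_coeff_unique_fun hh (hf.analyticAt hh hb) hsum' k).symm

/-- **Uniqueness of the expansion** (`ℤ`-indexed form). -/
theorem laurentExp_of_hasSum (hh : 0 < h) (hmd : MDiff f) {c : ℤ → ℂ} {M : ℕ}
    (hc : ∀ n : ℤ, n < -(M : ℤ) → c n = 0)
    (hsum : ∀ τ : ℍ, HasSum (fun n : ℤ => c n * Periodic.qParam h τ ^ n) (f τ)) :
    IsMeroCusp h f ∧ ∀ n : ℤ, (laurentExp h f).coeff n = c n := by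
  let i : ℕ → ℤ := fun k => (k : ℤ) - M
  have hi : Function.Injective i := fun a b hab => by
    simp only [i] at hab
    omega
  have hnat : ∀ τ : ℍ, HasSum (fun k : ℕ => c ((k : ℤ) - M) * Periodic.qParam h τ ^ k)
      (Periodic.qParam h τ ^ M * f τ) := by
    intro τ
    have hq : Periodic.qParam h τ ≠ 0 := Periodic.qParam_ne_zero _
    have h2 : ∀ n : ℤ, n ∉ Set.range i → c n * Periodic.qParam h τ ^ n = 0 := by
      intro n hn
      rw [hc n, zero_mul]
      by_contra hlt
      exact hn ⟨(n + M).toNat, by simp only [i]; omega⟩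
    have h1 := ((hi.hasSum_iff h2).mpr (hsum τ)).mul_left (Periodic.qParam h τ ^ M)
    refine h1.congr_fun fun k => ?_
    change _ = Periodic.qParam h τ ^ M * (c ((k : ℤ) - M) * Periodic.qParam h τ ^ ((k : ℤ) - M))
    rw [zpow_sub₀ hq, zpow_natCast, zpow_natCast]
    field_simp
  obtain ⟨hf, hL⟩ := laurentExp_of_hasSum_nat hh hmd hnat
  refine ⟨hf, fun n => ?_⟩
  rw [hL]
  by_cases hn : n < -(M : ℤ)
  · rw [single_mul_ofPowerSeries_coeff_of_lt M _ hn, hc n hn]
  · obtain ⟨k, rfl⟩ : ∃ k : ℕ, n = (k : ℤ) - M := ⟨(n + M).toNat, by omega⟩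
    rw [single_mul_ofPowerSeries_coeff_sub, PowerSeries.coeff_mk]

end coeff

end Fermat.Agent.S28
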