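import Mathlib

/-!
# Power series converging on the open unit disc

A tiny, self-contained API: `Conv p` says that the complex power series `p` converges at every
point of the open unit disc and `evalDisc p q` is its sum.  `evalDisc` is additive,
multiplicative, and determines `p`.
-/

set_option autoImplicit false

noncomputable section

namespace Fermat.Agent.S28

open Complex Filter Topology Metric PowerSeries

/-- The power series `p` converges at every point of the open unit disc. -/
def Conv (p : PowerSeries ℂ) : Prop :=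
  ∀ q : ℂ, ‖q‖ < 1 → Summable (fun n : ℕ => coeff n p * q ^ n)

/-- The value of the power series `p` at `q` (junk if the series diverges). -/
def evalDisc (p : PowerSeries ℂ) (q : ℂ) : ℂ := ∑' n : ℕ, coeff n p * q ^ n

theorem Conv.hasSum {p : PowerSeries ℂ} (hp : Conv p) {q : ℂ} (hq : ‖q‖ < 1) :
    HasSum (fun n : ℕ => coeff n p * q ^ n) (evalDisc p q) :=
  (hp q hq).hasSum

theorem Conv.summable_norm {p : PowerSeries ℂ} (hp : Conv p) {q : ℂ} (hq : ‖q‖ < 1) :
    Summable (fun n : ℕ => ‖coeff n p * q ^ n‖) :=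
  (hp q hq).norm

theorem conv_of_hasSum {p : PowerSeries ℂ} {F : ℂ → ℂ}
    (h : ∀ q : ℂ, ‖q‖ < 1 → HasSum (fun n : ℕ => coeff n p * q ^ n) (F q)) : Conv p :=
  fun q hq => (h q hq).summable

theorem evalDisc_eq_of_hasSum {p : PowerSeries ℂ} {q a : ℂ}
    (h : HasSum (fun n : ℕ => coeff n p * q ^ n) a) : evalDisc p q = a :=
  h.tsum_eq

theorem conv_zero : Conv 0 := fun q _ => by simp [summable_zero]

@[simp] theorem evalDisc_zero (q : ℂ) : evalDisc 0 q = 0 := by simp [evalDisc]

theorem hasSum_C (a q : ℂ) : HasSum (fun n : ℕ => coeff n (C a : PowerSeries ℂ) * q ^ n) a := by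
  have : (fun n : ℕ => coeff n (C a : PowerSeries ℂ) * q ^ n) = fun n => if n = 0 then a else 0 := by
    funext n
    rcases n with _ | n
    · simp
    · simp
  rw [this]
  exact hasSum_ite_eq 0 a

theorem conv_C (a : ℂ) : Conv (C a) := fun q _ => (hasSum_C a q).summable

@[simp] theorem evalDisc_C (a q : ℂ) : evalDisc (C a) q = a := (hasSum_C a q).tsum_eq

theorem conv_one : Conv 1 := by simpa using conv_C 1

@[simp] theorem evalDisc_one (q : ℂ) : evalDisc 1 q = 1 := by
  simpa using evalDisc_C 1 q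

theorem hasSum_X_pow (k : ℕ) (q : ℂ) :
    HasSum (fun n : ℕ => coeff n ((X : PowerSeries ℂ) ^ k) * q ^ n) (q ^ k) := by
  have : (fun n : ℕ => coeff n ((X : PowerSeries ℂ) ^ k) * q ^ n) =
      fun n => if n = k then q ^ k else 0 := by
    funext n
    by_cases h : n = k
    · subst h; simp [coeff_X_pow]
    · simp [coeff_X_pow, h]
  rw [this]
  exact hasSum_ite_eq k (q ^ k)

theorem conv_X_pow (k : ℕ) : Conv ((X : PowerSeries ℂ) ^ k) :=
  fun q _ => (hasSum_X_pow k q).summable

@[simp] theorem evalDisc_X_pow (k : ℕ) (q : ℂ) : evalDisc ((X : PowerSeries ℂ) ^ k) q = q ^ k :=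
  (hasSum_X_pow k q).tsum_eq

theorem conv_X : Conv (X : PowerSeries ℂ) := by simpa using conv_X_pow 1

@[simp] theorem evalDisc_X (q : ℂ) : evalDisc (X : PowerSeries ℂ) q = q := by
  simpa using evalDisc_X_pow 1 q

theorem Conv.add {p p' : PowerSeries ℂ} (hp : Conv p) (hp' : Conv p') : Conv (p + p') :=
  fun q hq => by
    simpa [add_mul] using (hp q hq).add (hp' q hq)

theorem evalDisc_add {p p' : PowerSeries ℂ} (hp : Conv p) (hp' : Conv p') {q : ℂ}
    (hq : ‖q‖ < 1) : evalDisc (p + p') q = evalDisc p q + evalDisc p' q := by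
  have := (hp.hasSum hq).add (hp'.hasSum hq)
  exact evalDisc_eq_of_hasSum (by simpa [add_mul] using this)

theorem Conv.neg {p : PowerSeries ℂ} (hp : Conv p) : Conv (-p) :=
  fun q hq => by simpa [neg_mul] using (hp q hq).neg

theorem evalDisc_neg {p : PowerSeries ℂ} (q : ℂ) : evalDisc (-p) q = - evalDisc p q := by
  simp [evalDisc, neg_mul, tsum_neg]

theorem Conv.sub {p p' : PowerSeries ℂ} (hp : Conv p) (hp' : Conv p') : Conv (p - p') := by
  simpa [sub_eq_add_neg] using hp.add hp'.neg

theorem evalDisc_sub {p p' : PowerSeries ℂ} (hp : Conv p) (hp' : Conv p') {q : ℂ}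
    (hq : ‖q‖ < 1) : evalDisc (p - p') q = evalDisc p q - evalDisc p' q := by
  rw [sub_eq_add_neg, evalDisc_add hp hp'.neg hq, evalDisc_neg, sub_eq_add_neg]

theorem Conv.smul {p : PowerSeries ℂ} (hp : Conv p) (a : ℂ) : Conv (a • p) :=
  fun q hq => by
    simpa [mul_assoc] using (hp q hq).mul_left a

theorem evalDisc_smul (p : PowerSeries ℂ) (a q : ℂ) : evalDisc (a • p) q = a * evalDisc p q := by
  simp [evalDisc, mul_assoc, tsum_mul_left]

/-- Cauchy product. -/
theorem hasSum_mul {p p' : PowerSeries ℂ} (hp : Conv p) (hp' : Conv p') {q : ℂ} (hq : ‖q‖ < 1) :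
    HasSum (fun n : ℕ => coeff n (p * p') * q ^ n) (evalDisc p q * evalDisc p' q) := by
  have h1 := hp.summable_norm hq
  have h2 := hp'.summable_norm hq
  have key : ∀ n : ℕ, coeff n (p * p') * q ^ n =
      ∑ kl ∈ Finset.HasAntidiagonal.antidiagonal n, (coeff kl.1 p * q ^ kl.1) * (coeff kl.2 p' * q ^ kl.2) := by
    intro n
    rw [coeff_mul, Finset.sum_mul]
    refine Finset.sum_congr rfl fun kl hkl => ?_
    have : kl.1 + kl.2 = n := Finset.HasAntidiagonal.mem_antidiagonal.mp hkl
    rw [← this, pow_add]; ring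
  have hs := summable_norm_sum_mul_antidiagonal_of_summable_norm h1 h2
  have hsum : Summable (fun n : ℕ => coeff n (p * p') * q ^ n) := by
    refine Summable.of_norm ?_
    simpa [key] using hs
  have := tsum_mul_tsum_eq_tsum_sum_antidiagonal_of_summable_norm h1 h2
  rw [evalDisc, evalDisc, this]
  simpa [key] using hsum.hasSum

theorem Conv.mul {p p' : PowerSeries ℂ} (hp : Conv p) (hp' : Conv p') : Conv (p * p') :=
  fun _ hq => (hasSum_mul hp hp' hq).summable

theorem evalDisc_mul {p p' : PowerSeries ℂ} (hp : Conv p) (hp' : Conv p') {q : ℂ}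
    (hq : ‖q‖ < 1) : evalDisc (p * p') q = evalDisc p q * evalDisc p' q :=
  (hasSum_mul hp hp' hq).tsum_eq

theorem Conv.pow {p : PowerSeries ℂ} (hp : Conv p) (k : ℕ) : Conv (p ^ k) := by
  induction k with
  | zero => simpa using conv_one
  | succ k ih => rw [pow_succ]; exact ih.mul hp

theorem evalDisc_pow {p : PowerSeries ℂ} (hp : Conv p) (k : ℕ) {q : ℂ} (hq : ‖q‖ < 1) :
    evalDisc (p ^ k) q = evalDisc p q ^ k := by
  induction k with
  | zero => simp
  | succ k ih => rw [pow_succ, evalDisc_mul (hp.pow k) hp hq, ih, pow_succ]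


/-! ### Analyticity and uniqueness -/

theorem Conv.hasFPowerSeriesOnBall {p : PowerSeries ℂ} (hp : Conv p) :
    HasFPowerSeriesOnBall (evalDisc p)
      (FormalMultilinearSeries.ofScalars ℂ (fun n => coeff n p)) 0 1 := by
  constructor
  · refine le_of_forall_lt_imp_le_of_dense fun r hr => ?_
    lift r to NNReal using hr.ne_top
    apply FormalMultilinearSeries.le_radius_of_summable
    have hr' : ‖((r : ℝ) : ℂ)‖ < 1 := by
      simpa using hr
    have := hp.summable_norm hr'
    refine this.congr fun n => ?_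
    rw [FormalMultilinearSeries.ofScalars_norm]
    simp
  · simp
  · intro y hy
    rw [← ENNReal.coe_one, Metric.eball_coe, NNReal.coe_one, mem_ball_zero_iff] at hy
    have := hp.hasSum hy
    simpa [FormalMultilinearSeries.ofScalars_apply_eq, mul_comm] using this

theorem Conv.differentiableOn {p : PowerSeries ℂ} (hp : Conv p) :
    DifferentiableOn ℂ (evalDisc p) (ball 0 1) := by
  have := hp.hasFPowerSeriesOnBall.differentiableOn
  rwa [← ENNReal.coe_one, Metric.eball_coe, NNReal.coe_one] at this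

theorem Conv.continuousOn {p : PowerSeries ℂ} (hp : Conv p) :
    ContinuousOn (evalDisc p) (ball 0 1) := hp.differentiableOn.continuousOn

theorem evalDisc_zero_right (p : PowerSeries ℂ) : evalDisc p 0 = constantCoeff p := by
  have : HasSum (fun n : ℕ => coeff n p * (0 : ℂ) ^ n) (constantCoeff p) := by
    have h : (fun n : ℕ => coeff n p * (0 : ℂ) ^ n) =
        fun n => if n = 0 then constantCoeff p else 0 := by
      funext n
      rcases n with _ | n <;> simp
    rw [h]; exact hasSum_ite_eq 0 _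
  exact this.tsum_eq

/-- Two convergent power series whose sums agree near `0` are equal. -/
theorem eq_of_evalDisc_eventuallyEq {p p' : PowerSeries ℂ} (hp : Conv p) (hp' : Conv p')
    (h : evalDisc p =ᶠ[𝓝 0] evalDisc p') : p = p' := by
  have h1 := hp.hasFPowerSeriesOnBall.hasFPowerSeriesAt
  have h2 := hp'.hasFPowerSeriesOnBall.hasFPowerSeriesAt
  have := h1.eq_formalMultilinearSeries_of_eventually h2 h
  have h3 := FormalMultilinearSeries.ofScalars_series_injective ℂ ℂ this
  ext n
  exact congrFun h3 n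

theorem eq_of_evalDisc_eq {p p' : PowerSeries ℂ} (hp : Conv p) (hp' : Conv p')
    (h : ∀ q : ℂ, ‖q‖ < 1 → evalDisc p q = evalDisc p' q) : p = p' := by
  refine eq_of_evalDisc_eventuallyEq hp hp' ?_
  filter_upwards [Metric.ball_mem_nhds (0 : ℂ) one_pos] with q hq
  exact h q (by simpa using hq)

/-- Two convergent power series whose sums agree on the punctured disc are equal. -/
theorem eq_of_evalDisc_eq_punctured {p p' : PowerSeries ℂ} (hp : Conv p) (hp' : Conv p')
    (h : ∀ q : ℂ, q ≠ 0 → ‖q‖ < 1 → evalDisc p q = evalDisc p' q) : p = p' := by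
  refine eq_of_evalDisc_eq hp hp' fun q hq => ?_
  rcases eq_or_ne q 0 with rfl | hq0
  · have h0 : (0 : ℂ) ∈ ball (0 : ℂ) 1 := mem_ball_self one_pos
    have c1 : ContinuousAt (evalDisc p) 0 :=
      hp.continuousOn.continuousAt (Metric.ball_mem_nhds _ one_pos)
    have c2 : ContinuousAt (evalDisc p') 0 :=
      hp'.continuousOn.continuousAt (Metric.ball_mem_nhds _ one_pos)
    have hev : evalDisc p =ᶠ[𝓝[≠] 0] evalDisc p' := by
      have : ∀ᶠ q in 𝓝[≠] (0 : ℂ), q ∈ ball (0 : ℂ) 1 :=
        mem_nhdsWithin_of_mem_nhds (Metric.ball_mem_nhds _ one_pos)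
      filter_upwards [this, self_mem_nhdsWithin] with q hq hq0
      exact h q hq0 (by simpa using hq)
    have t1 : Tendsto (evalDisc p) (𝓝[≠] 0) (𝓝 (evalDisc p 0)) := c1.tendsto.mono_left nhdsWithin_le_nhds
    have t2 : Tendsto (evalDisc p') (𝓝[≠] 0) (𝓝 (evalDisc p' 0)) := c2.tendsto.mono_left nhdsWithin_le_nhds
    exact tendsto_nhds_unique (t1.congr' hev) t2
  · exact h q hq0 hq

/-- The Taylor series at `0` of a function. -/
def taylorPS (F : ℂ → ℂ) : PowerSeries ℂ :=
  PowerSeries.mk fun n => ((n.factorial : ℂ))⁻¹ * iteratedDeriv n F 0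

theorem hasSum_taylorPS {F : ℂ → ℂ} (hF : DifferentiableOn ℂ F (ball 0 1)) {q : ℂ}
    (hq : ‖q‖ < 1) : HasSum (fun n : ℕ => coeff n (taylorPS F) * q ^ n) (F q) := by
  have := Complex.hasSum_taylorSeries_on_ball hF (z := q) (by simpa using hq)
  have h2 : (fun n : ℕ => coeff n (taylorPS F) * q ^ n) =
      fun n : ℕ => ((n.factorial : ℂ))⁻¹ • (q - 0) ^ n • iteratedDeriv n F 0 := by
    funext n
    simp only [taylorPS, coeff_mk, smul_eq_mul, sub_zero]
    ring
  rw [h2]
  exact this

theorem conv_taylorPS {F : ℂ → ℂ} (hF : DifferentiableOn ℂ F (ball 0 1)) : Conv (taylorPS F) :=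
  fun _ hq => (hasSum_taylorPS hF hq).summable

theorem evalDisc_taylorPS {F : ℂ → ℂ} (hF : DifferentiableOn ℂ F (ball 0 1)) {q : ℂ}
    (hq : ‖q‖ < 1) : evalDisc (taylorPS F) q = F q :=
  (hasSum_taylorPS hF hq).tsum_eq

/-- A convergent power series is the Taylor series of its sum. -/
theorem Conv.eq_taylorPS {p : PowerSeries ℂ} (hp : Conv p) : p = taylorPS (evalDisc p) :=
  eq_of_evalDisc_eq hp (conv_taylorPS hp.differentiableOn)
    fun _ hq => (evalDisc_taylorPS hp.differentiableOn hq).symm

/-- If `F` agrees with the sum of `p` on the disc, `p` is the Taylor series of `F`. -/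
theorem Conv.eq_taylorPS_of_eq {p : PowerSeries ℂ} (hp : Conv p) {F : ℂ → ℂ}
    (hF : ∀ q : ℂ, ‖q‖ < 1 → evalDisc p q = F q) : p = taylorPS F := by
  have hdiff : DifferentiableOn ℂ F (ball 0 1) :=
    hp.differentiableOn.congr fun q hq => (hF q (by simpa using hq)).symm
  exact eq_of_evalDisc_eq hp (conv_taylorPS hdiff)
    fun q hq => (hF q hq).trans (evalDisc_taylorPS hdiff hq).symm


/-! ### Limits and inverses -/

theorem tendstoLocallyUniformlyOn_iteratedDeriv {ι : Type*} {l : Filter ι}
    {F : ι → ℂ → ℂ} {G : ℂ → ℂ} {U : Set ℂ}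
    (hU : IsOpen U) (hF : ∀ m, DifferentiableOn ℂ (F m) U)
    (hlim : TendstoLocallyUniformlyOn F G l U) (k : ℕ) :
    TendstoLocallyUniformlyOn (fun m => iteratedDeriv k (F m)) (iteratedDeriv k G) l U ∧
      ∀ m, DifferentiableOn ℂ (iteratedDeriv k (F m)) U := by
  induction k with
  | zero =>
    simp only [iteratedDeriv_zero]
    exact ⟨hlim, hF⟩
  | succ k ih =>
    refine ⟨?_, fun m => ?_⟩
    · have := ih.1.deriv (Eventually.of_forall ih.2) hU
      simpa only [iteratedDeriv_succ, Function.comp_def] using this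
    · rw [iteratedDeriv_succ]
      exact (ih.2 m).deriv hU

/-- If the sums of convergent power series `P m` converge locally uniformly on the disc to `G`
and the coefficients of `P m` are eventually those of `p`, then `p` converges on the disc with
sum `G`. -/
theorem conv_of_tendsto {ι : Type*} {l : Filter ι} [l.NeBot]
    {P : ι → PowerSeries ℂ} {p : PowerSeries ℂ} {G : ℂ → ℂ}
    (hP : ∀ m, Conv (P m))
    (hlim : TendstoLocallyUniformlyOn (fun m => evalDisc (P m)) G l (ball 0 1))
    (hcoeff : ∀ k, ∀ᶠ m in l, coeff k (P m) = coeff k p) :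
    Conv p ∧ ∀ q : ℂ, ‖q‖ < 1 → evalDisc p q = G q := by
  have hG : DifferentiableOn ℂ G (ball 0 1) :=
    hlim.differentiableOn (Eventually.of_forall fun m => (hP m).differentiableOn) isOpen_ball
  have hp : p = taylorPS G := by
    ext k
    have h0 : (0 : ℂ) ∈ ball (0 : ℂ) 1 := mem_ball_self one_pos
    have h1 := (tendstoLocallyUniformlyOn_iteratedDeriv isOpen_ball
      (fun m => (hP m).differentiableOn) hlim k).1.tendsto_at h0
    have h2 : Tendsto (fun m => coeff k (P m)) l (𝓝 (coeff k (taylorPS G))) := by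
      have h3 : ∀ m, coeff k (P m) =
          ((k.factorial : ℂ))⁻¹ * iteratedDeriv k (evalDisc (P m)) 0 := by
        intro m
        conv_lhs => rw [(hP m).eq_taylorPS]
        simp [taylorPS]
      simp only [h3, taylorPS, coeff_mk]
      exact h1.const_mul _
    have h4 : Tendsto (fun m => coeff k (P m)) l (𝓝 (coeff k p)) :=
      tendsto_nhds_of_eventually_eq (hcoeff k)
    exact tendsto_nhds_unique h4 h2
  subst hp
  exact ⟨conv_taylorPS hG, fun q hq => evalDisc_taylorPS hG hq⟩

theorem conv_prod {ι : Type*} (s : Finset ι) (P : ι → PowerSeries ℂ) (hP : ∀ i ∈ s, Conv (P i)) :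
    Conv (∏ i ∈ s, P i) := by
  classical
  induction s using Finset.induction_on with
  | empty => simpa using conv_one
  | insert a s ha ih =>
    rw [Finset.prod_insert ha]
    exact (hP a (Finset.mem_insert_self a s)).mul
      (ih fun i hi => hP i (Finset.mem_insert_of_mem hi))

theorem evalDisc_prod {ι : Type*} (s : Finset ι) (P : ι → PowerSeries ℂ)
    (hP : ∀ i ∈ s, Conv (P i)) {q : ℂ} (hq : ‖q‖ < 1) :
    evalDisc (∏ i ∈ s, P i) q = ∏ i ∈ s, evalDisc (P i) q := by
  classical
  induction s using Finset.induction_on with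
  | empty => simp
  | insert a s ha ih =>
    rw [Finset.prod_insert ha, Finset.prod_insert ha,
      evalDisc_mul (hP a (Finset.mem_insert_self a s))
        (conv_prod s P fun i hi => hP i (Finset.mem_insert_of_mem hi)) hq,
      ih fun i hi => hP i (Finset.mem_insert_of_mem hi)]

/-- A convergent power series with nowhere vanishing sum on the disc has a convergent inverse. -/
theorem exists_inv {p : PowerSeries ℂ} (hp : Conv p)
    (hne : ∀ q : ℂ, ‖q‖ < 1 → evalDisc p q ≠ 0) :
    ∃ s : PowerSeries ℂ, Conv s ∧ p * s = 1 ∧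
      ∀ q : ℂ, ‖q‖ < 1 → evalDisc s q = (evalDisc p q)⁻¹ := by
  have hF : DifferentiableOn ℂ (fun q => (evalDisc p q)⁻¹) (ball 0 1) :=
    hp.differentiableOn.inv fun q hq => hne q (by simpa using hq)
  refine ⟨taylorPS fun q => (evalDisc p q)⁻¹, conv_taylorPS hF, ?_,
    fun q hq => evalDisc_taylorPS hF hq⟩
  refine eq_of_evalDisc_eq (hp.mul (conv_taylorPS hF)) conv_one fun q hq => ?_
  rw [evalDisc_mul hp (conv_taylorPS hF) hq, evalDisc_taylorPS hF hq, evalDisc_one,
    mul_inv_cancel₀ (hne q hq)]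

/-- If `p * s = 1` formally, `p` converges with nowhere vanishing sum, then `s` converges and its
sum is the inverse of the sum of `p`. -/
theorem conv_of_mul_eq_one {p s : PowerSeries ℂ} (hp : Conv p)
    (hne : ∀ q : ℂ, ‖q‖ < 1 → evalDisc p q ≠ 0) (hps : p * s = 1) :
    Conv s ∧ ∀ q : ℂ, ‖q‖ < 1 → evalDisc s q = (evalDisc p q)⁻¹ := by
  obtain ⟨s', hs', hps', hev⟩ := exists_inv hp hne
  have : s = s' := by
    calc s = s * (p * s') := by rw [hps', mul_one]
      _ = (p * s) * s' := by ring
      _ = s' := by rw [hps, one_mul]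
  subst this
  exact ⟨hs', hev⟩

/-! ### Integer coefficients -/

/-- An integral power series viewed with complex coefficients. -/
def toC (f : PowerSeries ℤ) : PowerSeries ℂ := f.map (Int.castRingHom ℂ)

@[simp] theorem coeff_toC (f : PowerSeries ℤ) (n : ℕ) : coeff n (toC f) = ((coeff n f : ℤ) : ℂ) := by
  simp [toC]

@[simp] theorem toC_mul (f g : PowerSeries ℤ) : toC (f * g) = toC f * toC g := map_mul _ _ _
@[simp] theorem toC_add (f g : PowerSeries ℤ) : toC (f + g) = toC f + toC g := map_add _ _ _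
@[simp] theorem toC_sub (f g : PowerSeries ℤ) : toC (f - g) = toC f - toC g := map_sub _ _ _
@[simp] theorem toC_one : toC 1 = 1 := map_one _
@[simp] theorem toC_zero : toC 0 = 0 := map_zero _
@[simp] theorem toC_pow (f : PowerSeries ℤ) (k : ℕ) : toC (f ^ k) = toC f ^ k := map_pow _ _ _
@[simp] theorem toC_X : toC X = X := by simp [toC]

end Fermat.Agent.S28
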