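import Mathlib
import Fermat.Prelude.Def_ModularCurve_X0
import Fermat.Agent.S28.DiscSeries

/-!
# The analytic `j`-function and the formal `q`-series of the Prelude

`jFun = E₄³/Δ` on the upper half plane.  Main results (`q = 𝕢 1 z = exp (2πi z)`):

* `evalDisc_eisenstein4 : evalDisc (toC eisenstein4) q = E₄ z`
* `discriminant_eq_evalDisc : Δ z = q * evalDisc (toC dedekindEtaUnit) q`
* `evalDisc_jNum : evalDisc (toC jNum) q = jFun z * q`, i.e. `j(z) = ∑_{n ≥ -1} jq.coeff n * q ^ n`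
* `jFun_smul`, `mdifferentiable_jFun`.
-/

set_option autoImplicit false

noncomputable section

namespace Fermat.Agent.S28

open Complex Filter Topology Metric PowerSeries UpperHalfPlane ModularForm EisensteinSeries
open ModularCurve
open scoped Real ArithmeticFunction.sigma MatrixGroups Manifold

local notation "𝕢" => Function.Periodic.qParam
local notation "Δ" => ModularForm.discriminant

theorem qExpansion_E4 : qExpansion 1 E₄ = toC eisenstein4 := by
  ext m
  rw [E_qExpansion_coeff (by norm_num : 3 ≤ 4) ⟨2, rfl⟩ m, coeff_toC]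
  simp only [eisenstein4, coeff_mk]
  rcases eq_or_ne m 0 with rfl | hm
  · simp
  · simp only [hm, if_false]
    rw [show bernoulli 4 = -1 / 30 by decide +kernel]
    simp [ArithmeticFunction.sigma_apply]
    norm_num

theorem conv_qExpansion_levelOne {k : ℤ} (f : ModularForm 𝒮ℒ k) : Conv (qExpansion 1 f) := by
  intro q hq
  have := UpperHalfPlane.hasSum_qExpansion_of_norm_lt (h := 1) (f := f) one_pos
    (SlashInvariantFormClass.periodic_comp_ofComplex f one_mem_strictPeriods_SL)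
    (ModularFormClass.holo f) (ModularFormClass.bdd_at_infty f) hq
  simpa [smul_eq_mul] using this.summable

theorem evalDisc_qExpansion_levelOne {k : ℤ} (f : ModularForm 𝒮ℒ k) (τ : ℍ) :
    evalDisc (qExpansion 1 f) (𝕢 1 τ) = f τ :=
  (ModularForm.hasSum_qExpansion (f := f) one_pos one_mem_strictPeriods_SL τ).tsum_eq

theorem etaProd_eq_pentagonal : etaProd = pentagonalSeries ℤ := by
  rw [etaProd]
  exact PowerSeries.WithPiTopology.tprod_one_sub_X_pow ℤ

theorem toC_pentagonal : toC (pentagonalSeries ℤ) = pentagonalSeries ℂ := by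
  ext n
  rw [coeff_toC]
  by_cases h : n ∈ Set.range pentagonal
  · obtain ⟨k, rfl⟩ := h
    simp
  · rw [coeff_pentagonalSeries_eq_zero ℤ h, coeff_pentagonalSeries_eq_zero ℂ h]
    simp

theorem toC_etaProd : toC etaProd = pentagonalSeries ℂ := by
  rw [etaProd_eq_pentagonal, toC_pentagonal]

/-- The formal eta product converges on the disc to the analytic eta product. -/
theorem conv_etaProd_aux :
    Conv (toC etaProd) ∧ ∀ q : ℂ, ‖q‖ < 1 → evalDisc (toC etaProd) q = ∏' n : ℕ, (1 - q ^ (n + 1)) := by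
  have hfac : ∀ n : ℕ, Conv (1 - (X : PowerSeries ℂ) ^ (n + 1)) :=
    fun n => conv_one.sub (conv_X_pow (n + 1))
  have hP : ∀ s : Finset ℕ, Conv (∏ n ∈ s, (1 - (X : PowerSeries ℂ) ^ (n + 1))) :=
    fun s => conv_prod s _ fun n _ => hfac n
  have hev : ∀ s : Finset ℕ, ∀ q : ℂ, ‖q‖ < 1 →
      evalDisc (∏ n ∈ s, (1 - (X : PowerSeries ℂ) ^ (n + 1))) q = ∏ n ∈ s, (1 - q ^ (n + 1)) := by
    intro s q hq
    rw [evalDisc_prod s _ (fun n _ => hfac n) hq]
    refine Finset.prod_congr rfl fun n _ => ?_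
    rw [evalDisc_sub conv_one (conv_X_pow (n + 1)) hq, evalDisc_one, evalDisc_X_pow]
  refine conv_of_tendsto (l := (atTop : Filter (Finset ℕ))) hP ?_ ?_
  · have := ModularForm.multipliableLocallyUniformlyOn_one_sub_pow.hasProdLocallyUniformlyOn
    rw [HasProdLocallyUniformlyOn] at this
    refine this.congr fun s q hq => ?_
    exact (hev s q (by simpa using hq)).symm
  · intro k
    rw [toC_etaProd]
    exact PowerSeries.coeff_prod_one_sub_X_pow_eventually_eq ℂ k

theorem conv_etaProd : Conv (toC etaProd) := conv_etaProd_aux.1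

theorem evalDisc_etaProd {q : ℂ} (hq : ‖q‖ < 1) :
    evalDisc (toC etaProd) q = ∏' n : ℕ, (1 - q ^ (n + 1)) := conv_etaProd_aux.2 q hq

theorem evalDisc_etaProd_ne_zero {q : ℂ} (hq : ‖q‖ < 1) : evalDisc (toC etaProd) q ≠ 0 := by
  rw [evalDisc_etaProd hq]
  have h1 : ∀ n : ℕ, 1 + (-(q ^ (n + 1))) ≠ 0 := by
    intro n h
    have h2 : q ^ (n + 1) = 1 := by linear_combination -h
    have h3 : ‖q‖ ^ (n + 1) = 1 := by rw [← norm_pow, h2, norm_one]
    have h4 : ‖q‖ ^ (n + 1) < 1 := pow_lt_one₀ (norm_nonneg _) hq (Nat.succ_ne_zero n)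
    linarith
  have h2 : Summable fun n : ℕ => ‖-(q ^ (n + 1))‖ := by
    simp only [norm_neg, norm_pow]
    exact (summable_nat_add_iff 1).mpr (summable_geometric_of_lt_one (norm_nonneg _) hq)
  have := tprod_one_add_ne_zero_of_summable (f := fun n : ℕ => -(q ^ (n + 1))) h1 h2
  simpa [sub_eq_add_neg] using this

theorem conv_dedekindEtaUnit : Conv (toC dedekindEtaUnit) := by
  rw [dedekindEtaUnit, toC_pow]; exact conv_etaProd.pow 24

theorem evalDisc_dedekindEtaUnit {q : ℂ} (hq : ‖q‖ < 1) :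
    evalDisc (toC dedekindEtaUnit) q = (∏' n : ℕ, (1 - q ^ (n + 1))) ^ 24 := by
  rw [dedekindEtaUnit, toC_pow, evalDisc_pow conv_etaProd 24 hq, evalDisc_etaProd hq]

theorem evalDisc_dedekindEtaUnit_ne_zero {q : ℂ} (hq : ‖q‖ < 1) :
    evalDisc (toC dedekindEtaUnit) q ≠ 0 := by
  rw [dedekindEtaUnit, toC_pow, evalDisc_pow conv_etaProd 24 hq]
  exact pow_ne_zero _ (evalDisc_etaProd_ne_zero hq)

theorem norm_qParam_one_lt_one (z : ℍ) : ‖𝕢 1 z‖ < 1 := by
  have := UpperHalfPlane.norm_qParam_lt_one 1 z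
  simpa using this

/-- `Δ(z) = q * (formal eta unit)(q)`. -/
theorem discriminant_eq_evalDisc (z : ℍ) :
    Δ z = 𝕢 1 z * evalDisc (toC dedekindEtaUnit) (𝕢 1 z) := by
  have hq := norm_qParam_one_lt_one z
  rw [discriminant_eq_q_prod, evalDisc_dedekindEtaUnit hq]
  congr 1
  exact (ModularForm.multipliable_one_sub_pow hq).tprod_pow 24

theorem conv_dedekindEtaUnitInv_aux :
    Conv (toC dedekindEtaUnitInv) ∧ ∀ q : ℂ, ‖q‖ < 1 →
      evalDisc (toC dedekindEtaUnitInv) q = (evalDisc (toC dedekindEtaUnit) q)⁻¹ := by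
  refine conv_of_mul_eq_one conv_dedekindEtaUnit (fun q hq => evalDisc_dedekindEtaUnit_ne_zero hq) ?_
  rw [← toC_mul, dedekindEtaUnit_mul_inv, toC_one]

theorem conv_dedekindEtaUnitInv : Conv (toC dedekindEtaUnitInv) := conv_dedekindEtaUnitInv_aux.1

theorem evalDisc_dedekindEtaUnitInv {q : ℂ} (hq : ‖q‖ < 1) :
    evalDisc (toC dedekindEtaUnitInv) q = (evalDisc (toC dedekindEtaUnit) q)⁻¹ :=
  conv_dedekindEtaUnitInv_aux.2 q hq

theorem conv_eisenstein4 : Conv (toC eisenstein4) := by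
  rw [← qExpansion_E4]; exact conv_qExpansion_levelOne E₄

theorem evalDisc_eisenstein4 (z : ℍ) : evalDisc (toC eisenstein4) (𝕢 1 z) = E₄ z := by
  rw [← qExpansion_E4]; exact evalDisc_qExpansion_levelOne E₄ z

theorem conv_jNum : Conv (toC jNum) := by
  rw [jNum, toC_mul, toC_pow]
  exact (conv_eisenstein4.pow 3).mul conv_dedekindEtaUnitInv

/-- The modular `j`-function `E₄³/Δ` (normalised so that `j = q⁻¹ + 744 + ⋯`). -/
def jFun (z : ℍ) : ℂ := E₄ z ^ 3 / Δ z

/-- **Formal = analytic** for `j`: `j(z) * q = jNum(q)`. -/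
theorem evalDisc_jNum (z : ℍ) : evalDisc (toC jNum) (𝕢 1 z) = jFun z * 𝕢 1 z := by
  have hq := norm_qParam_one_lt_one z
  have hq0 : 𝕢 1 (z : ℂ) ≠ 0 := Function.Periodic.qParam_ne_zero _
  rw [jNum, toC_mul, toC_pow, evalDisc_mul (conv_eisenstein4.pow 3) conv_dedekindEtaUnitInv hq,
    evalDisc_pow conv_eisenstein4 3 hq, evalDisc_eisenstein4, evalDisc_dedekindEtaUnitInv hq,
    jFun, discriminant_eq_evalDisc z]
  field_simp [evalDisc_dedekindEtaUnit_ne_zero hq]

theorem hasSum_jFun (z : ℍ) :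
    HasSum (fun n : ℕ => ((coeff n jNum : ℤ) : ℂ) * 𝕢 1 z ^ n) (jFun z * 𝕢 1 z) := by
  have := conv_jNum.hasSum (norm_qParam_one_lt_one z)
  rw [evalDisc_jNum] at this
  simpa using this

theorem jFun_smul (γ : SL(2, ℤ)) (z : ℍ) : jFun (γ • z) = jFun z := by
  have hmem : Matrix.SpecialLinearGroup.mapGL ℝ γ ∈ 𝒮ℒ := ⟨γ, rfl⟩
  have h4 := SlashInvariantForm.slash_action_eqn'' E₄ hmem z
  have h12 := SlashInvariantForm.slash_action_eqn'' CuspForm.discriminant hmem z
  have hd : denom (Matrix.SpecialLinearGroup.mapGL ℝ γ) z ≠ 0 := denom_ne_zero _ _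
  have hsm : (Matrix.SpecialLinearGroup.mapGL ℝ γ) • z = γ • z := rfl
  rw [hsm] at h4 h12
  simp only [CuspForm.coe_discriminant] at h12
  rw [jFun, jFun, h4, h12]
  have hΔ : Δ z ≠ 0 := discriminant_ne_zero z
  rw [mul_pow, ← zpow_natCast (denom _ z ^ (4 : ℤ)) 3, ← zpow_mul]
  norm_num
  field_simp

theorem mdifferentiable_jFun : MDiff jFun := by
  have h4 : MDiff (E₄ : ℍ → ℂ) := ModularFormClass.holo E₄
  have h12 : MDiff (Δ : ℍ → ℂ) := by
    have := ModularFormClass.holo CuspForm.discriminant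
    simpa using this
  intro z
  have := (h4 z).pow 3
  exact ((h4 z).pow 3).div (h12 z) (discriminant_ne_zero z)

end Fermat.Agent.S28
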