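import Mathlib
import Fermat.Agent.S28.Defs
import Fermat.Agent.S28.JFunction

/-!
# Convergent cusp expansions of functions on the upper half plane

`HasCuspExp h f L` : the function `f : ℍ → ℂ` is given, for every `τ`, by the convergent Laurent
series `L` in the local parameter `t = 𝕢 h τ = exp (2πi τ / h)`.
The Laurent series is unique, the relation is compatible with ring operations, with change of
the period and with the substitutions `τ ↦ (A τ + B) / D`.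
-/

set_option autoImplicit false

noncomputable section

namespace Fermat.Agent.S28

open Complex PowerSeries ModularCurve ModularForm EisensteinSeries
open UpperHalfPlane hiding I
open scoped Real Manifold MatrixGroups

local notation "𝕢" => Function.Periodic.qParam
local notation "Δ" => ModularForm.discriminant

/-! ### Laurent series of the form `t^(-M) * p(t)` -/

/-- `t^(-M) * p(t)` as a Laurent series -/
def lsOf (M : ℕ) (p : PowerSeries ℂ) : LaurentSeries ℂ :=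
  HahnSeries.single (-(M : ℤ)) (1 : ℂ) * HahnSeries.ofPowerSeries ℤ ℂ p

theorem lsOf_zero_left (p : PowerSeries ℂ) : lsOf 0 p = HahnSeries.ofPowerSeries ℤ ℂ p := by
  simp [lsOf]

theorem lsOf_X_pow_mul (M k : ℕ) (p : PowerSeries ℂ) :
    lsOf (M + k) ((X : PowerSeries ℂ) ^ k * p) = lsOf M p := by
  rw [lsOf, lsOf, map_mul, HahnSeries.ofPowerSeries_X_pow, ← mul_assoc,
    HahnSeries.single_mul_single]
  congr 2
  · push_cast; ring_nf
  · simp

theorem lsOf_add (M : ℕ) (p p' : PowerSeries ℂ) : lsOf M p + lsOf M p' = lsOf M (p + p') := by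
  simp [lsOf, mul_add]

theorem lsOf_mul (M M' : ℕ) (p p' : PowerSeries ℂ) :
    lsOf M p * lsOf M' p' = lsOf (M + M') (p * p') := by
  rw [lsOf, lsOf, lsOf, map_mul, mul_mul_mul_comm, HahnSeries.single_mul_single]
  congr 2
  · push_cast; ring_nf
  · simp

theorem lsOf_neg (M : ℕ) (p : PowerSeries ℂ) : -lsOf M p = lsOf M (-p) := by
  rw [lsOf, lsOf, map_neg]
  exact (mul_neg (α := LaurentSeries ℂ) _ _).symm

theorem lsOf_eq_of_mul_eq {M M' : ℕ} {p p' : PowerSeries ℂ}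
    (h : (X : PowerSeries ℂ) ^ M' * p = (X : PowerSeries ℂ) ^ M * p') : lsOf M p = lsOf M' p' := by
  rw [← lsOf_X_pow_mul M M' p, h, add_comm, lsOf_X_pow_mul]

theorem lsOf_C (c : ℂ) : lsOf 0 (C c) = HahnSeries.C c := by
  rw [lsOf_zero_left, HahnSeries.ofPowerSeries_C]


/-! ### The parameter `𝕢 h` -/

theorem norm_qParam_lt_one' {h : ℝ} (hh : 0 < h) (τ : ℍ) : ‖𝕢 h τ‖ < 1 :=
  Function.Periodic.norm_qParam_lt_one hh τ.im_pos

theorem qParam_ne_zero' (h : ℝ) (τ : ℍ) : 𝕢 h (τ : ℂ) ≠ 0 :=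
  Function.Periodic.qParam_ne_zero _

/-- every point of the punctured unit disc is a value of `𝕢 h` on the upper half plane -/
theorem exists_qParam_eq {h : ℝ} (hh : 0 < h) {q : ℂ} (hq : ‖q‖ < 1) (hq0 : q ≠ 0) :
    ∃ τ : ℍ, 𝕢 h τ = q :=
  ⟨⟨Function.Periodic.invQParam h q,
    Function.Periodic.im_invQParam_pos_of_norm_lt_one hh hq hq0⟩,
    Function.Periodic.qParam_right_inv hh.ne' hq0⟩

/-! ### Cusp expansions -/

/-- `f` is given on the whole upper half plane by the convergent Laurent series `L` in the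
parameter `𝕢 h τ`. -/
def HasCuspExp (h : ℝ) (f : ℍ → ℂ) (L : LaurentSeries ℂ) : Prop :=
  ∃ (M : ℕ) (p : PowerSeries ℂ), Conv p ∧ L = lsOf M p ∧
    ∀ τ : ℍ, f τ * 𝕢 h τ ^ M = evalDisc p (𝕢 h τ)

theorem hasCuspExp_of_evalDisc {h : ℝ} {f : ℍ → ℂ} (M : ℕ) {p : PowerSeries ℂ} (hp : Conv p)
    (hf : ∀ τ : ℍ, f τ * 𝕢 h τ ^ M = evalDisc p (𝕢 h τ)) : HasCuspExp h f (lsOf M p) :=
  ⟨M, p, hp, rfl, hf⟩

/-- the pole order can be increased -/
theorem HasCuspExp.exists_ge {h : ℝ} (hh : 0 < h) {f : ℍ → ℂ} {L : LaurentSeries ℂ}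
    (hf : HasCuspExp h f L) (M₀ : ℕ) :
    ∃ (M : ℕ) (p : PowerSeries ℂ), M₀ ≤ M ∧ Conv p ∧ L = lsOf M p ∧
      ∀ τ : ℍ, f τ * 𝕢 h τ ^ M = evalDisc p (𝕢 h τ) := by
  obtain ⟨M, p, hp, rfl, hf⟩ := hf
  refine ⟨M + M₀, X ^ M₀ * p, Nat.le_add_left _ _, (conv_X_pow M₀).mul hp,
    (lsOf_X_pow_mul M M₀ p).symm, fun τ => ?_⟩
  have hq := norm_qParam_lt_one' hh τ
  rw [evalDisc_mul (conv_X_pow M₀) hp hq, evalDisc_X_pow, ← hf τ, pow_add]
  ring

/-- **Uniqueness** of the cusp expansion. -/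
theorem HasCuspExp.unique {h : ℝ} (hh : 0 < h) {f : ℍ → ℂ} {L L' : LaurentSeries ℂ}
    (hf : HasCuspExp h f L) (hf' : HasCuspExp h f L') : L = L' := by
  obtain ⟨M, p, hp, rfl, hf⟩ := hf
  obtain ⟨M', p', hp', rfl, hf'⟩ := hf'
  refine lsOf_eq_of_mul_eq ?_
  refine eq_of_evalDisc_eq_punctured ((conv_X_pow M').mul hp) ((conv_X_pow M).mul hp')
    fun q hq0 hq => ?_
  obtain ⟨τ, rfl⟩ := exists_qParam_eq hh hq hq0
  rw [evalDisc_mul (conv_X_pow M') hp hq, evalDisc_mul (conv_X_pow M) hp' hq, evalDisc_X_pow,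
    evalDisc_X_pow, ← hf τ, ← hf' τ]
  ring

theorem HasCuspExp.congr {h : ℝ} {f g : ℍ → ℂ} {L : LaurentSeries ℂ}
    (hf : HasCuspExp h f L) (hfg : ∀ τ, f τ = g τ) : HasCuspExp h g L := by
  obtain ⟨M, p, hp, rfl, hf⟩ := hf
  exact ⟨M, p, hp, rfl, fun τ => by rw [← hfg τ, hf τ]⟩

theorem hasCuspExp_const (h : ℝ) (c : ℂ) : HasCuspExp h (fun _ => c) (HahnSeries.C c) :=
  ⟨0, C c, conv_C c, (lsOf_C c).symm, fun τ => by simp⟩

theorem hasCuspExp_zero (h : ℝ) : HasCuspExp h (fun _ => 0) 0 := by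
  simpa using hasCuspExp_const h 0

theorem hasCuspExp_one (h : ℝ) : HasCuspExp h (fun _ => 1) 1 := by
  simpa using hasCuspExp_const h 1

theorem HasCuspExp.add {h : ℝ} (hh : 0 < h) {f g : ℍ → ℂ} {L L' : LaurentSeries ℂ}
    (hf : HasCuspExp h f L) (hg : HasCuspExp h g L') :
    HasCuspExp h (fun τ => f τ + g τ) (L + L') := by
  obtain ⟨M, p, hp, rfl, hf⟩ := hf
  obtain ⟨M', p', hp', rfl, hg⟩ := hg
  refine ⟨M + M', X ^ M' * p + X ^ M * p',
    ((conv_X_pow M').mul hp).add ((conv_X_pow M).mul hp'), ?_, fun τ => ?_⟩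
  · rw [← lsOf_add, lsOf_X_pow_mul, add_comm M M', lsOf_X_pow_mul]
  · have hq := norm_qParam_lt_one' hh τ
    rw [evalDisc_add ((conv_X_pow M').mul hp) ((conv_X_pow M).mul hp') hq,
      evalDisc_mul (conv_X_pow M') hp hq, evalDisc_mul (conv_X_pow M) hp' hq, evalDisc_X_pow,
      evalDisc_X_pow, ← hf τ, ← hg τ, pow_add]
    ring

theorem HasCuspExp.mul {h : ℝ} (hh : 0 < h) {f g : ℍ → ℂ} {L L' : LaurentSeries ℂ}
    (hf : HasCuspExp h f L) (hg : HasCuspExp h g L') :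
    HasCuspExp h (fun τ => f τ * g τ) (L * L') := by
  obtain ⟨M, p, hp, rfl, hf⟩ := hf
  obtain ⟨M', p', hp', rfl, hg⟩ := hg
  refine ⟨M + M', p * p', hp.mul hp', lsOf_mul M M' p p', fun τ => ?_⟩
  have hq := norm_qParam_lt_one' hh τ
  rw [evalDisc_mul hp hp' hq, ← hf τ, ← hg τ, pow_add]
  ring

theorem HasCuspExp.neg {h : ℝ} {f : ℍ → ℂ} {L : LaurentSeries ℂ}
    (hf : HasCuspExp h f L) : HasCuspExp h (fun τ => -f τ) (-L) := by
  obtain ⟨M, p, hp, rfl, hf⟩ := hf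
  exact ⟨M, -p, hp.neg, lsOf_neg M p, fun τ => by rw [evalDisc_neg, ← hf τ]; ring⟩

theorem HasCuspExp.sub {h : ℝ} (hh : 0 < h) {f g : ℍ → ℂ} {L L' : LaurentSeries ℂ}
    (hf : HasCuspExp h f L) (hg : HasCuspExp h g L') :
    HasCuspExp h (fun τ => f τ - g τ) (L - L') := by
  simpa [sub_eq_add_neg] using hf.add hh hg.neg

theorem HasCuspExp.const_mul {h : ℝ} (hh : 0 < h) {f : ℍ → ℂ} {L : LaurentSeries ℂ}
    (hf : HasCuspExp h f L) (c : ℂ) : HasCuspExp h (fun τ => c * f τ) (HahnSeries.C c * L) :=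
  (hasCuspExp_const h c).mul hh hf

theorem HasCuspExp.pow {h : ℝ} (hh : 0 < h) {f : ℍ → ℂ} {L : LaurentSeries ℂ}
    (hf : HasCuspExp h f L) (n : ℕ) : HasCuspExp h (fun τ => f τ ^ n) (L ^ n) := by
  induction n with
  | zero => simpa using hasCuspExp_one h
  | succ n ih => simpa [pow_succ] using ih.mul hh hf

theorem HasCuspExp.sum {h : ℝ} (hh : 0 < h) {ι : Type*} (s : Finset ι) {f : ι → ℍ → ℂ}
    {L : ι → LaurentSeries ℂ} (hf : ∀ i ∈ s, HasCuspExp h (f i) (L i)) :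
    HasCuspExp h (fun τ => ∑ i ∈ s, f i τ) (∑ i ∈ s, L i) := by
  classical
  induction s using Finset.induction_on with
  | empty => simpa using hasCuspExp_zero h
  | insert a s ha ih =>
    simp only [Finset.sum_insert ha]
    exact (hf a (Finset.mem_insert_self a s)).add hh
      (ih fun i hi => hf i (Finset.mem_insert_of_mem hi))

theorem HasCuspExp.prod {h : ℝ} (hh : 0 < h) {ι : Type*} (s : Finset ι) {f : ι → ℍ → ℂ}
    {L : ι → LaurentSeries ℂ} (hf : ∀ i ∈ s, HasCuspExp h (f i) (L i)) :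
    HasCuspExp h (fun τ => ∏ i ∈ s, f i τ) (∏ i ∈ s, L i) := by
  classical
  induction s using Finset.induction_on with
  | empty => simpa using hasCuspExp_one h
  | insert a s ha ih =>
    simp only [Finset.prod_insert ha]
    exact (hf a (Finset.mem_insert_self a s)).mul hh
      (ih fun i hi => hf i (Finset.mem_insert_of_mem hi))

/-- a function with a cusp expansion which vanishes identically has expansion `0`;
conversely expansion `0` forces `f = 0`. -/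
theorem HasCuspExp.eq_zero_of_exp_eq_zero {h : ℝ} {f : ℍ → ℂ}
    (hf : HasCuspExp h f 0) (τ : ℍ) : f τ = 0 := by
  obtain ⟨M, p, hp, h0, hf⟩ := hf
  have hp0 : p = 0 := by
    have h1 : HahnSeries.ofPowerSeries ℤ ℂ p = 0 := by
      have h2 : HahnSeries.single (M : ℤ) (1 : ℂ) * lsOf M p = HahnSeries.ofPowerSeries ℤ ℂ p := by
        rw [lsOf, ← mul_assoc, HahnSeries.single_mul_single]
        simp
      rw [← h2, ← h0, mul_zero]
    exact HahnSeries.ofPowerSeries_injective (Γ := ℤ) (by rw [h1, map_zero])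
  have := hf τ
  rw [hp0, evalDisc_zero] at this
  exact (mul_eq_zero.mp this).resolve_right (pow_ne_zero _ (qParam_ne_zero' h τ))

/-! ### Rescaling and expanding convergent power series -/

theorem hasSum_rescale {p : PowerSeries ℂ} (hp : Conv p) {ξ : ℂ} (hξ : ‖ξ‖ ≤ 1) {q : ℂ}
    (hq : ‖q‖ < 1) :
    HasSum (fun n : ℕ => coeff n (rescale ξ p) * q ^ n) (evalDisc p (ξ * q)) := by
  have hξq : ‖ξ * q‖ < 1 := by
    rw [norm_mul]
    calc ‖ξ‖ * ‖q‖ ≤ 1 * ‖q‖ := by gcongr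
      _ < 1 := by simpa using hq
  have h := hp.hasSum hξq
  have h2 : (fun n : ℕ => coeff n (rescale ξ p) * q ^ n) =
      fun n : ℕ => coeff n p * (ξ * q) ^ n := by
    funext n
    rw [coeff_rescale, mul_pow]; ring
  rw [h2]; exact h

theorem conv_rescale {p : PowerSeries ℂ} (hp : Conv p) {ξ : ℂ} (hξ : ‖ξ‖ ≤ 1) :
    Conv (rescale ξ p) := fun _ hq => (hasSum_rescale hp hξ hq).summable

theorem evalDisc_rescale {p : PowerSeries ℂ} (hp : Conv p) {ξ : ℂ} (hξ : ‖ξ‖ ≤ 1) {q : ℂ}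
    (hq : ‖q‖ < 1) : evalDisc (rescale ξ p) q = evalDisc p (ξ * q) :=
  (hasSum_rescale hp hξ hq).tsum_eq

theorem hasSum_expand {p : PowerSeries ℂ} (hp : Conv p) {e : ℕ} (he : e ≠ 0) {q : ℂ}
    (hq : ‖q‖ < 1) :
    HasSum (fun n : ℕ => coeff n (expand e he p) * q ^ n) (evalDisc p (q ^ e)) := by
  have hqe : ‖q ^ e‖ < 1 := by
    rw [norm_pow]; exact pow_lt_one₀ (norm_nonneg _) hq he
  have h := hp.hasSum hqe
  have hinj : Function.Injective (fun m : ℕ => e * m) :=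
    fun a b hab => Nat.eq_of_mul_eq_mul_left (Nat.pos_of_ne_zero he) hab
  rw [← hinj.hasSum_iff]
  · have h2 : ((fun n : ℕ => coeff n (expand e he p) * q ^ n) ∘ fun m : ℕ => e * m) =
        fun m : ℕ => coeff m p * (q ^ e) ^ m := by
      funext m
      simp only [Function.comp_apply]
      rw [coeff_expand_mul, pow_mul]
    rw [h2]; exact h
  · intro n hn
    have : ¬ e ∣ n := fun ⟨m, hm⟩ => hn ⟨m, hm.symm⟩
    rw [coeff_expand_of_not_dvd e he p this, zero_mul]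

theorem conv_expand {p : PowerSeries ℂ} (hp : Conv p) {e : ℕ} (he : e ≠ 0) :
    Conv (expand e he p) := fun _ hq => (hasSum_expand hp he hq).summable

theorem evalDisc_expand {p : PowerSeries ℂ} (hp : Conv p) {e : ℕ} (he : e ≠ 0) {q : ℂ}
    (hq : ‖q‖ < 1) : evalDisc (expand e he p) q = evalDisc p (q ^ e) :=
  (hasSum_expand hp he hq).tsum_eq

section Formal

variable {R : Type*} [CommRing R]

theorem ofPowerSeries_coeff_natCast (p : PowerSeries R) (n : ℕ) :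
    (HahnSeries.ofPowerSeries ℤ R p).coeff (n : ℤ) = coeff n p :=
  HahnSeries.ofPowerSeries_apply_coeff p n

theorem qExpand_ofPowerSeries (e : ℕ) [NeZero e] (p : PowerSeries R) :
    qExpand R e (HahnSeries.ofPowerSeries ℤ R p) =
      HahnSeries.ofPowerSeries ℤ R (expand e (NeZero.ne e) p) := by
  ext k
  by_cases hk : (e : ℤ) ∣ k
  · obtain ⟨m, rfl⟩ := hk
    rw [qExpand_coeff_mul]
    rcases le_or_gt 0 m with hm | hm
    · lift m to ℕ using hm
      rw [ofPowerSeries_coeff_natCast, show (e : ℤ) * (m : ℤ) = ((e * m : ℕ) : ℤ) by push_cast; ring,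
        ofPowerSeries_coeff_natCast, coeff_expand_mul]
    · have hneg : (e : ℤ) * m < 0 :=
        mul_neg_of_pos_of_neg (by exact_mod_cast Nat.pos_of_ne_zero (NeZero.ne e)) hm
      rw [ofPowerSeries_coeff_of_neg _ hm, ofPowerSeries_coeff_of_neg _ hneg]
  · rw [qExpand_coeff_of_not_dvd e _ hk]
    rcases le_or_gt 0 k with hk0 | hk0
    · lift k to ℕ using hk0
      rw [ofPowerSeries_coeff_natCast, coeff_expand_of_not_dvd]
      exact fun h => hk (by exact_mod_cast h)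
    · rw [ofPowerSeries_coeff_of_neg _ hk0]

theorem scaleHom_ofPowerSeries (ξ : Rˣ) (p : PowerSeries R) :
    scaleHom R ξ (HahnSeries.ofPowerSeries ℤ R p) =
      HahnSeries.ofPowerSeries ℤ R (rescale (ξ : R) p) := by
  ext k
  rw [scaleHom_coeff]
  rcases le_or_gt 0 k with hk | hk
  · lift k to ℕ using hk
    rw [ofPowerSeries_coeff_natCast, ofPowerSeries_coeff_natCast, coeff_rescale, zpow_natCast,
      Units.val_pow_eq_pow_val]
  · rw [ofPowerSeries_coeff_of_neg _ hk, ofPowerSeries_coeff_of_neg _ hk, mul_zero]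

theorem scaleHom_single (ξ : Rˣ) (k : ℤ) (r : R) :
    scaleHom R ξ (HahnSeries.single k r) = HahnSeries.single k (((ξ ^ k : Rˣ) : R) * r) := by
  ext m
  rw [scaleHom_coeff, HahnSeries.coeff_single, HahnSeries.coeff_single]
  split_ifs with h
  · subst h; rfl
  · rw [mul_zero]

end Formal

/-! ### Change of period and affine substitutions -/

theorem qParam_mul_natCast_pow (h : ℝ) (K : ℕ) (hK : K ≠ 0) (z : ℂ) :
    𝕢 (h * K) z ^ K = 𝕢 h z := by
  unfold Function.Periodic.qParam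
  rw [← Complex.exp_nat_mul]
  congr 1
  have hK' : (K : ℂ) ≠ 0 := by exact_mod_cast hK
  push_cast
  by_cases hh : (h : ℂ) = 0
  · simp [hh]
  · field_simp

theorem lsOf_eq_single_mul (M : ℕ) (c : ℂ) (p : PowerSeries ℂ) :
    HahnSeries.single (-(M : ℤ)) c * HahnSeries.ofPowerSeries ℤ ℂ p = lsOf M (C c * p) := by
  rw [lsOf, map_mul, HahnSeries.ofPowerSeries_C, ← mul_assoc]
  congr 1
  rw [HahnSeries.C_apply, HahnSeries.single_mul_single]
  simp

/-- **Change of period**: an expansion in `𝕢 h` gives an expansion in `𝕢 (h K)`. -/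
theorem HasCuspExp.period_mul {h : ℝ} (hh : 0 < h) {f : ℍ → ℂ} {L : LaurentSeries ℂ}
    (hf : HasCuspExp h f L) (K : ℕ) [NeZero K] :
    HasCuspExp (h * K) f (qExpand ℂ K L) := by
  obtain ⟨M, p, hp, rfl, hf⟩ := hf
  have hK : K ≠ 0 := NeZero.ne K
  have hhK : 0 < h * K := mul_pos hh (by exact_mod_cast Nat.pos_of_ne_zero hK)
  refine ⟨K * M, expand K hK p, conv_expand hp hK, ?_, fun τ => ?_⟩
  · rw [lsOf, map_mul, qExpand_single, qExpand_ofPowerSeries, lsOf]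
    congr 2
    push_cast; ring_nf
  · have hq := norm_qParam_lt_one' hhK τ
    rw [evalDisc_expand hp hK hq, qParam_mul_natCast_pow h K hK, ← hf τ, pow_mul,
      qParam_mul_natCast_pow h K hK]


theorem qParam_one_affine {A D e N : ℕ} {B : ℤ} (hD : D ≠ 0) (hN : N ≠ 0)
    (heq : e * D = N * A) (τ w : ℂ) (hw : w = ((A : ℂ) * τ + B) / D) :
    𝕢 1 w = Complex.exp (2 * π * I * B / D) * 𝕢 (N : ℝ) τ ^ e := by
  unfold Function.Periodic.qParam
  rw [← Complex.exp_nat_mul, ← Complex.exp_add]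
  congr 1
  have hD' : (D : ℂ) ≠ 0 := by exact_mod_cast hD
  have hN' : (N : ℂ) ≠ 0 := by exact_mod_cast hN
  have heq' : (e : ℂ) * D = N * A := by exact_mod_cast heq
  rw [hw]
  push_cast
  field_simp
  linear_combination (-τ) * heq'

/-- **Substitution** `τ ↦ (A τ + B) / D`: an expansion of `f` in `𝕢 1` gives an expansion of
`τ ↦ f ((A τ + B) / D)` in `𝕢 N`, obtained by `q ↦ ξ t^e` with `ξ = exp (2πi B / D)`,
`e = N A / D`. -/
theorem HasCuspExp.subst {f : ℍ → ℂ} {L : LaurentSeries ℂ} (hf : HasCuspExp 1 f L)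
    {A D e N : ℕ} {B : ℤ} [NeZero e] (hD : D ≠ 0) (hN : N ≠ 0) (heq : e * D = N * A)
    (w : ℍ → ℍ) (hw : ∀ τ : ℍ, (w τ : ℂ) = ((A : ℂ) * τ + B) / D)
    (ξ : ℂˣ) (hξ : (ξ : ℂ) = Complex.exp (2 * π * I * B / D)) :
    HasCuspExp N (fun τ => f (w τ)) (cuspS ℂ ξ e L) := by
  obtain ⟨M, p, hp, rfl, hf⟩ := hf
  have he : e ≠ 0 := NeZero.ne e
  have hNpos : (0 : ℝ) < N := by exact_mod_cast Nat.pos_of_ne_zero hN
  have hξnorm : ‖(ξ : ℂ)‖ ≤ 1 := by
    rw [hξ, Complex.norm_exp]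
    have : (2 * (π : ℂ) * I * B / D).re = 0 := by
      have : (2 * (π : ℂ) * I * B / D) = ((2 * π * B / D : ℝ) : ℂ) * I := by
        push_cast; ring
      rw [this]; simp
    rw [this, Real.exp_zero]
  refine ⟨e * M, C (((ξ ^ (-(M : ℤ)) : ℂˣ) : ℂ)) * expand e he (rescale (ξ : ℂ) p),
    (conv_C _).mul (conv_expand (conv_rescale hp hξnorm) he), ?_, fun τ => ?_⟩
  · rw [cuspS, RingHom.comp_apply, lsOf, map_mul, scaleHom_single, scaleHom_ofPowerSeries,
      map_mul, qExpand_single, qExpand_ofPowerSeries, mul_one, ← lsOf_eq_single_mul]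
    congr 2
    push_cast; ring_nf
  · have hq := norm_qParam_lt_one' hNpos τ
    have hq1 : ‖𝕢 (N : ℝ) τ ^ e‖ < 1 := by
      rw [norm_pow]; exact pow_lt_one₀ (norm_nonneg _) hq he
    have hkey : 𝕢 1 (w τ) = (ξ : ℂ) * 𝕢 (N : ℝ) τ ^ e := by
      rw [hξ]; exact qParam_one_affine hD hN heq τ (w τ) (hw τ)
    have h1 := hf (w τ)
    rw [evalDisc_mul (conv_C _) (conv_expand (conv_rescale hp hξnorm) he) hq, evalDisc_C,
      evalDisc_expand (conv_rescale hp hξnorm) he hq, evalDisc_rescale hp hξnorm hq1, ← hkey,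
      ← h1, hkey, mul_pow, ← pow_mul]
    have hξM : ((ξ ^ (-(M : ℤ)) : ℂˣ) : ℂ) * (ξ : ℂ) ^ M = 1 := by
      rw [← Units.val_pow_eq_pow_val, ← Units.val_mul, zpow_neg, zpow_natCast, inv_mul_cancel,
        Units.val_one]
    calc f (w τ) * 𝕢 (N : ℝ) τ ^ (e * M)
        = (((ξ ^ (-(M : ℤ)) : ℂˣ) : ℂ) * (ξ : ℂ) ^ M) * (f (w τ) * 𝕢 (N : ℝ) τ ^ (e * M)) := by
          rw [hξM, one_mul]
      _ = _ := by ring

/-! ### The basic expansions -/

theorem jqModC_eq_lsOf : jqModC ℂ = lsOf 1 (toC jNum) := by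
  rw [jqModC, lsOf, toC]; simp

theorem deltaS_eq_lsOf : deltaS ℂ = lsOf 0 (X * toC dedekindEtaUnit) := by
  rw [deltaS, lsOf_zero_left, map_mul, HahnSeries.ofPowerSeries_X, toC]

theorem deltaInvS_eq_lsOf : deltaInvS ℂ = lsOf 1 (toC dedekindEtaUnitInv) := by
  rw [deltaInvS, lsOf, toC]; simp

theorem e4S_eq_lsOf : e4S ℂ = lsOf 0 (toC eisenstein4) := by
  rw [e4S, lsOf_zero_left, toC]

/-- `j = q⁻¹ + 744 + ⋯` : the analytic `j` has the formal `q`-expansion of the Prelude. -/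
theorem hasCuspExp_jFun : HasCuspExp 1 jFun (jqModC ℂ) := by
  rw [jqModC_eq_lsOf]
  refine hasCuspExp_of_evalDisc 1 conv_jNum fun τ => ?_
  rw [pow_one, evalDisc_jNum]

theorem hasCuspExp_E4 : HasCuspExp 1 (fun τ => E₄ τ) (e4S ℂ) := by
  rw [e4S_eq_lsOf]
  refine hasCuspExp_of_evalDisc 0 conv_eisenstein4 fun τ => ?_
  rw [pow_zero, mul_one, evalDisc_eisenstein4]

theorem hasCuspExp_discriminant : HasCuspExp 1 (fun τ => Δ τ) (deltaS ℂ) := by
  rw [deltaS_eq_lsOf]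
  refine hasCuspExp_of_evalDisc 0 (conv_X.mul conv_dedekindEtaUnit) fun τ => ?_
  rw [pow_zero, mul_one, evalDisc_mul conv_X conv_dedekindEtaUnit (norm_qParam_one_lt_one τ),
    evalDisc_X, discriminant_eq_evalDisc]

theorem hasCuspExp_discriminant_inv : HasCuspExp 1 (fun τ => (Δ τ)⁻¹) (deltaInvS ℂ) := by
  rw [deltaInvS_eq_lsOf]
  refine hasCuspExp_of_evalDisc 1 conv_dedekindEtaUnitInv fun τ => ?_
  have hq := norm_qParam_one_lt_one τ
  have hq0 : 𝕢 1 (τ : ℂ) ≠ 0 := Function.Periodic.qParam_ne_zero _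
  rw [pow_one, evalDisc_dedekindEtaUnitInv hq, discriminant_eq_evalDisc, mul_inv,
    mul_comm (𝕢 1 (τ : ℂ))⁻¹, mul_assoc, inv_mul_cancel₀ hq0, mul_one]

/-! ### Analytic consequences of a cusp expansion -/

theorem HasCuspExp.eq_div {h : ℝ} {f : ℍ → ℂ} {M : ℕ} {p : PowerSeries ℂ}
    (hf : ∀ τ : ℍ, f τ * 𝕢 h τ ^ M = evalDisc p (𝕢 h τ)) (τ : ℍ) :
    f τ = evalDisc p (𝕢 h τ) / 𝕢 h τ ^ M := by
  rw [← hf τ, mul_div_assoc, div_self (pow_ne_zero _ (qParam_ne_zero' h τ)), mul_one]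

theorem HasCuspExp.mdifferentiable {h : ℝ} (hh : 0 < h) {f : ℍ → ℂ} {L : LaurentSeries ℂ}
    (hf : HasCuspExp h f L) : MDiff f := by
  obtain ⟨M, p, hp, -, hf⟩ := hf
  rw [UpperHalfPlane.mdifferentiable_iff]
  have hmaps : ∀ z ∈ upperHalfPlaneSet, 𝕢 h z ∈ Metric.ball (0 : ℂ) 1 := by
    intro z hz
    simpa using Function.Periodic.norm_qParam_lt_one hh hz
  have hq : DifferentiableOn ℂ (fun z : ℂ => 𝕢 h z) upperHalfPlaneSet := by
    unfold Function.Periodic.qParam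
    fun_prop
  have h1 : DifferentiableOn ℂ (fun z : ℂ => evalDisc p (𝕢 h z) / 𝕢 h z ^ M)
      upperHalfPlaneSet :=
    (hp.differentiableOn.comp hq hmaps).div (hq.pow M)
      fun z _ => pow_ne_zero _ (Function.Periodic.qParam_ne_zero z)
  refine h1.congr fun z hz => ?_
  simp only [Function.comp_apply]
  rw [HasCuspExp.eq_div hf, ofComplex_apply_of_im_pos hz]

theorem qParam_add_period (h : ℝ) (z : ℂ) : 𝕢 h (z + h) = 𝕢 h z := by
  rcases eq_or_ne h 0 with rfl | hh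
  · simp
  · unfold Function.Periodic.qParam
    have hh' : (h : ℂ) ≠ 0 := by exact_mod_cast hh
    rw [show 2 * (π : ℂ) * I * (z + h) / h = 2 * π * I * z / h + 2 * π * I by field_simp,
      Complex.exp_add, Complex.exp_two_pi_mul_I, mul_one]

theorem HasCuspExp.periodic {h : ℝ} {f : ℍ → ℂ} {L : LaurentSeries ℂ}
    (hf : HasCuspExp h f L) : Function.Periodic (f ∘ ofComplex) h := by
  obtain ⟨M, p, hp, -, hf⟩ := hf
  intro z
  by_cases hz : 0 < z.im
  · have hz' : 0 < (z + h).im := by simpa using hz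
    simp only [Function.comp_apply]
    rw [HasCuspExp.eq_div hf, HasCuspExp.eq_div hf (ofComplex z), ofComplex_apply_of_im_pos hz,
      ofComplex_apply_of_im_pos hz']
    rw [qParam_add_period h z]
  · have hz' : (z + h).im ≤ 0 := by simpa using not_lt.mp hz
    simp only [Function.comp_apply]
    rw [ofComplex_apply_of_im_nonpos hz', ofComplex_apply_of_im_nonpos (not_lt.mp hz)]

theorem HasCuspExp.isBoundedAtImInfty {h : ℝ} (hh : 0 < h) {f : ℍ → ℂ} {M : ℕ}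
    {p : PowerSeries ℂ} (hp : Conv p)
    (hf : ∀ τ : ℍ, f τ * 𝕢 h τ ^ M = evalDisc p (𝕢 h τ)) :
    IsBoundedAtImInfty (fun τ : ℍ => 𝕢 h τ ^ M * f τ) := by
  refine isBoundedAtImInfty_of_hasSum_qExpansion (c := fun n => coeff n p) hh fun τ => ?_
  have := hp.hasSum (norm_qParam_lt_one' hh τ)
  rw [← hf τ, mul_comm] at this
  simpa [smul_eq_mul] using this

/-- A cusp expansion yields the data of helper28's `IsMeroCusp`. -/
theorem HasCuspExp.exists_bdd {h : ℝ} (hh : 0 < h) {f : ℍ → ℂ} {L : LaurentSeries ℂ}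
    (hf : HasCuspExp h f L) : ∃ m : ℕ, IsBoundedAtImInfty (fun τ : ℍ => 𝕢 h τ ^ m * f τ) := by
  obtain ⟨M, p, hp, -, hf⟩ := hf
  exact ⟨M, HasCuspExp.isBoundedAtImInfty hh hp hf⟩

end Fermat.Agent.S28
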