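import Mathlib
import Fermat.Agent.S28.Defs
import Fermat.Agent.S28.JFunction
import Fermat.Agent.S28.CuspExp
import Fermat.Agent.S28.EvalBridge

/-!
# Predicate form of the cusp-expansion API, period change and substitution

`IsCE h f` (`f` has a convergent cusp expansion in `𝕢 h`) and `cuspExp h f : LaurentSeries ℂ`
play the roles of `IsMeroCusp h f` / `laurentExp h f` of the T28 blueprint; everything is derived
from the relation `HasCuspExp` of `CuspExp.lean`.
-/

set_option autoImplicit false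

noncomputable section

namespace Fermat.Agent.S28

open Complex PowerSeries ModularCurve ModularForm EisensteinSeries
open UpperHalfPlane hiding I
open scoped Real Manifold MatrixGroups

local notation "𝕢" => Function.Periodic.qParam
local notation "Δ" => ModularForm.discriminant

/-! ### The predicate / expansion-function form of the API -/

/-- `f` has a convergent cusp expansion in the parameter `𝕢 h`
(a concrete form of "holomorphic on `ℍ`, `h`-periodic and meromorphic at `i∞`"). -/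
def IsCE (h : ℝ) (f : ℍ → ℂ) : Prop := ∃ L : LaurentSeries ℂ, HasCuspExp h f L

open Classical in
/-- the cusp expansion of `f` in the parameter `𝕢 h` (`0` if there is none) -/
def cuspExp (h : ℝ) (f : ℍ → ℂ) : LaurentSeries ℂ :=
  if hf : IsCE h f then hf.choose else 0

theorem HasCuspExp.isCE {h : ℝ} {f : ℍ → ℂ} {L : LaurentSeries ℂ} (hf : HasCuspExp h f L) :
    IsCE h f := ⟨L, hf⟩

theorem IsCE.hasCuspExp {h : ℝ} {f : ℍ → ℂ} (hf : IsCE h f) : HasCuspExp h f (cuspExp h f) := by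
  rw [cuspExp, dif_pos hf]; exact hf.choose_spec

theorem HasCuspExp.cuspExp_eq {h : ℝ} (hh : 0 < h) {f : ℍ → ℂ} {L : LaurentSeries ℂ}
    (hf : HasCuspExp h f L) : cuspExp h f = L :=
  hf.isCE.hasCuspExp.unique hh hf

theorem isCE_const (h : ℝ) (c : ℂ) : IsCE h (fun _ => c) := (hasCuspExp_const h c).isCE

theorem cuspExp_const {h : ℝ} (hh : 0 < h) (c : ℂ) : cuspExp h (fun _ => c) = HahnSeries.C c :=
  (hasCuspExp_const h c).cuspExp_eq hh

theorem IsCE.add {h : ℝ} (hh : 0 < h) {f g : ℍ → ℂ} (hf : IsCE h f) (hg : IsCE h g) :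
    IsCE h (f + g) := (hf.hasCuspExp.add hh hg.hasCuspExp).isCE

theorem IsCE.mul {h : ℝ} (hh : 0 < h) {f g : ℍ → ℂ} (hf : IsCE h f) (hg : IsCE h g) :
    IsCE h (f * g) := (hf.hasCuspExp.mul hh hg.hasCuspExp).isCE

theorem IsCE.neg {h : ℝ} {f : ℍ → ℂ} (hf : IsCE h f) : IsCE h (-f) := hf.hasCuspExp.neg.isCE

theorem IsCE.sub {h : ℝ} (hh : 0 < h) {f g : ℍ → ℂ} (hf : IsCE h f) (hg : IsCE h g) :
    IsCE h (f - g) := (hf.hasCuspExp.sub hh hg.hasCuspExp).isCE

theorem cuspExp_add {h : ℝ} (hh : 0 < h) {f g : ℍ → ℂ} (hf : IsCE h f) (hg : IsCE h g) :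
    cuspExp h (f + g) = cuspExp h f + cuspExp h g :=
  (hf.hasCuspExp.add hh hg.hasCuspExp).cuspExp_eq hh

theorem cuspExp_mul {h : ℝ} (hh : 0 < h) {f g : ℍ → ℂ} (hf : IsCE h f) (hg : IsCE h g) :
    cuspExp h (f * g) = cuspExp h f * cuspExp h g :=
  (hf.hasCuspExp.mul hh hg.hasCuspExp).cuspExp_eq hh

theorem cuspExp_neg {h : ℝ} (hh : 0 < h) {f : ℍ → ℂ} (hf : IsCE h f) :
    cuspExp h (-f) = -cuspExp h f := hf.hasCuspExp.neg.cuspExp_eq hh

theorem cuspExp_sub {h : ℝ} (hh : 0 < h) {f g : ℍ → ℂ} (hf : IsCE h f) (hg : IsCE h g) :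
    cuspExp h (f - g) = cuspExp h f - cuspExp h g :=
  (hf.hasCuspExp.sub hh hg.hasCuspExp).cuspExp_eq hh

/-- the expansion is injective -/
theorem IsCE.eq_zero_of_cuspExp_eq_zero {h : ℝ} {f : ℍ → ℂ} (hf : IsCE h f)
    (h0 : cuspExp h f = 0) : f = 0 := by
  funext τ
  have := hf.hasCuspExp
  rw [h0] at this
  exact this.eq_zero_of_exp_eq_zero τ

/-- the instance of helper68's abstract interface -/
theorem meroExp_isCE {h : ℝ} (hh : 0 < h) : EvalBridge.MeroExp (IsCE h) (cuspExp h) where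
  const := isCE_const h
  add := fun _ _ hf hg => hf.add hh hg
  mul := fun _ _ hf hg => hf.mul hh hg
  exp_const := cuspExp_const hh
  exp_add := fun _ _ hf hg => cuspExp_add hh hf hg
  exp_mul := fun _ _ hf hg => cuspExp_mul hh hf hg

theorem IsCE.mdifferentiable {h : ℝ} (hh : 0 < h) {f : ℍ → ℂ} (hf : IsCE h f) : MDiff f :=
  hf.hasCuspExp.mdifferentiable hh

theorem IsCE.periodic {h : ℝ} {f : ℍ → ℂ} (hf : IsCE h f) :
    Function.Periodic (f ∘ ofComplex) h := hf.hasCuspExp.periodic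

theorem IsCE.exists_bdd {h : ℝ} (hh : 0 < h) {f : ℍ → ℂ} (hf : IsCE h f) :
    ∃ m : ℕ, IsBoundedAtImInfty (fun τ : ℍ => 𝕢 h τ ^ m * f τ) := hf.hasCuspExp.exists_bdd hh

/-! ### Period change and substitution in predicate form -/

theorem HasCuspExp.period_nat {f : ℍ → ℂ} {L : LaurentSeries ℂ} (hf : HasCuspExp 1 f L)
    (N : ℕ) [NeZero N] : HasCuspExp N f (qExpand ℂ N L) := by
  have := hf.period_mul one_pos N
  rwa [one_mul] at this

theorem IsCE.period_nat {f : ℍ → ℂ} (hf : IsCE 1 f) (N : ℕ) [NeZero N] : IsCE N f :=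
  (hf.hasCuspExp.period_nat N).isCE

theorem cuspExp_period_nat {f : ℍ → ℂ} (hf : IsCE 1 f) (N : ℕ) [NeZero N] :
    cuspExp N f = qExpand ℂ N (cuspExp 1 f) :=
  (hf.hasCuspExp.period_nat N).cuspExp_eq (by exact_mod_cast Nat.pos_of_ne_zero (NeZero.ne N))

/-- **Substitution lemma** in the shape requested by A3 (helper73). -/
theorem isCE_subst {f : ℍ → ℂ} (hf : IsCE 1 f) (A B D N e : ℕ) [NeZero e] (hD : 0 < D)
    (hN : 0 < N) (he : D * e = N * A) (ξ : ℂˣ)
    (hξ : (ξ : ℂ) = Complex.exp (2 * π * I * B / D)) (p : ℍ → ℍ)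
    (hp : ∀ τ : ℍ, (p τ : ℂ) = ((A : ℂ) * τ + B) / D) :
    IsCE N (fun τ => f (p τ)) ∧ cuspExp N (fun τ => f (p τ)) = cuspS ℂ ξ e (cuspExp 1 f) := by
  have key : HasCuspExp N (fun τ => f (p τ)) (cuspS ℂ ξ e (cuspExp 1 f)) :=
    hf.hasCuspExp.subst (B := (B : ℤ)) hD.ne' hN.ne' (by rw [mul_comm]; exact he) p
      (by simpa using hp) ξ (by simpa using hξ)
  exact ⟨key.isCE, key.cuspExp_eq (by exact_mod_cast hN)⟩

/-! ### The basic functions -/

theorem isCE_jFun : IsCE 1 jFun := hasCuspExp_jFun.isCE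
theorem cuspExp_jFun : cuspExp 1 jFun = jqModC ℂ := hasCuspExp_jFun.cuspExp_eq one_pos

theorem isCE_discriminant : IsCE 1 (fun τ => Δ τ) := hasCuspExp_discriminant.isCE
theorem cuspExp_discriminant : cuspExp 1 (fun τ => Δ τ) = deltaS ℂ :=
  hasCuspExp_discriminant.cuspExp_eq one_pos

theorem isCE_discriminant_inv : IsCE 1 (fun τ => (Δ τ)⁻¹) := hasCuspExp_discriminant_inv.isCE
theorem cuspExp_discriminant_inv : cuspExp 1 (fun τ => (Δ τ)⁻¹) = deltaInvS ℂ :=
  hasCuspExp_discriminant_inv.cuspExp_eq one_pos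

theorem isCE_E4 : IsCE 1 (fun τ => E₄ τ) := hasCuspExp_E4.isCE
theorem cuspExp_E4 : cuspExp 1 (fun τ => E₄ τ) = e4S ℂ := hasCuspExp_E4.cuspExp_eq one_pos

/-- `q * j(z) → 1` at `i∞` (the hypothesis of `LevelOnePoly.exists_poly_of_invariant`). -/
theorem tendsto_qParam_mul_jFun :
    Filter.Tendsto (fun z : ℍ => 𝕢 1 z * jFun z) atImInfty (nhds 1) := by
  have h1 : ∀ z : ℍ, 𝕢 1 z * jFun z = evalDisc (toC jNum) (𝕢 1 z) := fun z => by
    rw [evalDisc_jNum, mul_comm]
  simp_rw [h1]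
  have hc : ContinuousAt (evalDisc (toC jNum)) 0 :=
    conv_jNum.continuousOn.continuousAt (Metric.ball_mem_nhds _ one_pos)
  have h0 : evalDisc (toC jNum) 0 = 1 := by
    rw [evalDisc_zero_right, toC, ← PowerSeries.coeff_zero_eq_constantCoeff_apply,
      PowerSeries.coeff_map, PowerSeries.coeff_zero_eq_constantCoeff_apply, constantCoeff_jNum]
    simp
  have := hc.tendsto.comp (UpperHalfPlane.qParam_tendsto_atImInfty one_pos)
  rw [h0] at this
  exact this

end Fermat.Agent.S28
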