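import Fermat.Agent.S28.AnalyticFacts
import Fermat.Agent.S28.CuspFacts
import Fermat.Agent.S28.MeroCusp
import Fermat.Agent.S28.MeroSubst

set_option autoImplicit false

/-!
# T28: the instance of the analytic interface `AnalyticFacts N`

* `hauptmodul_jFun : CosetSym.IsHauptmodul jFun`
* `meroExp N : EvalBridge.MeroExp (IsMeroCusp N) (laurentExp N)`
* `analyticFacts_of_input` : from an `AnalyticInput N (IsMeroCusp 1) (IsMeroCusp N) (laurentExp 1)
  (laurentExp N)` (substitution lemma + expansions of `j`, `Δ`, `Δ⁻¹`) to `AnalyticFacts N`.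
-/

noncomputable section

namespace Fermat.Agent.S28

namespace CuspExp

open UpperHalfPlane Matrix MatrixGroups ModularCurve Filter Topology
open scoped Manifold

local notation "Δ" => ModularForm.discriminant
local notation "𝕢" => Function.Periodic.qParam

/-- `j` is a Hauptmodul: holomorphic, `SL(2,ℤ)`-invariant, `q j → 1`. -/
theorem hauptmodul_jFun : CosetSym.IsHauptmodul jFun where
  mdiff := mdifferentiable_jFun
  inv := jFun_smul
  tendsto := by
    have h1 : (fun z : ℍ => 𝕢 1 (z : ℂ) * jFun z) =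
        fun z : ℍ => evalDisc (toC jNum) (𝕢 1 (z : ℂ)) := by
      funext z
      rw [evalDisc_jNum, mul_comm]
    rw [h1]
    have hcont : ContinuousAt (evalDisc (toC jNum)) 0 :=
      (conv_jNum.differentiableOn.differentiableAt
        (Metric.ball_mem_nhds 0 one_pos)).continuousAt
    have h0 : evalDisc (toC jNum) 0 = 1 := by
      rw [evalDisc_zero_right, toC, ← PowerSeries.coeff_zero_eq_constantCoeff_apply,
        PowerSeries.coeff_map, PowerSeries.coeff_zero_eq_constantCoeff_apply, constantCoeff_jNum]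
      simp
    have h2 : Tendsto (fun z : ℍ => 𝕢 1 (z : ℂ)) atImInfty (𝓝 0) := by
      have := UpperHalfPlane.qParam_tendsto_atImInfty (h := 1) one_pos
      simpa using this
    have := hcont.tendsto.comp h2
    rw [h0] at this
    exact this

variable (N : ℕ) [NeZero N]

theorem natCast_pos_real : (0 : ℝ) < (N : ℝ) := by
  exact_mod_cast Nat.pos_of_ne_zero (NeZero.ne N)

/-- `IsMeroCusp N`, `laurentExp N` are compatible with the ring operations. -/
theorem meroExp : EvalBridge.MeroExp (IsMeroCusp (N : ℝ)) (laurentExp (N : ℝ)) where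
  const := isMeroCusp_const (N : ℝ)
  add := fun _ _ hf hg => hf.add (natCast_pos_real N) hg
  mul := fun _ _ hf hg => hf.mul hg
  exp_const := laurentExp_const (natCast_pos_real N)
  exp_add := fun _ _ hf hg => laurentExp_add (natCast_pos_real N) hf hg
  exp_mul := fun _ _ hf hg => laurentExp_mul (natCast_pos_real N) hf hg

/-- the unit `exp(2πi B/D)` -/
def rootUnit (B D : ℤ) : ℂˣ := Units.mk0 (rootExp B D) (rootExp_ne_zero B D)

@[simp] theorem coe_rootUnit (B D : ℤ) : ((rootUnit B D : ℂˣ) : ℂ) = rootExp B D := rfl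

variable {N}

/-- **From the substitution lemma and the expansions of `j`, `Δ`, `Δ⁻¹` to the full analytic
interface** (for any implementation `IsMC₁, IsMCN, LE₁, LEN` of "meromorphic at the cusp" and
"expansion at the cusp"). -/
def analyticFacts_of_input {IsMC₁ IsMCN : (ℍ → ℂ) → Prop} {LE₁ LEN : (ℍ → ℂ) → LaurentSeries ℂ}
    (In : AnalyticInput N IsMC₁ IsMCN LE₁ LEN)
    (inj : ∀ f, IsMCN f → LEN f = 0 → f = 0)
    (mdiff : ∀ f, IsMCN f → MDifferentiable 𝓘(ℂ) 𝓘(ℂ) f)
    (bdd : ∀ f, IsMCN f → ∃ m : ℕ,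
      IsBoundedAtImInfty fun z : ℍ => Function.Periodic.qParam (N : ℝ) (z : ℂ) ^ m * f z) :
    AnalyticFacts N where
  IsMC := IsMCN
  LE := LEN
  H := In.expN
  inj := inj
  mdiff := mdiff
  bdd := bdd
  hauptmodul := hauptmodul_jFun
  isMC_jFun := (In.period_change jFun In.j_mc).1
  exp_jFun := by
    rw [(In.period_change jFun In.j_mc).2, In.j_exp]
  isMC_gen := by
    rintro g ⟨⟨d, hdN⟩, t⟩
    have hd : 0 < d := Nat.pos_of_dvd_of_pos hdN (Nat.pos_of_ne_zero (NeZero.ne N))
    obtain ⟨H⟩ := nonempty_hermiteData d hd g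
    have : NeZero (H.expo N) :=
      ⟨(H.expo_pos N (Nat.pos_of_ne_zero (NeZero.ne N)) hdN).ne'⟩
    obtain ⟨δ, hδ⟩ := exists_unit_D hd H
    fin_cases t
    · exact (In.fact2_j hd hdN H (H.expo N) rfl (rootUnit H.B H.D) rfl).1
    · exact (In.fact2_u hd hdN H (H.expo N) rfl (rootUnit H.B H.D) δ rfl hδ).1
    · exact (In.fact2_uInv hd hdN H (H.expo N) rfl (rootUnit H.B H.D) δ rfl hδ).1
  exp_gen := by
    rintro g ⟨⟨d, hdN⟩, t⟩ H ξ δ hξ hδ
    have hd : 0 < d := Nat.pos_of_dvd_of_pos hdN (Nat.pos_of_ne_zero (NeZero.ne N))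
    have : NeZero (H.expo N) :=
      ⟨(H.expo_pos N (Nat.pos_of_ne_zero (NeZero.ne N)) hdN).ne'⟩
    fin_cases t
    · exact (In.fact2_j hd hdN H (H.expo N) rfl ξ hξ).2
    · exact (In.fact2_u hd hdN H (H.expo N) rfl ξ δ hξ hδ).2
    · exact (In.fact2_uInv hd hdN H (H.expo N) rfl ξ δ hξ hδ).2

/-- The analytic input for the implementation `IsCE`, `cuspExp` of `MeroSubst.lean`. -/
theorem analyticInput_isCE (N : ℕ) [NeZero N] :
    AnalyticInput N (IsCE 1) (IsCE (N : ℝ)) (cuspExp 1) (cuspExp (N : ℝ)) where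
  expN := meroExp_isCE (natCast_pos_real N)
  subst := by
    intro f hf A B D hA hD e _ he ξ hξ
    have hN : 0 < N := Nat.pos_of_ne_zero (NeZero.ne N)
    have key : HasCuspExp N (fun τ => f (affPt A B D hA hD τ)) (cuspS ℂ ξ e (cuspExp 1 f)) := by
      have hAn : ((A.toNat : ℕ) : ℤ) = A := Int.toNat_of_nonneg hA.le
      have hDn : ((D.toNat : ℕ) : ℤ) = D := Int.toNat_of_nonneg hD.le
      have hDn0 : D.toNat ≠ 0 := by
        intro h0
        rw [h0] at hDn
        exact hD.ne' hDn.symm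
      have he' : e * D.toNat = N * A.toNat := by
        have : ((e * D.toNat : ℕ) : ℤ) = ((N * A.toNat : ℕ) : ℤ) := by
          push_cast
          rw [hAn, hDn, he]
        exact_mod_cast this
      refine hf.hasCuspExp.subst (A := A.toNat) (D := D.toNat) (B := B) hDn0 hN.ne' he'
        (fun τ => affPt A B D hA hD τ) ?_ ξ ?_
      · intro τ
        rw [coe_affPt]
        have h1 : ((A.toNat : ℕ) : ℂ) = (A : ℂ) := by exact_mod_cast congrArg (Int.cast : ℤ → ℂ) hAn
        have h2 : ((D.toNat : ℕ) : ℂ) = (D : ℂ) := by exact_mod_cast congrArg (Int.cast : ℤ → ℂ) hDn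
        rw [h1, h2]
      · rw [hξ, rootExp]
        have h2 : ((D.toNat : ℕ) : ℂ) = (D : ℂ) := by exact_mod_cast congrArg (Int.cast : ℤ → ℂ) hDn
        rw [h2]
    exact ⟨key.isCE, key.cuspExp_eq (natCast_pos_real N)⟩
  j_mc := isCE_jFun
  j_exp := cuspExp_jFun
  delta_mc := isCE_discriminant
  delta_exp := cuspExp_discriminant
  deltaInv_mc := isCE_discriminant_inv
  deltaInv_exp := cuspExp_discriminant_inv

/-- **The analytic interface of A5.** -/
def analyticFacts (N : ℕ) [NeZero N] : AnalyticFacts N :=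
  analyticFacts_of_input (analyticInput_isCE N)
    (fun _ hf h0 => hf.eq_zero_of_cuspExp_eq_zero h0)
    (fun _ hf => hf.mdifferentiable (natCast_pos_real N))
    (fun _ hf => hf.exists_bdd (natCast_pos_real N))

end CuspExp

end Fermat.Agent.S28
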