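import Fermat.Agent.S28.Defs

set_option autoImplicit false

/-!
# T28 / A3: cusp expansions — Hermite normal form and its consequences

* `CuspExp.HermiteData d g` : `diag(d,1) * g = g'' * [[A,B],[0,D]]` with `g'' ∈ SL(2,ℤ)`,
  `A = gcd(c,d)`, `A D = d`, `0 ≤ B < D`;  `CuspExp.nonempty_hermiteData`.
* `HermiteData.dilate_smul` : `d • (g • z) = g'' • ((A z + B)/D)` in `ℍ`.
* `HermiteData.apply_dilate_smul_of_invariant`, `..._of_weight` : consequences for functions of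
  weight `0` and `k`;  `HermiteData.modUnit_smul` : `Δ(d g z)/Δ(g z) = D⁻¹² Δ((Az+B)/D)/Δ(z)`.
* `Gamma0` invariance of `z ↦ F (d z)` and of the modular unit for `d ∣ N`.
* `HermiteData.qParam_pt` : `q((Az+B)/D) = ζ_D^B t^m`, `t = exp(2πi z/N)`, `m D = N A`, and
  `HermiteData.hasSum_pt` (transfer of expansions).
* coefficient / order / injectivity lemmas for `scaleHom`, `cuspS` of `Defs.lean`.
-/

namespace Fermat.Agent.S28

namespace CuspExp

open Matrix MatrixGroups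

/-- Solving `c'' * B ≡ e (mod D)` with `0 ≤ B < D`, when `c''` and `D` are coprime. -/
theorem exists_residue_solution (c'' e D : ℤ) (hD : 0 < D) (hcop : IsCoprime c'' D) :
    ∃ B : ℤ, 0 ≤ B ∧ B < D ∧ D ∣ (e - c'' * B) := by
  obtain ⟨u, v, huv⟩ := hcop
  -- u * c'' + v * D = 1
  refine ⟨(u * e) % D, Int.emod_nonneg _ hD.ne', Int.emod_lt_of_pos _ hD, ?_⟩
  have h1 : (u * e) % D = u * e - D * ((u * e) / D) := by
    have := Int.emod_add_mul_ediv (u * e) D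
    linarith
  rw [h1]
  refine ⟨v * e + c'' * ((u * e) / D), ?_⟩
  have : e = (u * c'' + v * D) * e := by rw [huv, one_mul]
  nlinarith [this]

/-- **Hermite normal form** for `diag(d,1) * g`, entrywise version. -/
theorem exists_hermite_entries (d : ℕ) (hd : 0 < d) (a b c e : ℤ) (hdet : a * e - b * c = 1) :
    ∃ (a'' b'' c'' e'' A B D : ℤ), a'' * e'' - b'' * c'' = 1 ∧
      A = (Int.gcd c d : ℤ) ∧ 0 < A ∧ A * D = d ∧ 0 ≤ B ∧ B < D ∧
      a'' * A = d * a ∧ a'' * B + b'' * D = d * b ∧ c'' * A = c ∧ c'' * B + e'' * D = e := by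
  have hdne : (d : ℤ) ≠ 0 := by exact_mod_cast hd.ne'
  set A : ℤ := (Int.gcd c d : ℤ) with hA
  have hApos : 0 < A := by
    rw [hA]
    exact_mod_cast Int.gcd_pos_of_ne_zero_right c hdne
  have hAc : A ∣ c := Int.gcd_dvd_left c d
  have hAd : A ∣ (d : ℤ) := Int.gcd_dvd_right c d
  obtain ⟨c'', hc''⟩ := hAc
  obtain ⟨D, hD⟩ := hAd
  have hDpos : 0 < D := by
    have : (0 : ℤ) < A * D := by rw [← hD]; exact_mod_cast hd
    exact pos_of_mul_pos_right this hApos.le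
  have hcop : IsCoprime c'' D := by
    have hg : 0 < Int.gcd c d := Int.gcd_pos_of_ne_zero_right c hdne
    have h := Int.gcd_div_gcd_div_gcd hg
    have e1 : c / (Int.gcd c d : ℤ) = c'' := by
      rw [← hA]; conv_lhs => rw [hc'']
      exact Int.mul_ediv_cancel_left _ hApos.ne'
    have e2 : (d : ℤ) / (Int.gcd c d : ℤ) = D := by
      rw [← hA]; conv_lhs => rw [hD]
      exact Int.mul_ediv_cancel_left _ hApos.ne'
    rw [e1, e2] at h
    exact Int.isCoprime_iff_gcd_eq_one.mpr h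
  obtain ⟨B, hB0, hBD, e'', he''⟩ := exists_residue_solution c'' e D hDpos hcop
  refine ⟨a * D, b * A - a * B, c'', e'', A, B, D, ?_, rfl, hApos, hD.symm, hB0, hBD, ?_, ?_, ?_, ?_⟩
  · -- determinant
    have h1 : a * D * e'' = a * (e - c'' * B) := by rw [he'']; ring
    have : a * D * e'' - (b * A - a * B) * c'' = a * e - b * (A * c'') := by
      rw [h1]; ring
    rw [this, ← hc'', hdet]
  · rw [hD]; ring
  · rw [hD]; ring
  · rw [hc'']; ring
  · have : e'' * D = e - c'' * B := by rw [he'']; ring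
    linarith


/-- Hermite data for `diag(d,1) * g`: `diag(d,1) * g = g'' * [[A,B],[0,D]]`. -/
structure HermiteData (d : ℕ) (g : SL(2, ℤ)) where
  /-- the `SL(2,ℤ)` factor -/
  g'' : SL(2, ℤ)
  /-- upper left entry of the upper triangular factor, `= gcd(c,d)` -/
  A : ℤ
  /-- upper right entry -/
  B : ℤ
  /-- lower right entry -/
  D : ℤ
  A_eq : A = (Int.gcd (g 1 0) d : ℤ)
  A_pos : 0 < A
  A_mul_D : A * D = d
  B_nonneg : 0 ≤ B
  B_lt : B < D
  h00 : g'' 0 0 * A = d * g 0 0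
  h01 : g'' 0 0 * B + g'' 0 1 * D = d * g 0 1
  h10 : g'' 1 0 * A = g 1 0
  h11 : g'' 1 0 * B + g'' 1 1 * D = g 1 1

theorem HermiteData.D_pos {d : ℕ} {g : SL(2, ℤ)} (hd : 0 < d) (H : HermiteData d g) : 0 < H.D := by
  have : (0 : ℤ) < H.A * H.D := by rw [H.A_mul_D]; exact_mod_cast hd
  exact pos_of_mul_pos_right this H.A_pos.le

/-- The matrix form of the Hermite identity. -/
theorem HermiteData.matrix_eq {d : ℕ} {g : SL(2, ℤ)} (H : HermiteData d g) :
    !![(d : ℤ), 0; 0, 1] * (g : Matrix (Fin 2) (Fin 2) ℤ) =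
      (H.g'' : Matrix (Fin 2) (Fin 2) ℤ) * !![H.A, H.B; 0, H.D] := by
  ext i j
  fin_cases i <;> fin_cases j <;>
    simp [Matrix.mul_apply, Fin.sum_univ_two, H.h00, H.h01, H.h10, H.h11]

/-- **Hermite normal form**: existence of Hermite data. -/
theorem nonempty_hermiteData (d : ℕ) (hd : 0 < d) (g : SL(2, ℤ)) : Nonempty (HermiteData d g) := by
  have hdet : g 0 0 * g 1 1 - g 0 1 * g 1 0 = 1 := by
    have := g.det_coe
    rw [Matrix.det_fin_two] at this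
    exact this
  obtain ⟨a'', b'', c'', e'', A, B, D, hdet'', hA, hApos, hAD, hB0, hBD, h00, h01, h10, h11⟩ :=
    exists_hermite_entries d hd (g 0 0) (g 0 1) (g 1 0) (g 1 1) hdet
  refine ⟨⟨⟨!![a'', b''; c'', e''], ?_⟩, A, B, D, hA, hApos, hAD, hB0, hBD, ?_, ?_, ?_, ?_⟩⟩
  · rw [Matrix.det_fin_two_of]; exact hdet''
  · simpa using h00
  · simpa using h01
  · simpa using h10
  · simpa using h11


open UpperHalfPlane

/-- The point `d * z` of the upper half plane. -/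
noncomputable def dilate (d : ℕ) (hd : 0 < d) (z : ℍ) : ℍ :=
  ⟨(d : ℂ) * z, by
    have : ((d : ℂ) * z).im = d * z.im := by simp
    rw [this]
    exact mul_pos (Nat.cast_pos.mpr hd) z.im_pos⟩

@[simp] theorem coe_dilate (d : ℕ) (hd : 0 < d) (z : ℍ) : (dilate d hd z : ℂ) = (d : ℂ) * z := rfl

theorem im_affine_div (A B D : ℤ) (z : ℂ) :
    ((((A : ℂ) * z + B) / D)).im = (A : ℝ) * z.im / D := by
  have h : (((A : ℂ) * z + B) / D) = (((A : ℝ) / (D : ℝ) : ℝ) : ℂ) * z + (((B : ℝ) / (D : ℝ) : ℝ) : ℂ) := by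
    push_cast
    ring
  rw [h]
  simp only [Complex.add_im, Complex.mul_im, Complex.ofReal_re, Complex.ofReal_im, zero_mul,
    add_zero]
  ring

/-- The point `(A z + B) / D` of the upper half plane. -/
noncomputable def affPt (A B D : ℤ) (hA : 0 < A) (hD : 0 < D) (z : ℍ) : ℍ :=
  ⟨((A : ℂ) * z + B) / D, by
    rw [im_affine_div]
    have hA' : (0 : ℝ) < A := by exact_mod_cast hA
    have hD' : (0 : ℝ) < D := by exact_mod_cast hD
    exact div_pos (mul_pos hA' z.im_pos) hD'⟩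

@[simp] theorem coe_affPt (A B D : ℤ) (hA : 0 < A) (hD : 0 < D) (z : ℍ) :
    (affPt A B D hA hD z : ℂ) = ((A : ℂ) * z + B) / D := rfl

/-- The point `(A z + B)/D` attached to Hermite data. -/
noncomputable def HermiteData.pt {d : ℕ} {g : SL(2, ℤ)} (hd : 0 < d) (H : HermiteData d g)
    (z : ℍ) : ℍ :=
  affPt H.A H.B H.D H.A_pos (H.D_pos hd) z

theorem HermiteData.coe_pt {d : ℕ} {g : SL(2, ℤ)} (hd : 0 < d) (H : HermiteData d g) (z : ℍ) :
    (H.pt hd z : ℂ) = ((H.A : ℂ) * z + H.B) / H.D := rfl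

/-- The automorphy factor of `g''` at `(Az+B)/D` is `(c z + e)/D`. -/
theorem HermiteData.denom_eq {d : ℕ} {g : SL(2, ℤ)} (hd : 0 < d) (H : HermiteData d g) (z : ℍ) :
    ((H.g'' 1 0 : ℤ) : ℂ) * (H.pt hd z : ℂ) + ((H.g'' 1 1 : ℤ) : ℂ) =
      (((g 1 0 : ℤ) : ℂ) * z + ((g 1 1 : ℤ) : ℂ)) / (H.D : ℂ) := by
  have hD : (H.D : ℂ) ≠ 0 := by exact_mod_cast (H.D_pos hd).ne'
  rw [H.coe_pt hd, eq_div_iff hD]
  have h10 : ((H.g'' 1 0 : ℤ) : ℂ) * (H.A : ℂ) = ((g 1 0 : ℤ) : ℂ) := by exact_mod_cast H.h10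
  have h11 : ((H.g'' 1 0 : ℤ) : ℂ) * (H.B : ℂ) + ((H.g'' 1 1 : ℤ) : ℂ) * (H.D : ℂ) =
      ((g 1 1 : ℤ) : ℂ) := by exact_mod_cast H.h11
  rw [← h10, ← h11]
  field_simp
  ring

/-- The numerator of `g''` at `(Az+B)/D` is `d (a z + b)/D`. -/
theorem HermiteData.num_eq {d : ℕ} {g : SL(2, ℤ)} (hd : 0 < d) (H : HermiteData d g) (z : ℍ) :
    ((H.g'' 0 0 : ℤ) : ℂ) * (H.pt hd z : ℂ) + ((H.g'' 0 1 : ℤ) : ℂ) =
      (d : ℂ) * (((g 0 0 : ℤ) : ℂ) * z + ((g 0 1 : ℤ) : ℂ)) / (H.D : ℂ) := by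
  have hD : (H.D : ℂ) ≠ 0 := by exact_mod_cast (H.D_pos hd).ne'
  rw [H.coe_pt hd, eq_div_iff hD]
  have h00 : ((H.g'' 0 0 : ℤ) : ℂ) * (H.A : ℂ) = (d : ℂ) * ((g 0 0 : ℤ) : ℂ) := by
    exact_mod_cast H.h00
  have h01 : ((H.g'' 0 0 : ℤ) : ℂ) * (H.B : ℂ) + ((H.g'' 0 1 : ℤ) : ℂ) * (H.D : ℂ) =
      (d : ℂ) * ((g 0 1 : ℤ) : ℂ) := by exact_mod_cast H.h01
  have : (d : ℂ) * (((g 0 0 : ℤ) : ℂ) * z + ((g 0 1 : ℤ) : ℂ)) =
      ((H.g'' 0 0 : ℤ) : ℂ) * (H.A : ℂ) * z + (((H.g'' 0 0 : ℤ) : ℂ) * (H.B : ℂ) +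
        ((H.g'' 0 1 : ℤ) : ℂ) * (H.D : ℂ)) := by
    rw [h00, h01]; ring
  rw [this]
  field_simp
  ring

/-- **Point identity**: `d * (g • z) = g'' • ((A z + B)/D)`. -/
theorem HermiteData.dilate_smul {d : ℕ} {g : SL(2, ℤ)} (hd : 0 < d) (H : HermiteData d g)
    (z : ℍ) : dilate d hd (g • z) = H.g'' • H.pt hd z := by
  apply UpperHalfPlane.ext
  rw [coe_dilate, coe_specialLinearGroup_apply, coe_specialLinearGroup_apply]
  simp only [algebraMap_int_eq, Int.coe_castRingHom, Complex.ofReal_intCast]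
  rw [H.denom_eq hd, H.num_eq hd]
  have hD : (H.D : ℂ) ≠ 0 := by exact_mod_cast (H.D_pos hd).ne'
  have hden : ((g 1 0 : ℤ) : ℂ) * z + ((g 1 1 : ℤ) : ℂ) ≠ 0 := by
    have := denom_ne_zero g z
    simpa [ModularGroup.denom_apply] using this
  field_simp


/-- Weight `0`: an `SL(2,ℤ)`-invariant function satisfies `F(d * (g • z)) = F((A z + B)/D)`. -/
theorem HermiteData.apply_dilate_smul_of_invariant {d : ℕ} {g : SL(2, ℤ)} (hd : 0 < d)
    (H : HermiteData d g) {X : Type*} (F : ℍ → X) (hF : ∀ (γ : SL(2, ℤ)) (w : ℍ), F (γ • w) = F w)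
    (z : ℍ) : F (dilate d hd (g • z)) = F (H.pt hd z) := by
  rw [H.dilate_smul hd, hF]

/-- Weight `k`: if `Φ(γ • w) = (c w + e)^k Φ(w)` for all `γ ∈ SL(2,ℤ)`, then
`Φ(d * (g • z)) = ((c z + e)/D)^k * Φ((A z + B)/D)`, where `(c, e)` is the bottom row of `g`. -/
theorem HermiteData.apply_dilate_smul_of_weight {d : ℕ} {g : SL(2, ℤ)} (hd : 0 < d)
    (H : HermiteData d g) (k : ℤ) (Φ : ℍ → ℂ)
    (hΦ : ∀ (γ : SL(2, ℤ)) (w : ℍ),
      Φ (γ • w) = (((γ 1 0 : ℤ) : ℂ) * w + ((γ 1 1 : ℤ) : ℂ)) ^ k * Φ w)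
    (z : ℍ) :
    Φ (dilate d hd (g • z)) =
      ((((g 1 0 : ℤ) : ℂ) * z + ((g 1 1 : ℤ) : ℂ)) / (H.D : ℂ)) ^ k * Φ (H.pt hd z) := by
  rw [H.dilate_smul hd, hΦ, H.denom_eq hd]

/-- The transformation law of the discriminant, in explicit form. -/
theorem discriminant_smul (g : SL(2, ℤ)) (z : ℍ) :
    ModularForm.discriminant (g • z) =
      (((g 1 0 : ℤ) : ℂ) * z + ((g 1 1 : ℤ) : ℂ)) ^ (12 : ℤ) * ModularForm.discriminant z := by
  have h := SlashInvariantForm.slash_action_eqn' (Γ := (Matrix.SpecialLinearGroup.mapGL ℝ).range)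
    (k := 12) CuspForm.discriminant (γ := Matrix.SpecialLinearGroup.mapGL ℝ g)
    (MonoidHom.mem_range.mpr ⟨g, rfl⟩) z
  have h2 : (Matrix.SpecialLinearGroup.mapGL ℝ g) • z = g • z := rfl
  rw [h2] at h
  simp only [CuspForm.coe_discriminant] at h
  rw [h]
  simp

/-- The modular unit `u_d(z) = Δ(d z) / Δ(z)`. -/
noncomputable def modUnit (d : ℕ) (hd : 0 < d) (z : ℍ) : ℂ :=
  ModularForm.discriminant (dilate d hd z) / ModularForm.discriminant z

theorem modUnit_ne_zero (d : ℕ) (hd : 0 < d) (z : ℍ) : modUnit d hd z ≠ 0 :=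
  div_ne_zero (ModularForm.discriminant_ne_zero _) (ModularForm.discriminant_ne_zero _)

/-- **Modular unit at a general cusp**: `u_d(g • z) = D⁻¹ ^ 12 * Δ((A z + B)/D) / Δ(z)`;
the automorphy factors cancel exactly. -/
theorem HermiteData.modUnit_smul {d : ℕ} {g : SL(2, ℤ)} (hd : 0 < d) (H : HermiteData d g)
    (z : ℍ) :
    modUnit d hd (g • z) =
      ((H.D : ℂ)⁻¹) ^ 12 * ModularForm.discriminant (H.pt hd z) / ModularForm.discriminant z := by
  have hD : (H.D : ℂ) ≠ 0 := by exact_mod_cast (H.D_pos hd).ne'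
  have hden : ((g 1 0 : ℤ) : ℂ) * z + ((g 1 1 : ℤ) : ℂ) ≠ 0 := by
    have := denom_ne_zero g z
    simpa [ModularGroup.denom_apply] using this
  have hΔ : ModularForm.discriminant z ≠ 0 := ModularForm.discriminant_ne_zero z
  rw [modUnit, H.apply_dilate_smul_of_weight hd 12 _ discriminant_smul, discriminant_smul g z]
  have e1 : ((((g 1 0 : ℤ) : ℂ) * z + ((g 1 1 : ℤ) : ℂ)) / (H.D : ℂ)) ^ (12 : ℤ) =
      (((g 1 0 : ℤ) : ℂ) * z + ((g 1 1 : ℤ) : ℂ)) ^ (12 : ℤ) * ((H.D : ℂ)⁻¹) ^ 12 := by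
    rw [div_eq_mul_inv, mul_zpow]
    norm_cast
  rw [e1]
  have hpow : (((g 1 0 : ℤ) : ℂ) * z + ((g 1 1 : ℤ) : ℂ)) ^ (12 : ℤ) ≠ 0 := zpow_ne_zero _ hden
  field_simp

/-- The normalised modular unit `d^12 Δ(d z)/Δ(z)` at a general cusp is
`A^12 Δ((A z + B)/D)/Δ(z)`. -/
theorem HermiteData.pow_mul_modUnit_smul {d : ℕ} {g : SL(2, ℤ)} (hd : 0 < d)
    (H : HermiteData d g) (z : ℍ) :
    (d : ℂ) ^ 12 * modUnit d hd (g • z) =
      (H.A : ℂ) ^ 12 * ModularForm.discriminant (H.pt hd z) / ModularForm.discriminant z := by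
  have hD : (H.D : ℂ) ≠ 0 := by exact_mod_cast (H.D_pos hd).ne'
  have hAD : (d : ℂ) = (H.A : ℂ) * (H.D : ℂ) := by
    have := H.A_mul_D
    exact_mod_cast this.symm
  rw [H.modUnit_smul hd, hAD, mul_pow]
  field_simp


section QParam

open Complex Function

/-- The root of unity `exp(2πi B / D)`. -/
noncomputable def rootExp (B D : ℤ) : ℂ := Complex.exp (2 * Real.pi * Complex.I * B / D)

theorem rootExp_ne_zero (B D : ℤ) : rootExp B D ≠ 0 := Complex.exp_ne_zero _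

theorem rootExp_pow_eq_one (B D : ℤ) (n : ℕ) (hn : (n : ℤ) = D) (hD : D ≠ 0) :
    rootExp B D ^ n = 1 := by
  rw [rootExp, ← Complex.exp_nat_mul]
  have hD' : (D : ℂ) ≠ 0 := by exact_mod_cast hD
  have hn' : (n : ℂ) = (D : ℂ) := by exact_mod_cast hn
  have : (n : ℂ) * (2 * Real.pi * Complex.I * B / D) = (B : ℂ) * (2 * Real.pi * Complex.I) := by
    rw [hn']
    field_simp
  rw [this]
  exact Complex.exp_int_mul_two_pi_mul_I _

/-- **The `q`-parameter at `(A z + B)/D`**: `q((Az+B)/D) = ζ_D^B · t^m`, where `t = exp(2πi z/N)`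
and `m D = N A`. -/
theorem qParam_affPt (A B D : ℤ) (hA : 0 < A) (hD : 0 < D) (N m : ℕ) (hN : 0 < N)
    (hm : (m : ℤ) * D = N * A) (z : ℍ) :
    Periodic.qParam 1 (affPt A B D hA hD z : ℂ) = rootExp B D * Periodic.qParam N z ^ m := by
  have hD' : (D : ℂ) ≠ 0 := by exact_mod_cast hD.ne'
  have hN' : (N : ℂ) ≠ 0 := by exact_mod_cast hN.ne'
  have hm' : (m : ℂ) * (D : ℂ) = (N : ℂ) * (A : ℂ) := by exact_mod_cast hm
  rw [Periodic.qParam, Periodic.qParam, rootExp, ← Complex.exp_nat_mul, ← Complex.exp_add,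
    coe_affPt]
  congr 1
  have hmA : (m : ℂ) = (N : ℂ) * (A : ℂ) / (D : ℂ) := by
    rw [eq_div_iff hD', hm']
  rw [hmA]
  push_cast
  field_simp
  ring

theorem HermiteData.qParam_pt {d : ℕ} {g : SL(2, ℤ)} (hd : 0 < d) (H : HermiteData d g)
    (N m : ℕ) (hN : 0 < N) (hm : (m : ℤ) * H.D = N * H.A) (z : ℍ) :
    Periodic.qParam 1 (H.pt hd z : ℂ) = rootExp H.B H.D * Periodic.qParam N z ^ m :=
  qParam_affPt H.A H.B H.D H.A_pos (H.D_pos hd) N m hN hm z

/-- If `d ∣ N` there is an exponent `m` with `m D = N A` (namely `m = (N/d) A²`). -/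
theorem HermiteData.exists_expo {d : ℕ} {g : SL(2, ℤ)} (H : HermiteData d g) (N : ℕ)
    (hdN : d ∣ N) : ∃ m : ℕ, (m : ℤ) * H.D = N * H.A := by
  obtain ⟨e, rfl⟩ := hdN
  refine ⟨e * H.A.natAbs * H.A.natAbs, ?_⟩
  simp only [Nat.cast_mul, Int.natCast_natAbs, abs_of_pos H.A_pos]
  rw [← H.A_mul_D]
  ring

/-- **Transfer of `q`-expansions**: if `f(w) = ∑ aₙ q(w)ⁿ` for all `w`, then
`f((A z + B)/D) = ∑ aₙ ζⁿ t^(m n)` with `ζ = exp(2πi B/D)`, `t = exp(2πi z/N)`. -/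
theorem HermiteData.hasSum_pt {d : ℕ} {g : SL(2, ℤ)} (hd : 0 < d) (H : HermiteData d g)
    (N m : ℕ) (hN : 0 < N) (hm : (m : ℤ) * H.D = N * H.A) (f : ℍ → ℂ) (a : ℕ → ℂ)
    (hf : ∀ w : ℍ, HasSum (fun n : ℕ => a n * Periodic.qParam 1 (w : ℂ) ^ n) (f w)) (z : ℍ) :
    HasSum (fun n : ℕ => a n * rootExp H.B H.D ^ n * (Periodic.qParam N z ^ m) ^ n)
      (f (H.pt hd z)) := by
  have h := hf (H.pt hd z)
  rw [H.qParam_pt hd N m hN hm] at h
  refine h.congr_fun ?_ |> fun h' => h'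
  intro n
  rw [mul_pow]
  ring

end QParam


/-! ### The case `d ∣ c`: invariance under `Γ₀(N)` -/

section Gamma0

theorem HermiteData.A_eq_of_dvd {d : ℕ} {g : SL(2, ℤ)} (H : HermiteData d g)
    (h : (d : ℤ) ∣ g 1 0) : H.A = d := by
  rw [H.A_eq]
  exact Int.gcd_eq_right (Int.natCast_nonneg d) h

theorem HermiteData.D_eq_one_of_dvd {d : ℕ} {g : SL(2, ℤ)} (hd : 0 < d) (H : HermiteData d g)
    (h : (d : ℤ) ∣ g 1 0) : H.D = 1 := by
  have h1 := H.A_mul_D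
  rw [H.A_eq_of_dvd h] at h1
  have hd' : (d : ℤ) ≠ 0 := by exact_mod_cast hd.ne'
  exact mul_left_cancel₀ hd' (by rw [h1, mul_one])

theorem HermiteData.B_eq_zero_of_dvd {d : ℕ} {g : SL(2, ℤ)} (hd : 0 < d) (H : HermiteData d g)
    (h : (d : ℤ) ∣ g 1 0) : H.B = 0 := by
  have h1 := H.B_lt
  rw [H.D_eq_one_of_dvd hd h] at h1
  have h0 := H.B_nonneg
  omega

/-- If `d ∣ c` then `(A z + B)/D = d z`. -/
theorem HermiteData.pt_eq_dilate_of_dvd {d : ℕ} {g : SL(2, ℤ)} (hd : 0 < d) (H : HermiteData d g)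
    (h : (d : ℤ) ∣ g 1 0) (z : ℍ) : H.pt hd z = dilate d hd z := by
  apply UpperHalfPlane.ext
  rw [H.coe_pt hd, coe_dilate, H.A_eq_of_dvd h, H.D_eq_one_of_dvd hd h, H.B_eq_zero_of_dvd hd h]
  simp

theorem dvd_lower_left_of_mem_Gamma0 {N d : ℕ} (hdN : d ∣ N) {g : SL(2, ℤ)}
    (hg : g ∈ CongruenceSubgroup.Gamma0 N) : (d : ℤ) ∣ g 1 0 := by
  rw [CongruenceSubgroup.Gamma0_mem] at hg
  have h1 : (N : ℤ) ∣ g 1 0 := (ZMod.intCast_zmod_eq_zero_iff_dvd _ _).mp hg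
  exact dvd_trans (Int.natCast_dvd_natCast.mpr hdN) h1

/-- **`Γ₀(N)`-invariance of `z ↦ F (d z)`** for an `SL(2,ℤ)`-invariant `F` and `d ∣ N`. -/
theorem apply_dilate_smul_of_mem_Gamma0 {N d : ℕ} (hd : 0 < d) (hdN : d ∣ N) {g : SL(2, ℤ)}
    (hg : g ∈ CongruenceSubgroup.Gamma0 N) {X : Type*} (F : ℍ → X)
    (hF : ∀ (γ : SL(2, ℤ)) (w : ℍ), F (γ • w) = F w) (z : ℍ) :
    F (dilate d hd (g • z)) = F (dilate d hd z) := by
  obtain ⟨H⟩ := nonempty_hermiteData d hd g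
  rw [H.apply_dilate_smul_of_invariant hd F hF,
    H.pt_eq_dilate_of_dvd hd (dvd_lower_left_of_mem_Gamma0 hdN hg)]

/-- **`Γ₀(N)`-invariance of the modular unit** `Δ(d z)/Δ(z)` for `d ∣ N`. -/
theorem modUnit_smul_of_mem_Gamma0 {N d : ℕ} (hd : 0 < d) (hdN : d ∣ N) {g : SL(2, ℤ)}
    (hg : g ∈ CongruenceSubgroup.Gamma0 N) (z : ℍ) :
    modUnit d hd (g • z) = modUnit d hd z := by
  obtain ⟨H⟩ := nonempty_hermiteData d hd g
  have hdvd := dvd_lower_left_of_mem_Gamma0 hdN hg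
  rw [H.modUnit_smul hd, H.pt_eq_dilate_of_dvd hd hdvd, H.D_eq_one_of_dvd hd hdvd, modUnit]
  simp

end Gamma0


/-! ### Natural number versions of the Hermite parameters -/

section NatParams

/-- `A` as a natural number. -/
def HermiteData.An {d : ℕ} {g : SL(2, ℤ)} (H : HermiteData d g) : ℕ := H.A.toNat
/-- `B` as a natural number. -/
def HermiteData.Bn {d : ℕ} {g : SL(2, ℤ)} (H : HermiteData d g) : ℕ := H.B.toNat
/-- `D` as a natural number. -/
def HermiteData.Dn {d : ℕ} {g : SL(2, ℤ)} (H : HermiteData d g) : ℕ := H.D.toNat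

theorem HermiteData.coe_An {d : ℕ} {g : SL(2, ℤ)} (H : HermiteData d g) : (H.An : ℤ) = H.A :=
  Int.toNat_of_nonneg H.A_pos.le

theorem HermiteData.coe_Bn {d : ℕ} {g : SL(2, ℤ)} (H : HermiteData d g) : (H.Bn : ℤ) = H.B :=
  Int.toNat_of_nonneg H.B_nonneg

theorem HermiteData.coe_Dn {d : ℕ} {g : SL(2, ℤ)} (hd : 0 < d) (H : HermiteData d g) :
    (H.Dn : ℤ) = H.D :=
  Int.toNat_of_nonneg (H.D_pos hd).le

theorem HermiteData.An_eq {d : ℕ} {g : SL(2, ℤ)} (H : HermiteData d g) :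
    H.An = Nat.gcd (g 1 0).natAbs d := by
  have h := H.coe_An
  rw [H.A_eq] at h
  have : (H.An : ℤ) = ((Nat.gcd (g 1 0).natAbs d : ℕ) : ℤ) := by
    rw [h]; simp [Int.gcd]
  exact_mod_cast this

theorem HermiteData.An_mul_Dn {d : ℕ} {g : SL(2, ℤ)} (hd : 0 < d) (H : HermiteData d g) :
    H.An * H.Dn = d := by
  have : ((H.An * H.Dn : ℕ) : ℤ) = (d : ℤ) := by
    push_cast
    rw [H.coe_An, H.coe_Dn hd, H.A_mul_D]
  exact_mod_cast this

theorem HermiteData.An_pos {d : ℕ} {g : SL(2, ℤ)} (H : HermiteData d g) : 0 < H.An := by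
  have := H.A_pos
  rw [← H.coe_An] at this
  exact_mod_cast this

theorem HermiteData.Dn_pos {d : ℕ} {g : SL(2, ℤ)} (hd : 0 < d) (H : HermiteData d g) :
    0 < H.Dn := by
  have := H.D_pos hd
  rw [← H.coe_Dn hd] at this
  exact_mod_cast this

theorem HermiteData.Bn_lt {d : ℕ} {g : SL(2, ℤ)} (hd : 0 < d) (H : HermiteData d g) :
    H.Bn < H.Dn := by
  have := H.B_lt
  rw [← H.coe_Bn, ← H.coe_Dn hd] at this
  exact_mod_cast this

theorem HermiteData.Dn_dvd {d : ℕ} {g : SL(2, ℤ)} (hd : 0 < d) (H : HermiteData d g) :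
    H.Dn ∣ d := ⟨H.An, by rw [mul_comm, H.An_mul_Dn hd]⟩

theorem HermiteData.An_dvd {d : ℕ} {g : SL(2, ℤ)} (hd : 0 < d) (H : HermiteData d g) :
    H.An ∣ d := ⟨H.Dn, (H.An_mul_Dn hd).symm⟩

/-- The exponent `m = (N/d) A²` of the local parameter `t = q^{1/N}` in `q((Az+B)/D)`. -/
def HermiteData.expo {d : ℕ} {g : SL(2, ℤ)} (H : HermiteData d g) (N : ℕ) : ℕ :=
  N / d * H.An ^ 2

theorem HermiteData.expo_mul_D {d : ℕ} {g : SL(2, ℤ)} (H : HermiteData d g) (N : ℕ)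
    (hdN : d ∣ N) : (H.expo N : ℤ) * H.D = N * H.A := by
  obtain ⟨e, rfl⟩ := hdN
  rcases Nat.eq_zero_or_pos d with h0 | hd
  · subst h0
    have := H.A_mul_D
    simp only [Nat.cast_zero, zero_mul] at this ⊢
    rcases mul_eq_zero.mp this with h | h
    · exact absurd h H.A_pos.ne'
    · rw [h]; simp
  · rw [HermiteData.expo, Nat.mul_div_cancel_left _ hd]
    push_cast
    rw [H.coe_An, ← H.A_mul_D]
    ring

theorem HermiteData.expo_pos {d : ℕ} {g : SL(2, ℤ)} (H : HermiteData d g) (N : ℕ) (hN : 0 < N)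
    (hdN : d ∣ N) : 0 < H.expo N := by
  have hd : 0 < d := Nat.pos_of_dvd_of_pos hdN hN
  exact Nat.mul_pos (Nat.div_pos (Nat.le_of_dvd hN hdN) hd) (pow_pos H.An_pos 2)

/-- `q((Az+B)/D) = ζ_D^B · t^m` with the canonical exponent `m = (N/d) A²`. -/
theorem HermiteData.qParam_pt_expo {d : ℕ} {g : SL(2, ℤ)} (hd : 0 < d) (H : HermiteData d g)
    (N : ℕ) (hN : 0 < N) (hdN : d ∣ N) (z : ℍ) :
    Function.Periodic.qParam 1 (H.pt hd z : ℂ) =
      rootExp H.B H.D * Function.Periodic.qParam N z ^ H.expo N :=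
  H.qParam_pt hd N (H.expo N) hN (H.expo_mul_D N hdN) z

end NatParams

/-! ### Lemmas on `scaleHom` and `cuspS` -/

section CuspS

open ModularCurve HahnSeries

variable {R : Type*} [CommRing R]

theorem scaleHom_single (c : Rˣ) (n : ℤ) (r : R) :
    scaleHom R c (HahnSeries.single n r) = HahnSeries.single n (((c ^ n : Rˣ) : R) * r) := by
  ext m
  rw [scaleHom_coeff]
  rcases eq_or_ne m n with rfl | hm
  · simp [HahnSeries.coeff_single_same]
  · simp [HahnSeries.coeff_single_of_ne hm]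

theorem scaleHom_C (c : Rˣ) (r : R) : scaleHom R c (HahnSeries.C r) = HahnSeries.C r := by
  rw [HahnSeries.C_apply, scaleHom_single]
  simp

theorem scaleHom_injective (c : Rˣ) : Function.Injective (scaleHom R c) := by
  intro f g h
  ext n
  have := congrArg (fun x => x.coeff n) h
  simp only [scaleHom_coeff] at this
  exact (Units.mul_right_inj _).mp this

theorem support_scaleHom (c : Rˣ) (x : LaurentSeries R) :
    (scaleHom R c x).support = x.support := support_scaleFun R c x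

theorem scaleHom_eq_zero_iff (c : Rˣ) (x : LaurentSeries R) : scaleHom R c x = 0 ↔ x = 0 :=
  ⟨fun h => scaleHom_injective c (by rw [h, map_zero]), fun h => by rw [h, map_zero]⟩

theorem orderTop_scaleHom (c : Rˣ) (x : LaurentSeries R) :
    (scaleHom R c x).orderTop = x.orderTop := by
  by_cases hx : x = 0
  · rw [hx, map_zero]
  · have hx' : scaleHom R c x ≠ 0 := fun h => hx ((scaleHom_eq_zero_iff c x).mp h)
    rw [HahnSeries.orderTop_of_ne_zero hx, HahnSeries.orderTop_of_ne_zero hx']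
    congr 1
    simp only [support_scaleHom]

theorem order_scaleHom (c : Rˣ) (x : LaurentSeries R) :
    (scaleHom R c x).order = x.order := by
  by_cases hx : x = 0
  · rw [hx, map_zero]
  · have hx' : scaleHom R c x ≠ 0 := fun h => hx ((scaleHom_eq_zero_iff c x).mp h)
    have h1 := HahnSeries.order_eq_orderTop_of_ne_zero hx
    have h2 := HahnSeries.order_eq_orderTop_of_ne_zero hx'
    rw [orderTop_scaleHom] at h2
    exact_mod_cast h2.trans h1.symm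

theorem cuspS_apply (ξ : Rˣ) (e : ℕ) [NeZero e] (x : LaurentSeries R) :
    cuspS R ξ e x = qExpand R e (scaleHom R ξ x) := rfl

@[simp] theorem cuspS_coeff_mul (ξ : Rˣ) (e : ℕ) [NeZero e] (x : LaurentSeries R) (n : ℤ) :
    (cuspS R ξ e x).coeff ((e : ℤ) * n) = ((ξ ^ n : Rˣ) : R) * x.coeff n := by
  rw [cuspS_apply, qExpand_coeff_mul, scaleHom_coeff]

theorem cuspS_coeff_of_not_dvd (ξ : Rˣ) (e : ℕ) [NeZero e] (x : LaurentSeries R) {m : ℤ}
    (hm : ¬ (e : ℤ) ∣ m) : (cuspS R ξ e x).coeff m = 0 := by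
  rw [cuspS_apply]
  exact qExpand_coeff_of_not_dvd e _ hm

theorem cuspS_single (ξ : Rˣ) (e : ℕ) [NeZero e] (n : ℤ) (r : R) :
    cuspS R ξ e (HahnSeries.single n r) =
      HahnSeries.single ((e : ℤ) * n) (((ξ ^ n : Rˣ) : R) * r) := by
  rw [cuspS_apply, scaleHom_single, qExpand_single]

theorem cuspS_C (ξ : Rˣ) (e : ℕ) [NeZero e] (r : R) :
    cuspS R ξ e (HahnSeries.C r) = HahnSeries.C r := by
  rw [cuspS_apply, scaleHom_C, qExpand_C]

theorem cuspS_injective (ξ : Rˣ) (e : ℕ) [NeZero e] : Function.Injective (cuspS R ξ e) :=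
  (qExpand_injective e).comp (scaleHom_injective ξ)

theorem orderTop_qExpand (e : ℕ) [NeZero e] (x : LaurentSeries R) :
    (qExpand R e x).orderTop = WithTop.map (fun n : ℤ => (e : ℤ) * n) x.orderTop := by
  show (HahnSeries.embDomain _ x).orderTop = _
  rw [HahnSeries.orderTop_embDomain]
  rfl

theorem qExpand_eq_zero_iff (e : ℕ) [NeZero e] (x : LaurentSeries R) :
    qExpand R e x = 0 ↔ x = 0 :=
  ⟨fun h => qExpand_injective e (by rw [h, map_zero]), fun h => by rw [h, map_zero]⟩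

theorem order_qExpand (e : ℕ) [NeZero e] (x : LaurentSeries R) :
    (qExpand R e x).order = (e : ℤ) * x.order := by
  by_cases hx : x = 0
  · rw [hx, map_zero]; simp
  · have hx' : qExpand R e x ≠ 0 := fun h => hx ((qExpand_eq_zero_iff e x).mp h)
    have h1 := HahnSeries.order_eq_orderTop_of_ne_zero hx
    have h2 := HahnSeries.order_eq_orderTop_of_ne_zero hx'
    rw [orderTop_qExpand, ← h1, WithTop.map_coe] at h2
    exact_mod_cast h2

theorem order_cuspS (ξ : Rˣ) (e : ℕ) [NeZero e] (x : LaurentSeries R) :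
    (cuspS R ξ e x).order = (e : ℤ) * x.order := by
  rw [cuspS_apply, order_qExpand, order_scaleHom]

theorem cuspS_one_eq_qExpand (e : ℕ) [NeZero e] (x : LaurentSeries R) :
    cuspS R 1 e x = qExpand R e x := by
  rw [cuspS_apply]
  congr 1
  ext n
  simp

end CuspS

end CuspExp

end Fermat.Agent.S28
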