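import Fermat.Agent.S28.CuspSeries
import Fermat.Agent.S28.CuspExpansion

/-!
# Orders of the explicit cusp series

Over a field (or a domain) the series `cuspU κ N ξ δ e = δ⁻¹² Δ(ξ t^e)/Δ(t^N)` is nonzero of
order `e - N`.
-/

set_option autoImplicit false

noncomputable section

namespace Fermat.Agent.S28.CuspOrder

open Fermat.Agent.S28
open ModularCurve HahnSeries CuspExp

section

variable (R : Type*) [CommRing R] [Nontrivial R]

theorem ofPowerSeries_ne_zero_of_constantCoeff {p : PowerSeries R}
    (hp : PowerSeries.constantCoeff p ≠ 0) : HahnSeries.ofPowerSeries ℤ R p ≠ 0 := by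
  intro h
  have h1 : (HahnSeries.ofPowerSeries ℤ R p).coeff ((0 : ℕ) : ℤ) = 0 := by rw [h]; rfl
  rw [HahnSeries.ofPowerSeries_apply_coeff, PowerSeries.coeff_zero_eq_constantCoeff_apply] at h1
  exact hp h1

theorem order_ofPowerSeries_of_constantCoeff {p : PowerSeries R}
    (hp : PowerSeries.constantCoeff p ≠ 0) : (HahnSeries.ofPowerSeries ℤ R p).order = 0 := by
  have hne := ofPowerSeries_ne_zero_of_constantCoeff R hp
  apply le_antisymm
  · apply HahnSeries.order_le_of_coeff_ne_zero
    have : (HahnSeries.ofPowerSeries ℤ R p).coeff ((0 : ℕ) : ℤ) ≠ 0 := by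
      rw [HahnSeries.ofPowerSeries_apply_coeff, PowerSeries.coeff_zero_eq_constantCoeff_apply]
      exact hp
    simpa using this
  · rw [HahnSeries.le_order_iff_forall hne]
    intro j hj
    exact ofPowerSeries_coeff_of_neg p hj

theorem constantCoeff_map_ne_zero {p : PowerSeries ℤ} (hp : PowerSeries.constantCoeff p = 1) :
    PowerSeries.constantCoeff (p.map (Int.castRingHom R)) ≠ 0 := by
  rw [← PowerSeries.coeff_zero_eq_constantCoeff_apply, PowerSeries.coeff_map,
    PowerSeries.coeff_zero_eq_constantCoeff_apply, hp]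
  simp

theorem deltaS_ne_zero : deltaS R ≠ 0 := by
  intro h
  have := deltaS_mul_deltaInvS R
  rw [h, zero_mul] at this
  exact zero_ne_one this

theorem deltaInvS_ne_zero : deltaInvS R ≠ 0 := by
  intro h
  have := deltaS_mul_deltaInvS R
  rw [h, mul_zero] at this
  exact zero_ne_one this

theorem order_deltaS : (deltaS R).order = 1 := by
  have hp := constantCoeff_map_ne_zero R constantCoeff_dedekindEtaUnit
  rw [deltaS, HahnSeries.order_single_mul_of_isRegular isRegular_one
    (ofPowerSeries_ne_zero_of_constantCoeff R hp), order_ofPowerSeries_of_constantCoeff R hp,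
    add_zero]

theorem order_deltaInvS : (deltaInvS R).order = -1 := by
  have hp := constantCoeff_map_ne_zero R constantCoeff_dedekindEtaUnitInv
  rw [deltaInvS, HahnSeries.order_single_mul_of_isRegular isRegular_one
    (ofPowerSeries_ne_zero_of_constantCoeff R hp), order_ofPowerSeries_of_constantCoeff R hp,
    add_zero]

end

section Field

variable (κ : Type*) [CommRing κ] [IsDomain κ] (N : ℕ) [NeZero N] (ξ δ : κˣ) (e : ℕ) [NeZero e]

theorem cuspU_ne_zero : cuspU κ N ξ δ e ≠ 0 := by
  intro h
  have := cuspU_mul_cuspUInv κ N ξ δ e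
  rw [h, zero_mul] at this
  exact zero_ne_one this

theorem order_cuspU : (cuspU κ N ξ δ e).order = (e : ℤ) - N := by
  have h1 : (HahnSeries.C (((δ⁻¹ : κˣ) : κ) ^ 12) : LaurentSeries κ) ≠ 0 := by
    intro h
    have h0 : (((δ⁻¹ : κˣ) : κ) ^ 12) = 0 := by
      have := congrArg (fun x : LaurentSeries κ => x.coeff 0) h
      simpa using this
    exact (pow_ne_zero 12 (Units.ne_zero _)) h0
  have h2 : cuspS κ ξ e (deltaS κ) ≠ 0 := fun h =>
    deltaS_ne_zero κ (cuspS_injective ξ e (by rw [h, map_zero]))
  have h3 : qExpand κ N (deltaInvS κ) ≠ 0 := fun h =>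
    deltaInvS_ne_zero κ ((qExpand_eq_zero_iff N _).mp h)
  rw [cuspU, HahnSeries.order_mul (mul_ne_zero h1 h2) h3, HahnSeries.order_mul h1 h2,
    HahnSeries.order_C, order_cuspS, order_qExpand, order_deltaS, order_deltaInvS]
  ring

end Field

end Fermat.Agent.S28.CuspOrder
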