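import Fermat.Agent.S28.Defs

/-!
# T28 / A4c: descent of the coefficients of a polynomial in `j`

Pure algebra on Laurent series.  If `P` is a polynomial over `R` and the Laurent series
`P(j)` (with `j = jqModC R = q⁻¹ + 744 + ⋯`) has all its coefficients in the image of
`φ : S →+* R`, then `P` comes from `S[X]`.  Gauss version: over the fraction field `k` of a
discrete valuation ring `𝒪`, if `P(j)` is Gauss-integral then `P` comes from `𝒪[X]`.
Both statements are also given through an arbitrary `qExpand · N` (`q ↦ t^N`).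
-/

set_option autoImplicit false

noncomputable section

namespace Fermat.Agent.S28.PolyDescent

open ModularCurve HahnSeries Polynomial

section Basic

variable (R : Type*) [CommRing R]

theorem algebraMap_eq_C (c : R) : algebraMap R (LaurentSeries R) c = HahnSeries.C c := by
  rw [HahnSeries.algebraMap_apply']
  have : algebraMap R (PowerSeries R) c = PowerSeries.C c := rfl
  rw [this, HahnSeries.ofPowerSeries_C]

theorem coeff_algebraMap_mul (c : R) (x : LaurentSeries R) (m : ℤ) :
    ((algebraMap R (LaurentSeries R)) c * x).coeff m = c * x.coeff m := by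
  rw [algebraMap_eq_C, HahnSeries.C_apply, HahnSeries.coeff_single_zero_mul]

/-- coefficient of a finite sum of Laurent series -/
theorem coeff_finset_sum {ι : Type*} (s : Finset ι) (f : ι → LaurentSeries R) (m : ℤ) :
    (∑ i ∈ s, f i).coeff m = ∑ i ∈ s, (f i).coeff m := by
  classical
  induction s using Finset.induction_on with
  | empty => simp
  | insert a s ha ih => rw [Finset.sum_insert ha, Finset.sum_insert ha, HahnSeries.coeff_add, ih]

theorem coeff_aeval_jqModC (P : R[X]) (m : ℤ) :
    (aeval (jqModC R) P).coeff m =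
      ∑ i ∈ Finset.range (P.natDegree + 1), P.coeff i * ((jqModC R) ^ i).coeff m := by
  rw [Polynomial.aeval_eq_sum_range, coeff_finset_sum]
  refine Finset.sum_congr rfl fun i _ => ?_
  rw [Algebra.smul_def, coeff_algebraMap_mul]

theorem coeff_aeval_jqModC_of_lt (P : R[X]) {m : ℤ} (hm : m < -(P.natDegree : ℤ)) :
    (aeval (jqModC R) P).coeff m = 0 := by
  rw [coeff_aeval_jqModC]
  refine Finset.sum_eq_zero fun i hi => ?_
  have hi' : i ≤ P.natDegree := Nat.lt_succ_iff.mp (Finset.mem_range.mp hi)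
  rw [coeff_jqModC_pow_of_lt R (b := i) (m := m) (by omega), mul_zero]

theorem coeff_aeval_jqModC_neg_natDegree (P : R[X]) :
    (aeval (jqModC R) P).coeff (-(P.natDegree : ℤ)) = P.leadingCoeff := by
  rw [coeff_aeval_jqModC, Finset.sum_eq_single_of_mem P.natDegree
    (Finset.mem_range.mpr (Nat.lt_succ_self _))]
  · rw [coeff_jqModC_pow_self, mul_one, Polynomial.leadingCoeff]
  · intro i hi hne
    have hi' : i ≤ P.natDegree := Nat.lt_succ_iff.mp (Finset.mem_range.mp hi)
    rw [coeff_jqModC_pow_of_lt R (b := i) (m := -(P.natDegree : ℤ)) (by omega), mul_zero]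

/-- `j` is transcendental: `P(j) = 0` forces `P = 0` (over any commutative ring). -/
theorem eq_zero_of_aeval_jqModC_eq_zero (P : R[X]) (h : aeval (jqModC R) P = 0) : P = 0 := by
  have := coeff_aeval_jqModC_neg_natDegree R P
  rw [h, HahnSeries.coeff_zero] at this
  exact Polynomial.leadingCoeff_eq_zero.mp this.symm

theorem aeval_jqModC_injective : Function.Injective (aeval (R := R) (jqModC R)) := by
  intro P Q h
  have : aeval (jqModC R) (P - Q) = 0 := by rw [map_sub, h, sub_self]
  exact sub_eq_zero.mp (eq_zero_of_aeval_jqModC_eq_zero R _ this)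

end Basic

section CoeffMap

variable {S R : Type*} [CommRing S] [CommRing R] (φ : S →+* R)

/-- base change of `P(j)` along a ring hom of coefficients -/
theorem coeffMap_aeval_jqModC (Q : S[X]) :
    coeffMap φ (aeval (jqModC S) Q) = aeval (jqModC R) (Q.map φ) := by
  induction Q using Polynomial.induction_on' with
  | add p q hp hq => rw [map_add, map_add, hp, hq, Polynomial.map_add, map_add]
  | monomial n a =>
    rw [Polynomial.map_monomial, Polynomial.aeval_monomial, Polynomial.aeval_monomial, map_mul,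
      map_pow, coeffMap_jqModC, algebraMap_eq_C, algebraMap_eq_C, HahnSeries.C_apply,
      HahnSeries.C_apply, coeffMap_single]

end CoeffMap

section Descent

variable {S R : Type*} [CommRing S] [CommRing R] (φ : S →+* R)

/-- **Descent of coefficients (ring-hom form).**  If all Laurent coefficients of `P(j)` lie in the
range of `φ : S →+* R`, then `P` is the image of a polynomial over `S`. -/
theorem exists_map_eq_of_coeff_mem_range :
    ∀ (P : R[X]), (∀ m : ℤ, (aeval (jqModC R) P).coeff m ∈ φ.range) →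
      ∃ Q : S[X], Q.map φ = P := by
  intro P
  induction' hd : P.natDegree using Nat.strong_induction_on with d ih generalizing P
  intro hP
  by_cases hP0 : P = 0
  · exact ⟨0, by rw [hP0, Polynomial.map_zero]⟩
  -- the leading coefficient descends
  obtain ⟨a, ha⟩ : P.leadingCoeff ∈ φ.range := by
    have := hP (-(P.natDegree : ℤ))
    rwa [coeff_aeval_jqModC_neg_natDegree] at this
  by_cases hd0 : d = 0
  · -- constant polynomial
    refine ⟨Polynomial.C a, ?_⟩
    have : P = Polynomial.C (P.coeff 0) :=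
      Polynomial.eq_C_of_natDegree_eq_zero (hd.trans hd0)
    rw [Polynomial.map_C, ha, this, Polynomial.leadingCoeff_C]
  -- remove the leading term
  set P' : R[X] := P - Polynomial.C P.leadingCoeff * Polynomial.X ^ d with hP'
  have hdeg : P'.natDegree < d := by
    have h1 : P'.degree < P.degree := by
      have := Polynomial.degree_sub_lt_left (p := P)
        (q := Polynomial.C P.leadingCoeff * Polynomial.X ^ P.natDegree) ?_ hP0 ?_
      · rw [hP', ← hd]; exact this
      · rw [Polynomial.degree_C_mul_X_pow _ (Polynomial.leadingCoeff_ne_zero.mpr hP0),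
          Polynomial.degree_eq_natDegree hP0]
      · rw [Polynomial.leadingCoeff_C_mul_X_pow]
    by_cases hP'0 : P' = 0
    · rw [hP'0, Polynomial.natDegree_zero]; exact Nat.pos_of_ne_zero hd0
    · rw [← hd]
      exact (Polynomial.natDegree_lt_natDegree_iff hP'0).mpr h1
  have hP'coeff : ∀ m : ℤ, (aeval (jqModC R) P').coeff m ∈ φ.range := by
    intro m
    have h1 : aeval (jqModC R) P' = aeval (jqModC R) P -
        coeffMap φ (aeval (jqModC S) (Polynomial.C a * Polynomial.X ^ d)) := by
      rw [coeffMap_aeval_jqModC, hP', map_sub, Polynomial.map_mul, Polynomial.map_C,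
        Polynomial.map_pow, Polynomial.map_X, ha]
    rw [h1, HahnSeries.coeff_sub, coeffMap_coeff]
    exact sub_mem (hP m) ⟨_, rfl⟩
  obtain ⟨Q', hQ'⟩ := ih _ hdeg P' rfl hP'coeff
  refine ⟨Q' + Polynomial.C a * Polynomial.X ^ d, ?_⟩
  rw [Polynomial.map_add, hQ', Polynomial.map_mul, Polynomial.map_C, Polynomial.map_pow,
    Polynomial.map_X, ha, hP']
  ring

/-- variant of `exists_map_eq_of_coeff_mem_range` through `q ↦ t^N`. -/
theorem exists_map_eq_of_coeff_qExpand_mem_range (N : ℕ) [NeZero N] (P : R[X])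
    (hP : ∀ m : ℤ, (qExpand R N (aeval (jqModC R) P)).coeff m ∈ φ.range) :
    ∃ Q : S[X], Q.map φ = P := by
  refine exists_map_eq_of_coeff_mem_range φ P fun m => ?_
  have := hP ((N : ℤ) * m)
  rwa [qExpand_coeff_mul] at this

/-- The descended polynomial has the expected expansion. -/
theorem exists_map_eq_and_coeffMap_eq (P : R[X])
    (hP : ∀ m : ℤ, (aeval (jqModC R) P).coeff m ∈ φ.range) :
    ∃ Q : S[X], Q.map φ = P ∧ coeffMap φ (aeval (jqModC S) Q) = aeval (jqModC R) P := by
  obtain ⟨Q, hQ⟩ := exists_map_eq_of_coeff_mem_range φ P hP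
  exact ⟨Q, hQ, by rw [coeffMap_aeval_jqModC, hQ]⟩

end Descent

section Gauss

variable (𝒪 k : Type*) [CommRing 𝒪] [IsDomain 𝒪] [IsDiscreteValuationRing 𝒪] [Field k]
  [Algebra 𝒪 k] [IsFractionRing 𝒪 k]

theorem coeffMap_injective {S R : Type*} [CommRing S] [CommRing R] (φ : S →+* R)
    (hφ : Function.Injective φ) : Function.Injective (coeffMap φ) := by
  intro x y h
  ext m
  apply hφ
  have := congrArg (fun z => z.coeff m) h
  simpa using this

/-- Key step: if `Q₀ ∈ 𝒪[X]` maps to `ϖ^(n+1) • P` and `P(j)(t^N)` is Gauss-integral, then `Q₀`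
reduces to zero modulo the maximal ideal. -/
theorem map_residue_eq_zero_of_isGaussInt (N : ℕ) [NeZero N] {ϖ : 𝒪} (P : k[X]) (Q₀ : 𝒪[X])
    (n : ℕ) (hQ₀ : Q₀.map (algebraMap 𝒪 k) = Polynomial.C (algebraMap 𝒪 k ϖ ^ (n + 1)) * P)
    (hϖ : ϖ ∈ IsLocalRing.maximalIdeal 𝒪)
    (hG : IsGaussInt 𝒪 k (qExpand k N (aeval (jqModC k) P))) :
    Q₀.map (IsLocalRing.residue 𝒪) = 0 := by
  obtain ⟨h, g, hh, hhg⟩ := hG
  have hinj : Function.Injective (coeffMap (algebraMap 𝒪 k)) :=
    coeffMap_injective _ (IsFractionRing.injective 𝒪 k)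
  -- the identity over `𝒪`
  have key : h * qExpand 𝒪 N (aeval (jqModC 𝒪) Q₀) = HahnSeries.C (ϖ ^ (n + 1)) * g := by
    apply hinj
    have hC : ∀ c : 𝒪, coeffMap (algebraMap 𝒪 k) (HahnSeries.C c) =
        HahnSeries.C (algebraMap 𝒪 k c) := fun c => by
      rw [HahnSeries.C_apply, HahnSeries.C_apply, coeffMap_single]
    calc coeffMap (algebraMap 𝒪 k) (h * qExpand 𝒪 N (aeval (jqModC 𝒪) Q₀))
        = coeffMap (algebraMap 𝒪 k) h *
            qExpand k N (aeval (jqModC k) (Polynomial.C (algebraMap 𝒪 k ϖ ^ (n + 1)) * P)) := by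
          rw [map_mul, coeffMap_qExpand, coeffMap_aeval_jqModC, hQ₀]
      _ = HahnSeries.C (algebraMap 𝒪 k ϖ ^ (n + 1)) *
            (coeffMap (algebraMap 𝒪 k) h * qExpand k N (aeval (jqModC k) P)) := by
          rw [map_mul, Polynomial.aeval_C, algebraMap_eq_C, map_mul, qExpand_C]
          ring
      _ = coeffMap (algebraMap 𝒪 k) (HahnSeries.C (ϖ ^ (n + 1)) * g) := by
          rw [hhg, map_mul, hC]
          simp only [map_pow]
  -- reduce modulo the maximal ideal
  have hred := congrArg (coeffMap (IsLocalRing.residue 𝒪)) key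
  rw [map_mul, map_mul, HahnSeries.C_apply, coeffMap_single, map_pow,
    (IsLocalRing.residue_eq_zero_iff ϖ).mpr hϖ, zero_pow (Nat.succ_ne_zero n),
    HahnSeries.single_eq_zero, zero_mul, coeffMap_qExpand, coeffMap_aeval_jqModC] at hred
  have h2 : qExpand (IsLocalRing.ResidueField 𝒪) N
      (aeval (jqModC (IsLocalRing.ResidueField 𝒪)) (Q₀.map (IsLocalRing.residue 𝒪))) = 0 :=
    (mul_eq_zero.mp hred).resolve_left hh
  have h3 : aeval (jqModC (IsLocalRing.ResidueField 𝒪)) (Q₀.map (IsLocalRing.residue 𝒪)) = 0 := by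
    apply qExpand_injective (R := IsLocalRing.ResidueField 𝒪) N
    rw [h2, map_zero]
  exact eq_zero_of_aeval_jqModC_eq_zero _ _ h3

/-- **Descent of coefficients (Gauss form).**  Over the fraction field `k` of a discrete valuation
ring `𝒪`: if `P(j)(t^N)` is Gauss-integral then `P` has coefficients in `𝒪`. -/
theorem exists_map_eq_of_isGaussInt (N : ℕ) [NeZero N] (P : k[X])
    (hG : IsGaussInt 𝒪 k (qExpand k N (aeval (jqModC k) P))) :
    ∃ Q : 𝒪[X], Q.map (algebraMap 𝒪 k) = P := by
  obtain ⟨ϖ, hϖ⟩ := IsDiscreteValuationRing.exists_irreducible 𝒪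
  have hϖm : ϖ ∈ IsLocalRing.maximalIdeal 𝒪 := by
    rw [hϖ.maximalIdeal_eq]; exact Ideal.mem_span_singleton_self ϖ
  have hϖk : algebraMap 𝒪 k ϖ ≠ 0 := by
    intro h0
    exact hϖ.ne_zero ((IsFractionRing.injective 𝒪 k) (by rw [h0, map_zero]))
  -- induction on the power of the uniformizer needed to clear denominators
  have main : ∀ (n : ℕ) (P : k[X]), IsGaussInt 𝒪 k (qExpand k N (aeval (jqModC k) P)) →
      (∃ Q₀ : 𝒪[X], Q₀.map (algebraMap 𝒪 k) = Polynomial.C (algebraMap 𝒪 k ϖ ^ n) * P) →
      ∃ Q : 𝒪[X], Q.map (algebraMap 𝒪 k) = P := by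
    intro n
    induction n with
    | zero =>
      rintro P - ⟨Q₀, hQ₀⟩
      exact ⟨Q₀, by simpa using hQ₀⟩
    | succ n ih =>
      rintro P hP ⟨Q₀, hQ₀⟩
      have hres := map_residue_eq_zero_of_isGaussInt 𝒪 k N P Q₀ n hQ₀ hϖm hP
      -- all coefficients of `Q₀` are divisible by `ϖ`
      have hdvd : Polynomial.C ϖ ∣ Q₀ := by
        rw [Polynomial.C_dvd_iff_dvd_coeff]
        intro i
        have hi : IsLocalRing.residue 𝒪 (Q₀.coeff i) = 0 := by
          have := congrArg (fun q => q.coeff i) hres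
          simpa [Polynomial.coeff_map] using this
        rw [IsLocalRing.residue_eq_zero_iff, hϖ.maximalIdeal_eq, Ideal.mem_span_singleton] at hi
        exact hi
      obtain ⟨Q₁, hQ₁⟩ := hdvd
      refine ih P hP ⟨Q₁, ?_⟩
      have h1 : Polynomial.C (algebraMap 𝒪 k ϖ) * Q₁.map (algebraMap 𝒪 k) =
          Polynomial.C (algebraMap 𝒪 k ϖ) * (Polynomial.C (algebraMap 𝒪 k ϖ ^ n) * P) := by
        rw [← Polynomial.map_C, ← Polynomial.map_mul, ← hQ₁, hQ₀, pow_succ, Polynomial.map_C,
          map_mul, map_pow]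
        ring
      exact mul_left_cancel₀ (by simpa using hϖk) h1
  -- clear denominators
  obtain ⟨b, hb, hbP⟩ :=
    IsLocalization.integerNormalization_spec (nonZeroDivisors 𝒪) (S := k) P
  have hb0 : b ≠ 0 := nonZeroDivisors.ne_zero hb
  obtain ⟨n, u, hbu⟩ := IsDiscreteValuationRing.eq_unit_mul_pow_irreducible hb0 hϖ
  refine main n P hG
    ⟨Polynomial.C (↑u⁻¹ : 𝒪) * IsLocalization.integerNormalization (nonZeroDivisors 𝒪) P, ?_⟩
  have hb' : (b : 𝒪) • P = Polynomial.C (algebraMap 𝒪 k b) * P := by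
    rw [Algebra.smul_def, Polynomial.algebraMap_apply]
  rw [Polynomial.map_mul, hbP, Polynomial.map_C, hb', hbu, map_mul, map_pow, ← mul_assoc,
    ← Polynomial.C_mul, ← mul_assoc, ← map_mul, Units.inv_mul, map_one, one_mul]

/-- Subalgebra form: an element of `k[j](t^N)` which is Gauss-integral lies in `𝒪[j](t^N)`. -/
theorem mem_image_adjoin_of_isGaussInt (N : ℕ) [NeZero N] (y : LaurentSeries k)
    (hy : y ∈ (qExpand k N) '' (Algebra.adjoin k {jqModC k} : Set (LaurentSeries k)))
    (hG : IsGaussInt 𝒪 k y) :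
    y ∈ (qExpand k N) '' (Algebra.adjoin 𝒪 {jqModC k} : Set (LaurentSeries k)) := by
  obtain ⟨x, hx, rfl⟩ := hy
  rw [SetLike.mem_coe, Algebra.adjoin_singleton_eq_range_aeval] at hx
  obtain ⟨P, rfl⟩ := hx
  obtain ⟨Q, hQ⟩ := exists_map_eq_of_isGaussInt 𝒪 k N P hG
  refine ⟨_, ?_, rfl⟩
  rw [SetLike.mem_coe, Algebra.adjoin_singleton_eq_range_aeval]
  refine ⟨Q, ?_⟩
  show aeval (jqModC k) Q = aeval (jqModC k) P
  have := IsScalarTower.of_algebraMap_eq (R := 𝒪) (S := k) (A := LaurentSeries k) (fun x => by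
    rw [HahnSeries.algebraMap_apply', HahnSeries.algebraMap_apply']
    congr 1
    exact IsScalarTower.algebraMap_apply 𝒪 k (PowerSeries k) x)
  rw [← hQ, Polynomial.aeval_map_algebraMap]

end Gauss

end Fermat.Agent.S28.PolyDescent
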