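/-
T28 / A5e (helper68): the `sym` field of `CuspInput` from the analytic symmetric-function theorem.
-/
import Fermat.Agent.S28.EvalBridge
import Fermat.Agent.S28.PolyDescent

set_option autoImplicit false

namespace Fermat.Agent.S28.EvalBridge

open UpperHalfPlane ModularCurve Polynomial

noncomputable section

variable {IsMC : (ℍ → ℂ) → Prop} {LE : (ℍ → ℂ) → LaurentSeries ℂ}

/-- `qExpand` commutes with polynomial evaluation (over a field). -/
lemma qExpand_polyAeval (K : Type*) [Field K] (N : ℕ) [NeZero N] (x : LaurentSeries K)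
    (P : K[X]) : qExpand K N (aeval x P) = aeval (qExpand K N x) P := by
  have := Polynomial.aeval_algHom_apply (qExpandAlgHomC K N) x P
  simpa using this.symm

/-- **The `sym` field.**  Let `f i` be finitely many functions with expansions
`LE (f i) = coeffMap φ (c i)` defined over the subfield `k`; let `J` have expansion
`qExpand ℂ N (jqModC ℂ)`; suppose that the coefficient functions of `∏ (X - f i)` are
polynomials in `J` (this is what `CosetSym` provides).  Then every coefficient of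
`∏ (X - c i)` lies in `qExpand k N '' k[j]`. -/
theorem coeff_prod_mem_image (H : MeroExp IsMC LE) {k : Type*} [Field k] (φ : k →+* ℂ)
    (N : ℕ) [NeZero N] {ι : Type*} [Fintype ι] (f : ι → ℍ → ℂ) (hf : ∀ i, IsMC (f i))
    (J : ℍ → ℂ) (hJ : IsMC J) (R : ℕ → ℂ[X])
    (hR : ∀ m z, (∏ i, (X - C (f i z))).coeff m = (R m).eval (J z))
    (c : ι → LaurentSeries k) (hc : ∀ i, LE (f i) = coeffMap φ (c i))
    (hJN : LE J = qExpand ℂ N (jqModC ℂ)) (m : ℕ) :
    (∏ i, (X - C (c i))).coeff m ∈
      (qExpand k N) '' (Algebra.adjoin k {jqModC k} : Set (LaurentSeries k)) := by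
  have hjN : LE J = coeffMap φ (qExpand k N (jqModC k)) := by
    rw [hJN, coeffMap_qExpand, coeffMap_jqModC]
  have key := coeffMap_coeff_prod H φ f hf J hJ R hR c hc (qExpand k N (jqModC k)) hjN m
  rw [coeffMap_qExpand, coeffMap_jqModC, ← qExpand_polyAeval] at key
  -- descend the polynomial `R m` to `k`
  obtain ⟨Q, hQ⟩ := PolyDescent.exists_map_eq_of_coeff_qExpand_mem_range φ N (R m) (by
    intro n
    rw [← key, coeffMap_coeff]
    exact ⟨_, rfl⟩)
  refine ⟨aeval (jqModC k) Q, ?_, ?_⟩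
  · rw [SetLike.mem_coe, Algebra.adjoin_singleton_eq_range_aeval]
    exact ⟨Q, rfl⟩
  · apply coeffMap_injective φ φ.injective
    rw [key, coeffMap_qExpand, PolyDescent.coeffMap_aeval_jqModC, hQ]

/-- **The `hker` field.**  Kernel comparison in the shape of `CuspInput.hker`: the functions `F x`
have `N`-expansions `coeffMap φ (qExpand k N (a x))` (i.e. `a x` is the `q`-expansion), the
translated functions `F' x = F x ∘ g` have `N`-expansions `coeffMap φ (b x)`. -/
theorem aeval_eq_zero_iff_qExpand {IsMC₁ IsMC₂ : (ℍ → ℂ) → Prop}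
    {LE₁ LE₂ : (ℍ → ℂ) → LaurentSeries ℂ} (H₁ : MeroExp IsMC₁ LE₁) (H₂ : MeroExp IsMC₂ LE₂)
    (hinj₁ : ∀ f, IsMC₁ f → LE₁ f = 0 → f = 0) (hinj₂ : ∀ f, IsMC₂ f → LE₂ f = 0 → f = 0)
    {k : Type*} [Field k] (φ : k →+* ℂ) (N : ℕ) [NeZero N] {X : Type*}
    (F F' : X → ℍ → ℂ) (hF : ∀ x, IsMC₁ (F x)) (hF' : ∀ x, IsMC₂ (F' x))
    (g : ℍ → ℍ) (hg : Function.Surjective g) (hFF' : ∀ x τ, F' x τ = F x (g τ))
    (a b : X → LaurentSeries k) (ha : ∀ x, LE₁ (F x) = coeffMap φ (qExpand k N (a x)))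
    (hb : ∀ x, LE₂ (F' x) = coeffMap φ (b x))
    (P : MvPolynomial X k) : MvPolynomial.aeval a P = 0 ↔ MvPolynomial.aeval b P = 0 := by
  rw [← aeval_eq_zero_iff H₁ H₂ hinj₁ hinj₂ φ F F' hF hF' g hg hFF'
    (fun x => qExpand k N (a x)) b ha hb P]
  have h1 : MvPolynomial.aeval (fun x => qExpand k N (a x)) P
      = qExpand k N (MvPolynomial.aeval a P) := by
    have := MvPolynomial.comp_aeval_apply (f := a) (qExpandAlgHomC k N) P
    simpa using this.symm
  rw [h1]
  constructor
  · intro h; rw [h, map_zero]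
  · intro h
    exact qExpand_injective (R := k) N (by rw [h, map_zero])

end

end Fermat.Agent.S28.EvalBridge
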