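import Fermat.Agent.S28.AnalyticFacts
import Fermat.Agent.S28.SymBridge
import Fermat.Agent.S28.CuspOrder

/-!
# Assembly of the cusp datum (module A5)

From an `AnalyticFacts N` we build a `CuspInput k N 𝒪`, hence a `CuspDatum k N 𝒪`, for every
field `k` with an embedding `φ : k →+* ℂ` and every local ring `𝒪` with `Algebra 𝒪 k` such that
the twists `exp(2πi B/D)` (`D ∣ N`) come from units of `𝒪` and every `D ∣ N` is a unit of `𝒪`.
-/

set_option autoImplicit false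

noncomputable section

namespace Fermat.Agent.S28.Assemble

open Fermat.Agent.S28 Fermat.Agent.S28.CuspOrder
open ModularCurve HahnSeries UpperHalfPlane MatrixGroups CuspExp EvalBridge CongruenceSubgroup
open scoped Manifold

section Index

variable (N : ℕ) [NeZero N]

/-- the index set: cosets of `Γ₀(N)` -/
abbrev CuspIdx : Type := SL(2, ℤ) ⧸ Gamma0 N

instance : Finite (CuspIdx N) := Subgroup.finite_quotient_of_finiteIndex

instance : Fintype (CuspIdx N) := Fintype.ofFinite _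

instance : DecidableEq (CuspIdx N) := Classical.decEq _

/-- the matrix applied at the index `i` -/
def rep (i : CuspIdx N) : SL(2, ℤ) := (Quotient.out i)⁻¹

/-- the cusp `∞` -/
def idx₀ : CuspIdx N := ((1 : SL(2, ℤ)) : SL(2, ℤ) ⧸ Gamma0 N)

/-- `gcd(c, N)` -/
def cIdx (i : CuspIdx N) : ℕ := Nat.gcd ((rep N i) 1 0).natAbs N

theorem cIdx_dvd (i : CuspIdx N) : cIdx N i ∣ N := Nat.gcd_dvd_right _ _

theorem rep_mem_iff (i : CuspIdx N) : rep N i ∈ Gamma0 N ↔ i = idx₀ N := by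
  rw [rep, inv_mem_iff]
  constructor
  · intro h
    rw [idx₀, ← QuotientGroup.out_eq' i, QuotientGroup.eq]
    simpa using inv_mem h
  · intro h
    have h1 : ((Quotient.out i : SL(2, ℤ)) : SL(2, ℤ) ⧸ Gamma0 N) = ((1 : SL(2, ℤ)) : _) := by
      rw [QuotientGroup.out_eq', h, idx₀]
    rw [QuotientGroup.eq] at h1
    simpa using inv_mem h1

theorem dvd_rep_iff (i : CuspIdx N) : (N : ℤ) ∣ (rep N i) 1 0 ↔ i = idx₀ N := by
  rw [← rep_mem_iff, Gamma0_mem, ZMod.intCast_zmod_eq_zero_iff_dvd]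

theorem cIdx_eq_iff (i : CuspIdx N) : cIdx N i = N ↔ i = idx₀ N := by
  rw [← dvd_rep_iff, cIdx, Nat.gcd_eq_right_iff_dvd, ← Int.natCast_dvd_natCast, Int.natCast_natAbs,
    dvd_abs]

end Index

section Series

variable (N : ℕ) [NeZero N] {k : Type} [Field k] (φ : k →+* ℂ)
  {𝒪 : Type} [CommRing 𝒪] [IsLocalRing 𝒪] [Algebra 𝒪 k]
  (hζ : ∀ D B : ℕ, D ∣ N → ∃ u : 𝒪ˣ,
    φ (algebraMap 𝒪 k (u : 𝒪)) = Complex.exp (2 * Real.pi * Complex.I * B / D))
  (hD : ∀ D : ℕ, D ∣ N → IsUnit ((D : ℕ) : 𝒪))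

/-- chosen Hermite data of `rep i` at the divisor `d` -/
def herm (i : CuspIdx N) (d : {d : ℕ // d ∣ N}) : HermiteData d.1 (rep N i) :=
  Classical.choice (nonempty_hermiteData d.1
    (Nat.pos_of_ne_zero fun h => NeZero.ne N (Nat.eq_zero_of_zero_dvd (h ▸ d.2))) (rep N i))

theorem div_pos' (d : {d : ℕ // d ∣ N}) : 0 < d.1 :=
  Nat.pos_of_ne_zero fun h => NeZero.ne N (Nat.eq_zero_of_zero_dvd (h ▸ d.2))

theorem herm_Dn_dvd (i : CuspIdx N) (d : {d : ℕ // d ∣ N}) : (herm N i d).Dn ∣ N :=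
  ((herm N i d).Dn_dvd (div_pos' N d)).trans d.2

include hζ in
/-- the twist as a unit of `𝒪` -/
def xiO (i : CuspIdx N) (d : {d : ℕ // d ∣ N}) : 𝒪ˣ :=
  (hζ (herm N i d).Dn (herm N i d).Bn (herm_Dn_dvd N i d)).choose

theorem xiO_spec (i : CuspIdx N) (d : {d : ℕ // d ∣ N}) :
    φ (algebraMap 𝒪 k (xiO N φ hζ i d : 𝒪)) = rootExp (herm N i d).B (herm N i d).D := by
  have h := (hζ (herm N i d).Dn (herm N i d).Bn (herm_Dn_dvd N i d)).choose_spec
  rw [xiO, h, rootExp]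
  have h1 : (((herm N i d).Bn : ℕ) : ℂ) = (((herm N i d).B : ℤ) : ℂ) := by
    rw [← (herm N i d).coe_Bn]; push_cast; rfl
  have h2 : (((herm N i d).Dn : ℕ) : ℂ) = (((herm N i d).D : ℤ) : ℂ) := by
    rw [← (herm N i d).coe_Dn (div_pos' N d)]; push_cast; rfl
  rw [h1, h2]

include hD in
/-- `D` as a unit of `𝒪` -/
def deltaO (i : CuspIdx N) (d : {d : ℕ // d ∣ N}) : 𝒪ˣ :=
  (hD (herm N i d).Dn (herm_Dn_dvd N i d)).unit

theorem deltaO_spec (i : CuspIdx N) (d : {d : ℕ // d ∣ N}) :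
    φ (algebraMap 𝒪 k (deltaO N hD i d : 𝒪)) = (((herm N i d).D : ℤ) : ℂ) := by
  rw [deltaO, IsUnit.unit_spec, map_natCast, map_natCast, ← (herm N i d).coe_Dn (div_pos' N d)]
  push_cast
  rfl

/-- the expansions over `𝒪` -/
def sO (i : CuspIdx N) (x : GenIdx N) : LaurentSeries 𝒪 :=
  cuspGen 𝒪 N (xiO N φ hζ i x.1) (deltaO N hD i x.1) (expoX N x (herm N i x.1)) x.2

/-- the expansions over `k` -/
def sK (i : CuspIdx N) (x : GenIdx N) : LaurentSeries k :=
  coeffMap (algebraMap 𝒪 k) (sO N φ hζ hD i x)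

theorem sK_eq (i : CuspIdx N) (x : GenIdx N) :
    sK N φ hζ hD i x = cuspGen k N
      (Units.map (algebraMap 𝒪 k : 𝒪 →* k) (xiO N φ hζ i x.1))
      (Units.map (algebraMap 𝒪 k : 𝒪 →* k) (deltaO N hD i x.1))
      (expoX N x (herm N i x.1)) x.2 := by
  rw [sK, sO, coeffMap_cuspGen]

theorem sK_mem_intSeries (i : CuspIdx N) (x : GenIdx N) :
    sK N φ hζ hD i x ∈ intSeries 𝒪 k := ⟨_, rfl⟩

/-- the analytic expansion of the generator `x` along `rep i` is `sK i x` -/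
theorem exp_eq_sK (AF : AnalyticFacts N) (i : CuspIdx N) (x : GenIdx N) :
    AF.LE (fun τ => genFun N x (rep N i • τ)) = coeffMap φ (sK N φ hζ hD i x) := by
  rw [sK_eq, coeffMap_cuspGen]
  apply AF.exp_gen (rep N i) x (herm N i x.1)
  · rw [Units.coe_map, Units.coe_map]
    exact xiO_spec N φ hζ i x.1
  · rw [Units.coe_map, Units.coe_map]
    exact deltaO_spec N φ hD i x.1

theorem cuspGen_congr (R : Type*) [CommRing R] {ξ ξ' δ δ' : Rˣ} {e e' : ℕ} [NeZero e] [NeZero e']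
    (hξ : ξ = ξ') (hδ : δ = δ') (he : e = e') (t : Fin 3) :
    cuspGen R N ξ δ e t = cuspGen R N ξ' δ' e' t := by
  subst hξ hδ he
  rfl

theorem cuspGen_one_one (R : Type) [Field R] (x : GenIdx N) :
    cuspGen R N 1 1 (N * x.1.1) x.2 = qExpand R N (genFam R N x) := by
  obtain ⟨⟨d, hd⟩, t⟩ := x
  have : NeZero d := ⟨fun h => NeZero.ne N (Nat.eq_zero_of_zero_dvd (h ▸ hd))⟩
  fin_cases t
  · exact cuspJ_one R N d
  · exact cuspU_one_one R N d
  · exact cuspUInv_one_one R N d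

/-- at a cusp where `d ∣ c` the expansions are the `q`-expansions in `t^N` -/
theorem sK_of_dvd (i : CuspIdx N) (x : GenIdx N) (h : (x.1.1 : ℤ) ∣ (rep N i) 1 0) :
    sK N φ hζ hD i x = qExpand k N (genFam k N x) := by
  have hd := div_pos' N x.1
  have hA := (herm N i x.1).A_eq_of_dvd h
  have hDD := (herm N i x.1).D_eq_one_of_dvd hd h
  have hB := (herm N i x.1).B_eq_zero_of_dvd hd h
  rw [sK_eq, ← cuspGen_one_one]
  apply cuspGen_congr
  · apply Units.ext
    apply φ.injective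
    rw [Units.coe_map, Units.val_one, map_one]
    have := xiO_spec N φ hζ i x.1
    rw [hB, hDD, rootExp] at this
    simpa using this
  · apply Units.ext
    apply φ.injective
    rw [Units.coe_map, Units.val_one, map_one]
    have := deltaO_spec N φ hD i x.1
    rw [hDD] at this
    simpa using this
  · have hAn : (herm N i x.1).An = x.1.1 := by
      have := (herm N i x.1).coe_An
      rw [hA] at this
      exact_mod_cast this
    rw [expoX, HermiteData.expo, hAn]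
    have h1 : N / x.1.1 * x.1.1 = N := Nat.div_mul_cancel x.1.2
    calc N / x.1.1 * x.1.1 ^ 2 = (N / x.1.1 * x.1.1) * x.1.1 := by ring
      _ = N * x.1.1 := by rw [h1]

theorem coeffMap_genFam (x : GenIdx N) : coeffMap φ (genFam k N x) = genFam ℂ N x := by
  obtain ⟨⟨d, hd⟩, t⟩ := x
  have : NeZero d := ⟨fun h => NeZero.ne N (Nat.eq_zero_of_zero_dvd (h ▸ hd))⟩
  fin_cases t
  · exact coeffMap_jS φ d
  · exact coeffMap_uS φ d
  · exact coeffMap_uInvS φ d

/-- the `Γ₀(N)`-invariance of the generators -/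
theorem genFun_smul_of_mem_Gamma0 (x : GenIdx N) {g : SL(2, ℤ)} (hg : g ∈ Gamma0 N) (z : ℍ) :
    genFun N x (g • z) = genFun N x z := by
  obtain ⟨⟨d, hd⟩, t⟩ := x
  fin_cases t
  · exact jDil_smul_of_mem_Gamma0 _ hd hg z
  · exact modUnit_smul_of_mem_Gamma0 _ hd hg z
  · show (modUnit d _ (g • z))⁻¹ = (modUnit d _ z)⁻¹
    rw [modUnit_smul_of_mem_Gamma0 _ hd hg z]

/-- analytic expansion at a cusp with `d ∣ c` -/
theorem exp_gen_of_dvd (AF : AnalyticFacts N) (g : SL(2, ℤ)) (x : GenIdx N)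
    (h : (x.1.1 : ℤ) ∣ g 1 0) :
    AF.LE (fun τ => genFun N x (g • τ)) = qExpand ℂ N (genFam ℂ N x) := by
  have hd := div_pos' N x.1
  obtain ⟨H⟩ := nonempty_hermiteData x.1.1 hd g
  have hA := H.A_eq_of_dvd h
  have hDD := H.D_eq_one_of_dvd hd h
  have hB := H.B_eq_zero_of_dvd hd h
  rw [AF.exp_gen g x H 1 1 (by rw [hB, hDD, rootExp]; simp) (by rw [hDD]; simp),
    ← cuspGen_one_one]
  apply cuspGen_congr N ℂ rfl rfl
  have hAn : H.An = x.1.1 := by
    have := H.coe_An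
    rw [hA] at this
    exact_mod_cast this
  rw [expoX, HermiteData.expo, hAn]
  have h1 : N / x.1.1 * x.1.1 = N := Nat.div_mul_cancel x.1.2
  calc N / x.1.1 * x.1.1 ^ 2 = (N / x.1.1 * x.1.1) * x.1.1 := by ring
    _ = N * x.1.1 := by rw [h1]

theorem isMC_genFun (AF : AnalyticFacts N) (x : GenIdx N) : AF.IsMC (genFun N x) := by
  have h := AF.isMC_gen 1 x
  have e : (fun τ : ℍ => genFun N x ((1 : SL(2, ℤ)) • τ)) = genFun N x := by
    funext τ
    rw [one_smul]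
  rwa [e] at h

theorem exp_genFun (AF : AnalyticFacts N) (x : GenIdx N) :
    AF.LE (genFun N x) = coeffMap φ (qExpand k N (genFam k N x)) := by
  have h := exp_gen_of_dvd N AF 1 x (by simp)
  have e : (fun τ : ℍ => genFun N x ((1 : SL(2, ℤ)) • τ)) = genFun N x := by
    funext τ
    rw [one_smul]
  rw [e] at h
  rw [h, coeffMap_qExpand, coeffMap_genFam]

/-- **the `hker` field** -/
theorem hker_sK (AF : AnalyticFacts N) (i : CuspIdx N) (P : MvPolynomial (GenIdx N) k) :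
    MvPolynomial.aeval (genFam k N) P = 0 ↔ MvPolynomial.aeval (sK N φ hζ hD i) P = 0 :=
  aeval_eq_zero_iff_qExpand AF.H AF.H AF.inj AF.inj φ N (genFun N)
    (fun x τ => genFun N x (rep N i • τ)) (isMC_genFun N AF) (AF.isMC_gen (rep N i))
    (fun τ => rep N i • τ) (MulAction.surjective (rep N i)) (fun _ _ => rfl)
    (genFam k N) (sK N φ hζ hD i) (exp_genFun N φ AF) (exp_eq_sK N φ hζ hD AF i) P

/-- the analytic avatar of a polynomial expression in the generators -/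
def polyFun (P : MvPolynomial (GenIdx N) k) : ℍ → ℂ :=
  fun τ => MvPolynomial.eval (fun x => genFun N x τ) (MvPolynomial.map φ P)

theorem isMC_polyFun_smul (AF : AnalyticFacts N) (P : MvPolynomial (GenIdx N) k) (g : SL(2, ℤ)) :
    AF.IsMC (fun τ => polyFun N φ P (g • τ)) :=
  AF.H.isMC_eval (fun x τ => genFun N x (g • τ)) (AF.isMC_gen g) (MvPolynomial.map φ P)

theorem isMC_polyFun (AF : AnalyticFacts N) (P : MvPolynomial (GenIdx N) k) :
    AF.IsMC (polyFun N φ P) :=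
  AF.H.isMC_eval (genFun N) (isMC_genFun N AF) (MvPolynomial.map φ P)

theorem polyFun_smul_of_mem_Gamma0 (P : MvPolynomial (GenIdx N) k) {g : SL(2, ℤ)}
    (hg : g ∈ Gamma0 N) (z : ℍ) : polyFun N φ P (g • z) = polyFun N φ P z := by
  unfold polyFun
  have e : (fun x => genFun N x (g • z)) = fun x => genFun N x z :=
    funext fun x => genFun_smul_of_mem_Gamma0 N x hg z
  rw [e]

theorem exp_polyFun_rep (AF : AnalyticFacts N) (P : MvPolynomial (GenIdx N) k) (i : CuspIdx N) :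
    AF.LE (fun τ => polyFun N φ P (rep N i • τ)) =
      coeffMap φ (MvPolynomial.aeval (sK N φ hζ hD i) P) := by
  have h := AF.H.exp_eval (fun x τ => genFun N x (rep N i • τ)) (AF.isMC_gen (rep N i))
    (MvPolynomial.map φ P)
  have e : (fun x => AF.LE (fun τ => genFun N x (rep N i • τ))) =
      fun x => coeffMap φ (sK N φ hζ hD i x) := funext (exp_eq_sK N φ hζ hD AF i)
  rw [e, ← coeffMap_aeval] at h
  exact h

/-- **the `sym` field** -/
theorem sym_sK (AF : AnalyticFacts N) (P : MvPolynomial (GenIdx N) k) (m : ℕ) :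
    (∏ i, (Polynomial.X - Polynomial.C (MvPolynomial.aeval (sK N φ hζ hD i) P))).coeff m ∈
      (qExpand k N) '' (Algebra.adjoin k {jqModC k} : Set (LaurentSeries k)) := by
  obtain ⟨Q, -, -, hQ, -⟩ := CosetSym.IsHauptmodul.exists_charPoly_Gamma0_eq_map (N := N)
    AF.hauptmodul (AF.mdiff _ (isMC_polyFun N φ AF P))
    (fun γ hγ z => polyFun_smul_of_mem_Gamma0 N φ P hγ z)
    (fun g => AF.bdd _ (isMC_polyFun_smul N φ AF P g))
  refine coeff_prod_mem_image AF.H φ N (CosetSym.cosetFun (Gamma0 N) (polyFun N φ P))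
    (fun q => isMC_polyFun_smul N φ AF P (Quotient.out q)⁻¹) jFun AF.isMC_jFun
    (fun m => Q.coeff m) (fun m z => ?_) (fun i => MvPolynomial.aeval (sK N φ hζ hD i) P)
    (fun i => exp_polyFun_rep N φ hζ hD AF P i) AF.exp_jFun m
  have h := hQ z
  unfold CosetSym.charPoly at h
  rw [h, Polynomial.coeff_map, Polynomial.coe_evalRingHom]

/-- **the `ord_u` field** -/
theorem ord_u_sK (i : CuspIdx N) (d : {d : ℕ // d ∣ N}) : ∃ t : LaurentSeries 𝒪,
    coeffMap (algebraMap 𝒪 k) t = sK N φ hζ hD i (d, 1) ∧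
    coeffMap (IsLocalRing.residue 𝒪) t ≠ 0 ∧
    (coeffMap (IsLocalRing.residue 𝒪) t).order =
      ((N / d.1 : ℕ) * (Nat.gcd (cIdx N i) d.1) ^ 2 : ℤ) - N := by
  refine ⟨sO N φ hζ hD i (d, 1), rfl, ?_, ?_⟩
  · have : sO N φ hζ hD i (d, 1) = cuspU 𝒪 N (xiO N φ hζ i d) (deltaO N hD i d)
        (expoX N (d, 1) (herm N i d)) := rfl
    rw [this, coeffMap_cuspU]
    exact cuspU_ne_zero _ N _ _ _
  · have : sO N φ hζ hD i (d, 1) = cuspU 𝒪 N (xiO N φ hζ i d) (deltaO N hD i d)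
        (expoX N (d, 1) (herm N i d)) := rfl
    rw [this, coeffMap_cuspU, order_cuspU, expoX, (herm N i d).expo_eq d.2, cIdx]
    push_cast
    rfl

end Series

section Final

variable (N : ℕ) [NeZero N] {k : Type} [Field k] (φ : k →+* ℂ)
  {𝒪 : Type} [CommRing 𝒪] [IsLocalRing 𝒪] [Algebra 𝒪 k]
  (hζ : ∀ D B : ℕ, D ∣ N → ∃ u : 𝒪ˣ,
    φ (algebraMap 𝒪 k (u : 𝒪)) = Complex.exp (2 * Real.pi * Complex.I * B / D))
  (hD : ∀ D : ℕ, D ∣ N → IsUnit ((D : ℕ) : 𝒪))

/-- **The cusp input from the analytic facts.** -/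
def cuspInputOfAnalytic (AF : AnalyticFacts N) : CuspInput k N 𝒪 where
  I := CuspIdx N
  i₀ := idx₀ N
  cI := cIdx N
  cI_dvd := cIdx_dvd N
  cI_eq_iff := cIdx_eq_iff N
  s := sK N φ hζ hD
  hker := hker_sK N φ hζ hD AF
  s_i₀ := fun x => sK_of_dvd N φ hζ hD (idx₀ N) x
    (dvd_trans (Int.natCast_dvd_natCast.mpr x.1.2) ((dvd_rep_iff N (idx₀ N)).mpr rfl))
  s_j := fun i => by
    rw [sK_of_dvd N φ hζ hD i (⟨1, one_dvd N⟩, 0) (by simp)]
    show qExpand k N (jS k 1) = _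
    rw [jS, qExpand_one_apply]
  s_int := sK_mem_intSeries N φ hζ hD
  sym := sym_sK N φ hζ hD AF
  ord_u := ord_u_sK N φ hζ hD

/-- **The cusp datum from the analytic facts.** -/
def cuspDatumOfAnalytic (AF : AnalyticFacts N) : CuspDatum k N 𝒪 :=
  (cuspInputOfAnalytic N φ hζ hD AF).toDatum

end Final

end Fermat.Agent.S28.Assemble
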