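import Fermat.Agent.S28.CuspExpansion
import Fermat.Agent.S28.JFunction

set_option autoImplicit false

/-!
# T28 / A3, part 2: the generators `j(d z)`, `Δ(d z)/Δ(z)` along `SL(2,ℤ)`-translates

Function-level identities feeding "Fact 1" and "Fact 2" of the T28 blueprint.
-/

namespace Fermat.Agent.S28

namespace CuspExp

open UpperHalfPlane Matrix MatrixGroups

/-- `j(d z)` -/
noncomputable def jDil (d : ℕ) (hd : 0 < d) (z : ℍ) : ℂ := jFun (dilate d hd z)

/-- **`j_d ∘ g = j ∘ ((A z + B)/D)`**. -/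
theorem HermiteData.jDil_smul {d : ℕ} {g : SL(2, ℤ)} (hd : 0 < d) (H : HermiteData d g) (z : ℍ) :
    jDil d hd (g • z) = jFun (H.pt hd z) :=
  H.apply_dilate_smul_of_invariant hd jFun jFun_smul z

/-- `Γ₀(N)`-invariance of `j(d z)`, `d ∣ N`. -/
theorem jDil_smul_of_mem_Gamma0 {N d : ℕ} (hd : 0 < d) (hdN : d ∣ N) {g : SL(2, ℤ)}
    (hg : g ∈ CongruenceSubgroup.Gamma0 N) (z : ℍ) : jDil d hd (g • z) = jDil d hd z :=
  apply_dilate_smul_of_mem_Gamma0 hd hdN hg jFun jFun_smul z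

/-- the modular unit along a translate, product form -/
theorem HermiteData.modUnit_smul' {d : ℕ} {g : SL(2, ℤ)} (hd : 0 < d) (H : HermiteData d g)
    (z : ℍ) :
    modUnit d hd (g • z) =
      ((H.D : ℂ)⁻¹) ^ 12 * ModularForm.discriminant (H.pt hd z) *
        (ModularForm.discriminant z)⁻¹ := by
  rw [H.modUnit_smul hd, div_eq_mul_inv]

/-- the inverse modular unit along a translate, product form -/
theorem HermiteData.modUnit_inv_smul {d : ℕ} {g : SL(2, ℤ)} (hd : 0 < d) (H : HermiteData d g)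
    (z : ℍ) :
    (modUnit d hd (g • z))⁻¹ =
      (H.D : ℂ) ^ 12 * (ModularForm.discriminant (H.pt hd z))⁻¹ *
        ModularForm.discriminant z := by
  have hD : (H.D : ℂ) ≠ 0 := by exact_mod_cast (H.D_pos hd).ne'
  have h1 := ModularForm.discriminant_ne_zero (H.pt hd z)
  have h2 := ModularForm.discriminant_ne_zero z
  rw [H.modUnit_smul' hd]
  field_simp

theorem dilate_one (z : ℍ) : dilate 1 one_pos z = z := by
  apply UpperHalfPlane.ext
  simp

theorem jDil_one (z : ℍ) : jDil 1 one_pos z = jFun z := by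
  rw [jDil, dilate_one]

/-- `A = gcd(gcd(c,N),d)` when `d ∣ N` (so the order formula can be phrased through
`cI = gcd(c,N)`). -/
theorem HermiteData.An_eq_gcd_gcd {d : ℕ} {g : SL(2, ℤ)} (H : HermiteData d g) {N : ℕ}
    (hdN : d ∣ N) : H.An = Nat.gcd (Nat.gcd (g 1 0).natAbs N) d := by
  rw [H.An_eq, Nat.gcd_assoc, Nat.gcd_eq_right hdN]

theorem natAbs_inv_lower_left (g : SL(2, ℤ)) : ((g⁻¹ : SL(2, ℤ)) 1 0).natAbs = (g 1 0).natAbs := by
  rw [Matrix.SpecialLinearGroup.SL2_inv_expl]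
  simp

/-- `expo` in terms of `cI = gcd(c, N)`. -/
theorem HermiteData.expo_eq {d : ℕ} {g : SL(2, ℤ)} (H : HermiteData d g) {N : ℕ} (hdN : d ∣ N) :
    H.expo N = N / d * (Nat.gcd (Nat.gcd (g 1 0).natAbs N) d) ^ 2 := by
  rw [HermiteData.expo, H.An_eq_gcd_gcd hdN]

end CuspExp

end Fermat.Agent.S28
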