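import Fermat.Agent.S28.MeroCusp

/-!
# Functions meromorphic at the cusp `∞`: limits, orders, inverses (T28, module A1, part 2)

* `tendsto_qPow_mul` : `𝕢 ^ m * f → (laurentExp h f).coeff (-m)` at `i∞`;
* `IsMeroCusp.poleBound_of_coeff` : vanishing of the coefficients below `-m` gives the pole bound;
* `IsMeroCusp.inv`, `laurentExp_inv` : inverses of nowhere vanishing functions;
* `isMeroCusp_of_modularForm`, `laurentExp_of_modularForm`.
-/

set_option autoImplicit false

noncomputable section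

namespace Fermat.Agent.S28

open UpperHalfPlane Filter Topology Function HahnSeries MeroCusp
open scoped Manifold

section limits

variable {h : ℝ} {f : ℍ → ℂ}

/-- A function which is holomorphic, periodic and bounded at `i∞` tends to the constant term of
its expansion. -/
theorem tendsto_of_bounded (hh : 0 < h) (hmd : MDiff f) (hper : Periodic (f ∘ ofComplex) h)
    (hb : IsBoundedAtImInfty f) :
    Tendsto f atImInfty (𝓝 (PowerSeries.coeff 0 (qExpansion h f))) := by
  have han := analyticAt_cuspFunction_zero hh hper hmd hb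
  have h1 : (cuspFunction h f ∘ fun τ : ℍ => Periodic.qParam h τ) = f := by
    funext τ
    simpa using eq_cuspFunction τ hh.ne' hper
  have h2 := han.continuousAt.tendsto.comp (qParam_tendsto_atImInfty hh)
  rw [h1] at h2
  rw [qExpansion_coeff_zero hh han hper, ← cuspFunction_apply_zero hh han hper]
  exact h2

/-- `𝕢 ^ m * f` tends to the coefficient of `𝕢 ^ (-m)`. -/
theorem tendsto_qPow_mul (hh : 0 < h) (hf : IsMeroCusp h f) {m : ℕ} (hm : PoleBound h f m) :
    Tendsto (qPow h m * f) atImInfty (𝓝 ((laurentExp h f).coeff (-(m : ℤ)))) := by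
  have h1 := tendsto_of_bounded hh (hf.mdiff_qPow_mul m) (hf.periodic_qPow_mul hh m) hm
  have h2 := laurentExp_coeff_sub hh hf hm 0
  simp only [Nat.cast_zero, zero_sub] at h2
  rw [h2]
  exact h1

/-- If all coefficients of `𝕢 ^ n`, `n < -m`, vanish, then `𝕢 ^ m * f` is bounded at `i∞`. -/
theorem IsMeroCusp.poleBound_of_coeff (hh : 0 < h) (hf : IsMeroCusp h f) {m : ℕ}
    (hm : ∀ n : ℤ, n < -(m : ℤ) → (laurentExp h f).coeff n = 0) : PoleBound h f m := by
  obtain ⟨M, hM⟩ := hf.bdd
  change PoleBound h f M at hM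
  rcases le_or_gt M m with hle | hlt
  · exact hM.mono hh hle
  obtain ⟨k, rfl⟩ := Nat.exists_eq_add_of_le hlt.le
  -- the expansion of `𝕢 ^ m * f`
  have hsum : ∀ τ : ℍ, HasSum (fun j : ℕ => (laurentExp h f).coeff ((j : ℤ) - m) •
      Periodic.qParam h τ ^ j) ((qPow h m * f) τ) := by
    intro τ
    have hq : Periodic.qParam h τ ≠ 0 := Periodic.qParam_ne_zero _
    have h1 := hasSum_laurentExp_nat hh hf hM τ
    let i : ℕ → ℕ := fun j => j + k
    have hi : Function.Injective i := fun a b hab => by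
      simp only [i] at hab
      omega
    have h2 : ∀ n : ℕ, n ∉ Set.range i →
        (laurentExp h f).coeff ((n : ℤ) - (m + k : ℕ)) * Periodic.qParam h τ ^ n = 0 := by
      intro n hn
      have hnk : n < k := by
        by_contra hge
        exact hn ⟨n - k, by simp only [i]; omega⟩
      rw [hm _ (by push_cast; omega), zero_mul]
    have h3 := ((hi.hasSum_iff h2).mpr h1).mul_left ((Periodic.qParam h τ ^ k)⁻¹)
    have h4 : (Periodic.qParam h τ ^ k)⁻¹ * (Periodic.qParam h τ ^ (m + k) * f τ) =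
        (qPow h m * f) τ := by
      simp only [Pi.mul_apply, qPow_apply]
      rw [_root_.pow_add]
      field_simp
    rw [h4] at h3
    refine h3.congr_fun fun j => ?_
    change _ = (Periodic.qParam h τ ^ k)⁻¹ *
      ((laurentExp h f).coeff (((j + k : ℕ) : ℤ) - (m + k : ℕ)) * Periodic.qParam h τ ^ (j + k))
    rw [show (((j + k : ℕ) : ℤ) - (m + k : ℕ)) = (j : ℤ) - m by push_cast; ring, _root_.pow_add,
      smul_eq_mul]
    field_simp
  exact isBoundedAtImInfty_of_hasSum_qExpansion hh hsum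

/-- The order of the Laurent expansion bounds the pole order. -/
theorem IsMeroCusp.poleBound_of_le_order (hh : 0 < h) (hf : IsMeroCusp h f) {m : ℕ}
    (hm : -(m : ℤ) ≤ (laurentExp h f).order) : PoleBound h f m :=
  hf.poleBound_of_coeff hh fun _ hn => HahnSeries.coeff_eq_zero_of_lt_order (hn.trans_le hm)

/-- Conversely a pole bound bounds the order of the Laurent expansion from below. -/
theorem IsMeroCusp.le_order_of_poleBound (hh : 0 < h) (hf : IsMeroCusp h f) (hf0 : f ≠ 0)
    {m : ℕ} (hm : PoleBound h f m) : -(m : ℤ) ≤ (laurentExp h f).order := by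
  have hne : laurentExp h f ≠ 0 := fun h0 => hf0 (laurentExp_eq_zero hh hf h0)
  by_contra hlt
  exact (HahnSeries.coeff_order_eq_zero.not.mpr hne)
    (laurentExp_coeff_of_lt hh hf hm (not_le.mp hlt))

/-- If all coefficients of `𝕢 ^ n`, `n < 0`, vanish, then `f` is bounded at `i∞`. -/
theorem IsMeroCusp.isBoundedAtImInfty_of_coeff (hh : 0 < h) (hf : IsMeroCusp h f)
    (h0 : ∀ n : ℤ, n < 0 → (laurentExp h f).coeff n = 0) : IsBoundedAtImInfty f :=
  poleBound_zero_iff.mp (hf.poleBound_of_coeff hh (m := 0) (by simpa using h0))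

/-- If all coefficients of `𝕢 ^ n`, `n < 0`, vanish, then `f` tends to its constant term. -/
theorem IsMeroCusp.tendsto_of_coeff (hh : 0 < h) (hf : IsMeroCusp h f)
    (h0 : ∀ n : ℤ, n < 0 → (laurentExp h f).coeff n = 0) :
    Tendsto f atImInfty (𝓝 ((laurentExp h f).coeff 0)) := by
  have hb : PoleBound h f 0 := hf.poleBound_of_coeff hh (m := 0) (by simpa using h0)
  have := tendsto_qPow_mul hh hf hb
  simpa [qPow_zero] using this

/-- If all coefficients of `𝕢 ^ n`, `n ≤ 0`, vanish, then `f` is zero at `i∞`. -/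
theorem IsMeroCusp.isZeroAtImInfty_of_coeff (hh : 0 < h) (hf : IsMeroCusp h f)
    (h0 : ∀ n : ℤ, n ≤ 0 → (laurentExp h f).coeff n = 0) : IsZeroAtImInfty f := by
  have := hf.tendsto_of_coeff hh fun n hn => h0 n hn.le
  rwa [h0 0 le_rfl] at this

end limits

/-! ### Inverses -/

section inverse

variable {h : ℝ} {f g : ℍ → ℂ}

theorem mdiff_inv (hmd : MDiff f) (hne : ∀ τ, f τ ≠ 0) : MDiff f⁻¹ := by
  rw [mdifferentiable_iff] at hmd ⊢
  have : (f⁻¹ ∘ ofComplex) = (f ∘ ofComplex)⁻¹ := by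
    funext z
    simp
  rw [this]
  exact hmd.inv fun z _ => hne _

/-- The inverse of a nowhere vanishing function which is meromorphic at the cusp is meromorphic
at the cusp. -/
theorem IsMeroCusp.inv (hh : 0 < h) (hf : IsMeroCusp h f) (hne : ∀ τ, f τ ≠ 0) :
    IsMeroCusp h f⁻¹ := by
  refine ⟨mdiff_inv hf.mdiff hne, ?_, ?_⟩
  · intro w
    have h1 := hf.periodic w
    simp only [comp_apply, Pi.inv_apply] at h1 ⊢
    rw [h1]
  obtain ⟨M, hM⟩ := hf.bdd
  change PoleBound h f M at hM
  set F : ℂ → ℂ := cuspFunction h (qPow h M * f) with hF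
  have han : AnalyticAt ℂ F 0 := hf.analyticAt hh hM
  have hFq : ∀ τ : ℍ, F (Periodic.qParam h τ) = qPow h M τ * f τ := fun τ =>
    eq_cuspFunction τ hh.ne' (hf.periodic_qPow_mul hh M)
  -- `F` does not vanish identically near `0`
  have hnz : ¬ ∀ᶠ z in 𝓝 (0 : ℂ), F z = 0 := by
    intro hev
    have h1 := (qParam_tendsto_atImInfty hh).eventually hev
    obtain ⟨τ, hτ⟩ := (h1.and (Filter.Eventually.of_forall fun τ : ℍ => trivial)).exists
    rw [hFq] at hτ
    exact mul_ne_zero (qPow_ne_zero M τ) (hne τ) hτ.1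
  obtain ⟨n, G, hGan, hG0, hGeq⟩ := han.exists_eventuallyEq_pow_smul_nonzero_iff.mpr hnz
  refine ⟨n, ?_⟩
  -- the function `𝕢 ^ n * f⁻¹` is eventually `𝕢 ^ M / G (𝕢)`
  have hev : ∀ᶠ τ : ℍ in atImInfty, Periodic.qParam h τ ^ n * f⁻¹ τ =
      Periodic.qParam h τ ^ M * (G (Periodic.qParam h τ))⁻¹ := by
    have h1 := (qParam_tendsto_atImInfty hh).eventually hGeq
    have h2 := (qParam_tendsto_atImInfty hh).eventually
      (hGan.continuousAt.eventually_ne hG0)
    filter_upwards [h1, h2] with τ h1 h2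
    rw [hFq, sub_zero, smul_eq_mul, qPow_apply] at h1
    have hq : Periodic.qParam h τ ≠ 0 := Periodic.qParam_ne_zero _
    have hfτ := hne τ
    simp only [Pi.inv_apply]
    field_simp
    rw [← h1]
    ring
  have hlim : Tendsto (fun τ : ℍ => Periodic.qParam h τ ^ M * (G (Periodic.qParam h τ))⁻¹)
      atImInfty (𝓝 ((0 : ℂ) ^ M * (G 0)⁻¹)) :=
    ((qParam_tendsto_atImInfty hh).pow M).mul
      ((hGan.continuousAt.tendsto.comp (qParam_tendsto_atImInfty hh)).inv₀ hG0)
  exact (hlim.congr' (hev.mono fun τ hτ => hτ.symm)).isBigO_one ℝ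

theorem laurentExp_inv (hh : 0 < h) (hf : IsMeroCusp h f) (hne : ∀ τ, f τ ≠ 0) :
    laurentExp h f⁻¹ = (laurentExp h f)⁻¹ := by
  have h1 : f * f⁻¹ = 1 := by
    funext τ
    simp [hne τ]
  have h2 := laurentExp_mul hh hf (hf.inv hh hne)
  rw [h1, laurentExp_one hh] at h2
  exact eq_inv_of_mul_eq_one_right h2.symm

theorem IsMeroCusp.div (hh : 0 < h) (hf : IsMeroCusp h f) (hg : IsMeroCusp h g)
    (hne : ∀ τ, g τ ≠ 0) : IsMeroCusp h (f / g) := by
  rw [div_eq_mul_inv]
  exact hf.mul (hg.inv hh hne)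

theorem laurentExp_div (hh : 0 < h) (hf : IsMeroCusp h f) (hg : IsMeroCusp h g)
    (hne : ∀ τ, g τ ≠ 0) : laurentExp h (f / g) = laurentExp h f / laurentExp h g := by
  rw [div_eq_mul_inv, laurentExp_mul hh hf (hg.inv hh hne), laurentExp_inv hh hg hne,
    div_eq_mul_inv]

theorem laurentExp_ne_zero (hh : 0 < h) (hf : IsMeroCusp h f) (hf0 : f ≠ 0) :
    laurentExp h f ≠ 0 := fun h0 => hf0 (laurentExp_eq_zero hh hf h0)

end inverse

/-! ### Modular forms -/

section modular

variable {h : ℝ} {Γ : Subgroup (GL (Fin 2) ℝ)} {k : ℤ} {F : Type*} [FunLike F ℍ ℂ]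

theorem isMeroCusp_of_modularForm [ModularFormClass F Γ k] (f : F) (hh : 0 < h)
    (hΓ : h ∈ Γ.strictPeriods) : IsMeroCusp h (f : ℍ → ℂ) :=
  have : Fact (IsCusp OnePoint.infty Γ) := ⟨Γ.isCusp_of_mem_strictPeriods hh hΓ⟩
  IsMeroCusp.of_bounded (ModularFormClass.holo f)
    (SlashInvariantFormClass.periodic_comp_ofComplex f hΓ) (ModularFormClass.bdd_at_infty f)

theorem laurentExp_of_modularForm [ModularFormClass F Γ k] (f : F) (hh : 0 < h)
    (hΓ : h ∈ Γ.strictPeriods) :
    laurentExp h (f : ℍ → ℂ) = HahnSeries.ofPowerSeries ℤ ℂ (qExpansion h f) :=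
  have : Fact (IsCusp OnePoint.infty Γ) := ⟨Γ.isCusp_of_mem_strictPeriods hh hΓ⟩
  laurentExp_of_bounded hh (ModularFormClass.holo f)
    (SlashInvariantFormClass.periodic_comp_ofComplex f hΓ) (ModularFormClass.bdd_at_infty f)

end modular

end Fermat.Agent.S28
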