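import Mathlib
import Fermat.Agent.S28.MeroSubst
import Fermat.Agent.S28.MeroCusp
import Fermat.Agent.S28.CuspFacts

/-!
# The analytic input of `CuspFacts.lean`, instantiated

* `analyticInput_CE N : CuspExp.AnalyticInput N (IsCE 1) (IsCE N) (cuspExp 1) (cuspExp N)`:
  the abstract analytic interface of `CuspFacts.lean` for the predicates of `MeroSubst.lean`.
* `HasCuspExp.isMeroCusp`: bridge to the predicates `IsMeroCusp` / `laurentExp` of `MeroCusp.lean`,
  and `analyticInput_MC N`, the same interface for `IsMeroCusp` / `laurentExp`.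
-/

set_option autoImplicit false

noncomputable section

namespace Fermat.Agent.S28

open Complex PowerSeries ModularCurve ModularForm EisensteinSeries
open UpperHalfPlane hiding I
open scoped Real Manifold MatrixGroups

local notation "𝕢" => Function.Periodic.qParam
local notation "Δ" => ModularForm.discriminant

/-- Substitution `τ ↦ (A τ + B)/D` in the shape of `CuspExp.AnalyticInput.subst`, at the level of
the relation `HasCuspExp`. -/
theorem HasCuspExp.subst_affPt {N : ℕ} {f : ℍ → ℂ} {L : LaurentSeries ℂ} (hf : HasCuspExp 1 f L)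
    (A B D : ℤ) (hA : 0 < A) (hD : 0 < D) (e : ℕ) [NeZero e] (heq : (e : ℤ) * D = N * A)
    (ξ : ℂˣ) (hξ : (ξ : ℂ) = CuspExp.rootExp B D) :
    HasCuspExp N (fun τ => f (CuspExp.affPt A B D hA hD τ)) (cuspS ℂ ξ e L) := by
  obtain ⟨A', rfl⟩ := Int.eq_ofNat_of_zero_le hA.le
  obtain ⟨D', rfl⟩ := Int.eq_ofNat_of_zero_le hD.le
  have hD' : D' ≠ 0 := by
    rintro rfl
    simp at hD
  have hA' : A' ≠ 0 := by
    rintro rfl
    simp at hA
  have heq' : e * D' = N * A' := by exact_mod_cast heq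
  have hN : N ≠ 0 := by
    rintro rfl
    have : e * D' = 0 := by simpa using heq'
    rcases Nat.mul_eq_zero.mp this with h | h
    · exact NeZero.ne e h
    · exact hD' h
  refine hf.subst (A := A') (D := D') (e := e) (N := N) (B := B) hD' hN heq'
    (fun τ => CuspExp.affPt (A' : ℤ) B (D' : ℤ) hA hD τ) (fun τ => ?_) ξ ?_
  · rw [CuspExp.coe_affPt]
    push_cast
    rfl
  · rw [hξ, CuspExp.rootExp]
    push_cast
    rfl

/-- **The analytic input for `CuspFacts.lean`**, with the predicates `IsCE` / `cuspExp`. -/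
theorem analyticInput_CE (N : ℕ) [NeZero N] :
    CuspExp.AnalyticInput N (IsCE 1) (IsCE N) (cuspExp 1) (cuspExp N) where
  expN := meroExp_isCE (by exact_mod_cast Nat.pos_of_ne_zero (NeZero.ne N))
  subst := by
    intro f hf A B D hA hD e _ heq ξ hξ
    have hNpos : (0 : ℝ) < N := by exact_mod_cast Nat.pos_of_ne_zero (NeZero.ne N)
    have h := hf.hasCuspExp.subst_affPt A B D hA hD e heq ξ hξ
    exact ⟨h.isCE, h.cuspExp_eq hNpos⟩
  j_mc := isCE_jFun
  j_exp := cuspExp_jFun
  delta_mc := isCE_discriminant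
  delta_exp := cuspExp_discriminant
  deltaInv_mc := isCE_discriminant_inv
  deltaInv_exp := cuspExp_discriminant_inv

/-! ### Bridge to `IsMeroCusp` / `laurentExp` of `MeroCusp.lean` -/

/-- A function with a convergent cusp expansion `L` in `𝕢 h` is meromorphic at the cusp in the
sense of `MeroCusp.lean` and `laurentExp h f = L`. -/
theorem HasCuspExp.isMeroCusp {h : ℝ} (hh : 0 < h) {f : ℍ → ℂ} {L : LaurentSeries ℂ}
    (hf : HasCuspExp h f L) : IsMeroCusp h f ∧ laurentExp h f = L := by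
  have hmd : MDiff f := hf.mdifferentiable hh
  obtain ⟨M, p, hp, rfl, hfe⟩ := hf
  have hsum : ∀ τ : ℍ, HasSum (fun k : ℕ => (fun n => coeff n p) k * 𝕢 h τ ^ k)
      (𝕢 h τ ^ M * f τ) := by
    intro τ
    have h1 := hp.hasSum (norm_qParam_lt_one' hh τ)
    rw [← hfe τ, mul_comm] at h1
    exact h1
  obtain ⟨h1, h2⟩ := laurentExp_of_hasSum_nat hh hmd hsum
  refine ⟨h1, ?_⟩
  rw [h2, lsOf]
  congr 2
  ext n
  simp

theorem IsCE.isMeroCusp {h : ℝ} (hh : 0 < h) {f : ℍ → ℂ} (hf : IsCE h f) : IsMeroCusp h f :=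
  (hf.hasCuspExp.isMeroCusp hh).1

theorem IsCE.laurentExp_eq {h : ℝ} (hh : 0 < h) {f : ℍ → ℂ} (hf : IsCE h f) :
    laurentExp h f = cuspExp h f :=
  (hf.hasCuspExp.isMeroCusp hh).2

/-- Conversely, a function meromorphic at the cusp in the sense of `MeroCusp.lean` has the
convergent cusp expansion `laurentExp h f`. -/
theorem IsMeroCusp.hasCuspExp {h : ℝ} (hh : 0 < h) {f : ℍ → ℂ} (hf : IsMeroCusp h f) :
    HasCuspExp h f (laurentExp h f) := by
  obtain ⟨m, hm⟩ := hf.bdd
  change PoleBound h f m at hm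
  obtain ⟨p, hp⟩ : ∃ p : PowerSeries ℂ, p = UpperHalfPlane.qExpansion h (qPow h m * f) :=
    ⟨_, rfl⟩
  have hsum : ∀ τ : ℍ, HasSum (fun k : ℕ => coeff k p * 𝕢 h τ ^ k) (𝕢 h τ ^ m * f τ) := by
    intro τ
    have h1 := hasSum_laurentExp_nat hh hf hm τ
    simp only [laurentExp_coeff_sub hh hf hm, ← hp] at h1
    exact h1
  have hconv : Conv p := by
    intro q hq
    by_cases hq0 : q = 0
    · subst hq0
      refine summable_of_ne_finset_zero (s := {0}) fun n hn => ?_
      have : n ≠ 0 := by simpa using hn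
      simp [this]
    · obtain ⟨τ, rfl⟩ := exists_qParam_eq hh hq hq0
      exact (hsum τ).summable
  refine ⟨m, p, hconv, ?_, fun τ => ?_⟩
  · rw [laurentExp_eq hh hf hm, hp, lsOf]
  · rw [evalDisc_eq_of_hasSum (hsum τ), mul_comm]

theorem isMeroCusp_iff_isCE {h : ℝ} (hh : 0 < h) {f : ℍ → ℂ} : IsMeroCusp h f ↔ IsCE h f :=
  ⟨fun hf => (hf.hasCuspExp hh).isCE, fun hf => hf.isMeroCusp hh⟩

theorem IsMeroCusp.laurentExp_eq_cuspExp {h : ℝ} (hh : 0 < h) {f : ℍ → ℂ} (hf : IsMeroCusp h f) :
    laurentExp h f = cuspExp h f :=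
  ((hf.hasCuspExp hh).cuspExp_eq hh).symm

/-- `EvalBridge.MeroExp` for the predicates of `MeroCusp.lean`. -/
theorem meroExp_isMeroCusp {h : ℝ} (hh : 0 < h) :
    EvalBridge.MeroExp (IsMeroCusp h) (laurentExp h) where
  const c := isMeroCusp_const h c
  add _ _ hf hg := hf.add hh hg
  mul _ _ hf hg := hf.mul hg
  exp_const c := laurentExp_const hh c
  exp_add _ _ hf hg := laurentExp_add hh hf hg
  exp_mul _ _ hf hg := laurentExp_mul hh hf hg

/-- **The analytic input for `CuspFacts.lean`**, with the predicates `IsMeroCusp` / `laurentExp`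
of `MeroCusp.lean`. -/
theorem analyticInput_MC (N : ℕ) [NeZero N] :
    CuspExp.AnalyticInput N (IsMeroCusp 1) (IsMeroCusp N) (laurentExp 1) (laurentExp N) where
  expN := meroExp_isMeroCusp (by exact_mod_cast Nat.pos_of_ne_zero (NeZero.ne N))
  subst := by
    intro f hf A B D hA hD e _ heq ξ hξ
    have hNpos : (0 : ℝ) < N := by exact_mod_cast Nat.pos_of_ne_zero (NeZero.ne N)
    exact ((hf.hasCuspExp one_pos).subst_affPt A B D hA hD e heq ξ hξ).isMeroCusp hNpos
  j_mc := isCE_jFun.isMeroCusp one_pos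
  j_exp := (isCE_jFun.laurentExp_eq one_pos).trans cuspExp_jFun
  delta_mc := isCE_discriminant.isMeroCusp one_pos
  delta_exp := (isCE_discriminant.laurentExp_eq one_pos).trans cuspExp_discriminant
  deltaInv_mc := isCE_discriminant_inv.isMeroCusp one_pos
  deltaInv_exp := (isCE_discriminant_inv.laurentExp_eq one_pos).trans cuspExp_discriminant_inv

end Fermat.Agent.S28
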