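/-
T28 / A4 (helper68): level-one modular FUNCTIONS are polynomials in `j`.

A function `f : ℍ → ℂ` which is holomorphic, `SL(2,ℤ)`-invariant and such that `q^m f` is bounded
at `i∞` is a polynomial of degree `≤ m` in any function `J` of the same kind with `q J → 1`.
-/
import Mathlib

set_option autoImplicit false

namespace Fermat.Agent.S28.LevelOnePoly

open UpperHalfPlane Filter Topology Complex Function
open scoped MatrixGroups Manifold ModularForm Real

noncomputable section

/-- `q(z) = exp(2πiz)` on the upper half plane. -/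
def qH (z : ℍ) : ℂ := Function.Periodic.qParam 1 (z : ℂ)

lemma qH_ne_zero (z : ℍ) : qH z ≠ 0 := Function.Periodic.qParam_ne_zero _

lemma norm_qH (z : ℍ) : ‖qH z‖ = Real.exp (-2 * π * z.im) := by
  simp [qH, Function.Periodic.norm_qParam]

lemma qH_vadd_one (z : ℍ) : qH ((1 : ℝ) +ᵥ z) = qH z := by
  simp only [qH, Function.Periodic.qParam, coe_vadd, div_one, ofReal_one]
  rw [mul_add, mul_one, Complex.exp_add, Complex.exp_two_pi_mul_I, one_mul]

lemma mdifferentiable_qH : MDifferentiable 𝓘(ℂ) 𝓘(ℂ) qH := by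
  intro z
  rw [UpperHalfPlane.mdifferentiableAt_iff]
  have h1 : DifferentiableAt ℂ (Function.Periodic.qParam 1) (z : ℂ) :=
    (Function.Periodic.differentiable_qParam (h := 1)).differentiableAt
  refine h1.congr_of_eventuallyEq ?_
  filter_upwards [isOpen_upperHalfPlaneSet.mem_nhds z.im_pos] with w hw
  simp [qH, ofComplex_apply_of_im_pos hw]

lemma tendsto_qH_atImInfty : Tendsto qH atImInfty (𝓝 0) :=
  UpperHalfPlane.qParam_tendsto_atImInfty one_pos

/-- A function on `ℍ` invariant under `z ↦ z + 1` gives a `1`-periodic function on `ℂ`. -/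
lemma periodic_comp_ofComplex {g : ℍ → ℂ} (hg : ∀ z : ℍ, g ((1 : ℝ) +ᵥ z) = g z) :
    Periodic (g ∘ ofComplex) (1 : ℝ) := by
  intro w
  by_cases hw : 0 < im w
  · have hw' : 0 < im (w + (1 : ℝ)) := by simpa using hw
    simp only [comp_apply, ofComplex_apply_of_im_pos hw', ofComplex_apply_of_im_pos hw]
    rw [← hg ⟨w, hw⟩]
    congr 1
    ext
    simp [add_comm]
  · have hw0 : im w ≤ 0 := not_lt.mp hw
    have hw' : im (w + (1 : ℝ)) ≤ 0 := by simpa using hw0
    show g (ofComplex (w + (1 : ℝ))) = g (ofComplex w)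
    rw [ofComplex_apply_of_im_nonpos hw', ofComplex_apply_of_im_nonpos hw0]

/-- The class of level-one weakly holomorphic modular functions with a pole of order at most `m`
at `i∞`. -/
structure IsModFun (f : ℍ → ℂ) (m : ℕ) : Prop where
  holo : MDifferentiable 𝓘(ℂ) 𝓘(ℂ) f
  inv : ∀ (γ : SL(2, ℤ)) (z : ℍ), f (γ • z) = f z
  bdd : IsBoundedAtImInfty (fun z => qH z ^ m * f z)

namespace IsModFun

variable {f g : ℍ → ℂ} {m n : ℕ}

lemma vadd_one (hf : IsModFun f m) (z : ℍ) : f ((1 : ℝ) +ᵥ z) = f z := by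
  rw [← UpperHalfPlane.modular_T_smul]
  exact hf.inv _ z

lemma isBoundedAtImInfty_qH_pow (k : ℕ) : IsBoundedAtImInfty (fun z => qH z ^ k) := by
  have : Tendsto (fun z => qH z ^ k) atImInfty (𝓝 (0 ^ k)) := tendsto_qH_atImInfty.pow k
  exact this.isBigO_one ℝ

lemma mono (hf : IsModFun f m) (h : m ≤ n) : IsModFun f n := by
  refine ⟨hf.holo, hf.inv, ?_⟩
  obtain ⟨k, rfl⟩ := Nat.exists_eq_add_of_le h
  have h2 := (isBoundedAtImInfty_qH_pow k).mul hf.bdd
  have e : (fun z => qH z ^ (m + k) * f z)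
      = (fun z => qH z ^ k) * fun z => qH z ^ m * f z := by
    funext z; simp [pow_add]; ring
  rw [e]; exact h2

lemma const (c : ℂ) : IsModFun (fun _ => c) 0 :=
  ⟨mdifferentiable_const, fun _ _ => rfl, by
    have h : IsBoundedAtImInfty (fun _ : ℍ => c) := Filter.const_boundedAtFilter atImInfty c
    simpa using h⟩

lemma add (hf : IsModFun f m) (hg : IsModFun g m) : IsModFun (fun z => f z + g z) m :=
  ⟨hf.holo.add hg.holo, fun γ z => by rw [hf.inv γ z, hg.inv γ z], by
    have h := hf.bdd.add hg.bdd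
    have e : (fun z => qH z ^ m * (f z + g z))
        = (fun z => qH z ^ m * f z) + fun z => qH z ^ m * g z := by
      funext z; simp [mul_add]
    rw [e]; exact h⟩

lemma neg (hf : IsModFun f m) : IsModFun (fun z => - f z) m :=
  ⟨hf.holo.neg, fun γ z => by rw [hf.inv γ z], by
    have h := hf.bdd.neg
    have e : (fun z => qH z ^ m * (- f z)) = - fun z => qH z ^ m * f z := by
      funext z; simp
    rw [e]; exact h⟩

lemma sub (hf : IsModFun f m) (hg : IsModFun g m) : IsModFun (fun z => f z - g z) m := by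
  simpa [sub_eq_add_neg] using hf.add hg.neg

lemma mul (hf : IsModFun f m) (hg : IsModFun g n) : IsModFun (fun z => f z * g z) (m + n) :=
  ⟨hf.holo.mul hg.holo, fun γ z => by rw [hf.inv γ z, hg.inv γ z], by
    have h := hf.bdd.mul hg.bdd
    have e : (fun z => qH z ^ (m + n) * (f z * g z))
        = (fun z => qH z ^ m * f z) * fun z => qH z ^ n * g z := by
      funext z; simp [pow_add]; ring
    rw [e]; exact h⟩

lemma const_mul (c : ℂ) (hf : IsModFun f m) : IsModFun (fun z => c * f z) m := by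
  simpa using (const c).mul hf

lemma pow (hf : IsModFun f m) (k : ℕ) : IsModFun (fun z => f z ^ k) (m * k) := by
  induction k with
  | zero => simpa using const 1
  | succ k ih => simpa [pow_succ, Nat.mul_succ] using ih.mul hf


/-- `q^m f` for a modular function `f`: its basic analytic properties. -/
lemma qpow_mul_vadd_one (hf : IsModFun f m) (z : ℍ) :
    qH ((1 : ℝ) +ᵥ z) ^ m * f ((1 : ℝ) +ᵥ z) = qH z ^ m * f z := by
  rw [qH_vadd_one, hf.vadd_one]

lemma qpow_mul_holo (hf : IsModFun f m) :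
    MDifferentiable 𝓘(ℂ) 𝓘(ℂ) (fun z => qH z ^ m * f z) :=
  (mdifferentiable_qH.pow m).mul hf.holo

/-- `q^m f` has a limit at `i∞`, and the difference is `O(q)`. -/
lemma isBigO_sub_valueAtInfty (hf : IsModFun f m) :
    (fun z => qH z ^ m * f z - valueAtInfty (fun z => qH z ^ m * f z))
      =O[atImInfty] fun z => qH z := by
  have h := UpperHalfPlane.exp_decay_sub_atImInfty (h := 1) one_pos
    (periodic_comp_ofComplex hf.qpow_mul_vadd_one) hf.qpow_mul_holo hf.bdd
  refine h.trans (Asymptotics.IsBigO.of_bound 1 (Eventually.of_forall fun z => ?_))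
  rw [norm_qH, one_mul, Real.norm_eq_abs, Real.abs_exp, div_one]

lemma tendsto_valueAtInfty (hf : IsModFun f m) :
    Tendsto (fun z => qH z ^ m * f z) atImInfty
      (𝓝 (valueAtInfty (fun z => qH z ^ m * f z))) := by
  have h1 := hf.isBigO_sub_valueAtInfty.trans_tendsto tendsto_qH_atImInfty
  have h2 := h1.add_const (valueAtInfty (fun z => qH z ^ m * f z))
  simpa using h2

/-- If `q^(m+1) f → 0` then the pole order is at most `m`. -/
lemma of_tendsto_zero (hf : IsModFun f (m + 1))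
    (h0 : Tendsto (fun z => qH z ^ (m + 1) * f z) atImInfty (𝓝 0)) : IsModFun f m := by
  refine ⟨hf.holo, hf.inv, ?_⟩
  have hv : valueAtInfty (fun z => qH z ^ (m + 1) * f z) = 0 := h0.limUnder_eq
  have h1 := hf.isBigO_sub_valueAtInfty
  rw [hv] at h1
  simp only [sub_zero] at h1
  -- divide by `q`
  obtain ⟨C, hC⟩ := h1.bound
  refine Asymptotics.IsBigO.of_bound C ?_
  filter_upwards [hC] with z hz
  have hq : 0 < ‖qH z‖ := norm_pos_iff.mpr (qH_ne_zero z)
  have e : qH z ^ (m + 1) * f z = qH z * (qH z ^ m * f z) := by ring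
  rw [e, norm_mul] at hz
  have : ‖qH z ^ m * f z‖ ≤ C := by
    have h3 : ‖qH z‖ * ‖qH z ^ m * f z‖ ≤ ‖qH z‖ * C := by linarith [hz, mul_comm C ‖qH z‖]
    exact le_of_mul_le_mul_left h3 hq
  simpa using this


lemma slash_eq (hf : IsModFun f m) (γ : SL(2, ℤ)) : f ∣[(0 : ℤ)] γ = f := by
  funext z
  rw [ModularForm.SL_slash_apply, hf.inv γ z]
  simp

/-- A modular function without pole at `i∞` is a level-one modular form of weight `0`. -/
def toModularForm (hf : IsModFun f 0) : ModularForm 𝒮ℒ 0 where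
  toFun := f
  slash_action_eq' := by
    rintro _ ⟨γ, rfl⟩
    exact hf.slash_eq γ
  holo' := hf.holo
  bdd_at_cusps' := fun {c} hc => by
    rw [OnePoint.isBoundedAt_iff_forall_SL2Z hc]
    intro γ _
    rw [hf.slash_eq γ]
    simpa using hf.bdd

/-- A modular function without pole at `i∞` is constant. -/
lemma eq_const_of_zero (hf : IsModFun f 0) : ∃ c : ℂ, ∀ z, f z = c := by
  obtain ⟨c, hc⟩ := ModularFormClass.levelOne_weight_zero_const hf.toModularForm
  exact ⟨c, fun z => congrFun hc z⟩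

end IsModFun


/-- **Level-one modular functions are polynomials in `J`.**  Here `J` is any level-one modular
function with a simple pole at `i∞` normalised by `q J → 1` (e.g. the `j`-function). -/
theorem exists_poly_of_isModFun {J : ℍ → ℂ} (hJ : IsModFun J 1)
    (hJq : Tendsto (fun z => qH z * J z) atImInfty (𝓝 1)) :
    ∀ (m : ℕ) {f : ℍ → ℂ}, IsModFun f m →
      ∃ P : Polynomial ℂ, P.natDegree ≤ m ∧ ∀ z, f z = P.eval (J z) := by
  intro m
  induction m with
  | zero =>
    intro f hf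
    obtain ⟨c, hc⟩ := hf.eq_const_of_zero
    exact ⟨Polynomial.C c, by simp, fun z => by simp [hc z]⟩
  | succ m ih =>
    intro f hf
    set c : ℂ := valueAtInfty (fun z => qH z ^ (m + 1) * f z) with hc
    have hJp : IsModFun (fun z => J z ^ (m + 1)) (m + 1) := by
      simpa using hJ.pow (m + 1)
    have hf₁ : IsModFun (fun z => f z - c * J z ^ (m + 1)) (m + 1) :=
      hf.sub (hJp.const_mul c)
    have hlim : Tendsto (fun z => qH z ^ (m + 1) * (f z - c * J z ^ (m + 1))) atImInfty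
        (𝓝 0) := by
      have h1 := hf.tendsto_valueAtInfty
      have h2 : Tendsto (fun z => c * (qH z * J z) ^ (m + 1)) atImInfty (𝓝 (c * 1 ^ (m + 1))) :=
        (hJq.pow (m + 1)).const_mul c
      have h3 := h1.sub h2
      rw [← hc] at h3
      simp only [one_pow, mul_one, sub_self] at h3
      refine h3.congr fun z => ?_
      ring
    obtain ⟨P, hPdeg, hP⟩ := ih (hf₁.of_tendsto_zero hlim)
    refine ⟨P + Polynomial.C c * Polynomial.X ^ (m + 1), ?_, fun z => ?_⟩
    · refine (Polynomial.natDegree_add_le _ _).trans (max_le (hPdeg.trans (Nat.le_succ m)) ?_)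
      exact Polynomial.natDegree_C_mul_X_pow_le c (m + 1)
    · have := hP z
      simp only [Polynomial.eval_add, Polynomial.eval_mul, Polynomial.eval_C, Polynomial.eval_pow,
        Polynomial.eval_X]
      rw [← this]; ring


/-- Unbundled form of `exists_poly_of_isModFun`, with `𝕢 1 z = exp (2πiz)` spelled in Mathlib's
vocabulary `Function.Periodic.qParam 1 z`. -/
theorem exists_poly_of_invariant (J f : ℍ → ℂ)
    (hJ : MDifferentiable 𝓘(ℂ) 𝓘(ℂ) J) (hJinv : ∀ (γ : SL(2, ℤ)) (z : ℍ), J (γ • z) = J z)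
    (hJq : Tendsto (fun z : ℍ => Function.Periodic.qParam 1 (z : ℂ) * J z) atImInfty (𝓝 1))
    (hf : MDifferentiable 𝓘(ℂ) 𝓘(ℂ) f) (hfinv : ∀ (γ : SL(2, ℤ)) (z : ℍ), f (γ • z) = f z)
    (m : ℕ)
    (hfm : IsBoundedAtImInfty (fun z : ℍ => Function.Periodic.qParam 1 (z : ℂ) ^ m * f z)) :
    ∃ P : Polynomial ℂ, P.natDegree ≤ m ∧ ∀ z, f z = P.eval (J z) := by
  have hJ1 : IsModFun J 1 := ⟨hJ, hJinv, by
    have : IsBoundedAtImInfty (fun z : ℍ => qH z * J z) := hJq.isBigO_one ℝ
    simpa using this⟩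
  exact exists_poly_of_isModFun hJ1 hJq m ⟨hf, hfinv, hfm⟩

/-- A function `J` with `q J → 1` at `i∞` takes infinitely many values. -/
lemma infinite_range_of_tendsto {J : ℍ → ℂ}
    (hJq : Tendsto (fun z : ℍ => Function.Periodic.qParam 1 (z : ℂ) * J z) atImInfty (𝓝 1)) :
    (Set.range J).Infinite := by
  intro hfin
  obtain ⟨C, hC⟩ := hfin.isBounded.exists_norm_le
  have hC' : ∀ z, ‖J z‖ ≤ C := fun z => hC _ ⟨z, rfl⟩
  have h0 : Tendsto (fun z : ℍ => Function.Periodic.qParam 1 (z : ℂ) * J z) atImInfty (𝓝 0) := by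
    rw [tendsto_zero_iff_norm_tendsto_zero]
    have h1 : Tendsto (fun z : ℍ => ‖qH z‖ * C) atImInfty (𝓝 (‖(0 : ℂ)‖ * C)) :=
      tendsto_qH_atImInfty.norm.mul_const C
    rw [norm_zero, zero_mul] at h1
    refine squeeze_zero (fun z => norm_nonneg _) (fun z => ?_) h1
    rw [norm_mul]
    exact mul_le_mul_of_nonneg_left (hC' z) (norm_nonneg _)
  exact zero_ne_one (tendsto_nhds_unique h0 hJq)

/-- **Uniqueness** of the polynomial: two polynomials agreeing on all values of `J` are equal. -/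
theorem poly_unique {J : ℍ → ℂ}
    (hJq : Tendsto (fun z : ℍ => Function.Periodic.qParam 1 (z : ℂ) * J z) atImInfty (𝓝 1))
    {P Q : Polynomial ℂ} (h : ∀ z, P.eval (J z) = Q.eval (J z)) : P = Q := by
  rw [← sub_eq_zero]
  refine Polynomial.eq_zero_of_infinite_isRoot _ ((infinite_range_of_tendsto hJq).mono ?_)
  rintro _ ⟨z, rfl⟩
  simp [Polynomial.IsRoot, h z]

/-- Existence and uniqueness together. -/
theorem existsUnique_poly_of_invariant (J f : ℍ → ℂ)
    (hJ : MDifferentiable 𝓘(ℂ) 𝓘(ℂ) J) (hJinv : ∀ (γ : SL(2, ℤ)) (z : ℍ), J (γ • z) = J z)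
    (hJq : Tendsto (fun z : ℍ => Function.Periodic.qParam 1 (z : ℂ) * J z) atImInfty (𝓝 1))
    (hf : MDifferentiable 𝓘(ℂ) 𝓘(ℂ) f) (hfinv : ∀ (γ : SL(2, ℤ)) (z : ℍ), f (γ • z) = f z)
    (m : ℕ)
    (hfm : IsBoundedAtImInfty (fun z : ℍ => Function.Periodic.qParam 1 (z : ℂ) ^ m * f z)) :
    ∃! P : Polynomial ℂ, ∀ z, f z = P.eval (J z) := by
  obtain ⟨P, -, hP⟩ := exists_poly_of_invariant J f hJ hJinv hJq hf hfinv m hfm
  exact ⟨P, hP, fun Q hQ => poly_unique hJq fun z => (hQ z).symm.trans (hP z)⟩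

end

end Fermat.Agent.S28.LevelOnePoly
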