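import Fermat.Agent.S28.CosetSym
import Fermat.Agent.S28.LevelOnePoly

/-!
# Symmetric functions of conjugates: hypothesis-free versions

`CosetSym.lean` (module A4b) combined with the level-one theorem of `LevelOnePoly.lean`
(module A4a).
-/

set_option autoImplicit false

open UpperHalfPlane ModularForm Complex Function Periodic MatrixGroups Filter Polynomial
  CongruenceSubgroup
open scoped Manifold Topology

namespace Fermat.Agent.S28.CosetSym

/-- A Hauptmodul: holomorphic, `SL(2, ℤ)`-invariant, with `q J → 1` at the cusp. -/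
structure IsHauptmodul (J : ℍ → ℂ) : Prop where
  mdiff : MDiff J
  inv : ∀ (γ : SL(2, ℤ)) (z : ℍ), J (γ • z) = J z
  tendsto : Tendsto (fun z : ℍ => qParam 1 (z : ℂ) * J z) atImInfty (𝓝 1)

theorem IsHauptmodul.levelOnePoly {J : ℍ → ℂ} (hJ : IsHauptmodul J) : LevelOnePoly J :=
  fun g hg hginv m hgm =>
    Fermat.Agent.S28.LevelOnePoly.exists_poly_of_invariant J g hJ.mdiff hJ.inv hJ.tendsto
      hg hginv m hgm

/-- **Symmetric functions of a permuted family are polynomials in `J`.** -/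
theorem IsHauptmodul.exists_poly_esymmFun {J : ℍ → ℂ} (hJ : IsHauptmodul J) {ι : Type}
    [Fintype ι] {f : ι → ℍ → ℂ} (hf : ∀ i, MDiff (f i)) (hperm : IsPermuted f) {h : ℝ}
    (hh : 0 < h) {m : ℕ}
    (hbdd : ∀ i, IsBoundedAtImInfty fun z : ℍ => qParam h (z : ℂ) ^ m * f i z) (n : ℕ) :
    ∃! P : ℂ[X], ∀ z, esymmFun f n z = P.eval (J z) := by
  obtain ⟨m', hm'⟩ : ∃ m' : ℕ, ((m * n : ℕ) : ℝ) ≤ h * m' := by
    obtain ⟨m', hm'⟩ := exists_nat_ge (((m * n : ℕ) : ℝ) / h)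
    exact ⟨m', by rwa [div_le_iff₀' hh] at hm'⟩
  obtain ⟨P, -, hP⟩ := CosetSym.exists_poly_esymmFun hJ.levelOnePoly hf hperm hh hbdd n m' hm'
  refine ⟨P, hP, fun Q hQ => ?_⟩
  exact Fermat.Agent.S28.LevelOnePoly.poly_unique hJ.tendsto fun z => (hQ z).symm.trans (hP z)

/-- **The characteristic polynomial of a permuted family has coefficients in `ℂ[J]`.** -/
theorem IsHauptmodul.exists_charPoly_eq_map {J : ℍ → ℂ} (hJ : IsHauptmodul J) {ι : Type}
    [Fintype ι] {f : ι → ℍ → ℂ} (hf : ∀ i, MDiff (f i)) (hperm : IsPermuted f) {h : ℝ}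
    (hh : 0 < h) {m : ℕ}
    (hbdd : ∀ i, IsBoundedAtImInfty fun z : ℍ => qParam h (z : ℂ) ^ m * f i z) :
    ∃ Q : ℂ[X][X], Q.Monic ∧ Q.natDegree = Fintype.card ι ∧
      ∀ z, charPoly f z = Q.map (evalRingHom (J z)) :=
  CosetSym.exists_charPoly_eq_map hJ.levelOnePoly hf hperm hh hbdd

/-- **The characteristic polynomial of the `Γ₀(N)`-conjugates has coefficients in `ℂ[J]`**, and
`f` is a root of it. -/
theorem IsHauptmodul.exists_charPoly_Gamma0_eq_map {J : ℍ → ℂ} (hJ : IsHauptmodul J) {N : ℕ}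
    [NeZero N] [Fintype (SL(2, ℤ) ⧸ Gamma0 N)] {f : ℍ → ℂ} (hf : MDiff f)
    (hinv : ∀ γ ∈ Gamma0 N, ∀ z, f (γ • z) = f z)
    (hmero : ∀ g : SL(2, ℤ), ∃ m : ℕ,
      IsBoundedAtImInfty fun z : ℍ => qParam (N : ℝ) (z : ℂ) ^ m * f (g • z)) :
    ∃ Q : ℂ[X][X], Q.Monic ∧ Q.natDegree = Fintype.card (SL(2, ℤ) ⧸ Gamma0 N) ∧
      (∀ z, charPoly (cosetFun (Gamma0 N) f) z = Q.map (evalRingHom (J z))) ∧
      ∀ z, (Q.map (evalRingHom (J z))).eval (f z) = 0 :=
  CosetSym.exists_charPoly_Gamma0_eq_map hJ.levelOnePoly hf hinv hmero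

end Fermat.Agent.S28.CosetSym
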