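import Fermat.Agent.S28.CuspSeries

/-!
# Orders and integrality of the cusp expansions of the modular units (T28, A3 second half)

Pure algebra on Laurent series.

* `HasLead x n a` : the lowest term of `x` sits at exponent `n` with coefficient `a`
  (`a` may be zero); stable under products, `qExpand`, `scaleHom`, `cuspS`, `coeffMap`.
* lowest terms / orders of `deltaS`, `deltaInvS`, `e4S`, `jqModC` over any ring;
* lowest terms of the cusp series `cuspJ`, `cuspU`, `cuspUInv` of `CuspSeries.lean` (expansions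
  of `j(d γ z)`, `u_d ∘ γ`, `u_d⁻¹ ∘ γ` in `t = q^{1/N}`), their integrality over a local ring
  and the orders of their reductions (`exists_int_cuspU_ord` is `CuspInput.ord_u` in final
  shape).
-/

set_option autoImplicit false

noncomputable section

namespace Fermat.Agent.S28

open ModularCurve HahnSeries

/-! ### Lowest terms -/

section HasLead

variable {R : Type*} [CommRing R]

/-- the lowest term of `x` sits at exponent `n`, with coefficient `a` (possibly zero) -/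
def HasLead (x : LaurentSeries R) (n : ℤ) (a : R) : Prop :=
  x.coeff n = a ∧ ∀ m : ℤ, m < n → x.coeff m = 0

theorem HasLead.coeff_self {x : LaurentSeries R} {n : ℤ} {a : R} (h : HasLead x n a) :
    x.coeff n = a := h.1

theorem HasLead.coeff_of_lt {x : LaurentSeries R} {n m : ℤ} {a : R} (h : HasLead x n a)
    (hm : m < n) : x.coeff m = 0 := h.2 m hm

theorem HasLead.le_of_mem_support {x : LaurentSeries R} {n i : ℤ} {a : R} (h : HasLead x n a)
    (hi : i ∈ x.support) : n ≤ i := by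
  by_contra hlt
  exact hi (h.2 i (not_le.mp hlt))

theorem HasLead.ne_zero {x : LaurentSeries R} {n : ℤ} {a : R} (h : HasLead x n a)
    (ha : a ≠ 0) : x ≠ 0 := by
  rintro rfl
  exact ha (by rw [← h.1, HahnSeries.coeff_zero])

theorem HasLead.order_eq {x : LaurentSeries R} {n : ℤ} {a : R} (h : HasLead x n a)
    (ha : a ≠ 0) : x.order = n := by
  have hne : x.coeff n ≠ 0 := by rw [h.1]; exact ha
  refine le_antisymm (HahnSeries.order_le_of_coeff_ne_zero hne) ?_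
  by_contra hlt
  rw [not_le] at hlt
  exact h.ne_zero ha (HahnSeries.coeff_order_eq_zero.mp (h.2 _ hlt))

theorem HasLead.congr {x : LaurentSeries R} {n n' : ℤ} {a a' : R} (h : HasLead x n a)
    (hn : n = n') (ha : a = a') : HasLead x n' a' := by
  subst hn; subst ha; exact h

theorem hasLead_single (n : ℤ) (a : R) : HasLead (HahnSeries.single n a) n a :=
  ⟨HahnSeries.coeff_single_same n a, fun _ hm => HahnSeries.coeff_single_of_ne (ne_of_lt hm)⟩

theorem hasLead_C (a : R) : HasLead (HahnSeries.C a : LaurentSeries R) 0 a := by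
  rw [HahnSeries.C_apply]
  exact hasLead_single 0 a

theorem hasLead_one : HasLead (1 : LaurentSeries R) 0 1 := by
  have h := hasLead_C (1 : R)
  rwa [map_one] at h

theorem hasLead_ofPowerSeries (p : PowerSeries R) :
    HasLead (HahnSeries.ofPowerSeries ℤ R p) 0 (PowerSeries.constantCoeff p) := by
  refine ⟨?_, fun m hm => ofPowerSeries_coeff_of_neg p hm⟩
  rw [show (0 : ℤ) = ((0 : ℕ) : ℤ) from rfl, HahnSeries.ofPowerSeries_apply_coeff,
    PowerSeries.coeff_zero_eq_constantCoeff]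

theorem HasLead.mul {x y : LaurentSeries R} {n m : ℤ} {a b : R} (hx : HasLead x n a)
    (hy : HasLead y m b) : HasLead (x * y) (n + m) (a * b) := by
  constructor
  · rw [HahnSeries.coeff_mul, Finset.sum_eq_single (n, m)]
    · rw [hx.1, hy.1]
    · rintro ⟨i, j⟩ hij hne
      rw [Finset.mem_antidiagonal] at hij
      obtain ⟨hi, hj, hsum⟩ := hij
      have h1 := hx.le_of_mem_support hi
      have h2 := hy.le_of_mem_support hj
      simp only at hsum h1 h2
      exfalso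
      apply hne
      have hi' : i = n := by omega
      have hj' : j = m := by omega
      rw [hi', hj']
    · intro hnm
      rw [Finset.mem_antidiagonal] at hnm
      by_cases h1 : x.coeff n = 0
      · rw [h1, zero_mul]
      · by_cases h2 : y.coeff m = 0
        · rw [h2, mul_zero]
        · exact absurd ⟨h1, h2, rfl⟩ hnm
  · intro k hk
    rw [HahnSeries.coeff_mul]
    apply Finset.sum_eq_zero
    rintro ⟨i, j⟩ hij
    rw [Finset.mem_antidiagonal] at hij
    obtain ⟨hi, hj, hsum⟩ := hij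
    have h1 := hx.le_of_mem_support hi
    have h2 := hy.le_of_mem_support hj
    simp only at hsum h1 h2
    omega

theorem HasLead.pow {x : LaurentSeries R} {n : ℤ} {a : R} (hx : HasLead x n a) (r : ℕ) :
    HasLead (x ^ r) ((r : ℤ) * n) (a ^ r) := by
  induction r with
  | zero =>
    rw [pow_zero, pow_zero]
    exact hasLead_one.congr (by simp) rfl
  | succ r ih =>
    rw [pow_succ, pow_succ]
    exact (ih.mul hx).congr (by push_cast; ring) rfl

theorem HasLead.qExpand {x : LaurentSeries R} {n : ℤ} {a : R} (hx : HasLead x n a) (e : ℕ)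
    [NeZero e] : HasLead (qExpand R e x) ((e : ℤ) * n) a := by
  refine ⟨by rw [qExpand_coeff_mul]; exact hx.1, fun k hk => ?_⟩
  by_cases hdvd : (e : ℤ) ∣ k
  · obtain ⟨j, rfl⟩ := hdvd
    rw [qExpand_coeff_mul]
    refine hx.2 j ?_
    have he : (0 : ℤ) < (e : ℤ) := by exact_mod_cast Nat.pos_of_ne_zero (NeZero.ne e)
    exact lt_of_mul_lt_mul_left hk he.le
  · exact qExpand_coeff_of_not_dvd e x hdvd

theorem HasLead.scaleHom {x : LaurentSeries R} {n : ℤ} {a : R} (hx : HasLead x n a) (c : Rˣ) :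
    HasLead (scaleHom R c x) n (((c ^ n : Rˣ) : R) * a) := by
  refine ⟨by rw [scaleHom_coeff, hx.1], fun k hk => ?_⟩
  rw [scaleHom_coeff, hx.2 k hk, mul_zero]

theorem HasLead.cuspS {x : LaurentSeries R} {n : ℤ} {a : R} (hx : HasLead x n a) (ξ : Rˣ)
    (e : ℕ) [NeZero e] : HasLead (cuspS R ξ e x) ((e : ℤ) * n) (((ξ ^ n : Rˣ) : R) * a) :=
  (hx.scaleHom ξ).qExpand e

theorem HasLead.coeffMap {S : Type*} [CommRing S] {x : LaurentSeries R} {n : ℤ} {a : R}
    (hx : HasLead x n a) (f : R →+* S) : HasLead (coeffMap f x) n (f a) := by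
  refine ⟨by rw [coeffMap_coeff, hx.1], fun k hk => ?_⟩
  rw [coeffMap_coeff, hx.2 k hk, map_zero]

end HasLead

/-! ### Lowest terms of `Δ`, `Δ⁻¹`, `E₄`, `j` -/

section Basic

variable (R : Type*) [CommRing R]

theorem constantCoeff_map_intCast (p : PowerSeries ℤ) (hp : PowerSeries.constantCoeff p = 1) :
    PowerSeries.constantCoeff (p.map (Int.castRingHom R)) = 1 := by
  rw [← PowerSeries.coeff_zero_eq_constantCoeff, PowerSeries.coeff_map,
    PowerSeries.coeff_zero_eq_constantCoeff, hp, map_one]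

theorem hasLead_single_mul_ofPowerSeries (n : ℤ) (p : PowerSeries ℤ)
    (hp : PowerSeries.constantCoeff p = 1) :
    HasLead (HahnSeries.single n (1 : R) *
      HahnSeries.ofPowerSeries ℤ R (p.map (Int.castRingHom R))) n 1 := by
  have h := (hasLead_single n (1 : R)).mul
    (hasLead_ofPowerSeries (p.map (Int.castRingHom R)))
  rw [constantCoeff_map_intCast R p hp] at h
  exact h.congr (add_zero n) (one_mul 1)

theorem hasLead_deltaS : HasLead (deltaS R) 1 1 :=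
  hasLead_single_mul_ofPowerSeries R 1 _ constantCoeff_dedekindEtaUnit

theorem hasLead_deltaInvS : HasLead (deltaInvS R) (-1) 1 :=
  hasLead_single_mul_ofPowerSeries R (-1) _ constantCoeff_dedekindEtaUnitInv

theorem hasLead_e4S : HasLead (e4S R) 0 1 := by
  have h := hasLead_ofPowerSeries (eisenstein4.map (Int.castRingHom R))
  rwa [constantCoeff_map_intCast R _ constantCoeff_eisenstein4] at h

theorem hasLead_jqModC : HasLead (jqModC R) (-1) 1 :=
  hasLead_single_mul_ofPowerSeries R (-1) _ constantCoeff_jNum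

variable [Nontrivial R]

theorem order_deltaS : (deltaS R).order = 1 := (hasLead_deltaS R).order_eq one_ne_zero

theorem order_deltaInvS : (deltaInvS R).order = -1 := (hasLead_deltaInvS R).order_eq one_ne_zero

theorem order_e4S : (e4S R).order = 0 := (hasLead_e4S R).order_eq one_ne_zero

theorem order_jqModC : (jqModC R).order = -1 := (hasLead_jqModC R).order_eq one_ne_zero

theorem deltaS_ne_zero : deltaS R ≠ 0 := (hasLead_deltaS R).ne_zero one_ne_zero

theorem deltaInvS_ne_zero : deltaInvS R ≠ 0 := (hasLead_deltaInvS R).ne_zero one_ne_zero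

theorem e4S_ne_zero : e4S R ≠ 0 := (hasLead_e4S R).ne_zero one_ne_zero

theorem jqModC_ne_zero : jqModC R ≠ 0 := (hasLead_jqModC R).ne_zero one_ne_zero

end Basic

/-! ### Lowest terms of the cusp series of `CuspSeries.lean` -/

section CuspSeries

variable {R : Type*} [CommRing R]

theorem hasLead_cuspJ (ξ : Rˣ) (e : ℕ) [NeZero e] :
    HasLead (cuspJ R ξ e) (-(e : ℤ)) ((ξ⁻¹ : Rˣ) : R) := by
  have h := (hasLead_jqModC R).cuspS ξ e
  refine h.congr (by ring) ?_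
  rw [zpow_neg_one, mul_one]

theorem hasLead_cuspU (N : ℕ) [NeZero N] (ξ δ : Rˣ) (e : ℕ) [NeZero e] :
    HasLead (cuspU R N ξ δ e) ((e : ℤ) - N) ((((δ⁻¹ : Rˣ) : R) ^ 12) * ξ) := by
  have h := ((hasLead_C (((δ⁻¹ : Rˣ) : R) ^ 12)).mul ((hasLead_deltaS R).cuspS ξ e)).mul
    ((hasLead_deltaInvS R).qExpand N)
  refine h.congr (by ring) ?_
  rw [zpow_one, mul_one, mul_one]

theorem hasLead_cuspUInv (N : ℕ) [NeZero N] (ξ δ : Rˣ) (e : ℕ) [NeZero e] :
    HasLead (cuspUInv R N ξ δ e) ((N : ℤ) - e) (((δ : R) ^ 12) * ((ξ⁻¹ : Rˣ) : R)) := by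
  have h := ((hasLead_C ((δ : R) ^ 12)).mul ((hasLead_deltaInvS R).cuspS ξ e)).mul
    ((hasLead_deltaS R).qExpand N)
  refine h.congr (by ring) ?_
  rw [zpow_neg_one, mul_one, mul_one]

theorem isUnit_lead_cuspU (ξ δ : Rˣ) : IsUnit ((((δ⁻¹ : Rˣ) : R) ^ 12) * ξ) :=
  ((δ⁻¹).isUnit.pow 12).mul ξ.isUnit

theorem isUnit_lead_cuspUInv (ξ δ : Rˣ) : IsUnit (((δ : R) ^ 12) * ((ξ⁻¹ : Rˣ) : R)) :=
  (δ.isUnit.pow 12).mul ξ⁻¹.isUnit

variable [Nontrivial R]

theorem order_cuspJ (ξ : Rˣ) (e : ℕ) [NeZero e] : (cuspJ R ξ e).order = -(e : ℤ) :=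
  (hasLead_cuspJ ξ e).order_eq ξ⁻¹.isUnit.ne_zero

theorem order_cuspU (N : ℕ) [NeZero N] (ξ δ : Rˣ) (e : ℕ) [NeZero e] :
    (cuspU R N ξ δ e).order = (e : ℤ) - N :=
  (hasLead_cuspU N ξ δ e).order_eq (isUnit_lead_cuspU ξ δ).ne_zero

theorem order_cuspUInv (N : ℕ) [NeZero N] (ξ δ : Rˣ) (e : ℕ) [NeZero e] :
    (cuspUInv R N ξ δ e).order = (N : ℤ) - e :=
  (hasLead_cuspUInv N ξ δ e).order_eq (isUnit_lead_cuspUInv ξ δ).ne_zero

theorem cuspJ_ne_zero (ξ : Rˣ) (e : ℕ) [NeZero e] : cuspJ R ξ e ≠ 0 :=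
  (hasLead_cuspJ ξ e).ne_zero ξ⁻¹.isUnit.ne_zero

theorem cuspU_ne_zero (N : ℕ) [NeZero N] (ξ δ : Rˣ) (e : ℕ) [NeZero e] :
    cuspU R N ξ δ e ≠ 0 :=
  (hasLead_cuspU N ξ δ e).ne_zero (isUnit_lead_cuspU ξ δ).ne_zero

theorem cuspUInv_ne_zero (N : ℕ) [NeZero N] (ξ δ : Rˣ) (e : ℕ) [NeZero e] :
    cuspUInv R N ξ δ e ≠ 0 :=
  (hasLead_cuspUInv N ξ δ e).ne_zero (isUnit_lead_cuspUInv ξ δ).ne_zero

end CuspSeries

/-! ### Integrality and the orders of the reductions over a local ring -/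

section Local

variable (𝒪 k : Type*) [CommRing 𝒪] [Field k] [Algebra 𝒪 k]

theorem coeffMap_algebraMap_mem_intSeries (t : LaurentSeries 𝒪) :
    coeffMap (algebraMap 𝒪 k) t ∈ intSeries 𝒪 k := ⟨t, rfl⟩

variable {𝒪 k}

theorem mem_intSeries_iff {x : LaurentSeries k} :
    x ∈ intSeries 𝒪 k ↔ ∃ t : LaurentSeries 𝒪, coeffMap (algebraMap 𝒪 k) t = x := Iff.rfl

/-- the image in `k` of a unit of `𝒪` -/
abbrev unitK (u : 𝒪ˣ) : kˣ := Units.map (algebraMap 𝒪 k : 𝒪 →* k) u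

/-- the cusp series with integral parameters are integral -/
theorem cuspJ_mem_intSeries (ξ : 𝒪ˣ) (e : ℕ) [NeZero e] :
    cuspJ k (unitK ξ) e ∈ intSeries 𝒪 k :=
  ⟨cuspJ 𝒪 ξ e, coeffMap_cuspJ _ ξ e⟩

theorem cuspU_mem_intSeries (N : ℕ) [NeZero N] (ξ δ : 𝒪ˣ) (e : ℕ) [NeZero e] :
    cuspU k N (unitK ξ) (unitK δ) e ∈ intSeries 𝒪 k :=
  ⟨cuspU 𝒪 N ξ δ e, coeffMap_cuspU _ N ξ δ e⟩

theorem cuspUInv_mem_intSeries (N : ℕ) [NeZero N] (ξ δ : 𝒪ˣ) (e : ℕ) [NeZero e] :
    cuspUInv k N (unitK ξ) (unitK δ) e ∈ intSeries 𝒪 k :=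
  ⟨cuspUInv 𝒪 N ξ δ e, coeffMap_cuspUInv _ N ξ δ e⟩

theorem cuspGen_mem_intSeries (N : ℕ) [NeZero N] (ξ δ : 𝒪ˣ) (e : ℕ) [NeZero e] (t : Fin 3) :
    cuspGen k N (unitK ξ) (unitK δ) e t ∈ intSeries 𝒪 k :=
  ⟨cuspGen 𝒪 N ξ δ e t, coeffMap_cuspGen _ N ξ δ e t⟩

/-- versions for units of `k` known to come from units of `𝒪` -/
theorem cuspGen_mem_intSeries' (N : ℕ) [NeZero N] {ξ δ : 𝒪ˣ} {ξk δk : kˣ}
    (hξ : (ξk : k) = algebraMap 𝒪 k ξ) (hδ : (δk : k) = algebraMap 𝒪 k δ) (e : ℕ) [NeZero e]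
    (t : Fin 3) : cuspGen k N ξk δk e t ∈ intSeries 𝒪 k := by
  have h1 : ξk = unitK ξ := Units.ext hξ
  have h2 : δk = unitK δ := Units.ext hδ
  rw [h1, h2]
  exact cuspGen_mem_intSeries N ξ δ e t

variable [IsLocalRing 𝒪]

theorem residue_ne_zero_of_isUnit {a : 𝒪} (ha : IsUnit a) : IsLocalRing.residue 𝒪 a ≠ 0 := by
  intro h
  exact (IsLocalRing.mem_maximalIdeal a).mp ((IsLocalRing.residue_eq_zero_iff a).mp h) ha

/-- **Order of the reduction of the expansion of `u_d ∘ γ`** (`= CuspInput.ord_u` for the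
explicit series): the integral model of `cuspU` has nonzero reduction of order `e - N`. -/
theorem exists_int_cuspU (N : ℕ) [NeZero N] (ξ δ : 𝒪ˣ) (e : ℕ) [NeZero e] :
    ∃ t : LaurentSeries 𝒪,
      coeffMap (algebraMap 𝒪 k) t = cuspU k N (unitK ξ) (unitK δ) e ∧
      coeffMap (IsLocalRing.residue 𝒪) t ≠ 0 ∧
      (coeffMap (IsLocalRing.residue 𝒪) t).order = (e : ℤ) - N := by
  refine ⟨cuspU 𝒪 N ξ δ e, coeffMap_cuspU _ N ξ δ e, ?_, ?_⟩
  · exact ((hasLead_cuspU N ξ δ e).coeffMap _).ne_zero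
      (residue_ne_zero_of_isUnit (isUnit_lead_cuspU ξ δ))
  · exact ((hasLead_cuspU N ξ δ e).coeffMap _).order_eq
      (residue_ne_zero_of_isUnit (isUnit_lead_cuspU ξ δ))

theorem exists_int_cuspU' (N : ℕ) [NeZero N] {ξ δ : 𝒪ˣ} {ξk δk : kˣ}
    (hξ : (ξk : k) = algebraMap 𝒪 k ξ) (hδ : (δk : k) = algebraMap 𝒪 k δ) (e : ℕ) [NeZero e] :
    ∃ t : LaurentSeries 𝒪,
      coeffMap (algebraMap 𝒪 k) t = cuspU k N ξk δk e ∧
      coeffMap (IsLocalRing.residue 𝒪) t ≠ 0 ∧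
      (coeffMap (IsLocalRing.residue 𝒪) t).order = (e : ℤ) - N := by
  have h1 : ξk = unitK ξ := Units.ext hξ
  have h2 : δk = unitK δ := Units.ext hδ
  rw [h1, h2]
  exact exists_int_cuspU N ξ δ e

/-- **Order of the reduction of the expansion of `u_d⁻¹ ∘ γ`.** -/
theorem exists_int_cuspUInv (N : ℕ) [NeZero N] (ξ δ : 𝒪ˣ) (e : ℕ) [NeZero e] :
    ∃ t : LaurentSeries 𝒪,
      coeffMap (algebraMap 𝒪 k) t = cuspUInv k N (unitK ξ) (unitK δ) e ∧
      coeffMap (IsLocalRing.residue 𝒪) t ≠ 0 ∧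
      (coeffMap (IsLocalRing.residue 𝒪) t).order = (N : ℤ) - e := by
  refine ⟨cuspUInv 𝒪 N ξ δ e, coeffMap_cuspUInv _ N ξ δ e, ?_, ?_⟩
  · exact ((hasLead_cuspUInv N ξ δ e).coeffMap _).ne_zero
      (residue_ne_zero_of_isUnit (isUnit_lead_cuspUInv ξ δ))
  · exact ((hasLead_cuspUInv N ξ δ e).coeffMap _).order_eq
      (residue_ne_zero_of_isUnit (isUnit_lead_cuspUInv ξ δ))

/-- **Order of the reduction of the expansion of `j(d γ z)`.** -/
theorem exists_int_cuspJ (ξ : 𝒪ˣ) (e : ℕ) [NeZero e] :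
    ∃ t : LaurentSeries 𝒪,
      coeffMap (algebraMap 𝒪 k) t = cuspJ k (unitK ξ) e ∧
      coeffMap (IsLocalRing.residue 𝒪) t ≠ 0 ∧
      (coeffMap (IsLocalRing.residue 𝒪) t).order = -(e : ℤ) := by
  refine ⟨cuspJ 𝒪 ξ e, coeffMap_cuspJ _ ξ e, ?_, ?_⟩
  · exact ((hasLead_cuspJ ξ e).coeffMap _).ne_zero (residue_ne_zero_of_isUnit ξ⁻¹.isUnit)
  · exact ((hasLead_cuspJ ξ e).coeffMap _).order_eq (residue_ne_zero_of_isUnit ξ⁻¹.isUnit)

/-- the arithmetic of the exponent: with `e = (N / d) · gcd(cI, d)²` the order `e - N` is the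
one demanded by `CuspInput.ord_u` / `CuspDatum.ord_u` -/
theorem ord_u_arith (N d cI e : ℕ) (he : e = N / d * Nat.gcd cI d ^ 2) :
    ((e : ℤ) - N) = ((N / d : ℕ) * (Nat.gcd cI d) ^ 2 : ℤ) - N := by
  rw [he]; push_cast; ring

/-- `gcd(gcd(c, N), d) = gcd(c, d)` for `d ∣ N` (so `cI = gcd(c, N)` may be used in `ord_u`) -/
theorem gcd_gcd_of_dvd {c N d : ℕ} (hd : d ∣ N) : Nat.gcd (Nat.gcd c N) d = Nat.gcd c d := by
  rw [Nat.gcd_assoc, Nat.gcd_eq_right hd]

/-- **`CuspInput.ord_u` in final shape** for the explicit series: if `e = (N / d) · gcd(cI, d)²`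
then `cuspU k N ξ δ e` has an integral model with nonzero reduction of the order demanded by
`CuspInput.ord_u`. -/
theorem exists_int_cuspU_ord (N : ℕ) [NeZero N] (d cI : ℕ) {ξ δ : 𝒪ˣ} {ξk δk : kˣ}
    (hξ : (ξk : k) = algebraMap 𝒪 k ξ) (hδ : (δk : k) = algebraMap 𝒪 k δ) (e : ℕ) [NeZero e]
    (he : e = N / d * Nat.gcd cI d ^ 2) :
    ∃ t : LaurentSeries 𝒪,
      coeffMap (algebraMap 𝒪 k) t = cuspU k N ξk δk e ∧
      coeffMap (IsLocalRing.residue 𝒪) t ≠ 0 ∧
      (coeffMap (IsLocalRing.residue 𝒪) t).order =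
        ((N / d : ℕ) * (Nat.gcd cI d) ^ 2 : ℤ) - N := by
  obtain ⟨t, h1, h2, h3⟩ := exists_int_cuspU' (k := k) N hξ hδ e
  exact ⟨t, h1, h2, h3.trans (ord_u_arith N d cI e he)⟩

end Local

end Fermat.Agent.S28
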