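import Fermat.Agent.S28.CuspCore2

set_option autoImplicit false
set_option linter.unusedSectionVars false

noncomputable section

namespace Fermat.Agent.S28

open Polynomial ModularCurve

section Final

variable {k : Type} [Field k] {N : ℕ} [NeZero N] {O : Type} [CommRing O] [IsDomain O]
  [IsDiscreteValuationRing O] [Algebra O k] [IsFractionRing O k]

local instance (priority := 2000) bigFieldModule87' : Module k (bigField k N) := Algebra.toModule

theorem ne_zero_of_evalκ_injective {κ : Type*} [Field κ] {g : LaurentSeries κ}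
    (h : Function.Injective (evalκ g)) : g ≠ 0 := by
  rintro rfl
  have h2 : evalκ (0 : LaurentSeries κ) Polynomial.X = evalκ (0 : LaurentSeries κ) 0 := by
    simp [evalκ]
  exact Polynomial.X_ne_zero (h h2)

theorem qExpand_jqModC_ne_zero (κ : Type*) [Field κ] (M : ℕ) [NeZero M] :
    qExpand κ M (jqModC κ) ≠ 0 :=
  ne_zero_of_evalκ_injective (evalκ_qExpand_jqModC_injective κ M)

/-- the chart hypotheses for the finite chart -/
theorem CuspDatum.chartHypFin (D : CuspDatum k N O) :
    ChartHyp (O := O) D.σ (jEl k N) (qExpand k N (jqModC k)) where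
  map_G := D.σ_j
  mem := qExpand_jqModC_mem_gaussRing O k N
  inj_k := evalκ_qExpand_jqModC_injective k N
  inj_κ := by
    rw [gaussRed_qExpand_jqModC O k N]
    exact evalκ_qExpand_jqModC_injective _ N
  field := D.sigma_mem_gaussField
  symrat := D.symrat

theorem qExpand_jqModC_inv_mem_gaussRing :
    (qExpand k N (jqModC k))⁻¹ ∈ gaussRing O k := by
  refine inv_mem_gaussRing (qExpand_jqModC_mem_gaussRing O k N) ?_
  rw [gaussRed_qExpand_jqModC O k N]
  exact qExpand_jqModC_ne_zero _ N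

/-- the chart hypotheses for the chart at infinity -/
theorem CuspDatum.chartHypInf (D : CuspDatum k N O) :
    ChartHyp (O := O) D.σ (jEl k N)⁻¹ (qExpand k N (jqModC k))⁻¹ where
  map_G := fun i => by rw [map_inv₀]; congr 1; exact D.σ_j i
  mem := qExpand_jqModC_inv_mem_gaussRing
  inj_k := evalκ_inv_injective (evalκ_qExpand_jqModC_injective k N)
  inj_κ := by
    rw [gaussRed_inv O k (qExpand_jqModC_mem_gaussRing O k N) _ (qExpand_jqModC_ne_zero k N),
      gaussRed_qExpand_jqModC O k N]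
    exact evalκ_inv_injective (evalκ_qExpand_jqModC_injective _ N)
  field := D.sigma_mem_gaussField
  symrat := fun x m => symrat_inv_of_symrat (qExpand_jqModC_ne_zero k N) (D.symrat x m)

/-- elements of `bigAlg` are integral over `k[j]` -/
theorem CuspDatum.isIntegralElem_evalEk_of_mem (D : CuspDatum k N O) (y : bigField k N)
    (hy : y ∈ bigAlgSub k N) : (evalEk k (jEl k N)).IsIntegralElem y := by
  have hmonic : (∏ i, (Polynomial.X - Polynomial.C (D.σ i y))).Monic :=
    Polynomial.monic_prod_of_monic _ _ fun i _ => Polynomial.monic_X_sub_C _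
  have h1 : (evalLk (qExpand k N (jqModC k))).IsIntegralElem (D.σ D.i₀ y) := by
    refine CoreAlg.isIntegralElem_of_monic_of_coeff_mem_range _ _ hmonic
      (fun m => D.sym_range y hy m) ?_
    rw [Polynomial.eval_prod]
    exact Finset.prod_eq_zero (Finset.mem_univ D.i₀) (by simp)
  rw [← D.sigma_comp_evalEk_jEl D.i₀] at h1
  exact h1.of_map (D.σ D.i₀ : bigField k N →+* LaurentSeries k).injective

theorem CuspDatum.hunits (D : CuspDatum k N O) :
    ∀ d ∈ N.divisors, ∃ u : (intSubring (evalE O k (jEl k N)))ˣ, ∀ i,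
      (D.chartHypFin.rho i (u : intSubring (evalE O k (jEl k N)))).order =
        ((N / d : ℕ) : ℤ) * ((Nat.gcd (D.cI i) d : ℕ) : ℤ) ^ 2 - (N : ℤ) := by
  intro d hd
  have hdN : d ∣ N := Nat.dvd_of_mem_divisors hd
  have hd0 : d ≠ 0 := by
    rintro rfl
    exact NeZero.ne N (Nat.eq_zero_of_zero_dvd hdN)
  have : NeZero d := ⟨hd0⟩
  set uEl : bigField k N := ⟨uS k d, uS_mem_bigField k N hdN⟩ with huEl
  set vEl : bigField k N := ⟨uInvS k d, uInvS_mem_bigField k N hdN⟩ with hvEl
  have huG : (uEl : LaurentSeries k) ∈ bigGens k N := ⟨d, inferInstance, hdN, Or.inr (Or.inl rfl)⟩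
  have hvG : (vEl : LaurentSeries k) ∈ bigGens k N := ⟨d, inferInstance, hdN, Or.inr (Or.inr rfl)⟩
  have hu : (evalE O k (jEl k N)).IsIntegralElem uEl :=
    D.chartHypFin.isIntegralElem_of_forall_mem D.i₀
      (D.isIntegralElem_evalEk_of_mem uEl (Algebra.subset_adjoin huG))
      (fun i => intSeries_le_gaussRing (D.σ_int i uEl huG))
  have hv : (evalE O k (jEl k N)).IsIntegralElem vEl :=
    D.chartHypFin.isIntegralElem_of_forall_mem D.i₀
      (D.isIntegralElem_evalEk_of_mem vEl (Algebra.subset_adjoin hvG))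
      (fun i => intSeries_le_gaussRing (D.σ_int i vEl hvG))
  have huv : uEl * vEl = 1 := Subtype.ext (uS_mul_uInvS k d)
  refine ⟨⟨⟨uEl, hu⟩, ⟨vEl, hv⟩, Subtype.ext huv, Subtype.ext (by rw [mul_comm] at huv; exact huv)⟩,
    fun i => ?_⟩
  obtain ⟨s, hs, hs0, hord⟩ := D.ord_u i d hdN
  have h1 : D.chartHypFin.rho i ⟨uEl, hu⟩ = serRed O s := by
    rw [ChartHyp.rho_apply]
    have : (⟨D.σ i uEl, D.chartHypFin.sigma_mem_gaussRing hu i⟩ : gaussRing O k) =
        ⟨serEmb O k s, serEmb_mem_gaussRing s⟩ := Subtype.ext hs.symm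
    rw [this, gaussRed_serEmb]
  show (D.chartHypFin.rho i ⟨uEl, hu⟩).order = _
  rw [h1]
  have h2 : (serRed O s).order = ((N : ℤ) / (d : ℤ)) * ((Nat.gcd (D.cI i) d : ℕ) : ℤ) ^ 2 - N :=
    hord
  rw [h2, Int.natCast_div]

theorem qExpand_mem_gaussRing {v : LaurentSeries k} (hv : v ∈ gaussRing O k) :
    qExpand k N v ∈ gaussRing O k := by
  obtain ⟨g, h, hh, hvgh⟩ := mem_gaussRing_iff.mp hv
  refine ⟨qExpand O N g, qExpand O N h, ?_, ?_⟩
  · rw [serRed, coeffMap_qExpand]
    intro h0
    apply hh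
    apply qExpand_injective (R := IsLocalRing.ResidueField O) N
    rw [map_zero]
    exact h0
  · rw [serEmb, coeffMap_qExpand, coeffMap_qExpand, ← map_mul]
    congr 1

theorem algebraMap_comp_evalE (G : bigField k N) :
    (algebraMap (bigField k N) (LaurentSeries k)).comp (evalE O k G) =
      evalL O (G : LaurentSeries k) := by
  apply Polynomial.ringHom_ext
  · intro a
    simp [evalE, evalL, algebraMap_eq_C]
  · simp [evalE, evalL]

/-- integrality of an element of the big field over `O[g]`, in terms of `evalE` -/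
theorem isIntegral_adjoin_coe_iff (G x : bigField k N) :
    IsIntegral (Algebra.adjoin O {(G : LaurentSeries k)}) (x : LaurentSeries k) ↔
      (evalE O k G).IsIntegralElem x := by
  rw [isIntegral_adjoin_iff, ← algebraMap_comp_evalE]
  exact RingHom.IsIntegralElem.map_iff
    (f := evalE O k G) (g := algebraMap (bigField k N) (LaurentSeries k))
    (algebraMap (bigField k N) (LaurentSeries k)).injective

theorem CuspDatum.sigma_i₀_dvd (D : CuspDatum k N O) {ϖ : O} (x : bigField k N)
    (hred : ∃ v ∈ gaussRing O k, (x : LaurentSeries k) = HahnSeries.C (algebraMap O k ϖ) * v) :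
    ∃ v ∈ gaussRing O k, D.σ D.i₀ x = HahnSeries.C (algebraMap O k ϖ) * v := by
  obtain ⟨v, hv, hxv⟩ := hred
  refine ⟨qExpand k N v, qExpand_mem_gaussRing hv, ?_⟩
  rw [D.σ_i₀, hxv, map_mul, qExpand_C]

/-- **Core, finite chart**: an element of the big field, integral over `O[j]`, whose `q`-expansion
is divisible by the uniformizer in the Gauss ring, stays integral after division by the
uniformizer. -/
theorem CuspDatum.coreFin (D : CuspDatum k N O) {ϖ : O} (hϖ : Irreducible ϖ)
    (x : LaurentSeries k) (hx : x ∈ bigField k N)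
    (hint : IsIntegral (Algebra.adjoin O {jqModC k}) x)
    (hred : ∃ v ∈ gaussRing O k, x = HahnSeries.C (algebraMap O k ϖ) * v) :
    IsIntegral (Algebra.adjoin O {jqModC k}) (HahnSeries.C (algebraMap O k ϖ)⁻¹ * x) := by
  have ha : (evalE O k (jEl k N)).IsIntegralElem (⟨x, hx⟩ : bigField k N) :=
    (isIntegral_adjoin_coe_iff (jEl k N) ⟨x, hx⟩).mp hint
  have hmain := D.chartHypFin.coreFin N (NeZero.ne N) D.cI D.cI_dvd D.i₀ D.cI_eq_iff D.hunits hϖ ha
    (D.sigma_i₀_dvd ⟨x, hx⟩ hred)
  have hout := (isIntegral_adjoin_coe_iff (jEl k N) _).mpr hmain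
  have hcoe : ((algebraMap k (bigField k N) (algebraMap O k ϖ)⁻¹ * (⟨x, hx⟩ : bigField k N) :
      bigField k N) : LaurentSeries k) = HahnSeries.C (algebraMap O k ϖ)⁻¹ * x := by
    rw [MulMemClass.coe_mul, IntermediateField.coe_algebraMap_apply, algebraMap_eq_C]
  rw [hcoe] at hout
  exact hout

/-- **Core, chart at infinity.** -/
theorem CuspDatum.coreInf (D : CuspDatum k N O) {ϖ : O} (hϖ : Irreducible ϖ)
    (x : LaurentSeries k) (hx : x ∈ bigField k N)
    (hint : IsIntegral (Algebra.adjoin O {(jqModC k)⁻¹}) x)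
    (hred : ∃ v ∈ gaussRing O k, x = HahnSeries.C (algebraMap O k ϖ) * v) :
    IsIntegral (Algebra.adjoin O {(jqModC k)⁻¹}) (HahnSeries.C (algebraMap O k ϖ)⁻¹ * x) := by
  have hG : (((jEl k N)⁻¹ : bigField k N) : LaurentSeries k) = (jqModC k)⁻¹ := rfl
  have ha : (evalE O k (jEl k N)⁻¹).IsIntegralElem (⟨x, hx⟩ : bigField k N) := by
    apply (isIntegral_adjoin_coe_iff (jEl k N)⁻¹ ⟨x, hx⟩).mp
    rw [hG]
    exact hint
  have hmain := D.chartHypFin.coreInf D.chartHypInf N (NeZero.ne N) D.cI D.cI_dvd D.i₀ D.cI_eq_iff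
    D.hunits hϖ ha (D.sigma_i₀_dvd ⟨x, hx⟩ hred)
  have hout := (isIntegral_adjoin_coe_iff (jEl k N)⁻¹ _).mpr hmain
  have hcoe : ((algebraMap k (bigField k N) (algebraMap O k ϖ)⁻¹ * (⟨x, hx⟩ : bigField k N) :
      bigField k N) : LaurentSeries k) = HahnSeries.C (algebraMap O k ϖ)⁻¹ * x := by
    rw [MulMemClass.coe_mul, IntermediateField.coe_algebraMap_apply, algebraMap_eq_C]
  rw [hcoe, hG] at hout
  exact hout

end Final

end Fermat.Agent.S28
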