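import Mathlib
import Fermat.Agent.S28.Defs

set_option autoImplicit false
set_option linter.unusedSectionVars false
noncomputable section
namespace Fermat.Agent.S28
open NumberField

section CycK
variable (N : ℕ) [NeZero N]

/-- `ζ_N = exp(2πi/N)` as a complex number -/
def zetaC : ℂ := Complex.exp (2 * Real.pi * Complex.I / N)

theorem zetaC_isPrimitiveRoot : IsPrimitiveRoot (zetaC N) N :=
  Complex.isPrimitiveRoot_exp N (NeZero.ne N)

/-- `k = ℚ(ζ_N)` as a subfield of `ℂ` -/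
def cycK : IntermediateField ℚ ℂ := IntermediateField.adjoin ℚ {zetaC N}

/-- `ζ_N` as an element of `k` -/
def zetaK : cycK N := ⟨zetaC N, IntermediateField.mem_adjoin_simple_self ℚ (zetaC N)⟩

@[simp] theorem coe_zetaK : ((zetaK N : cycK N) : ℂ) = zetaC N := rfl

theorem zetaK_isPrimitiveRoot : IsPrimitiveRoot (zetaK N) N :=
  IsPrimitiveRoot.of_map_of_injective (f := algebraMap (cycK N) ℂ)
    (by simpa using zetaC_isPrimitiveRoot N) (algebraMap (cycK N) ℂ).injective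

instance cycK_isCyclotomicExtension : IsCyclotomicExtension {N} ℚ (cycK N) :=
  (IntermediateField.isCyclotomicExtension_singleton_iff_eq_adjoin N ℚ ℂ (cycK N)
    (zetaC_isPrimitiveRoot N)).mpr rfl

instance cycK_numberField : NumberField (cycK N) :=
  IsCyclotomicExtension.numberField {N} ℚ (cycK N)

end CycK

section CycO
variable (N : ℕ) [NeZero N] (ℓ : ℕ) [Fact ℓ.Prime]

theorem exists_cycP : ∃ Q : Ideal (𝓞 (cycK N)), Q.IsMaximal ∧ Q.LiesOver (Ideal.span {(ℓ : ℤ)}) :=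
  haveI := Int.ideal_span_isMaximal_of_prime ℓ
  Ideal.exists_maximal_ideal_liesOver_of_isIntegral (Ideal.span {(ℓ : ℤ)})

/-- a prime of the ring of integers of `k` over `ℓ` -/
def cycP : Ideal (𝓞 (cycK N)) := (exists_cycP N ℓ).choose

instance cycP_isMaximal : (cycP N ℓ).IsMaximal := (exists_cycP N ℓ).choose_spec.1

instance cycP_liesOver : (cycP N ℓ).LiesOver (Ideal.span {(ℓ : ℤ)}) :=
  (exists_cycP N ℓ).choose_spec.2

theorem span_ell_ne_bot : (Ideal.span {(ℓ : ℤ)}) ≠ ⊥ := by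
  rw [Ne, Ideal.span_singleton_eq_bot]
  exact_mod_cast (Fact.out : ℓ.Prime).ne_zero

theorem cycP_ne_bot : cycP N ℓ ≠ ⊥ :=
  Ideal.ne_bot_of_liesOver_of_ne_bot (span_ell_ne_bot ℓ) (cycP N ℓ)

theorem intCast_mem_cycP_iff (n : ℤ) : (n : 𝓞 (cycK N)) ∈ cycP N ℓ ↔ (ℓ : ℤ) ∣ n := by
  have h := (cycP_liesOver N ℓ).over
  have h2 : (n ∈ Ideal.span {(ℓ : ℤ)}) ↔ (n ∈ Ideal.under ℤ (cycP N ℓ)) := by rw [← h]
  rw [Ideal.mem_span_singleton, Ideal.under_def, Ideal.mem_comap] at h2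
  rw [h2]
  simp

theorem natCast_mem_cycP_iff (n : ℕ) : (n : 𝓞 (cycK N)) ∈ cycP N ℓ ↔ ℓ ∣ n := by
  have := intCast_mem_cycP_iff N ℓ (n : ℤ)
  rw [Int.natCast_dvd_natCast] at this
  rw [← this]; simp

/-- the localization of the ring of integers of `k` at `cycP`, as a subalgebra of `k` -/
def cycO : Subalgebra (𝓞 (cycK N)) (cycK N) :=
  Localization.subalgebra.ofField (cycK N) (cycP N ℓ).primeCompl
    (Ideal.primeCompl_le_nonZeroDivisors _)

theorem mem_cycO_iff (x : cycK N) : x ∈ cycO N ℓ ↔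
    ∃ a s : 𝓞 (cycK N), s ∉ cycP N ℓ ∧ x = (a : cycK N) * ((s : cycK N))⁻¹ := by
  constructor
  · rintro ⟨a, s, hs, rfl⟩
    exact ⟨a, s, hs, rfl⟩
  · rintro ⟨a, s, hs, rfl⟩
    exact ⟨a, s, hs, rfl⟩

instance cycO_isLocalization : IsLocalization.AtPrime (cycO N ℓ) (cycP N ℓ) :=
  Localization.subalgebra.isLocalization_ofField (cycK N) (cycP N ℓ).primeCompl _

instance cycO_isDVR : IsDiscreteValuationRing (cycO N ℓ) :=
  IsLocalization.AtPrime.isDiscreteValuationRing_of_dedekind_domain (𝓞 (cycK N))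
    (cycP_ne_bot N ℓ) (cycO N ℓ)

theorem coe_mem_cycO (a : 𝓞 (cycK N)) : (a : cycK N) ∈ cycO N ℓ :=
  (cycO N ℓ).algebraMap_mem a

theorem inv_coe_mem_cycO {s : 𝓞 (cycK N)} (hs : s ∉ cycP N ℓ) : ((s : cycK N))⁻¹ ∈ cycO N ℓ :=
  (mem_cycO_iff N ℓ _).mpr ⟨1, s, hs, by simp⟩

theorem intCast_mem_cycO (n : ℤ) : (n : cycK N) ∈ cycO N ℓ := intCast_mem _ n

theorem natCast_mem_cycO (n : ℕ) : (n : cycK N) ∈ cycO N ℓ := natCast_mem _ n

theorem inv_natCast_mem_cycO {d : ℕ} (hd : ¬ ℓ ∣ d) : ((d : cycK N))⁻¹ ∈ cycO N ℓ := by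
  have := inv_coe_mem_cycO N ℓ (s := (d : 𝓞 (cycK N))) (by rwa [natCast_mem_cycP_iff])
  simpa using this

theorem zetaK_isIntegral : IsIntegral ℤ (zetaK N) :=
  (zetaK_isPrimitiveRoot N).isIntegral (NeZero.pos N)

/-- `ζ_N` as an algebraic integer -/
def zetaInt : 𝓞 (cycK N) := ⟨zetaK N, zetaK_isIntegral N⟩

theorem zetaK_mem_cycO : zetaK N ∈ cycO N ℓ := coe_mem_cycO N ℓ (zetaInt N)

theorem zetaK_inv_mem_cycO : (zetaK N)⁻¹ ∈ cycO N ℓ := by
  have h : (zetaK N) ^ (N - 1) = (zetaK N)⁻¹ := by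
    have h1 : (zetaK N) ^ N = 1 := (zetaK_isPrimitiveRoot N).pow_eq_one
    refine eq_inv_of_mul_eq_one_left ?_
    rw [← pow_succ, Nat.sub_add_cancel (NeZero.pos N), h1]
  rw [← h]
  exact pow_mem (zetaK_mem_cycO N ℓ) _

/-- `ℓ` generates the maximal ideal of `cycO N ℓ` when `ℓ ∤ N` (unramifiedness). -/
theorem maximalIdeal_cycO (hℓN : ¬ ℓ ∣ N) :
    IsLocalRing.maximalIdeal (cycO N ℓ) = Ideal.span {((ℓ : ℕ) : cycO N ℓ)} := by
  have he : (cycP N ℓ).ramificationIdx ℤ = 1 :=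
    IsCyclotomicExtension.Rat.ramificationIdx_eq_of_not_dvd ℓ (cycK N) (cycP N ℓ) hℓN
  have hmap : Ideal.map (algebraMap ℤ (𝓞 (cycK N))) (Ideal.span {(ℓ : ℤ)}) =
      Ideal.span {((ℓ : ℕ) : 𝓞 (cycK N))} := by
    rw [Ideal.map_span, Set.image_singleton]; simp
  have hne : Ideal.map (algebraMap ℤ (𝓞 (cycK N))) (Ideal.span {(ℓ : ℤ)}) ≠ ⊥ := by
    rw [hmap, Ne, Ideal.span_singleton_eq_bot]
    exact_mod_cast (Fact.out : ℓ.Prime).ne_zero
  rw [Ideal.IsDedekindDomain.ramificationIdx_eq_normalizedFactors_count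
    (Ideal.span {(ℓ : ℤ)}) (cycP N ℓ) hne] at he
  obtain ⟨Q, hQ, h⟩ := Ideal.eq_prime_pow_mul_coprime hne (cycP N ℓ)
  rw [he, pow_one, hmap] at h
  have hQ' : ¬ Q ≤ cycP N ℓ := by
    intro hle
    rw [sup_of_le_left hle] at hQ
    exact (cycP_isMaximal N ℓ).ne_top hQ
  have := congrArg (Ideal.map (algebraMap (𝓞 (cycK N)) (cycO N ℓ))) h
  rw [Ideal.map_mul, IsLocalization.AtPrime.map_eq_top_of_not_le (cycO N ℓ) hQ', Ideal.mul_top,
    IsLocalization.AtPrime.map_eq_maximalIdeal (cycP N ℓ) (cycO N ℓ), Ideal.map_span,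
    Set.image_singleton] at this
  rw [← this]
  simp

theorem irreducible_ell_cycO (hℓN : ¬ ℓ ∣ N) : Irreducible ((ℓ : ℕ) : cycO N ℓ) :=
  (IsDiscreteValuationRing.irreducible_iff_uniformizer _).mpr (maximalIdeal_cycO N ℓ hℓN)

/-- `ℓ` lies in the maximal ideal of `cycO N ℓ` (no hypothesis on `N`). -/
theorem ell_mem_maximalIdeal_cycO :
    ((ℓ : ℕ) : cycO N ℓ) ∈ IsLocalRing.maximalIdeal (cycO N ℓ) := by
  rw [← IsLocalization.AtPrime.map_eq_maximalIdeal (cycP N ℓ) (cycO N ℓ)]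
  have : ((ℓ : ℕ) : cycO N ℓ) = algebraMap (𝓞 (cycK N)) (cycO N ℓ) ((ℓ : ℕ) : 𝓞 (cycK N)) := by
    simp
  rw [this]
  exact Ideal.mem_map_of_mem _ ((natCast_mem_cycP_iff N ℓ ℓ).mpr dvd_rfl)

theorem intCast_mem_maximalIdeal_cycO_iff (n : ℤ) :
    ((n : ℤ) : cycO N ℓ) ∈ IsLocalRing.maximalIdeal (cycO N ℓ) ↔ (ℓ : ℤ) ∣ n := by
  have h := IsLocalization.AtPrime.to_map_mem_maximal_iff (cycO N ℓ) (cycP N ℓ)
    ((n : ℤ) : 𝓞 (cycK N))
  rw [intCast_mem_cycP_iff] at h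
  rw [← h]
  simp

theorem natCast_mem_maximalIdeal_cycO_iff (n : ℕ) :
    ((n : ℕ) : cycO N ℓ) ∈ IsLocalRing.maximalIdeal (cycO N ℓ) ↔ ℓ ∣ n := by
  have := intCast_mem_maximalIdeal_cycO_iff N ℓ (n : ℤ)
  rw [Int.natCast_dvd_natCast] at this
  rw [← this]; simp

theorem isUnit_natCast_cycO {d : ℕ} (hd : ¬ ℓ ∣ d) : IsUnit ((d : ℕ) : cycO N ℓ) := by
  by_contra h
  exact hd ((natCast_mem_maximalIdeal_cycO_iff N ℓ d).mp ((IsLocalRing.mem_maximalIdeal _).mpr h))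

theorem rat_mem_cycO_iff (q : ℚ) : algebraMap ℚ (cycK N) q ∈ cycO N ℓ ↔
    q ∈ GaloisRep.ratLocalizedAt ℓ := by
  have hq : algebraMap ℚ (cycK N) q = (q.num : cycK N) * ((q.den : cycK N))⁻¹ := by
    conv_lhs => rw [← Rat.num_div_den q]
    simp [div_eq_mul_inv]
  constructor
  · intro hmem
    show q.den.Coprime ℓ
    by_contra hcop
    have hdvd : ℓ ∣ q.den := by
      have := (Nat.Prime.coprime_iff_not_dvd (Fact.out : ℓ.Prime)).not.mp
        (fun h => hcop h.symm)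
      simpa using this
    -- work in `cycO`
    set x : cycO N ℓ := ⟨algebraMap ℚ (cycK N) q, hmem⟩ with hx
    have hden : ((q.den : ℕ) : cycO N ℓ) ∈ IsLocalRing.maximalIdeal (cycO N ℓ) :=
      (natCast_mem_maximalIdeal_cycO_iff N ℓ q.den).mpr hdvd
    have hnum : ((q.num : ℤ) : cycO N ℓ) = x * ((q.den : ℕ) : cycO N ℓ) := by
      apply Subtype.ext
      have hden0 : ((q.den : ℕ) : cycK N) ≠ 0 := by exact_mod_cast q.den_ne_zero
      push_cast [hx, hq]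
      field_simp
    have hnum' : ((q.num : ℤ) : cycO N ℓ) ∈ IsLocalRing.maximalIdeal (cycO N ℓ) := by
      rw [hnum]; exact Ideal.mul_mem_left _ _ hden
    have h1 : (ℓ : ℤ) ∣ q.num := (intCast_mem_maximalIdeal_cycO_iff N ℓ q.num).mp hnum'
    have h2 : ℓ ∣ q.num.natAbs := Int.natCast_dvd.mp h1
    have h3 := Nat.Coprime.eq_one_of_dvd (Nat.Coprime.coprime_dvd_left h2 q.reduced) hdvd
    exact (Fact.out : ℓ.Prime).one_lt.ne' h3
  · intro hmem
    have hcop : q.den.Coprime ℓ := hmem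
    have hnd : ¬ ℓ ∣ q.den := fun h =>
      (Fact.out : ℓ.Prime).one_lt.ne' (Nat.Coprime.eq_one_of_dvd hcop.symm h)
    rw [hq]
    exact mul_mem (intCast_mem_cycO N ℓ _) (inv_natCast_mem_cycO N ℓ hnd)

/-- the inclusion `ℤ_(ℓ) → cycO N ℓ` -/
def ratLocToCycO : GaloisRep.ratLocalizedAt ℓ →+* cycO N ℓ :=
  ((algebraMap ℚ (cycK N)).comp (GaloisRep.ratLocalizedAt ℓ).subtype).codRestrict (cycO N ℓ)
    fun x => (rat_mem_cycO_iff N ℓ x.1).mpr x.2

@[simp] theorem coe_ratLocToCycO (x : GaloisRep.ratLocalizedAt ℓ) :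
    ((ratLocToCycO N ℓ x : cycO N ℓ) : cycK N) = algebraMap ℚ (cycK N) (x : ℚ) := rfl

theorem ratLocToCycO_injective : Function.Injective (ratLocToCycO N ℓ) := by
  intro x y h
  have := congrArg (fun z : cycO N ℓ => (z : cycK N)) h
  simp only [coe_ratLocToCycO] at this
  exact Subtype.ext ((algebraMap ℚ (cycK N)).injective this)

/-- the `ℤ_(ℓ)`-algebra structure on `cycO N ℓ` (a def, not an instance) -/
@[instance_reducible]
def cycOAlgebra : Algebra (GaloisRep.ratLocalizedAt ℓ) (cycO N ℓ) := (ratLocToCycO N ℓ).toAlgebra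

theorem algebraMap_cycO_apply (x : cycO N ℓ) : algebraMap (cycO N ℓ) (cycK N) x = (x : cycK N) :=
  rfl

/-- an element of `cycO N ℓ` whose image in `k` is rational comes from `ℤ_(ℓ)` -/
theorem exists_ratLoc_of_coe_eq (x : cycO N ℓ) (q : ℚ) (h : (x : cycK N) = algebraMap ℚ (cycK N) q) :
    ∃ y : GaloisRep.ratLocalizedAt ℓ, ratLocToCycO N ℓ y = x ∧ (y : ℚ) = q := by
  have hq : q ∈ GaloisRep.ratLocalizedAt ℓ := (rat_mem_cycO_iff N ℓ q).mp (h ▸ x.2)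
  exact ⟨⟨q, hq⟩, Subtype.ext h.symm, rfl⟩

/-- `ζ_N` as an element of `cycO N ℓ` -/
def zetaO : cycO N ℓ := ⟨zetaK N, zetaK_mem_cycO N ℓ⟩

@[simp] theorem coe_zetaO : ((zetaO N ℓ : cycO N ℓ) : cycK N) = zetaK N := rfl

theorem isUnit_zetaO : IsUnit (zetaO N ℓ) := by
  refine IsUnit.of_mul_eq_one (⟨(zetaK N)⁻¹, zetaK_inv_mem_cycO N ℓ⟩ : cycO N ℓ) ?_
  apply Subtype.ext
  have h0 : zetaK N ≠ 0 := (zetaK_isPrimitiveRoot N).ne_zero (NeZero.ne N)
  simp [mul_inv_cancel₀ h0]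

theorem zetaO_isPrimitiveRoot : IsPrimitiveRoot (zetaO N ℓ) N :=
  IsPrimitiveRoot.of_map_of_injective (f := algebraMap (cycO N ℓ) (cycK N))
    (by simpa [algebraMap_cycO_apply] using zetaK_isPrimitiveRoot N)
    (FaithfulSMul.algebraMap_injective _ _)

instance charP_residueField_cycO : CharP (IsLocalRing.ResidueField (cycO N ℓ)) ℓ := by
  have h0 : ((ℓ : ℕ) : IsLocalRing.ResidueField (cycO N ℓ)) = 0 := by
    have := (IsLocalRing.residue_eq_zero_iff ((ℓ : ℕ) : cycO N ℓ)).mpr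
      (ell_mem_maximalIdeal_cycO N ℓ)
    simpa using this
  have hdvd := ringChar.dvd h0
  rcases (Nat.dvd_prime (Fact.out : ℓ.Prime)).mp hdvd with h | h
  · exact absurd h (CharP.ringChar_ne_one (R := IsLocalRing.ResidueField (cycO N ℓ)))
  · exact ringChar.of_eq h

instance finite_residueField_cycO : Finite (IsLocalRing.ResidueField (cycO N ℓ)) := by
  have : Finite (𝓞 (cycK N) ⧸ cycP N ℓ) := Ideal.finiteQuotientOfFreeOfNeBot _ (cycP_ne_bot N ℓ)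
  exact Finite.of_equiv _
    (IsLocalization.AtPrime.equivQuotMaximalIdeal (cycP N ℓ) (cycO N ℓ)).toEquiv

end CycO
end Fermat.Agent.S28
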