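import Mathlib
import Fermat.Agent.S28.CycloSetup

set_option autoImplicit false
set_option linter.unusedSectionVars false
noncomputable section
namespace Fermat.Agent.S28
open NumberField

section Twist
variable (N : ℕ) [NeZero N] (ℓ : ℕ) [Fact ℓ.Prime]

/-- the inclusion `k = ℚ(ζ_N) → ℂ` -/
def cycEmb : cycK N →+* ℂ := algebraMap (cycK N) ℂ

@[simp] theorem cycEmb_apply (x : cycK N) : cycEmb N x = (x : ℂ) := rfl

theorem cycEmb_injective : Function.Injective (cycEmb N) := (cycEmb N).injective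

theorem zetaK_ne_zero : zetaK N ≠ 0 := (zetaK_isPrimitiveRoot N).ne_zero (NeZero.ne N)

/-- `ζ_N` as a unit of `k` -/
def zetaKUnit : (cycK N)ˣ := Units.mk0 (zetaK N) (zetaK_ne_zero N)

@[simp] theorem coe_zetaKUnit : ((zetaKUnit N : (cycK N)ˣ) : cycK N) = zetaK N := rfl

/-- `ζ_N` as a unit of `cycO N ℓ` -/
def zetaOUnit : (cycO N ℓ)ˣ := (isUnit_zetaO N ℓ).unit

@[simp] theorem coe_zetaOUnit : ((zetaOUnit N ℓ : (cycO N ℓ)ˣ) : cycO N ℓ) = zetaO N ℓ := rfl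

theorem zetaC_pow (m : ℕ) : zetaC N ^ m = Complex.exp (2 * Real.pi * Complex.I * m / N) := by
  rw [zetaC, ← Complex.exp_nat_mul]
  congr 1
  ring

/-- `exp(2πi B/D)` for `D ∣ N` as a power of `ζ_N` -/
theorem zetaC_pow_div {D : ℕ} (hD : D ∣ N) (B : ℕ) :
    zetaC N ^ (N / D * B) = Complex.exp (2 * Real.pi * Complex.I * B / D) := by
  rw [zetaC_pow]
  congr 1
  obtain ⟨c, hc⟩ := hD
  have hN : (N : ℂ) ≠ 0 := by exact_mod_cast NeZero.ne N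
  have hD0 : D ≠ 0 := by rintro rfl; simp at hc; exact NeZero.ne N hc
  have hDc : (D : ℂ) ≠ 0 := by exact_mod_cast hD0
  have hdiv : N / D = c := by rw [hc]; exact Nat.mul_div_cancel_left c (Nat.pos_of_ne_zero hD0)
  rw [hdiv]
  have hNc : (N : ℂ) = D * c := by rw [hc]; push_cast; ring
  rw [hNc] at hN ⊢
  have hc0 : (c : ℂ) ≠ 0 := right_ne_zero_of_mul hN
  push_cast
  field_simp

/-- the twist `exp(2πi B/D)` (`D ∣ N`) as a unit of `k` -/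
def xiK (D B : ℕ) : (cycK N)ˣ := zetaKUnit N ^ (N / D * B)

theorem coe_xiK (D B : ℕ) : ((xiK N D B : (cycK N)ˣ) : cycK N) = zetaK N ^ (N / D * B) := by
  simp [xiK]

theorem cycEmb_xiK {D : ℕ} (hD : D ∣ N) (B : ℕ) :
    cycEmb N ((xiK N D B : (cycK N)ˣ) : cycK N) = Complex.exp (2 * Real.pi * Complex.I * B / D) := by
  rw [coe_xiK, map_pow, cycEmb_apply, coe_zetaK, zetaC_pow_div N hD B]

/-- the twist `exp(2πi B/D)` (`D ∣ N`) as a unit of `cycO N ℓ` -/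
def xiO (D B : ℕ) : (cycO N ℓ)ˣ := zetaOUnit N ℓ ^ (N / D * B)

theorem coe_xiO (D B : ℕ) :
    (((xiO N ℓ D B : (cycO N ℓ)ˣ) : cycO N ℓ) : cycK N) = ((xiK N D B : (cycK N)ˣ) : cycK N) := by
  simp [xiO, xiK]

theorem units_map_xiO (D B : ℕ) :
    Units.map (algebraMap (cycO N ℓ) (cycK N)).toMonoidHom (xiO N ℓ D B) = xiK N D B := by
  apply Units.ext
  simpa [algebraMap_cycO_apply] using coe_xiO N ℓ D B

theorem cycEmb_xiO {D : ℕ} (hD : D ∣ N) (B : ℕ) :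
    cycEmb N (algebraMap (cycO N ℓ) (cycK N) (xiO N ℓ D B : (cycO N ℓ)ˣ)) =
      Complex.exp (2 * Real.pi * Complex.I * B / D) := by
  rw [algebraMap_cycO_apply, coe_xiO, cycEmb_xiK N hD B]

/-- the hypothesis shape of A5: every twist `exp(2πi B/D)`, `D ∣ N`, comes from a unit of `𝒪` -/
theorem exists_unit_cycO_twist {D : ℕ} (hD : D ∣ N) (B : ℕ) :
    ∃ u : (cycO N ℓ)ˣ, cycEmb N (algebraMap (cycO N ℓ) (cycK N) (u : cycO N ℓ)) =
      Complex.exp (2 * Real.pi * Complex.I * B / D) :=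
  ⟨xiO N ℓ D B, cycEmb_xiO N ℓ hD B⟩

theorem not_dvd_of_dvd_of_not_dvd {D : ℕ} (hD : D ∣ N) (hℓN : ¬ ℓ ∣ N) : ¬ ℓ ∣ D :=
  fun h => hℓN (h.trans hD)

/-- a divisor `D ∣ N` as a unit of `cycO N ℓ` (when `ℓ ∤ N`) -/
def natUnitO {D : ℕ} (hD : D ∣ N) (hℓN : ¬ ℓ ∣ N) : (cycO N ℓ)ˣ :=
  (isUnit_natCast_cycO N ℓ (not_dvd_of_dvd_of_not_dvd N ℓ hD hℓN)).unit

@[simp] theorem coe_natUnitO {D : ℕ} (hD : D ∣ N) (hℓN : ¬ ℓ ∣ N) :
    ((natUnitO N ℓ hD hℓN : (cycO N ℓ)ˣ) : cycO N ℓ) = (D : cycO N ℓ) := rfl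

theorem cycEmb_natUnitO {D : ℕ} (hD : D ∣ N) (hℓN : ¬ ℓ ∣ N) :
    cycEmb N (algebraMap (cycO N ℓ) (cycK N) (natUnitO N ℓ hD hℓN : (cycO N ℓ)ˣ)) = (D : ℂ) := by
  simp

/-- a divisor `D ∣ N` as a unit of `k` -/
def natUnitK {D : ℕ} (hD : D ∣ N) : (cycK N)ˣ :=
  Units.mk0 (D : cycK N) (by
    have hD0 : D ≠ 0 := by rintro rfl; exact NeZero.ne N (Nat.eq_zero_of_zero_dvd hD)
    exact_mod_cast hD0)

@[simp] theorem coe_natUnitK {D : ℕ} (hD : D ∣ N) :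
    ((natUnitK N hD : (cycK N)ˣ) : cycK N) = (D : cycK N) := rfl

theorem units_map_natUnitO {D : ℕ} (hD : D ∣ N) (hℓN : ¬ ℓ ∣ N) :
    Units.map (algebraMap (cycO N ℓ) (cycK N)).toMonoidHom (natUnitO N ℓ hD hℓN) =
      natUnitK N hD := by
  apply Units.ext
  simp

/-- the twist as a unit of `ℂ` -/
theorem coe_units_map_cycEmb_xiK {D : ℕ} (hD : D ∣ N) (B : ℕ) :
    ((Units.map (cycEmb N).toMonoidHom (xiK N D B) : ℂˣ) : ℂ) =
      Complex.exp (2 * Real.pi * Complex.I * B / D) := by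
  simpa using cycEmb_xiK N hD B

theorem coe_units_map_cycEmb_natUnitK {D : ℕ} (hD : D ∣ N) :
    ((Units.map (cycEmb N).toMonoidHom (natUnitK N hD) : ℂˣ) : ℂ) = (D : ℂ) := by
  simp

end Twist
end Fermat.Agent.S28
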