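import Fermat.Agent.S28.Assemble
import Fermat.Agent.S28.AnalyticInst
import Fermat.Agent.S28.CycloTwist

/-!
# The cusp datum over `k = ℚ(ζ_N) ⊆ ℂ` and the DVR `𝒪` above `ℓ`
-/

set_option autoImplicit false

noncomputable section

namespace Fermat.Agent.S28

open CuspExp Assemble

/-- **The cusp datum** for `k = cycK N`, `𝒪 = cycO N ℓ`, `ℓ ∤ N`. -/
def cycDatum (N : ℕ) [NeZero N] (ℓ : ℕ) [Fact ℓ.Prime] (hℓN : ¬ ℓ ∣ N) :
    CuspDatum (cycK N) N (cycO N ℓ) :=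
  cuspDatumOfAnalytic N (cycEmb N)
    (fun D B hD => exists_unit_cycO_twist N ℓ hD B)
    (fun D hD => isUnit_natCast_cycO N ℓ (not_dvd_of_dvd_of_not_dvd N ℓ hD hℓN))
    (analyticFacts N)

end Fermat.Agent.S28
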