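import Mathlib
import Fermat.Agent.S28.Defs
import Fermat.Agent.S28.CycloSetup
import Fermat.Agent.S28.IntegralDescent

/-!
# T28 / D3 support: transport of the charts to the `k`-side

GENERIC in `(k, 𝒪)`: `k` a field with `[Algebra ℚ k]`, `𝒪` a commutative ring with `[Algebra 𝒪 k]`,
`e : ℤ_(ℓ) →+* 𝒪` compatible with `ℚ → k`; `ι = coeffMap (algebraMap ℚ k) : ℚ((q)) → k((q))`.
* `coeffMap_mem_bigField`: `ι` maps the Prelude function field into `bigField k N`;
* `isIntegral_coeffMap_of_mem_chartAlgFin/Inf/Mid`: elements of the charts become integral over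
  `𝒪[j]` (resp. `𝒪[j⁻¹]`, `𝒪[j, j⁻¹]`);
* `mem_chartAlgFin/Inf_of_isIntegral_coeffMap`: descent back (via `IntegralDescent`).
The statements are generic on purpose: for the concrete `𝒪 = ↥(cycO N ℓ)` (a `Subalgebra`) Lean
finds the instance `Algebra 𝒪 (LaurentSeries k)` through `Subalgebra.toAlgebra`, which is NOT
syntactically the generic `HahnSeries.powerSeriesAlgebra` one used by the generic theorems
(`coreFin`, `isIntegral_descent`).  So: never write `Algebra.adjoin ↥(cycO N ℓ) _` by hand;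
apply the generic theorems with `(𝒪 := ↥(cycO N ℓ))` and let unification fill the instances.
The hypotheses for `cycK N`, `cycO N ℓ` are discharged at the end of the file
(`ratLocToCycO_compat`, `hO_cycO`).
-/

set_option autoImplicit false
set_option linter.unusedSectionVars false

noncomputable section

namespace Fermat.Agent.S28.ChartTransport

open ModularCurve ModularCurve.IgusaScheme HahnSeries Polynomial

variable (N : ℕ) [NeZero N] (ℓ : ℕ) [Fact ℓ.Prime]

section Generic

variable (k : Type) [Field k] [Algebra ℚ k]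

theorem coeffMap_rat_injective : Function.Injective (coeffMap (algebraMap ℚ k)) := by
  intro a b h
  ext n
  have := congrArg (fun z => z.coeff n) h
  simp only [coeffMap_coeff] at this
  exact (algebraMap ℚ k).injective this

theorem coeffMap_jq : coeffMap (algebraMap ℚ k) jq = jqModC k := by
  rw [← jqModC_rat, coeffMap_jqModC]

theorem coeffMap_jq_inv : coeffMap (algebraMap ℚ k) jq⁻¹ = (jqModC k)⁻¹ := by
  rw [map_inv₀, coeffMap_jq]

theorem coeffMap_C (c : ℚ) :
    coeffMap (algebraMap ℚ k) (HahnSeries.C c) = HahnSeries.C (algebraMap ℚ k c) := by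
  rw [HahnSeries.C_apply, coeffMap_single, HahnSeries.C_apply]

theorem coeffMap_algebraMap_rat (c : ℚ) :
    coeffMap (algebraMap ℚ k) (algebraMap ℚ (LaurentSeries ℚ) c) =
      algebraMap k (LaurentSeries k) (algebraMap ℚ k c) := by
  rw [algebraMap_laurentSeries_eq_single, algebraMap_laurentSeries_eq_single, coeffMap_single]

/-- (a) `ι` maps the function field of the Prelude into the big field -/
theorem coeffMap_mem_bigField (x : modularFunctionFieldFull N) :
    coeffMap (algebraMap ℚ k) (x : LaurentSeries ℚ) ∈ bigField k N := by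
  obtain ⟨x, hx⟩ := x
  show coeffMap (algebraMap ℚ k) x ∈ bigField k N
  unfold modularFunctionFieldFull at hx
  induction hx using IntermediateField.adjoin_induction with
  | mem y hy =>
    obtain ⟨d, hne, hd, rfl⟩ := hy
    have := hne
    rw [coeffMap_qExpand, coeffMap_jq]
    exact jS_mem_bigField k N hd
  | algebraMap c =>
    rw [coeffMap_algebraMap_rat]
    exact (bigField k N).algebraMap_mem _
  | add y z _ _ hy hz => rw [map_add]; exact add_mem hy hz
  | inv y _ hy => rw [map_inv₀]; exact inv_mem hy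
  | mul y z _ _ hy hz => rw [map_mul]; exact mul_mem hy hz

/-- `ι` commutes with division by `ℓ` -/
theorem coeffMap_C_inv_mul (x : LaurentSeries ℚ) :
    coeffMap (algebraMap ℚ k) (HahnSeries.C ((ℓ : ℚ))⁻¹ * x) =
      HahnSeries.C (((ℓ : ℕ) : k))⁻¹ * coeffMap (algebraMap ℚ k) x := by
  rw [map_mul, coeffMap_C]
  congr 2
  simp

/-! ### (b) the charts become integral over `𝒪[j^{±1}]` -/

/-- the structure map `ℤ_(ℓ) → F → ℚ((q))` -/
theorem coe_algebraMap_ratLoc (r : GaloisRep.ratLocalizedAt ℓ) :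
    ((algebraMap (GaloisRep.ratLocalizedAt ℓ) (modularFunctionFieldFull N) r :
      modularFunctionFieldFull N) : LaurentSeries ℚ) =
      algebraMap ℚ (LaurentSeries ℚ) (r : ℚ) := by
  rw [IsScalarTower.algebraMap_apply (GaloisRep.ratLocalizedAt ℓ) ℚ (modularFunctionFieldFull N) r]
  simp only [eq_ratCast, SubfieldClass.coe_ratCast]
  rfl

variable (𝒪 : Type) [CommRing 𝒪] [Algebra 𝒪 k]
  (e : GaloisRep.ratLocalizedAt ℓ →+* 𝒪)
  (he : ∀ r : GaloisRep.ratLocalizedAt ℓ, algebraMap 𝒪 k (e r) = algebraMap ℚ k (r : ℚ))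

include he in
theorem coeffMap_coe_algebraMap_ratLoc (r : GaloisRep.ratLocalizedAt ℓ) :
    coeffMap (algebraMap ℚ k)
      ((algebraMap (GaloisRep.ratLocalizedAt ℓ) (modularFunctionFieldFull N) r :
        modularFunctionFieldFull N) : LaurentSeries ℚ) =
      algebraMap 𝒪 (LaurentSeries k) (e r) := by
  rw [coe_algebraMap_ratLoc, coeffMap_algebraMap_rat, ← he]
  exact (IntegralDescent.algebraMap_tower (O := 𝒪) (e r)).symm

include he in
/-- `ι` maps `ℤ_(ℓ)[S]` into `𝒪[S']` as soon as it does so on generators -/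
theorem coeffMap_mem_adjoin {S : Set (modularFunctionFieldFull N)}
    {S' : Set (LaurentSeries k)}
    (hS : ∀ s ∈ S, coeffMap (algebraMap ℚ k) (s : LaurentSeries ℚ) ∈ Algebra.adjoin 𝒪 S')
    {y : modularFunctionFieldFull N}
    (hy : y ∈ Algebra.adjoin (GaloisRep.ratLocalizedAt ℓ) S) :
    coeffMap (algebraMap ℚ k) (y : LaurentSeries ℚ) ∈ Algebra.adjoin 𝒪 S' := by
  induction hy using Algebra.adjoin_induction with
  | mem y hy => exact hS y hy
  | algebraMap r =>
    rw [coeffMap_coe_algebraMap_ratLoc N ℓ k 𝒪 e he]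
    exact Subalgebra.algebraMap_mem _ _
  | add y z _ _ hy hz =>
    rw [IntermediateField.coe_add, map_add]; exact add_mem hy hz
  | mul y z _ _ hy hz =>
    rw [IntermediateField.coe_mul, map_mul]; exact mul_mem hy hz

include he in
/-- general transport of integrality from a chart to the `k`-side -/
theorem isIntegral_coeffMap_of_mem_chartAlg {S : Set (modularFunctionFieldFull N)}
    {S' : Set (LaurentSeries k)}
    (hS : ∀ s ∈ S, coeffMap (algebraMap ℚ k) (s : LaurentSeries ℚ) ∈ Algebra.adjoin 𝒪 S')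
    {x : modularFunctionFieldFull N} (hx : x ∈ chartAlg N ℓ S) :
    IsIntegral (Algebra.adjoin 𝒪 S') (coeffMap (algebraMap ℚ k) (x : LaurentSeries ℚ)) := by
  rw [mem_chartAlg_iff] at hx
  let ψ : modularFunctionFieldFull N →+* LaurentSeries k :=
    (coeffMap (algebraMap ℚ k)).comp (algebraMap (modularFunctionFieldFull N) (LaurentSeries ℚ))
  let φ : Algebra.adjoin (GaloisRep.ratLocalizedAt ℓ) S →+* Algebra.adjoin 𝒪 S' :=
    (ψ.comp (algebraMap (Algebra.adjoin (GaloisRep.ratLocalizedAt ℓ) S)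
      (modularFunctionFieldFull N))).codRestrict (Algebra.adjoin 𝒪 S')
      (fun y => coeffMap_mem_adjoin N ℓ k 𝒪 e he hS y.2)
  have hcomp : (algebraMap (Algebra.adjoin 𝒪 S') (LaurentSeries k)).comp φ =
      ψ.comp (algebraMap (Algebra.adjoin (GaloisRep.ratLocalizedAt ℓ) S)
        (modularFunctionFieldFull N)) := RingHom.ext fun y => rfl
  exact hx.map_of_comp_eq φ ψ hcomp

theorem coe_jFull_inv : (((jFull N)⁻¹ : modularFunctionFieldFull N) : LaurentSeries ℚ) = jq⁻¹ := by
  rw [IntermediateField.coe_inv, coe_jFull]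

include he in
theorem isIntegral_coeffMap_of_mem_chartAlgFin {x : modularFunctionFieldFull N}
    (hx : x ∈ chartAlgFin N ℓ) :
    IsIntegral (Algebra.adjoin 𝒪 {jqModC k}) (coeffMap (algebraMap ℚ k) (x : LaurentSeries ℚ)) := by
  refine isIntegral_coeffMap_of_mem_chartAlg N ℓ k 𝒪 e he ?_ hx
  intro s hs
  rw [Set.mem_singleton_iff] at hs
  rw [hs, coe_jFull, coeffMap_jq]
  exact Algebra.subset_adjoin rfl

include he in
theorem isIntegral_coeffMap_of_mem_chartAlgInf {x : modularFunctionFieldFull N}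
    (hx : x ∈ chartAlgInf N ℓ) :
    IsIntegral (Algebra.adjoin 𝒪 {(jqModC k)⁻¹})
      (coeffMap (algebraMap ℚ k) (x : LaurentSeries ℚ)) := by
  refine isIntegral_coeffMap_of_mem_chartAlg N ℓ k 𝒪 e he ?_ hx
  intro s hs
  rw [Set.mem_singleton_iff] at hs
  rw [hs, coe_jFull_inv, coeffMap_jq_inv]
  exact Algebra.subset_adjoin rfl

include he in
theorem isIntegral_coeffMap_of_mem_chartAlgMid {x : modularFunctionFieldFull N}
    (hx : x ∈ chartAlgMid N ℓ) :
    IsIntegral (Algebra.adjoin 𝒪 {jqModC k, (jqModC k)⁻¹})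
      (coeffMap (algebraMap ℚ k) (x : LaurentSeries ℚ)) := by
  refine isIntegral_coeffMap_of_mem_chartAlg N ℓ k 𝒪 e he ?_ hx
  intro s hs
  rcases hs with hs | hs
  · rw [hs, coe_jFull, coeffMap_jq]
    exact Algebra.subset_adjoin (Set.mem_insert _ _)
  · rw [Set.mem_singleton_iff] at hs
    rw [hs, coe_jFull_inv, coeffMap_jq_inv]
    exact Algebra.subset_adjoin (Set.mem_insert_of_mem _ rfl)

/-! ### (c) descent back to the charts -/

/-- the structure map `ℤ_(ℓ) → ℚ((q))` factors through `F` -/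
theorem algebraMap_ratLoc_laurent (r : GaloisRep.ratLocalizedAt ℓ) :
    algebraMap (GaloisRep.ratLocalizedAt ℓ) (LaurentSeries ℚ) r =
      ((algebraMap (GaloisRep.ratLocalizedAt ℓ) (modularFunctionFieldFull N) r :
        modularFunctionFieldFull N) : LaurentSeries ℚ) := by
  rw [coe_algebraMap_ratLoc, IntegralDescent.algebraMap_tower]
  rfl

/-- every element of `ℤ_(ℓ)[coe '' S] ⊆ ℚ((q))` is the coercion of an element of `ℤ_(ℓ)[S] ⊆ F` -/
theorem exists_coe_eq_of_mem_adjoin {S : Set (modularFunctionFieldFull N)}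
    {c : LaurentSeries ℚ}
    (hc : c ∈ Algebra.adjoin (GaloisRep.ratLocalizedAt ℓ)
      ((fun s : modularFunctionFieldFull N => (s : LaurentSeries ℚ)) '' S)) :
    ∃ y : Algebra.adjoin (GaloisRep.ratLocalizedAt ℓ) S,
      ((y : modularFunctionFieldFull N) : LaurentSeries ℚ) = c := by
  induction hc using Algebra.adjoin_induction with
  | mem c hc =>
    obtain ⟨s, hs, rfl⟩ := hc
    exact ⟨⟨s, Algebra.subset_adjoin hs⟩, rfl⟩
  | algebraMap r =>
    exact ⟨algebraMap _ _ r, (algebraMap_ratLoc_laurent N ℓ r).symm⟩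
  | add a b _ _ ha hb =>
    obtain ⟨y, rfl⟩ := ha
    obtain ⟨y', rfl⟩ := hb
    exact ⟨y + y', rfl⟩
  | mul a b _ _ ha hb =>
    obtain ⟨y, rfl⟩ := ha
    obtain ⟨y', rfl⟩ := hb
    exact ⟨y * y', rfl⟩

/-- integrality over `ℤ_(ℓ)[coe '' S]` inside `ℚ((q))` gives membership in the chart -/
theorem mem_chartAlg_of_isIntegral_coe {S : Set (modularFunctionFieldFull N)}
    {z : modularFunctionFieldFull N}
    (h : IsIntegral (Algebra.adjoin (GaloisRep.ratLocalizedAt ℓ)
      ((fun s : modularFunctionFieldFull N => (s : LaurentSeries ℚ)) '' S))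
      (z : LaurentSeries ℚ)) : z ∈ chartAlg N ℓ S := by
  classical
  rw [mem_chartAlg_iff]
  obtain ⟨p, hmonic, hroot⟩ := h
  let g : Algebra.adjoin (GaloisRep.ratLocalizedAt ℓ) S →+* LaurentSeries ℚ :=
    (algebraMap (modularFunctionFieldFull N) (LaurentSeries ℚ)).comp
      (algebraMap (Algebra.adjoin (GaloisRep.ratLocalizedAt ℓ) S) (modularFunctionFieldFull N))
  set P : (LaurentSeries ℚ)[X] := p.map (algebraMap (Algebra.adjoin (GaloisRep.ratLocalizedAt ℓ)
      ((fun s : modularFunctionFieldFull N => (s : LaurentSeries ℚ)) '' S)) (LaurentSeries ℚ))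
    with hP
  have hPmonic : P.Monic := hmonic.map _
  have hProot : P.eval (z : LaurentSeries ℚ) = 0 := by
    rw [hP, Polynomial.eval_map]; exact hroot
  have hlifts : P ∈ Polynomial.lifts g := by
    rw [Polynomial.lifts_iff_coeff_lifts]
    intro n
    rw [hP, Polynomial.coeff_map]
    obtain ⟨y, hy⟩ := exists_coe_eq_of_mem_adjoin N ℓ (p.coeff n).2
    exact ⟨y, hy⟩
  obtain ⟨q, hq, -, hqmonic⟩ := Polynomial.lifts_and_natDegree_eq_and_monic hlifts hPmonic
  refine ⟨q, hqmonic, ?_⟩
  have hinj : Function.Injective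
      (algebraMap (modularFunctionFieldFull N) (LaurentSeries ℚ)) :=
    (algebraMap (modularFunctionFieldFull N) (LaurentSeries ℚ)).injective
  apply hinj
  rw [Polynomial.hom_eval₂, map_zero]
  show Polynomial.eval₂ g (z : LaurentSeries ℚ) q = 0
  rw [Polynomial.eval₂_eq_eval_map, hq, hProot]

theorem transcendental_coeffMap_jq : Transcendental k (coeffMap (algebraMap ℚ k) jq) := by
  rw [coeffMap_jq]
  exact IntegralDescent.transcendental_jqModC k

theorem transcendental_coeffMap_jq_inv :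
    Transcendental k (coeffMap (algebraMap ℚ k) jq⁻¹) := by
  rw [coeffMap_jq_inv]
  exact IntegralDescent.transcendental_jqModC_inv k

variable [IsDomain 𝒪] [IsFractionRing 𝒪 k] [IsIntegrallyClosed 𝒪]
  (hO : ∀ a : ℚ, algebraMap ℚ k a ∈ (algebraMap 𝒪 k).range →
    a ∈ (algebraMap (GaloisRep.ratLocalizedAt ℓ) ℚ).range)

include hO in
/-- descent: integrality of `ι z` over `𝒪[j]` puts `z` into the finite chart -/
theorem mem_chartAlgFin_of_isIntegral_coeffMap {z : modularFunctionFieldFull N}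
    (h : IsIntegral (Algebra.adjoin 𝒪 {jqModC k})
      (coeffMap (algebraMap ℚ k) (z : LaurentSeries ℚ))) : z ∈ chartAlgFin N ℓ := by
  apply mem_chartAlg_of_isIntegral_coe
  rw [Set.image_singleton, coe_jFull]
  refine IntegralDescent.isIntegral_descent hO jq (transcendental_coeffMap_jq k) _ ?_
  rw [coeffMap_jq]
  exact h

include hO in
/-- descent: integrality of `ι z` over `𝒪[j⁻¹]` puts `z` into the chart at infinity -/
theorem mem_chartAlgInf_of_isIntegral_coeffMap {z : modularFunctionFieldFull N}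
    (h : IsIntegral (Algebra.adjoin 𝒪 {(jqModC k)⁻¹})
      (coeffMap (algebraMap ℚ k) (z : LaurentSeries ℚ))) : z ∈ chartAlgInf N ℓ := by
  apply mem_chartAlg_of_isIntegral_coe
  rw [Set.image_singleton, coe_jFull_inv]
  refine IntegralDescent.isIntegral_descent hO jq⁻¹ (transcendental_coeffMap_jq_inv k) _ ?_
  rw [coeffMap_jq_inv]
  exact h

end Generic

/-! ### The hypotheses for `k = cycK N`, `𝒪 = cycO N ℓ` -/

theorem ratLocToCycO_compat (r : GaloisRep.ratLocalizedAt ℓ) :
    algebraMap (cycO N ℓ) (cycK N) (ratLocToCycO N ℓ r) = algebraMap ℚ (cycK N) (r : ℚ) := rfl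

theorem hO_cycO : ∀ a : ℚ, algebraMap ℚ (cycK N) a ∈ (algebraMap (cycO N ℓ) (cycK N)).range →
    a ∈ (algebraMap (GaloisRep.ratLocalizedAt ℓ) ℚ).range := by
  intro a ha
  obtain ⟨x, hx⟩ := ha
  have hmem : algebraMap ℚ (cycK N) a ∈ cycO N ℓ := by
    rw [← hx]; exact x.2
  exact ⟨⟨a, (rat_mem_cycO_iff N ℓ a).mp hmem⟩, rfl⟩

/-- sanity check: the generic theorems apply to `cycK N`, `cycO N ℓ` -/
example {x : modularFunctionFieldFull N} (hx : x ∈ chartAlgFin N ℓ) :
    coeffMap (algebraMap ℚ (cycK N)) ((ℓ : ℚ) • (x : LaurentSeries ℚ)) =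
      coeffMap (algebraMap ℚ (cycK N)) ((ℓ : ℚ) • (x : LaurentSeries ℚ)) ∧ x ∈ chartAlgFin N ℓ :=
  ⟨rfl, mem_chartAlgFin_of_isIntegral_coeffMap N ℓ (cycK N) (cycO N ℓ) (hO_cycO N ℓ)
    (isIntegral_coeffMap_of_mem_chartAlgFin N ℓ (cycK N) (cycO N ℓ) (ratLocToCycO N ℓ)
      (ratLocToCycO_compat N ℓ) hx)⟩

end Fermat.Agent.S28.ChartTransport
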