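import Fermat.Agent.S28.ChartReduction
import Fermat.Agent.S28.ChartTransport

/-!
# Final glue for S28 (T28): the chart inputs over the cyclotomic pair `(cycK N, cycO N ℓ)`

Everything of `ChartReduction.ChartInput` except the two core statements is discharged here for
`k = cycK N`, `O = cycO N ℓ`, `f = ratLocToCycO N ℓ`, so that the special fibre of the Igusa
scheme is integral as soon as `CoreFin` and `CoreInf` are known for `π = ℓ`.

Also: adapters from the "divisibility" shape of the core statements to `ChartReduction.CoreAt`.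
-/

set_option autoImplicit false
set_option linter.unusedSectionVars false

noncomputable section

namespace Fermat.Agent.S28.FinalGlue

open ModularCurve ModularCurve.IgusaScheme HahnSeries GaloisRep Fermat.Agent.S28
  Fermat.Agent.S28.ChartReduction

/-! ### Adapters for the core statements (generic in `(k, O)`) -/

section Adapter

variable {N : ℕ} [NeZero N]
variable {k : Type} [Field k] [Algebra ℚ k]
variable {O : Type} [CommRing O] [IsDomain O] [IsDiscreteValuationRing O] [Algebra O k]
  [IsFractionRing O k]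

/-- from the divisibility shape (`x = π v` with `v` in the Gauss ring) to `CoreAt`;
inverse taken outside `C` -/
theorem coreAt_of_div {T : LaurentSeries k} {π : O} (hπ : Irreducible π)
    (h : ∀ x : LaurentSeries k, x ∈ bigField k N → IsIntegral (Algebra.adjoin O {T}) x →
      (∃ v ∈ gaussRing O k, x = HahnSeries.C (algebraMap O k π) * v) →
        IsIntegral (Algebra.adjoin O {T}) ((HahnSeries.C (algebraMap O k π))⁻¹ * x)) :
    CoreAt N k O T π := by
  intro x hxbig hxint hx hred
  exact h x hxbig hxint ((gaussRed_eq_zero_iff hπ hx).mp hred)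

/-- from the divisibility shape to `CoreAt`; inverse taken inside `C` -/
theorem coreAt_of_div' {T : LaurentSeries k} {π : O} (hπ : Irreducible π)
    (h : ∀ x : LaurentSeries k, x ∈ bigField k N → IsIntegral (Algebra.adjoin O {T}) x →
      (∃ v ∈ gaussRing O k, x = HahnSeries.C (algebraMap O k π) * v) →
        IsIntegral (Algebra.adjoin O {T}) (HahnSeries.C (algebraMap O k π)⁻¹ * x)) :
    CoreAt N k O T π := by
  intro x hxbig hxint hx hred
  have := h x hxbig hxint ((gaussRed_eq_zero_iff hπ hx).mp hred)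
  rwa [map_inv₀] at this

end Adapter

/-! ### The chart inputs over the cyclotomic pair -/

section Cyclo

variable (N : ℕ) [NeZero N] (ℓ : ℕ) [Fact ℓ.Prime]

/-- everything of `ChartInput` but the cores, generically in `(k, O, f)` -/
theorem chartInput_of_cores
    (k : Type) [Field k] [Algebra ℚ k]
    (O : Type) [CommRing O] [IsDomain O] [IsDiscreteValuationRing O] [Algebra O k]
    [IsFractionRing O k]
    (f : ↥(ratLocalizedAt ℓ) →+* O)
    (compat : ∀ r : ↥(ratLocalizedAt ℓ), algebraMap O k (f r) = algebraMap ℚ k (r : ℚ))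
    (ell_mem : f (ℓ : ↥(ratLocalizedAt ℓ)) ∈ IsLocalRing.maximalIdeal O)
    (hZ : ∀ x : ℚ, algebraMap ℚ k x ∈ (algebraMap O k).range → x ∈ ratLocalizedAt ℓ)
    (hFin : CoreFin N k O (f (ℓ : ↥(ratLocalizedAt ℓ))))
    (hInf : CoreInf N k O (f (ℓ : ↥(ratLocalizedAt ℓ)))) :
    ChartInput N ℓ k O f where
  compat := compat
  ell_mem := ell_mem
  hZ := hZ
  big := fun x => ChartTransport.coeffMap_mem_bigField N k x
  convFin := fun _ hx =>
    ChartTransport.isIntegral_coeffMap_of_mem_chartAlgFin N ℓ k O f compat hx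
  convInf := fun _ hx =>
    ChartTransport.isIntegral_coeffMap_of_mem_chartAlgInf N ℓ k O f compat hx
  coreFin := hFin
  coreInf := hInf

/-- the chart inputs over `(cycK N, cycO N ℓ)`, given the two core statements for `π = ℓ` -/
theorem chartInput_cyc
    (hFin : CoreFin N ↥(cycK N) ↥(cycO N ℓ) ((ℓ : ℕ) : ↥(cycO N ℓ)))
    (hInf : CoreInf N ↥(cycK N) ↥(cycO N ℓ) ((ℓ : ℕ) : ↥(cycO N ℓ))) :
    ChartInput N ℓ ↥(cycK N) ↥(cycO N ℓ) (ratLocToCycO N ℓ) :=
  chartInput_of_cores N ℓ ↥(cycK N) ↥(cycO N ℓ) (ratLocToCycO N ℓ)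
    (ChartTransport.ratLocToCycO_compat N ℓ) (ratLocToCycO_ell_mem N ℓ) (hZ_cycO N ℓ)
    (by rw [ratLocToCycO_ell]; exact hFin) (by rw [ratLocToCycO_ell]; exact hInf)

/-- **S28 from the two core statements** over the cyclotomic pair. -/
theorem isIntegral_pullback_of_cores
    (hFin : CoreFin N ↥(cycK N) ↥(cycO N ℓ) ((ℓ : ℕ) : ↥(cycO N ℓ)))
    (hInf : CoreInf N ↥(cycK N) ↥(cycO N ℓ) ((ℓ : ℕ) : ↥(cycO N ℓ)))
    (K : Type) [Field K] [CharP K ℓ] [Algebra ↥(ratLocalizedAt ℓ) K] :
    AlgebraicGeometry.IsIntegral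
      (CategoryTheory.Limits.pullback (igusaTo N ℓ)
        (AlgebraicGeometry.Spec.map
          (CommRingCat.ofHom (algebraMap ↥(ratLocalizedAt ℓ) K)))) :=
  (chartInput_cyc N ℓ hFin hInf).isIntegral_pullback K

end Cyclo

end Fermat.Agent.S28.FinalGlue
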