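import Fermat.Agent.S28.Defs

set_option autoImplicit false

noncomputable section

namespace Fermat.Agent.S28.DescentLemma

open Polynomial

/-! ### Abstract part: comparing minimal polynomials over three integrally closed domains -/

section Abstract

variable {A B C L : Type*} [CommRing A] [CommRing B] [CommRing C] [CommRing L]
  [IsDomain A] [IsDomain B] [IsDomain C] [IsDomain L]

/-- If `B` is a localization of the integrally closed domain `C`, both integrally closed, then
the minimal polynomial over `B` of an element integral over `C` is the image of its minimal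
polynomial over `C`. -/
theorem minpoly_map_eq_of_isLocalization [IsIntegrallyClosed B] [IsIntegrallyClosed C]
    [Algebra C B] [Algebra B L] [Algebra C L] [IsScalarTower C B L]
    (M : Submonoid C) [IsLocalization M B] (hM : M ≤ nonZeroDivisors C)
    (hBL : Function.Injective (algebraMap B L))
    {w : L} (hw : IsIntegral C w) :
    (minpoly C w).map (algebraMap C B) = minpoly B w := by
  have hCB : Function.Injective (algebraMap C B) := IsLocalization.injective B hM
  haveI : Module.IsTorsionFree B L := Module.isTorsionFree_iff_algebraMap_injective.mpr hBL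
  haveI : Module.IsTorsionFree C L := Module.isTorsionFree_iff_algebraMap_injective.mpr (by
    rw [IsScalarTower.algebraMap_eq C B L]; exact hBL.comp hCB)
  refine IsIntegrallyClosed.minpoly.unique ((minpoly.monic hw).map _) ?_ ?_
  · rw [aeval_map_algebraMap, minpoly.aeval]
  · intro Q hQ hQw
    obtain ⟨b, hbM, hb⟩ := IsLocalization.integerNormalization_spec M Q
    have h0 : aeval w (IsLocalization.integerNormalization M Q) = 0 :=
      IsLocalization.integerNormalization_aeval_eq_zero M Q hQw
    have hdvd := minpoly.isIntegrallyClosed_dvd hw h0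
    have hQne : Q ≠ 0 := hQ.ne_zero
    have hQ'ne : IsLocalization.integerNormalization M Q ≠ 0 := fun h =>
      hQne ((IsLocalization.integerNormalization_eq_zero_iff hM Q).mp h)
    have hb0 : algebraMap C B b ≠ 0 := fun h =>
      (nonZeroDivisors.ne_zero (hM hbM)) (hCB (by rw [h, map_zero]))
    calc degree ((minpoly C w).map (algebraMap C B))
        = degree (minpoly C w) := degree_map_eq_of_injective hCB _
      _ ≤ degree (IsLocalization.integerNormalization M Q) := degree_le_of_dvd hdvd hQ'ne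
      _ = degree ((IsLocalization.integerNormalization M Q).map (algebraMap C B)) :=
          (degree_map_eq_of_injective hCB _).symm
      _ = degree (b • Q) := by rw [hb]
      _ = degree Q := by
          rw [← IsScalarTower.algebraMap_smul B b Q, smul_eq_C_mul, degree_C_mul hb0]

/-- Abstract descent: `A → B ← C` integrally closed domains, `B` a localization of `C`,
`B → L` injective.  If `w : L` is integral over `C` and every monic relation for `w` over `B`
yields a monic relation of at most the same degree over `A`, then the minimal polynomials of `w`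
over `A` and over `C` have the same image in `B[X]`. -/
theorem exists_common_minpoly [IsIntegrallyClosed A] [IsIntegrallyClosed B] [IsIntegrallyClosed C]
    (fAB : A →+* B) (fCB : C →+* B) (φ : B →+* L)
    (hAB : Function.Injective fAB) (hφ : Function.Injective φ)
    (M : Submonoid C) (hloc : @IsLocalization C _ M B _ fCB.toAlgebra) (hM : M ≤ nonZeroDivisors C)
    {w : L}
    (hw : ∃ P : C[X], P.Monic ∧ eval₂ (φ.comp fCB) w P = 0)
    (hB : ∀ P : B[X], P.Monic → eval₂ φ w P = 0 →
      ∃ P₁ : A[X], P₁.Monic ∧ P₁.natDegree ≤ P.natDegree ∧ eval₂ (φ.comp fAB) w P₁ = 0) :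
    ∃ (Q : A[X]) (Q' : C[X]), Q.Monic ∧ eval₂ (φ.comp fAB) w Q = 0 ∧ Q.map fAB = Q'.map fCB := by
  letI : Algebra A B := fAB.toAlgebra
  letI : Algebra C B := fCB.toAlgebra
  letI : Algebra B L := φ.toAlgebra
  letI : Algebra A L := (φ.comp fAB).toAlgebra
  letI : Algebra C L := (φ.comp fCB).toAlgebra
  haveI : IsScalarTower A B L := IsScalarTower.of_algebraMap_eq (fun _ => rfl)
  haveI : IsScalarTower C B L := IsScalarTower.of_algebraMap_eq (fun _ => rfl)
  haveI : IsLocalization M B := hloc
  have hwC : IsIntegral C w := hw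
  have hwB : IsIntegral B w := hwC.tower_top
  have h1 : (minpoly C w).map (algebraMap C B) = minpoly B w :=
    minpoly_map_eq_of_isLocalization M hM hφ hwC
  obtain ⟨P₁, hP₁m, hP₁d, hP₁w⟩ := hB (minpoly B w) (minpoly.monic hwB) (minpoly.aeval B w)
  have hwA : IsIntegral A w := ⟨P₁, hP₁m, hP₁w⟩
  have hAL : Function.Injective (algebraMap A L) := hφ.comp hAB
  haveI : Module.IsTorsionFree A L := Module.isTorsionFree_iff_algebraMap_injective.mpr hAL
  haveI : Module.IsTorsionFree B L := Module.isTorsionFree_iff_algebraMap_injective.mpr hφ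
  have h2 : (minpoly A w).map (algebraMap A B) = minpoly B w := by
    refine minpoly.IsIntegrallyClosed.unique_of_degree_le_degree_minpoly
      ((minpoly.monic hwA).map _) ?_ ?_
    · rw [aeval_map_algebraMap, minpoly.aeval]
    · have hAB' : Function.Injective (algebraMap A B) := hAB
      rw [degree_map_eq_of_injective hAB']
      calc degree (minpoly A w) ≤ degree P₁ :=
            minpoly.IsIntegrallyClosed.degree_le_of_ne_zero hP₁m.ne_zero hP₁w
        _ ≤ degree (minpoly B w) := by
            rw [degree_eq_natDegree hP₁m.ne_zero, degree_eq_natDegree (minpoly.ne_zero hwB)]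
            exact_mod_cast hP₁d
  exact ⟨minpoly A w, minpoly C w, minpoly.monic hwA, minpoly.aeval A w, h2.trans h1.symm⟩

end Abstract

/-! ### Linear disjointness of `k` and `ℚ((q))` over `ℚ` -/

section LinearDisjoint

open HahnSeries ModularCurve

variable {k : Type*} [Field k] [Algebra ℚ k]

/-- The coefficientwise embedding `ℚ((q)) → k((q))`. -/
abbrev iota : LaurentSeries ℚ →+* LaurentSeries k := coeffMap (algebraMap ℚ k)

theorem iota_injective : Function.Injective (iota (k := k)) := by
  intro x y h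
  ext m
  have := congrArg (fun z => z.coeff m) h
  simp only [coeffMap_coeff] at this
  exact (algebraMap ℚ k).injective this

/-- Coefficientwise application of a `ℚ`-linear functional `k → ℚ`. -/
def coeffFun (lam : k →ₗ[ℚ] ℚ) : LaurentSeries k →ₗ[ℚ] LaurentSeries ℚ where
  toFun z := z.map lam
  map_add' x y := by
    ext m
    simp
  map_smul' r x := by
    ext m
    simp

@[simp] theorem coeffFun_coeff (lam : k →ₗ[ℚ] ℚ) (z : LaurentSeries k) (m : ℤ) :
    (coeffFun lam z).coeff m = lam (z.coeff m) := rfl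

theorem coeffFun_iota (lam : k →ₗ[ℚ] ℚ) (z : LaurentSeries ℚ) :
    coeffFun lam (iota z) = lam 1 • z := by
  ext m
  simp only [coeffFun_coeff, coeffMap_coeff, HahnSeries.coeff_smul, smul_eq_mul]
  rw [Algebra.algebraMap_eq_smul_one, map_smul, smul_eq_mul, mul_comm]

theorem coeffFun_smul (lam : k →ₗ[ℚ] ℚ) (a : k) (z : LaurentSeries k) :
    coeffFun lam (a • z) = coeffFun (lam ∘ₗ LinearMap.mulLeft ℚ a) z := by
  ext m
  simp

/-- **Linear disjointness**: if `ι z` is a `k`-linear combination of `ι s`, `s ∈ S`, then `z` is a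
`ℚ`-linear combination of the `s ∈ S`. -/
theorem mem_span_of_iota_mem_span (S : Set (LaurentSeries ℚ)) {z : LaurentSeries ℚ}
    (hz : iota z ∈ Submodule.span k ((iota (k := k)) '' S)) : z ∈ Submodule.span ℚ S := by
  have key : ∀ x ∈ Submodule.span k ((iota (k := k)) '' S), ∀ lam : k →ₗ[ℚ] ℚ,
      coeffFun lam x ∈ Submodule.span ℚ S := by
    intro x hx
    induction hx using Submodule.span_induction with
    | mem x hx =>
      obtain ⟨s, hs, rfl⟩ := hx
      intro lam
      rw [coeffFun_iota]
      exact Submodule.smul_mem _ _ (Submodule.subset_span hs)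
    | zero => intro lam; rw [map_zero]; exact zero_mem _
    | add x y _ _ hx hy => intro lam; rw [map_add]; exact add_mem (hx lam) (hy lam)
    | smul a x _ hx => intro lam; rw [coeffFun_smul]; exact hx _
  obtain ⟨lam, hlam⟩ : ∃ lam : k →ₗ[ℚ] ℚ, lam 1 = 1 :=
    Module.Projective.exists_dual_eq_one ℚ one_ne_zero
  have := key _ hz lam
  rwa [coeffFun_iota, hlam, one_smul] at this

/-- evaluation `R[X] → E((q))`, `X ↦ x`, coefficients through `f : R →+* E` -/
abbrev evHom {R E : Type*} [CommRing R] [CommRing E] (f : R →+* E) (x : LaurentSeries E) :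
    R[X] →+* LaurentSeries E :=
  eval₂RingHom ((HahnSeries.C : E →+* LaurentSeries E).comp f) x

theorem evHom_apply_eq_sum {R E : Type*} [CommRing R] [CommRing E] (f : R →+* E)
    (x : LaurentSeries E) (p : R[X]) :
    evHom f x p = ∑ m ∈ Finset.range (p.natDegree + 1), HahnSeries.C (f (p.coeff m)) * x ^ m := by
  rw [evHom, coe_eval₂RingHom, eval₂_eq_sum_range]
  rfl

/-- Descending a monic relation: a monic relation of degree `d` for `ι y` over `k[ι t]` gives a
monic relation of degree `d` for `y` over `ℚ[t]`. -/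
theorem exists_monic_rat_of_monic (t y : LaurentSeries ℚ) (P : k[X][X]) (hP : P.Monic)
    (h0 : eval₂ (evHom (RingHom.id k) (iota t)) (iota y) P = 0) :
    ∃ P₁ : ℚ[X][X], P₁.Monic ∧ P₁.natDegree = P.natDegree ∧
      eval₂ (evHom (RingHom.id ℚ) t) y P₁ = 0 := by
  set d := P.natDegree with hd
  set S : Set (LaurentSeries ℚ) := {z | ∃ m n : ℕ, n < d ∧ z = t ^ m * y ^ n} with hS
  have h1 : iota (y ^ d) ∈ Submodule.span k ((iota (k := k)) '' S) := by
    have hsum := h0
    rw [eval₂_eq_sum_range, ← hd, Finset.sum_range_succ, hd, hP.coeff_natDegree, ← hd, map_one,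
      one_mul] at hsum
    have hyd : iota (y ^ d) = - ∑ n ∈ Finset.range d,
        evHom (RingHom.id k) (iota t) (P.coeff n) * (iota y : LaurentSeries k) ^ n := by
      rw [map_pow]
      exact eq_neg_of_add_eq_zero_right hsum
    rw [hyd]
    refine Submodule.neg_mem _ (Submodule.sum_mem _ fun n hn => ?_)
    rw [evHom_apply_eq_sum, Finset.sum_mul]
    refine Submodule.sum_mem _ fun m _ => ?_
    rw [mul_assoc, ← map_pow, ← map_pow, ← map_mul, HahnSeries.C_mul_eq_smul, RingHom.id_apply]
    exact Submodule.smul_mem _ _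
      (Submodule.subset_span ⟨_, ⟨m, n, Finset.mem_range.mp hn, rfl⟩, rfl⟩)
  have h2 := mem_span_of_iota_mem_span S h1
  have h3 : ∀ z ∈ Submodule.span ℚ S, ∃ Q : ℚ[X][X], Q.degree < d ∧
      eval₂ (evHom (RingHom.id ℚ) t) y Q = z := by
    intro z hz
    induction hz using Submodule.span_induction with
    | mem z hz =>
      obtain ⟨m, n, hn, rfl⟩ := hz
      refine ⟨monomial n (X ^ m), ?_, ?_⟩
      · exact lt_of_le_of_lt (degree_monomial_le _ _) (by exact_mod_cast hn)
      · simp [eval₂_monomial]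
    | zero => exact ⟨0, by simp, by simp⟩
    | add z₁ z₂ _ _ h₁ h₂ =>
      obtain ⟨Q₁, hQ₁, rfl⟩ := h₁
      obtain ⟨Q₂, hQ₂, rfl⟩ := h₂
      exact ⟨Q₁ + Q₂, lt_of_le_of_lt (degree_add_le _ _) (max_lt hQ₁ hQ₂), eval₂_add _ _⟩
    | smul r z _ h =>
      obtain ⟨Q, hQ, rfl⟩ := h
      refine ⟨(Polynomial.C r : ℚ[X]) • Q, lt_of_le_of_lt (degree_smul_le _ _) hQ, ?_⟩
      rw [eval₂_smul, evHom, coe_eval₂RingHom, eval₂_C, RingHom.comp_apply, RingHom.id_apply,
        HahnSeries.C_mul_eq_smul]
  obtain ⟨Q, hQd, hQ⟩ := h3 _ h2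
  refine ⟨X ^ d - Q, monic_X_pow_sub hQd, ?_, ?_⟩
  · have hX : (X ^ d : ℚ[X][X]).degree = d := degree_X_pow d
    have := degree_sub_eq_left_of_degree_lt (p := (X ^ d : ℚ[X][X])) (q := Q) (by rw [hX]; exact hQd)
    rw [hX] at this
    exact natDegree_eq_of_degree_eq_some this
  · rw [eval₂_sub, eval₂_X_pow, hQ, sub_self]

/-- Transcendence transfers along `ι`. -/
theorem evHom_iota_injective {t : LaurentSeries ℚ}
    (ht : Function.Injective (evHom (RingHom.id ℚ) t)) :
    Function.Injective (evHom (RingHom.id k) (iota t)) := by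
  rw [injective_iff_map_eq_zero]
  intro p hp
  ext m
  rw [Polynomial.coeff_zero]
  refine (Module.forall_dual_apply_eq_zero_iff ℚ (p.coeff m)).mp fun lam => ?_
  set q : ℚ[X] := ∑ i ∈ Finset.range (p.natDegree + 1), monomial i (lam (p.coeff i)) with hq
  have hq0 : evHom (RingHom.id ℚ) t q = 0 := by
    have h := congrArg (coeffFun lam) hp
    rw [map_zero, evHom_apply_eq_sum, map_sum] at h
    rw [hq, map_sum, ← h]
    refine Finset.sum_congr rfl fun i _ => ?_
    rw [HahnSeries.C_mul_eq_smul, ← map_pow, coeffFun_smul, coeffFun_iota, evHom,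
      coe_eval₂RingHom, eval₂_monomial, RingHom.comp_apply, RingHom.id_apply, RingHom.id_apply,
      HahnSeries.C_mul_eq_smul]
    simp
  have hq' : q = 0 := ht (by rw [hq0, map_zero])
  have h := congrArg (fun r => r.coeff m) hq'
  simp only [hq, finsetSum_coeff, coeff_monomial, Finset.sum_ite_eq', Finset.mem_range,
    Polynomial.coeff_zero] at h
  by_cases hm : m < p.natDegree + 1
  · simpa [hm] using h
  · rw [coeff_eq_zero_of_natDegree_lt (by omega), map_zero]

end LinearDisjoint

/-! ### The descent theorem -/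

section Descent

open HahnSeries ModularCurve

variable {k : Type*} [Field k] [Algebra ℚ k]

theorem evHom_comp_mapRingHom {R E : Type*} [CommRing R] [CommRing E] (f : R →+* E)
    (x : LaurentSeries E) :
    (evHom (RingHom.id E) x).comp (mapRingHom f) = evHom f x := by
  refine Polynomial.ringHom_ext (fun a => ?_) ?_
  · simp [evHom]
  · simp [evHom]

theorem evHom_iota_comp_mapRingHom (t : LaurentSeries ℚ) :
    (evHom (RingHom.id k) (iota t)).comp (mapRingHom (algebraMap ℚ k)) =
      (iota (k := k)).comp (evHom (RingHom.id ℚ) t) := by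
  refine Polynomial.ringHom_ext (fun a => ?_) ?_
  · simp only [evHom, RingHom.comp_apply, coe_mapRingHom, Polynomial.map_C, coe_eval₂RingHom,
      eval₂_C, RingHom.id_apply]
    rw [HahnSeries.C_apply, HahnSeries.C_apply, coeffMap_single]
  · simp [evHom]

/-- **Descent of integrality** from `𝒪[ι t]` (`𝒪 ⊆ k` integrally closed with fraction field `k`)
to `Z[t]` (`Z ⊆ ℚ` a subring containing `𝒪 ∩ ℚ`), for `y ∈ ℚ((q))` and `t ∈ ℚ((q))`
transcendental over `ℚ`.  Stated with explicit evaluation homomorphisms. -/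
theorem descent_of_monic (𝒪 : Type*) [CommRing 𝒪] [IsDomain 𝒪] [IsIntegrallyClosed 𝒪]
    [Algebra 𝒪 k] [IsFractionRing 𝒪 k]
    (Z : Subring ℚ) (hZ : ∀ x : ℚ, algebraMap ℚ k x ∈ (algebraMap 𝒪 k).range → x ∈ Z)
    {t : LaurentSeries ℚ} (ht : Function.Injective (evHom (RingHom.id ℚ) t))
    (y : LaurentSeries ℚ)
    (hy : ∃ P : 𝒪[X][X], P.Monic ∧ eval₂ (evHom (algebraMap 𝒪 k) (iota t)) (iota y) P = 0) :
    ∃ Q : (Polynomial Z)[X], Q.Monic ∧ eval₂ (evHom Z.subtype t) y Q = 0 := by
  classical
  have hloc : @IsLocalization 𝒪[X] _ ((nonZeroDivisors 𝒪).map (Polynomial.C : 𝒪 →+* 𝒪[X])) k[X] _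
      (mapRingHom (algebraMap 𝒪 k)).toAlgebra :=
    Polynomial.isLocalization (nonZeroDivisors 𝒪) k
  have hM : (nonZeroDivisors 𝒪).map (Polynomial.C : 𝒪 →+* 𝒪[X]) ≤ nonZeroDivisors 𝒪[X] := by
    rintro _ ⟨a, ha, rfl⟩
    exact mem_nonZeroDivisors_of_ne_zero
      (by simpa using nonZeroDivisors.ne_zero ha)
  have hAB : Function.Injective (mapRingHom (algebraMap ℚ k)) :=
    Polynomial.map_injective _ (algebraMap ℚ k).injective
  obtain ⟨Q, Q', hQm, hQ0, hQQ'⟩ := exists_common_minpoly (A := ℚ[X]) (B := k[X]) (C := 𝒪[X])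
    (L := LaurentSeries k) (mapRingHom (algebraMap ℚ k)) (mapRingHom (algebraMap 𝒪 k))
    (evHom (RingHom.id k) (iota t)) hAB (evHom_iota_injective ht) _ hloc hM (w := iota y)
    (by
      obtain ⟨P, hP, hP0⟩ := hy
      exact ⟨P, hP, by rwa [evHom_comp_mapRingHom]⟩)
    (by
      intro P hP hP0
      obtain ⟨P₁, hP₁, hP₁d, hP₁0⟩ := exists_monic_rat_of_monic t y P hP hP0
      refine ⟨P₁, hP₁, hP₁d.le, ?_⟩
      rw [evHom_iota_comp_mapRingHom, ← Polynomial.hom_eval₂, hP₁0, map_zero])
  -- `Q` vanishes at `y`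
  have hQy : eval₂ (evHom (RingHom.id ℚ) t) y Q = 0 := by
    rw [evHom_iota_comp_mapRingHom, ← Polynomial.hom_eval₂] at hQ0
    exact iota_injective (by rw [hQ0, map_zero])
  -- coefficients of `Q` lie in `Z`
  have hcoef : ∀ n m, (Q.coeff n).coeff m ∈ Z := by
    intro n m
    refine hZ _ ⟨(Q'.coeff n).coeff m, ?_⟩
    have h := congrArg (fun R => (R.coeff n).coeff m) hQQ'
    simp only [coeff_map, coe_mapRingHom] at h
    exact h.symm
  have hlift : Q ∈ Polynomial.lifts (mapRingHom Z.subtype) := by
    rw [Polynomial.lifts_iff_coeff_lifts]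
    intro n
    have : Q.coeff n ∈ Polynomial.lifts Z.subtype := by
      rw [Polynomial.lifts_iff_coeff_lifts]
      intro m
      exact ⟨⟨_, hcoef n m⟩, rfl⟩
    obtain ⟨q, hq⟩ := (Polynomial.mem_lifts _).mp this
    exact ⟨q, hq⟩
  obtain ⟨QZ, hQZ, -, hQZm⟩ := Polynomial.lifts_and_natDegree_eq_and_monic hlift hQm
  refine ⟨QZ, hQZm, ?_⟩
  rw [← evHom_comp_mapRingHom, ← Polynomial.eval₂_map, hQZ, hQy]

end Descent

/-! ### Wrappers: integrality over `R[x]` as an explicit monic relation -/

section Wrappers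

open HahnSeries ModularCurve

/-- Integrality over `R[x] = Algebra.adjoin R {x}` is the existence of a monic polynomial with
coefficients in `R[X]` (evaluated at `x`) vanishing at `w`. -/
theorem isIntegral_adjoin_singleton_iff {R E : Type*} [CommRing R] [CommRing E] [Algebra R E]
    (x w : E) :
    IsIntegral (Algebra.adjoin R {x}) w ↔
      ∃ P : R[X][X], P.Monic ∧ eval₂ ((aeval x : R[X] →ₐ[R] E) : R[X] →+* E) w P = 0 := by
  set x' : Algebra.adjoin R {x} := ⟨x, Algebra.self_mem_adjoin_singleton R x⟩ with hx'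
  set ψ : R[X] →+* Algebra.adjoin R {x} :=
    ((aeval x' : R[X] →ₐ[R] Algebra.adjoin R {x}) : R[X] →+* Algebra.adjoin R {x}) with hψ
  have hcomp : (algebraMap (Algebra.adjoin R {x}) E).comp ψ =
      ((aeval x : R[X] →ₐ[R] E) : R[X] →+* E) := by
    refine RingHom.ext fun p => ?_
    simp only [RingHom.comp_apply, hψ, RingHom.coe_coe]
    rw [Subalgebra.algebraMap_def, aeval_subalgebra_coe]
    rfl
  have hsurj : Function.Surjective ψ := by
    rintro ⟨a, ha⟩
    rw [Algebra.adjoin_singleton_eq_range_aeval] at ha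
    obtain ⟨p, rfl⟩ := ha
    refine ⟨p, Subtype.ext ?_⟩
    simp only [hψ, RingHom.coe_coe]
    rw [aeval_subalgebra_coe]
    rfl
  constructor
  · rintro ⟨p, hp, hp0⟩
    have hlift : p ∈ Polynomial.lifts ψ := by
      rw [Polynomial.lifts_iff_coeff_lifts]
      intro n
      exact hsurj _
    obtain ⟨P, hP, -, hPm⟩ := Polynomial.lifts_and_natDegree_eq_and_monic hlift hp
    refine ⟨P, hPm, ?_⟩
    rw [← hcomp, ← Polynomial.eval₂_map, hP]
    exact hp0
  · rintro ⟨P, hP, hP0⟩
    refine ⟨P.map ψ, hP.map _, ?_⟩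
    rw [Polynomial.eval₂_map, hcomp]
    exact hP0

theorem algebraMap_laurentSeries_apply {R E : Type*} [CommRing R] [CommRing E] [Algebra R E]
    (a : R) : algebraMap R (LaurentSeries E) a = HahnSeries.C (algebraMap R E a) := by
  rw [HahnSeries.algebraMap_apply', PowerSeries.algebraMap_apply, HahnSeries.ofPowerSeries_C]

theorem aeval_eq_evHom {R E : Type*} [CommRing R] [CommRing E] [Algebra R E]
    (x : LaurentSeries E) :
    ((aeval x : R[X] →ₐ[R] LaurentSeries E) : R[X] →+* LaurentSeries E) =
      evHom (algebraMap R E) x := by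
  refine Polynomial.ringHom_ext (fun a => ?_) ?_
  · simp only [RingHom.coe_coe, aeval_C, evHom, coe_eval₂RingHom, eval₂_C, RingHom.comp_apply]
    exact algebraMap_laurentSeries_apply a
  · simp [evHom]

/-- Integrality over `R[x]` inside `E((q))`, with the explicit evaluation homomorphism. -/
theorem isIntegral_adjoin_singleton_iff_evHom {R E : Type*} [CommRing R] [CommRing E]
    [Algebra R E] (x w : LaurentSeries E) :
    IsIntegral (Algebra.adjoin R {x}) w ↔
      ∃ P : R[X][X], P.Monic ∧ eval₂ (evHom (algebraMap R E) x) w P = 0 := by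
  rw [isIntegral_adjoin_singleton_iff, aeval_eq_evHom]

theorem injective_evHom_of_transcendental {t : LaurentSeries ℚ} (ht : Transcendental ℚ t) :
    Function.Injective (evHom (RingHom.id ℚ) t) := by
  have h := transcendental_iff_injective.mp ht
  have h2 := aeval_eq_evHom (R := ℚ) (E := ℚ) t
  rw [Algebra.algebraMap_self] at h2
  rw [← h2]
  exact h

/-- **Descent of integrality**, `IsIntegral` form. -/
theorem descent_isIntegral {k : Type*} [Field k] [Algebra ℚ k]
    (𝒪 : Type*) [CommRing 𝒪] [IsDomain 𝒪] [IsIntegrallyClosed 𝒪]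
    [Algebra 𝒪 k] [IsFractionRing 𝒪 k]
    (Z : Subring ℚ) (hZ : ∀ x : ℚ, algebraMap ℚ k x ∈ (algebraMap 𝒪 k).range → x ∈ Z)
    {t : LaurentSeries ℚ} (ht : Transcendental ℚ t) (y : LaurentSeries ℚ)
    (hy : IsIntegral (Algebra.adjoin 𝒪 {(iota t : LaurentSeries k)}) (iota y : LaurentSeries k)) :
    IsIntegral (Algebra.adjoin Z {t}) y := by
  rw [isIntegral_adjoin_singleton_iff_evHom] at hy ⊢
  exact descent_of_monic 𝒪 Z hZ (injective_evHom_of_transcendental ht) y hy

end Wrappers

/-! ### The Prelude shape: membership in the chart algebras -/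

section PreludeShape

open HahnSeries ModularCurve ModularCurve.IgusaScheme

theorem injective_evHom_jqModC (K : Type*) [CommRing K] [Nontrivial K] :
    Function.Injective (evHom (RingHom.id K) (jqModC K)) := by
  rw [injective_iff_map_eq_zero]
  intro p hp
  by_contra hp0
  set n := p.natDegree with hn
  have hcoeff : (evHom (RingHom.id K) (jqModC K) p).coeff (-(n : ℤ)) = p.coeff n := by
    rw [evHom_apply_eq_sum, HahnSeries.coeff_sum, Finset.sum_eq_single n]
    · rw [HahnSeries.C_apply, HahnSeries.coeff_single_zero_mul, coeff_jqModC_pow_self,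
        mul_one, RingHom.id_apply]
    · intro i hi hin
      have hilt : i < n := lt_of_le_of_ne (Nat.lt_succ_iff.mp (Finset.mem_range.mp hi)) hin
      rw [HahnSeries.C_apply, HahnSeries.coeff_single_zero_mul, coeff_jqModC_pow_of_lt,
        mul_zero]
      omega
    · intro hn'
      exact absurd (Finset.self_mem_range_succ n) hn'
  rw [hp] at hcoeff
  simp only [HahnSeries.coeff_zero] at hcoeff
  exact hp0 (Polynomial.leadingCoeff_eq_zero.mp hcoeff.symm)

theorem transcendental_jq : Transcendental ℚ jq := by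
  rw [transcendental_iff_injective]
  have h2 := aeval_eq_evHom (R := ℚ) (E := ℚ) jq
  rw [Algebra.algebraMap_self] at h2
  have h3 := injective_evHom_jqModC ℚ
  rw [jqModC_rat, ← h2] at h3
  exact h3

theorem transcendental_jq_inv : Transcendental ℚ jq⁻¹ := fun h =>
  transcendental_jq (IsAlgebraic.inv_iff.mp h)

variable {k : Type*} [Field k] [Algebra ℚ k]

theorem iota_jq : (iota jq : LaurentSeries k) = jqModC k := by
  rw [← jqModC_rat, iota, coeffMap_jqModC]

theorem iota_jq_inv : (iota jq⁻¹ : LaurentSeries k) = (jqModC k)⁻¹ := by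
  rw [map_inv₀, iota_jq]

variable (N : ℕ) [NeZero N] (ℓ : ℕ) [Fact ℓ.Prime]

/-- transport of an explicit monic relation over `ℤ_(ℓ)[t]` in `ℚ((q))` to integrality over
`ℤ_(ℓ)[s]` in the function field, for `s` in the function field with `(s : ℚ((q))) = t`. -/
theorem isIntegral_adjoin_of_monic (s x : modularFunctionFieldFull N)
    (h : ∃ Q : (Polynomial (GaloisRep.ratLocalizedAt ℓ))[X], Q.Monic ∧
      eval₂ (evHom (GaloisRep.ratLocalizedAt ℓ).subtype (s : LaurentSeries ℚ))
        (x : LaurentSeries ℚ) Q = 0) :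
    IsIntegral (Algebra.adjoin (GaloisRep.ratLocalizedAt ℓ) {s}) x := by
  rw [isIntegral_adjoin_singleton_iff]
  obtain ⟨Q, hQ, hQ0⟩ := h
  refine ⟨Q, hQ, ?_⟩
  have hinj : Function.Injective
      (algebraMap (modularFunctionFieldFull N) (LaurentSeries ℚ)) :=
    (algebraMap (modularFunctionFieldFull N) (LaurentSeries ℚ)).injective
  apply hinj
  rw [map_zero, Polynomial.hom_eval₂]
  have hcomp : (algebraMap (modularFunctionFieldFull N) (LaurentSeries ℚ)).comp
      ((aeval s : (Polynomial (GaloisRep.ratLocalizedAt ℓ)) →ₐ[GaloisRep.ratLocalizedAt ℓ]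
        modularFunctionFieldFull N) :
        (Polynomial (GaloisRep.ratLocalizedAt ℓ)) →+* modularFunctionFieldFull N) =
      evHom (GaloisRep.ratLocalizedAt ℓ).subtype (s : LaurentSeries ℚ) := by
    refine Polynomial.ringHom_ext (fun a => ?_) ?_
    · simp only [RingHom.comp_apply, RingHom.coe_coe, aeval_C, evHom, coe_eval₂RingHom, eval₂_C]
      rw [IntermediateField.algebraMap_apply]
      change ((algebraMap ℚ (modularFunctionFieldFull N) (a : ℚ) :
        modularFunctionFieldFull N) : LaurentSeries ℚ) = _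
      simp
    · simp [evHom]
  rw [hcomp]
  exact hQ0

variable {N ℓ}

/-- the ring homomorphism `F → ℚ((q)) → k((q))` -/
abbrev toK (N : ℕ) (k : Type*) [Field k] [Algebra ℚ k] :
    modularFunctionFieldFull N →+* LaurentSeries k :=
  (iota (k := k)).comp (algebraMap (modularFunctionFieldFull N) (LaurentSeries ℚ))

theorem toK_apply (x : modularFunctionFieldFull N) :
    toK N k x = iota (x : LaurentSeries ℚ) := rfl

section Fin

variable (𝒪 : Type*) [CommRing 𝒪] [IsDomain 𝒪] [IsIntegrallyClosed 𝒪]
  [Algebra 𝒪 k] [IsFractionRing 𝒪 k]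

/-- **Descent, chart `j`**: if the image in `k((q))` of `x ∈ F` is integral over `𝒪[j]`, then
`x` lies in `chartAlgFin N ℓ`. -/
theorem mem_chartAlgFin_of_isIntegral
    (hZ : ∀ x : ℚ, algebraMap ℚ k x ∈ (algebraMap 𝒪 k).range → x ∈ GaloisRep.ratLocalizedAt ℓ)
    (x : modularFunctionFieldFull N)
    (hx : IsIntegral (Algebra.adjoin 𝒪 {jqModC k})
      (iota (x : LaurentSeries ℚ) : LaurentSeries k)) :
    x ∈ chartAlgFin N ℓ := by
  rw [mem_chartAlg_iff]
  refine isIntegral_adjoin_of_monic N ℓ (jFull N) x ?_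
  rw [← iota_jq] at hx
  exact descent_of_monic 𝒪 _ hZ (injective_evHom_of_transcendental transcendental_jq) x
    ((isIntegral_adjoin_singleton_iff_evHom _ _).mp hx)

/-- **Descent, chart `1/j`**: if the image in `k((q))` of `x ∈ F` is integral over `𝒪[1/j]`,
then `x` lies in `chartAlgInf N ℓ`. -/
theorem mem_chartAlgInf_of_isIntegral
    (hZ : ∀ x : ℚ, algebraMap ℚ k x ∈ (algebraMap 𝒪 k).range → x ∈ GaloisRep.ratLocalizedAt ℓ)
    (x : modularFunctionFieldFull N)
    (hx : IsIntegral (Algebra.adjoin 𝒪 {(jqModC k)⁻¹})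
      (iota (x : LaurentSeries ℚ) : LaurentSeries k)) :
    x ∈ chartAlgInf N ℓ := by
  rw [mem_chartAlg_iff]
  refine isIntegral_adjoin_of_monic N ℓ (jFull N)⁻¹ x ?_
  rw [← iota_jq_inv] at hx
  have h := descent_of_monic 𝒪 _ hZ (injective_evHom_of_transcendental transcendental_jq_inv) x
    ((isIntegral_adjoin_singleton_iff_evHom _ _).mp hx)
  rwa [IntermediateField.coe_inv, coe_jFull]

end Fin

end PreludeShape

end Fermat.Agent.S28.DescentLemma
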