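import Fermat.Agent.S28.Defs

/-!
Gauss valuation ring inside Laurent series over the fraction field of a discrete valuation ring.
-/

set_option autoImplicit false
set_option linter.unusedSectionVars false

noncomputable section

namespace Fermat.Agent.S28

open ModularCurve

section Gauss

variable (O : Type*) (k : Type*) [CommRing O] [IsDomain O] [IsDiscreteValuationRing O]
  [Field k] [Algebra O k] [IsFractionRing O k]

/-- Coefficientwise embedding of Laurent series over `O` into Laurent series over `k`. -/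
def serEmb : LaurentSeries O →+* LaurentSeries k := coeffMap (algebraMap O k)

/-- Coefficientwise reduction of Laurent series over `O` to the residue field. -/
def serRed : LaurentSeries O →+* LaurentSeries (IsLocalRing.ResidueField O) :=
  coeffMap (IsLocalRing.residue O)

@[simp] theorem serEmb_coeff (x : LaurentSeries O) (n : ℤ) :
    (serEmb O k x).coeff n = algebraMap O k (x.coeff n) := rfl

@[simp] theorem serRed_coeff (x : LaurentSeries O) (n : ℤ) :
    (serRed O x).coeff n = IsLocalRing.residue O (x.coeff n) := rfl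

theorem serEmb_injective : Function.Injective (serEmb O k) := by
  intro x y h
  ext n
  have h1 := congrArg (fun z => z.coeff n) h
  simp only [serEmb_coeff] at h1
  exact IsFractionRing.injective O k h1

theorem serEmb_eq_zero_iff {x : LaurentSeries O} : serEmb O k x = 0 ↔ x = 0 :=
  map_eq_zero_iff _ (serEmb_injective O k)

theorem serEmb_smul (c : O) (x : LaurentSeries O) :
    serEmb O k (c • x) = (algebraMap O k c) • serEmb O k x := by
  ext n
  simp [HahnSeries.coeff_smul, Algebra.smul_def]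

theorem serRed_smul (c : O) (x : LaurentSeries O) :
    serRed O (c • x) = (IsLocalRing.residue O c) • serRed O x := by
  ext n
  simp [HahnSeries.coeff_smul]

variable {O k}

theorem exists_smul_of_serRed_eq_zero {ϖ : O} (hϖ : Irreducible ϖ) {x : LaurentSeries O}
    (hx : serRed O x = 0) : ∃ y : LaurentSeries O, x = ϖ • y := by
  have hc : ∀ n : ℤ, ∃ c : O, x.coeff n = ϖ * c := by
    intro n
    have h1 : IsLocalRing.residue O (x.coeff n) = 0 := by
      have := congrArg (fun z => z.coeff n) hx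
      simpa using this
    rw [IsLocalRing.residue_eq_zero_iff, hϖ.maximalIdeal_eq, Ideal.mem_span_singleton'] at h1
    obtain ⟨c, hc⟩ := h1
    exact ⟨c, by rw [← hc, mul_comm]⟩
  choose c hc using hc
  have hsupp : Function.support c ⊆ x.support := by
    intro n hn
    rw [Function.mem_support] at hn
    rw [HahnSeries.mem_support, hc n]
    exact mul_ne_zero hϖ.ne_zero hn
  refine ⟨⟨c, x.isPWO_support.mono hsupp⟩, ?_⟩
  ext n
  rw [HahnSeries.coeff_smul, hc n, smul_eq_mul]

theorem exists_pow_smul_serRed_ne_zero {ϖ : O} (hϖ : Irreducible ϖ) {x : LaurentSeries O}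
    (hx : x ≠ 0) : ∃ (n : ℕ) (y : LaurentSeries O), x = ϖ ^ n • y ∧ serRed O y ≠ 0 := by
  obtain ⟨m, hm⟩ : ∃ m : ℤ, x.coeff m ≠ 0 := by
    by_contra h
    push Not at h
    exact hx (HahnSeries.ext (funext h))
  obtain ⟨v, u, hu⟩ := IsDiscreteValuationRing.eq_unit_mul_pow_irreducible hm hϖ
  clear hm hx
  induction v generalizing x u with
  | zero =>
    refine ⟨0, x, by simp, ?_⟩
    intro h0
    have h1 : IsLocalRing.residue O (x.coeff m) = 0 := by
      have := congrArg (fun z => z.coeff m) h0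
      simpa using this
    rw [hu, pow_zero, mul_one, IsLocalRing.residue_eq_zero_iff] at h1
    exact (IsLocalRing.maximalIdeal O).ne_top_iff_one.mp
      (IsLocalRing.maximalIdeal.isMaximal O).ne_top
      (by simpa using (Ideal.mul_mem_left _ (↑u⁻¹ : O) h1))
  | succ v ih =>
    by_cases h0 : serRed O x = 0
    · obtain ⟨y, rfl⟩ := exists_smul_of_serRed_eq_zero hϖ h0
      have hy : y.coeff m = ↑u * ϖ ^ v := by
        rw [HahnSeries.coeff_smul, smul_eq_mul, pow_succ] at hu
        have : ϖ * y.coeff m = ϖ * (↑u * ϖ ^ v) := by rw [hu]; ring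
        exact mul_left_cancel₀ hϖ.ne_zero this
      obtain ⟨n, z, hz, hz0⟩ := ih u hy
      exact ⟨n + 1, z, by rw [hz, pow_succ, mul_smul, smul_comm], hz0⟩
    · exact ⟨0, x, by simp, h0⟩

variable (O k)

/-- The fraction field of `O((t))` inside `k((t))`. -/
def gaussField : Subfield (LaurentSeries k) := Subfield.closure (Set.range (serEmb O k))

theorem serEmb_mem_gaussField (g : LaurentSeries O) : serEmb O k g ∈ gaussField O k :=
  Subfield.subset_closure ⟨g, rfl⟩

variable {O k}

theorem mem_gaussField_iff {x : LaurentSeries k} :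
    x ∈ gaussField O k ↔
      ∃ g h : LaurentSeries O, h ≠ 0 ∧ x * serEmb O k h = serEmb O k g := by
  constructor
  · intro hx
    rw [gaussField, Subfield.mem_closure_iff] at hx
    obtain ⟨y, hy, z, hz, rfl⟩ := hx
    have hcl : Subring.closure (Set.range (serEmb O k)) = (serEmb O k).range := by
      rw [← RingHom.coe_range, Subring.closure_eq]
    rw [hcl] at hy hz
    obtain ⟨g, rfl⟩ := hy
    obtain ⟨h, rfl⟩ := hz
    by_cases hh : h = 0
    · refine ⟨0, 1, one_ne_zero, ?_⟩
      simp [hh]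
    · refine ⟨g, h, hh, ?_⟩
      rw [div_mul_cancel₀]
      exact (serEmb_eq_zero_iff O k).not.mpr hh
  · rintro ⟨g, h, hh, hx⟩
    have hh' : serEmb O k h ≠ 0 := (serEmb_eq_zero_iff O k).not.mpr hh
    have : x = serEmb O k g / serEmb O k h := by
      rw [eq_div_iff hh', hx]
    rw [this]
    exact div_mem (serEmb_mem_gaussField O k g) (serEmb_mem_gaussField O k h)

variable (O k)

/-- The Gauss valuation ring: fractions `g / h` with `h` of nonzero reduction. -/
def gaussRing : Subring (LaurentSeries k) where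
  carrier := {x | ∃ g h : LaurentSeries O, serRed O h ≠ 0 ∧ x * serEmb O k h = serEmb O k g}
  zero_mem' := ⟨0, 1, by simp, by simp⟩
  one_mem' := ⟨1, 1, by simp, by simp⟩
  add_mem' := by
    rintro x y ⟨g, h, hh, hx⟩ ⟨g', h', hh', hy⟩
    refine ⟨g * h' + g' * h, h * h', ?_, ?_⟩
    · rw [map_mul]; exact mul_ne_zero hh hh'
    · rw [map_mul, map_add, map_mul, map_mul, ← hx, ← hy]; ring
  mul_mem' := by
    rintro x y ⟨g, h, hh, hx⟩ ⟨g', h', hh', hy⟩
    refine ⟨g * g', h * h', ?_, ?_⟩
    · rw [map_mul]; exact mul_ne_zero hh hh'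
    · rw [map_mul, map_mul, ← hx, ← hy]; ring
  neg_mem' := by
    rintro x ⟨g, h, hh, hx⟩
    exact ⟨-g, h, hh, by rw [map_neg, ← hx]; ring⟩

variable {O k}

theorem mem_gaussRing_iff {x : LaurentSeries k} :
    x ∈ gaussRing O k ↔
      ∃ g h : LaurentSeries O, serRed O h ≠ 0 ∧ x * serEmb O k h = serEmb O k g := Iff.rfl

theorem serEmb_mem_gaussRing (g : LaurentSeries O) : serEmb O k g ∈ gaussRing O k :=
  ⟨g, 1, by simp, by simp⟩

theorem gaussRing_le_gaussField : (gaussRing O k : Set (LaurentSeries k)) ⊆ gaussField O k := by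
  rintro x ⟨g, h, hh, hx⟩
  exact mem_gaussField_iff.mpr ⟨g, h, fun h0 => hh (by rw [h0, map_zero]), hx⟩

variable (O k)

/-- Reduction of an element of the Gauss ring (junk value `0` outside). -/
def gaussRedFun (x : LaurentSeries k) : LaurentSeries (IsLocalRing.ResidueField O) :=
  open Classical in
  if hx : x ∈ gaussRing O k then
    serRed O hx.choose / serRed O hx.choose_spec.choose
  else 0

variable {O k}

theorem gaussRedFun_eq {x : LaurentSeries k} {g h : LaurentSeries O} (hh : serRed O h ≠ 0)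
    (hx : x * serEmb O k h = serEmb O k g) :
    gaussRedFun O k x = serRed O g / serRed O h := by
  have hmem : x ∈ gaussRing O k := ⟨g, h, hh, hx⟩
  rw [gaussRedFun, dif_pos hmem]
  obtain ⟨hh', hx'⟩ := hmem.choose_spec.choose_spec
  set g' := hmem.choose
  set h' := hmem.choose_spec.choose
  rw [div_eq_div_iff hh' hh]
  have h1 : serEmb O k (g' * h) = serEmb O k (g * h') := by
    rw [map_mul, map_mul, ← hx, ← hx']; ring
  have h2 := serEmb_injective O k h1
  rw [← map_mul, ← map_mul, h2]

variable (O k)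

/-- Reduction map from the Gauss ring to Laurent series over the residue field. -/
def gaussRed : gaussRing O k →+* LaurentSeries (IsLocalRing.ResidueField O) where
  toFun x := gaussRedFun O k x
  map_zero' := by
    have := gaussRedFun_eq (O := O) (k := k) (x := 0) (g := 0) (h := 1) (by simp) (by simp)
    simpa using this
  map_one' := by
    have := gaussRedFun_eq (O := O) (k := k) (x := 1) (g := 1) (h := 1) (by simp) (by simp)
    simpa using this
  map_add' := by
    rintro ⟨x, g, h, hh, hx⟩ ⟨y, g', h', hh', hy⟩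
    have hsum : (x + y) * serEmb O k (h * h') = serEmb O k (g * h' + g' * h) := by
      rw [map_mul, map_add, map_mul, map_mul, ← hx, ← hy]; ring
    have hne : serRed O (h * h') ≠ 0 := by rw [map_mul]; exact mul_ne_zero hh hh'
    show gaussRedFun O k (x + y) = gaussRedFun O k x + gaussRedFun O k y
    rw [gaussRedFun_eq hne hsum, gaussRedFun_eq hh hx, gaussRedFun_eq hh' hy, map_add, map_mul,
      map_mul, map_mul, div_add_div _ _ hh hh', mul_comm (serRed O h) (serRed O g')]
  map_mul' := by
    rintro ⟨x, g, h, hh, hx⟩ ⟨y, g', h', hh', hy⟩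
    have hprod : (x * y) * serEmb O k (h * h') = serEmb O k (g * g') := by
      rw [map_mul, map_mul, ← hx, ← hy]; ring
    have hne : serRed O (h * h') ≠ 0 := by rw [map_mul]; exact mul_ne_zero hh hh'
    show gaussRedFun O k (x * y) = gaussRedFun O k x * gaussRedFun O k y
    rw [gaussRedFun_eq hne hprod, gaussRedFun_eq hh hx, gaussRedFun_eq hh' hy, map_mul, map_mul,
      div_mul_div_comm]

variable {O k}

theorem gaussRed_apply (x : gaussRing O k) : gaussRed O k x = gaussRedFun O k x := rfl

theorem gaussRed_eq {x : gaussRing O k} {g h : LaurentSeries O} (hh : serRed O h ≠ 0)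
    (hx : (x : LaurentSeries k) * serEmb O k h = serEmb O k g) :
    gaussRed O k x = serRed O g / serRed O h :=
  gaussRedFun_eq hh hx

theorem gaussRed_mk_eq {x : LaurentSeries k} (hx : x ∈ gaussRing O k) {g h : LaurentSeries O}
    (hh : serRed O h ≠ 0) (hxgh : x * serEmb O k h = serEmb O k g) :
    gaussRed O k ⟨x, hx⟩ = serRed O g / serRed O h :=
  gaussRedFun_eq hh hxgh

theorem gaussRed_serEmb (g : LaurentSeries O) :
    gaussRed O k ⟨serEmb O k g, serEmb_mem_gaussRing g⟩ = serRed O g := by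
  rw [gaussRed_mk_eq _ (g := g) (h := 1) (by simp) (by simp)]
  simp

theorem serEmb_C (a : O) :
    serEmb O k (HahnSeries.C a) = HahnSeries.C (algebraMap O k a) := by
  rw [HahnSeries.C_apply, HahnSeries.C_apply, serEmb, coeffMap_single]

theorem serRed_C (a : O) :
    serRed O (HahnSeries.C a) = HahnSeries.C (IsLocalRing.residue O a) := by
  rw [HahnSeries.C_apply, HahnSeries.C_apply, serRed, coeffMap_single]

theorem serEmb_pow_smul (c : O) (n : ℕ) (x : LaurentSeries O) :
    serEmb O k (c ^ n • x) = HahnSeries.C (algebraMap O k c) ^ n * serEmb O k x := by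
  rw [← HahnSeries.C_mul_eq_smul, map_mul, serEmb_C, map_pow, map_pow]

theorem algebraMap_eq_C (c : k) : algebraMap k (LaurentSeries k) c = HahnSeries.C c := by
  rw [algebraMap_laurentSeries_eq_single, HahnSeries.C_apply]

theorem C_mem_gaussRing (a : O) : HahnSeries.C (algebraMap O k a) ∈ gaussRing O k := by
  rw [← serEmb_C]; exact serEmb_mem_gaussRing _

theorem gaussRed_C (a : O) :
    gaussRed O k ⟨HahnSeries.C (algebraMap O k a), C_mem_gaussRing a⟩ =
      HahnSeries.C (IsLocalRing.residue O a) := by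
  have h := gaussRed_serEmb (O := O) (k := k) (HahnSeries.C a)
  rw [serRed_C] at h
  rw [← h]
  congr 1
  exact Subtype.ext (serEmb_C a).symm

theorem C_mem_gaussField (c : k) : HahnSeries.C c ∈ gaussField O k := by
  obtain ⟨a, b, hb, rfl⟩ := IsFractionRing.div_surjective (A := O) c
  rw [map_div₀]
  refine div_mem ?_ ?_
  · exact gaussRing_le_gaussField (C_mem_gaussRing a)
  · exact gaussRing_le_gaussField (C_mem_gaussRing b)

/-- An element of the Gauss ring with nonzero reduction is a unit of the Gauss ring. -/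
theorem inv_mem_gaussRing {x : LaurentSeries k} (hx : x ∈ gaussRing O k)
    (hred : gaussRed O k ⟨x, hx⟩ ≠ 0) : x⁻¹ ∈ gaussRing O k := by
  obtain ⟨g, h, hh, hxgh⟩ := mem_gaussRing_iff.mp hx
  have hg : serRed O g ≠ 0 := by
    intro hg
    apply hred
    rw [gaussRed_mk_eq _ hh hxgh, hg, zero_div]
  have hh' : serEmb O k h ≠ 0 := fun h0 =>
    hh (by rw [(serEmb_eq_zero_iff O k).mp h0, map_zero])
  have hg' : serEmb O k g ≠ 0 := fun h0 =>
    hg (by rw [(serEmb_eq_zero_iff O k).mp h0, map_zero])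
  have hx0 : x ≠ 0 := by
    rintro rfl
    rw [zero_mul] at hxgh
    exact hg' hxgh.symm
  refine ⟨h, g, hg, ?_⟩
  rw [← hxgh, inv_mul_cancel_left₀ hx0]

theorem gaussRed_eq_zero_iff {ϖ : O} (hϖ : Irreducible ϖ) {x : LaurentSeries k}
    (hx : x ∈ gaussRing O k) :
    gaussRed O k ⟨x, hx⟩ = 0 ↔
      ∃ v ∈ gaussRing O k, x = HahnSeries.C (algebraMap O k ϖ) * v := by
  constructor
  · intro h0
    obtain ⟨g, h, hh, hxgh⟩ := mem_gaussRing_iff.mp hx
    rw [gaussRed_mk_eq _ hh hxgh, div_eq_zero_iff, or_iff_left hh] at h0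
    obtain ⟨g', rfl⟩ := exists_smul_of_serRed_eq_zero hϖ h0
    have hh' : serEmb O k h ≠ 0 := fun h0 =>
      hh (by rw [(serEmb_eq_zero_iff O k).mp h0, map_zero])
    refine ⟨serEmb O k g' / serEmb O k h, ⟨g', h, hh, by rw [div_mul_cancel₀ _ hh']⟩, ?_⟩
    rw [← HahnSeries.C_mul_eq_smul, map_mul, serEmb_C] at hxgh
    rw [mul_div_assoc', ← hxgh, mul_div_assoc, div_self hh', mul_one]
  · rintro ⟨v, hv, rfl⟩
    have : (⟨HahnSeries.C (algebraMap O k ϖ) * v, hx⟩ : gaussRing O k) =
        ⟨HahnSeries.C (algebraMap O k ϖ), C_mem_gaussRing ϖ⟩ * ⟨v, hv⟩ := rfl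
    rw [this, map_mul, gaussRed_C]
    have : IsLocalRing.residue O ϖ = 0 := by
      rw [IsLocalRing.residue_eq_zero_iff, hϖ.maximalIdeal_eq]
      exact Ideal.mem_span_singleton_self ϖ
    rw [this, map_zero, zero_mul]

/-- Normal form of nonzero elements of the Gauss field. -/
theorem exists_pow_mul_eq_pow_mul {ϖ : O} (hϖ : Irreducible ϖ) {x : LaurentSeries k}
    (hx : x ∈ gaussField O k) (hx0 : x ≠ 0) :
    ∃ (a b : ℕ) (v : LaurentSeries k) (hv : v ∈ gaussRing O k),
      gaussRed O k ⟨v, hv⟩ ≠ 0 ∧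
        x * HahnSeries.C (algebraMap O k ϖ) ^ b = HahnSeries.C (algebraMap O k ϖ) ^ a * v := by
  obtain ⟨g, h, hh, hxgh⟩ := mem_gaussField_iff.mp hx
  have hh' : serEmb O k h ≠ 0 := (serEmb_eq_zero_iff O k).not.mpr hh
  have hg : g ≠ 0 := by
    rintro rfl
    rw [map_zero] at hxgh
    exact (mul_ne_zero hx0 hh') hxgh
  obtain ⟨a, g₀, rfl, hg₀⟩ := exists_pow_smul_serRed_ne_zero hϖ hg
  obtain ⟨b, h₀, rfl, hh₀⟩ := exists_pow_smul_serRed_ne_zero hϖ hh
  have hh₀' : serEmb O k h₀ ≠ 0 := fun h0 =>
    hh₀ (by rw [(serEmb_eq_zero_iff O k).mp h0, map_zero])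
  have hvmem : serEmb O k g₀ / serEmb O k h₀ ∈ gaussRing O k :=
    ⟨g₀, h₀, hh₀, by rw [div_mul_cancel₀ _ hh₀']⟩
  refine ⟨a, b, serEmb O k g₀ / serEmb O k h₀, hvmem, ?_, ?_⟩
  · rw [gaussRed_mk_eq hvmem hh₀ (by rw [div_mul_cancel₀ _ hh₀'])]
    exact div_ne_zero hg₀ hh₀
  · rw [serEmb_pow_smul, serEmb_pow_smul] at hxgh
    rw [mul_div_assoc', ← hxgh]
    field_simp

theorem C_unif_ne_zero {ϖ : O} (hϖ : Irreducible ϖ) :
    (HahnSeries.C (algebraMap O k ϖ) : LaurentSeries k) ≠ 0 := by
  intro h
  have h1 : algebraMap O k ϖ = 0 := by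
    have := congrArg (fun z => HahnSeries.coeff z 0) h
    simpa [HahnSeries.C_apply] using this
  exact hϖ.ne_zero ((map_eq_zero_iff _ (IsFractionRing.injective O k)).mp h1)

/-- The Gauss ring is a valuation ring of the Gauss field. -/
theorem mem_gaussRing_or_inv_mem {ϖ : O} (hϖ : Irreducible ϖ) {x : LaurentSeries k}
    (hx : x ∈ gaussField O k) : x ∈ gaussRing O k ∨ x⁻¹ ∈ gaussRing O k := by
  by_cases hx0 : x = 0
  · left; rw [hx0]; exact zero_mem _
  obtain ⟨a, b, v, hv, hvred, hxv⟩ := exists_pow_mul_eq_pow_mul hϖ hx hx0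
  have hc := C_unif_ne_zero (k := k) hϖ
  have hcm : (HahnSeries.C (algebraMap O k ϖ) : LaurentSeries k) ∈ gaussRing O k :=
    C_mem_gaussRing ϖ
  rcases le_total b a with hba | hab
  · left
    obtain ⟨c, rfl⟩ := Nat.exists_eq_add_of_le hba
    have : x = HahnSeries.C (algebraMap O k ϖ) ^ c * v := by
      rw [pow_add, mul_assoc] at hxv
      have h2 : x * HahnSeries.C (algebraMap O k ϖ) ^ b =
          (HahnSeries.C (algebraMap O k ϖ) ^ c * v) * HahnSeries.C (algebraMap O k ϖ) ^ b := by
        rw [hxv]; ring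
      exact mul_right_cancel₀ (pow_ne_zero b hc) h2
    rw [this]
    exact mul_mem (pow_mem hcm c) hv
  · right
    obtain ⟨c, rfl⟩ := Nat.exists_eq_add_of_le hab
    have hv0 : v ≠ 0 := by
      rintro rfl
      exact hvred (map_zero _)
    have hvinv := inv_mem_gaussRing hv hvred
    have : x⁻¹ = HahnSeries.C (algebraMap O k ϖ) ^ c * v⁻¹ := by
      rw [pow_add] at hxv
      have h2 : x * HahnSeries.C (algebraMap O k ϖ) ^ c = v := by
        have h3 : (x * HahnSeries.C (algebraMap O k ϖ) ^ c) *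
            HahnSeries.C (algebraMap O k ϖ) ^ a = v * HahnSeries.C (algebraMap O k ϖ) ^ a := by
          rw [mul_comm v, ← hxv]; ring
        exact mul_right_cancel₀ (pow_ne_zero a hc) h3
      rw [← h2]
      field_simp
    rw [this]
    exact mul_mem (pow_mem hcm c) hvinv

/-- An element of a field integral over a subring containing its inverse lies in the subring. -/
theorem mem_of_isIntegral_of_inv_mem {L : Type*} [Field L] (R : Subring L) {x : L}
    (hx : IsIntegral R x) (hinv : x⁻¹ ∈ R) : x ∈ R := by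
  by_cases hx0 : x = 0
  · rw [hx0]; exact zero_mem _
  have hxy : x * x⁻¹ = 1 := mul_inv_cancel₀ hx0
  obtain ⟨p, hp, hpx⟩ := hx
  rw [Polynomial.eval₂_eq_sum_range] at hpx
  set n := p.natDegree with hn
  rw [Finset.sum_range_succ, hp.coeff_natDegree, map_one, one_mul] at hpx
  have hn0 : n ≠ 0 := by
    intro h0
    rw [h0, Finset.sum_range_zero, pow_zero, zero_add] at hpx
    exact one_ne_zero hpx
  obtain ⟨m, hm⟩ := Nat.exists_eq_succ_of_ne_zero hn0
  have h1 : x ^ n = - ∑ i ∈ Finset.range n, algebraMap R L (p.coeff i) * x ^ i :=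
    eq_neg_of_add_eq_zero_right hpx
  have h2 : x ^ n * (x⁻¹) ^ m = x := by
    rw [hm, pow_succ, mul_assoc, mul_comm x, ← mul_assoc, ← mul_pow, hxy, one_pow, one_mul]
  have key : x = - ∑ i ∈ Finset.range n, algebraMap R L (p.coeff i) * (x⁻¹) ^ (m - i) := by
    have h3 : (- ∑ i ∈ Finset.range n, algebraMap R L (p.coeff i) * x ^ i) * (x⁻¹) ^ m =
        - ∑ i ∈ Finset.range n, algebraMap R L (p.coeff i) * (x⁻¹) ^ (m - i) := by
      rw [neg_mul, Finset.sum_mul]
      congr 1
      refine Finset.sum_congr rfl fun i hi => ?_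
      have him : i ≤ m := by
        have := Finset.mem_range.mp hi
        omega
      have hsplit : (x⁻¹) ^ m = (x⁻¹) ^ i * (x⁻¹) ^ (m - i) := by
        rw [← pow_add, Nat.add_sub_cancel' him]
      rw [mul_assoc, hsplit, ← mul_assoc (x ^ i), ← mul_pow, hxy, one_pow, one_mul]
    rw [← h3, ← h1, h2]
  rw [key]
  refine neg_mem (sum_mem fun i _ => mul_mem ?_ (pow_mem hinv _))
  exact (p.coeff i).2

/-- The Gauss ring is integrally closed in the Gauss field. -/
theorem mem_gaussRing_of_isIntegral {ϖ : O} (hϖ : Irreducible ϖ) {x : LaurentSeries k}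
    (hx : x ∈ gaussField O k) (hint : IsIntegral (gaussRing O k) x) : x ∈ gaussRing O k := by
  rcases mem_gaussRing_or_inv_mem hϖ hx with h | h
  · exact h
  · exact mem_of_isIntegral_of_inv_mem _ hint h

/-! ### Comparison with the predicates of `Defs` -/

theorem mem_gaussRing_iff_isGaussInt {x : LaurentSeries k} :
    x ∈ gaussRing O k ↔ IsGaussInt O k x := by
  constructor
  · rintro ⟨g, h, hh, hx⟩
    exact ⟨h, g, hh, by rw [mul_comm]; exact hx⟩
  · rintro ⟨h, g, hh, hx⟩
    exact ⟨g, h, hh, by rw [mul_comm]; exact hx⟩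

theorem mem_gaussField_iff_isFracInt {x : LaurentSeries k} :
    x ∈ gaussField O k ↔ IsFracInt O k x := by
  rw [mem_gaussField_iff]
  constructor
  · rintro ⟨g, h, hh, hx⟩
    exact ⟨h, g, hh, by rw [mul_comm]; exact hx⟩
  · rintro ⟨h, g, hh, hx⟩
    exact ⟨g, h, hh, by rw [mul_comm]; exact hx⟩

theorem intSeries_le_gaussRing : (intSeries O k : Set (LaurentSeries k)) ⊆ gaussRing O k := by
  rintro x ⟨g, rfl⟩
  exact serEmb_mem_gaussRing g

/-- `IsGaussInt` elements with `IsFracInt` and integral over the Gauss ring: the shape asked for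
by the chart reduction. -/
theorem isGaussInt_of_isFracInt_of_isIntegral {x : LaurentSeries k} (hx : IsFracInt O k x)
    (hint : IsIntegral (gaussRing O k) x) : IsGaussInt O k x := by
  obtain ⟨ϖ, hϖ⟩ := IsDiscreteValuationRing.exists_irreducible O
  exact mem_gaussRing_iff_isGaussInt.mp
    (mem_gaussRing_of_isIntegral hϖ (mem_gaussField_iff_isFracInt.mpr hx) hint)

end Gauss

end Fermat.Agent.S28
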