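import Mathlib
import Fermat.Prelude.Def_ModularCurve_IgusaScheme
import Fermat.Prelude.Def_ModularCurve_X0ModL

set_option autoImplicit false
open AlgebraicGeometry CategoryTheory CategoryTheory.Limits ModularCurve ModularCurve.IgusaScheme
open TensorProduct

noncomputable section

namespace Fermat.Agent.S28

/-- A space covered by two irreducible open subsets with nonempty overlap is irreducible. -/
theorem irreducibleSpace_of_two_open {X : Type*} [TopologicalSpace X] (U₁ U₂ : Set X)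
    (h₁ : IsOpen U₁) (_h₂ : IsOpen U₂) (hU : ∀ x, x ∈ U₁ ∨ x ∈ U₂)
    (hi₁ : IsIrreducible U₁) (hi₂ : IsIrreducible U₂) (hne : (U₁ ∩ U₂).Nonempty) :
    IrreducibleSpace X := by
  have key : ∀ W : Set X, IsOpen W → W.Nonempty → (U₁ ∩ W).Nonempty := by
    intro W hW ⟨x, hx⟩
    rcases hU x with hx1 | hx2
    · exact ⟨x, hx1, hx⟩
    · obtain ⟨y, hy2, hyW, hy1⟩ := hi₂.2 W U₁ hW h₁ ⟨x, hx2, hx⟩ (by rwa [Set.inter_comm])
      exact ⟨y, hy1, hyW⟩
  have : PreirreducibleSpace X := PreirreducibleSpace.of_forall_nonempty_inter (by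
    intro U V hUo hVo hUne hVne
    obtain ⟨y, -, hy⟩ := hi₁.2 U V hUo hVo (key U hUo hUne) (key V hVo hVne)
    exact ⟨y, hy⟩)
  exact ⟨⟨hne.some⟩⟩

variable (N : ℕ) [NeZero N] (ℓ : ℕ) [Fact ℓ.Prime]

/-- The two-chart open cover of the Igusa scheme. -/
def igusaCover2 : (ModularCurve.IgusaScheme N ℓ).OpenCover :=
  Scheme.Cover.mkOfCovers Bool
    (fun b => cond b (XFin N ℓ) (XInf N ℓ))
    (fun b => match b with
      | true => ιFin N ℓ
      | false => ιInf N ℓ)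
    (by
      intro x
      rcases mem_range_ιFin_or_mem_range_ιInf N ℓ x with ⟨y, hy⟩ | ⟨y, hy⟩
      · exact ⟨true, y, hy⟩
      · exact ⟨false, y, hy⟩)
    (by
      intro b
      cases b
      · exact isOpenImmersion_ιInf N ℓ
      · exact isOpenImmersion_ιFin N ℓ)

end Fermat.Agent.S28

namespace Fermat.Agent.S28

variable (N : ℕ) [NeZero N] (ℓ : ℕ) [Fact ℓ.Prime]
variable (K : Type) [Field K] [Algebra ↥(GaloisRep.ratLocalizedAt ℓ) K]

/-- the base change morphism `Spec K ⟶ Spec ℤ_(ℓ)` -/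
abbrev baseK : Spec (CommRingCat.of K) ⟶ Spec (CommRingCat.of ↥(GaloisRep.ratLocalizedAt ℓ)) :=
  Spec.map (CommRingCat.ofHom (algebraMap ↥(GaloisRep.ratLocalizedAt ℓ) K))

theorem isIntegral_of_iso_spec_domain {X : Scheme.{0}} (D : Type) [CommRing D] [IsDomain D]
    (e : X ≅ Spec (CommRingCat.of D)) : IsIntegral X := by
  have : Nonempty ↥X := ⟨e.inv (Classical.arbitrary _)⟩
  exact isIntegral_of_isOpenImmersion e.hom

/-- the chart `Spec (A ⊗ K)` of the special fibre, finite chart -/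
def chartFinIso :
    pullback (ιFin N ℓ ≫ igusaTo N ℓ) (baseK ℓ K) ≅
      Spec (CommRingCat.of (chartAlgFin N ℓ ⊗[↥(GaloisRep.ratLocalizedAt ℓ)] K)) :=
  pullback.congrHom (ιFin_igusaTo N ℓ) rfl ≪≫ pullbackSpecIso ↥(GaloisRep.ratLocalizedAt ℓ) (chartAlgFin N ℓ) K

def chartInfIso :
    pullback (ιInf N ℓ ≫ igusaTo N ℓ) (baseK ℓ K) ≅
      Spec (CommRingCat.of (chartAlgInf N ℓ ⊗[↥(GaloisRep.ratLocalizedAt ℓ)] K)) :=
  pullback.congrHom (ιInf_igusaTo N ℓ) rfl ≪≫ pullbackSpecIso ↥(GaloisRep.ratLocalizedAt ℓ) (chartAlgInf N ℓ) K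

theorem fFin_ιFin_igusaTo : fFin N ℓ ≫ ιFin N ℓ ≫ igusaTo N ℓ =
    Spec.map (CommRingCat.ofHom (algebraMap ↥(GaloisRep.ratLocalizedAt ℓ) (chartAlgMid N ℓ))) := by
  have h : (inclFin N ℓ).toRingHom.comp (algebraMap ↥(GaloisRep.ratLocalizedAt ℓ) (chartAlgFin N ℓ)) =
      algebraMap ↥(GaloisRep.ratLocalizedAt ℓ) (chartAlgMid N ℓ) :=
    RingHom.ext fun a => (inclFin N ℓ).commutes a
  rw [ιFin_igusaTo, ← Spec.map_comp, ← CommRingCat.ofHom_comp, h]

def chartMidIso :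
    pullback (fFin N ℓ ≫ ιFin N ℓ ≫ igusaTo N ℓ) (baseK ℓ K) ≅
      Spec (CommRingCat.of (chartAlgMid N ℓ ⊗[↥(GaloisRep.ratLocalizedAt ℓ)] K)) :=
  pullback.congrHom (fFin_ιFin_igusaTo N ℓ) rfl ≪≫
    pullbackSpecIso ↥(GaloisRep.ratLocalizedAt ℓ) (chartAlgMid N ℓ) K

/-- the induced two-chart cover of the special fibre -/
def fibreCover : (pullback (igusaTo N ℓ) (baseK ℓ K)).OpenCover :=
  Scheme.Pullback.openCoverOfLeft (igusaCover2 N ℓ) (igusaTo N ℓ) (baseK ℓ K)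

theorem range_fibreCover (i : (igusaCover2 N ℓ).I₀) :
    Set.range ((fibreCover N ℓ K).f i) =
    pullback.fst (igusaTo N ℓ) (baseK ℓ K) ⁻¹' Set.range ((igusaCover2 N ℓ).f i) := by
  refine (Scheme.Pullback.range_map ((igusaCover2 N ℓ).f i ≫ igusaTo N ℓ) (baseK ℓ K)
    (igusaTo N ℓ) (baseK ℓ K) ((igusaCover2 N ℓ).f i) (𝟙 _) (𝟙 _) (by simp) (by simp)).trans ?_
  simp

theorem isIntegral_pullback_of_algebra
    (hA : IsDomain (chartAlgFin N ℓ ⊗[↥(GaloisRep.ratLocalizedAt ℓ)] K))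
    (hB : IsDomain (chartAlgInf N ℓ ⊗[↥(GaloisRep.ratLocalizedAt ℓ)] K))
    (hC : Nontrivial (chartAlgMid N ℓ ⊗[↥(GaloisRep.ratLocalizedAt ℓ)] K)) :
    IsIntegral (pullback (igusaTo N ℓ) (baseK ℓ K)) := by
  have hintT : IsIntegral ((fibreCover N ℓ K).X true) :=
    isIntegral_of_iso_spec_domain _ (chartFinIso N ℓ K)
  have hintF : IsIntegral ((fibreCover N ℓ K).X false) :=
    isIntegral_of_iso_spec_domain _ (chartInfIso N ℓ K)
  have hint : ∀ i, IsIntegral ((fibreCover N ℓ K).X i) := fun i => by cases i <;> assumption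
  have hred : IsReduced (pullback (igusaTo N ℓ) (baseK ℓ K)) :=
    (IsReduced.iff_of_openCover _ (fibreCover N ℓ K)).mpr fun i => by
      have := hint i
      infer_instance
  have hopen : ∀ i, IsOpen (Set.range ((fibreCover N ℓ K).f i)) :=
    fun i => ((fibreCover N ℓ K).f i).isOpenEmbedding.isOpen_range
  have hirr : ∀ i, IsIrreducible (Set.range ((fibreCover N ℓ K).f i)) := fun i => by
    have := hint i
    rw [← Set.image_univ]
    exact (IrreducibleSpace.isIrreducible_univ _).image _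
      ((fibreCover N ℓ K).f i).continuous.continuousOn
  -- a point in the overlap
  obtain ⟨z⟩ : Nonempty ↥(pullback (fFin N ℓ ≫ ιFin N ℓ ≫ igusaTo N ℓ) (baseK ℓ K)) :=
    ⟨(chartMidIso N ℓ K).inv (Classical.arbitrary _)⟩
  let m := pullback.map (fFin N ℓ ≫ ιFin N ℓ ≫ igusaTo N ℓ) (baseK ℓ K) (igusaTo N ℓ) (baseK ℓ K)
    (fFin N ℓ ≫ ιFin N ℓ) (𝟙 _) (𝟙 _) (by simp) (by simp)
  have hm : pullback.fst (igusaTo N ℓ) (baseK ℓ K) (m z) =
      (fFin N ℓ ≫ ιFin N ℓ) (pullback.fst (fFin N ℓ ≫ ιFin N ℓ ≫ igusaTo N ℓ) (baseK ℓ K) z) := by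
    have h1 : m ≫ pullback.fst (igusaTo N ℓ) (baseK ℓ K) =
        pullback.fst (fFin N ℓ ≫ ιFin N ℓ ≫ igusaTo N ℓ) (baseK ℓ K) ≫ (fFin N ℓ ≫ ιFin N ℓ) := by
      exact pullback.lift_fst _ _ _
    rw [← Scheme.Hom.comp_apply, h1, Scheme.Hom.comp_apply]
  have hirrX : IrreducibleSpace ↥(pullback (igusaTo N ℓ) (baseK ℓ K)) := by
    refine irreducibleSpace_of_two_open (Set.range ((fibreCover N ℓ K).f true))
      (Set.range ((fibreCover N ℓ K).f false))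
      (hopen _) (hopen _) ?_ (hirr _) (hirr _) ⟨m z, ?_, ?_⟩
    · intro x
      obtain ⟨i, y, hy⟩ := (fibreCover N ℓ K).exists_eq x
      cases i
      · exact Or.inr ⟨y, hy⟩
      · exact Or.inl ⟨y, hy⟩
    · rw [range_fibreCover N ℓ K true, Set.mem_preimage, hm]
      exact ⟨fFin N ℓ (pullback.fst (fFin N ℓ ≫ ιFin N ℓ ≫ igusaTo N ℓ) (baseK ℓ K) z), by rw [Scheme.Hom.comp_apply]; rfl⟩
    · rw [range_fibreCover N ℓ K false, Set.mem_preimage, hm, glue_condition]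
      exact ⟨fInf N ℓ (pullback.fst (fFin N ℓ ≫ ιFin N ℓ ≫ igusaTo N ℓ) (baseK ℓ K) z), by rw [Scheme.Hom.comp_apply]; rfl⟩
  exact isIntegral_of_irreducibleSpace_of_isReduced _

end Fermat.Agent.S28
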