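import Fermat.Agent.S28.ChartSeries
import Fermat.Agent.S28.GaussRing
import Fermat.Agent.S28.DescentLemma
import Fermat.Agent.S28.CycloSetup
import Fermat.Agent.S28.SchemeGlue
import Fermat.Agent.S28_helper54.Tensor

/-!
# Reduction of the charts of the Igusa scheme (module D3 of T28)

* functoriality of the Gauss ring along `(O₁, k₁) → (O₂, k₂)`;
* the reduction `chartRed : chartAlg N ℓ S →+* κ((q))` for `S ⊆ {j, 1/j}`;
* its kernel on the two charts `j`, `1/j` is `(ℓ)`, given the core statements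
  (`CoreFin`, `CoreInf`) over a discrete valuation ring `O` dominating `ℤ_(ℓ)`;
* the three facts needed by `SchemeGlue.isIntegral_pullback_of_algebra`.
-/

set_option autoImplicit false
set_option linter.unusedSectionVars false

noncomputable section

namespace Fermat.Agent.S28.ChartReduction

open ModularCurve ModularCurve.IgusaScheme HahnSeries GaloisRep Fermat.Agent.S28
  Fermat.Agent.S28.ChartSeries

/-! ### Functoriality of the Gauss ring -/

section Functoriality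

variable {O₁ k₁ O₂ k₂ : Type*}
  [CommRing O₁] [IsDomain O₁] [IsDiscreteValuationRing O₁] [Field k₁] [Algebra O₁ k₁]
  [IsFractionRing O₁ k₁]
  [CommRing O₂] [IsDomain O₂] [IsDiscreteValuationRing O₂] [Field k₂] [Algebra O₂ k₂]
  [IsFractionRing O₂ k₂]
  (f : O₁ →+* O₂) (φ : k₁ →+* k₂)

include f in
theorem coeffMap_serEmb (hf : ∀ r, algebraMap O₂ k₂ (f r) = φ (algebraMap O₁ k₁ r))
    (g : LaurentSeries O₁) :
    coeffMap φ (serEmb O₁ k₁ g) = serEmb O₂ k₂ (coeffMap f g) := by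
  ext n
  simp only [serEmb, coeffMap_coeff]
  exact (hf _).symm

theorem serRed_coeffMap_ne_zero {h : LaurentSeries O₁} (hh : serRed O₁ h ≠ 0) :
    serRed O₂ (coeffMap f h) ≠ 0 := by
  intro h0
  apply hh
  ext n
  have h1 := congrArg (fun z => HahnSeries.coeff z n) h0
  simp only [serRed_coeff, coeffMap_coeff, HahnSeries.coeff_zero] at h1 ⊢
  rw [IsLocalRing.residue_eq_zero_iff] at h1 ⊢
  by_contra hu
  have hunit : IsUnit (h.coeff n) := by
    by_contra hnu
    exact hu ((IsLocalRing.mem_maximalIdeal _).mpr hnu)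
  exact (IsLocalRing.mem_maximalIdeal _).mp h1 (hunit.map f)

theorem coeffMap_mem_gaussRing (hf : ∀ r, algebraMap O₂ k₂ (f r) = φ (algebraMap O₁ k₁ r))
    {x : LaurentSeries k₁} (hx : x ∈ gaussRing O₁ k₁) : coeffMap φ x ∈ gaussRing O₂ k₂ := by
  obtain ⟨g, h, hh, hxgh⟩ := hx
  refine ⟨coeffMap f g, coeffMap f h, serRed_coeffMap_ne_zero f hh, ?_⟩
  rw [← coeffMap_serEmb f φ hf, ← coeffMap_serEmb f φ hf, ← map_mul, hxgh]

theorem gaussRed_coeffMap_eq_zero (hf : ∀ r, algebraMap O₂ k₂ (f r) = φ (algebraMap O₁ k₁ r))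
    {ϖ : O₁} (hϖ : Irreducible ϖ) (hfϖ : f ϖ ∈ IsLocalRing.maximalIdeal O₂)
    {x : LaurentSeries k₁} (hx : x ∈ gaussRing O₁ k₁)
    (h0 : gaussRed O₁ k₁ ⟨x, hx⟩ = 0) :
    gaussRed O₂ k₂ ⟨coeffMap φ x, coeffMap_mem_gaussRing f φ hf hx⟩ = 0 := by
  obtain ⟨v, hv, rfl⟩ := (gaussRed_eq_zero_iff hϖ hx).mp h0
  have hC : coeffMap φ (HahnSeries.C (algebraMap O₁ k₁ ϖ)) =
      HahnSeries.C (algebraMap O₂ k₂ (f ϖ)) := by
    rw [HahnSeries.C_apply, coeffMap_single, HahnSeries.C_apply, hf]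
  have hmem : coeffMap φ v ∈ gaussRing O₂ k₂ := coeffMap_mem_gaussRing f φ hf hv
  have heq : (⟨coeffMap φ (HahnSeries.C (algebraMap O₁ k₁ ϖ) * v),
      coeffMap_mem_gaussRing f φ hf hx⟩ : gaussRing O₂ k₂) =
      ⟨HahnSeries.C (algebraMap O₂ k₂ (f ϖ)), C_mem_gaussRing (f ϖ)⟩ * ⟨coeffMap φ v, hmem⟩ := by
    apply Subtype.ext
    show coeffMap φ (HahnSeries.C (algebraMap O₁ k₁ ϖ) * v) = _
    rw [map_mul, hC]
    rfl
  rw [heq, map_mul, gaussRed_C, (IsLocalRing.residue_eq_zero_iff _).mpr hfϖ, map_zero, zero_mul]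

end Functoriality

/-! ### The reduction of a chart -/

section ChartRed

variable (N : ℕ) [NeZero N] (ℓ : ℕ) [Fact ℓ.Prime]

/-- the `q`-expansion of an element of a chart lies in the Gauss ring of `ℤ_(ℓ)` -/
theorem coe_mem_gaussRing {S : Set ↥(modularFunctionFieldFull N)}
    (hS : S ⊆ {jFull N, (jFull N)⁻¹}) {x : ↥(modularFunctionFieldFull N)}
    (hx : x ∈ chartAlg N ℓ S) :
    (x : LaurentSeries ℚ) ∈ gaussRing ↥(ratLocalizedAt ℓ) ℚ := by
  refine mem_gaussRing_of_isIntegral (irreducible_ell ℓ)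
    (mem_gaussField_iff_isFracInt.mpr (coe_mem_fracIntField N ℓ x)) ?_
  have h := isIntegral_intSeries_of_mem_chartAlg N ℓ hS hx
  exact h.map_of_comp_eq
    (Subring.inclusion (fun y hy => intSeries_le_gaussRing hy) :
      ↥(intSeries ↥(ratLocalizedAt ℓ) ℚ) →+* ↥(gaussRing ↥(ratLocalizedAt ℓ) ℚ))
    (RingHom.id (LaurentSeries ℚ)) (by ext; rfl)

/-- the inclusion of a chart into the Gauss ring -/
def chartToGauss {S : Set ↥(modularFunctionFieldFull N)} (hS : S ⊆ {jFull N, (jFull N)⁻¹}) :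
    ↥(chartAlg N ℓ S) →+* ↥(gaussRing ↥(ratLocalizedAt ℓ) ℚ) where
  toFun x := ⟨((x : ↥(modularFunctionFieldFull N)) : LaurentSeries ℚ),
    coe_mem_gaussRing N ℓ hS x.2⟩
  map_one' := rfl
  map_mul' _ _ := rfl
  map_zero' := rfl
  map_add' _ _ := rfl

/-- the reduction modulo `ℓ` of a chart, with values in Laurent series over the residue field -/
def chartRed {S : Set ↥(modularFunctionFieldFull N)} (hS : S ⊆ {jFull N, (jFull N)⁻¹}) :
    ↥(chartAlg N ℓ S) →+* LaurentSeries (IsLocalRing.ResidueField ↥(ratLocalizedAt ℓ)) :=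
  (gaussRed ↥(ratLocalizedAt ℓ) ℚ).comp (chartToGauss N ℓ hS)

theorem chartRed_apply {S : Set ↥(modularFunctionFieldFull N)}
    (hS : S ⊆ {jFull N, (jFull N)⁻¹}) (x : ↥(chartAlg N ℓ S)) :
    chartRed N ℓ hS x = gaussRed ↥(ratLocalizedAt ℓ) ℚ
      ⟨((x : ↥(modularFunctionFieldFull N)) : LaurentSeries ℚ), coe_mem_gaussRing N ℓ hS x.2⟩ :=
  rfl

theorem chartRed_algebraMap {S : Set ↥(modularFunctionFieldFull N)}
    (hS : S ⊆ {jFull N, (jFull N)⁻¹}) (r : ↥(ratLocalizedAt ℓ)) :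
    chartRed N ℓ hS (algebraMap ↥(ratLocalizedAt ℓ) ↥(chartAlg N ℓ S) r) =
      HahnSeries.C (algebraMap ↥(ratLocalizedAt ℓ)
        (IsLocalRing.ResidueField ↥(ratLocalizedAt ℓ)) r) := by
  rw [chartRed_apply]
  have h := gaussRed_C (O := ↥(ratLocalizedAt ℓ)) (k := ℚ) r
  rw [IsLocalRing.ResidueField.algebraMap_eq]
  refine Eq.trans ?_ h
  congr 1

end ChartRed

/-! ### The kernel of the reduction -/

section Kernel

variable (N : ℕ) [NeZero N] (ℓ : ℕ) [Fact ℓ.Prime]
variable (k : Type) [Field k] [Algebra ℚ k]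
variable (O : Type) [CommRing O] [IsDomain O] [IsDiscreteValuationRing O] [Algebra O k]
  [IsFractionRing O k]

/-- The core statement for the generator `T` of a chart (`T = j` or `T = 1/j`): an element of
the big field which is integral over `O[T]` and whose Gauss reduction vanishes is divisible by
`π` in the integral closure of `O[T]`. -/
def CoreAt (T : LaurentSeries k) (π : O) : Prop :=
  ∀ x : LaurentSeries k, x ∈ bigField k N → IsIntegral (Algebra.adjoin O {T}) x →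
    ∀ hx : x ∈ gaussRing O k, gaussRed O k ⟨x, hx⟩ = 0 →
      IsIntegral (Algebra.adjoin O {T}) ((HahnSeries.C (algebraMap O k π))⁻¹ * x)

/-- the core statement for the chart `j` -/
def CoreFin (π : O) : Prop := CoreAt N k O (jqModC k) π

/-- the core statement for the chart `1/j` -/
def CoreInf (π : O) : Prop := CoreAt N k O (jqModC k)⁻¹ π

variable {N ℓ k O}

theorem algebraMap_map_ell (f : ↥(ratLocalizedAt ℓ) →+* O)
    (hf : ∀ r : ↥(ratLocalizedAt ℓ), algebraMap O k (f r) = algebraMap ℚ k (r : ℚ)) :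
    algebraMap O k (f (ℓ : ↥(ratLocalizedAt ℓ))) = (ℓ : k) := by
  rw [hf]
  simp

/-- **Kernel of the reduction of a chart**, generic form. -/
theorem exists_eq_ell_mul_of_chartRed_eq_zero {S : Set ↥(modularFunctionFieldFull N)}
    (hS : S ⊆ {jFull N, (jFull N)⁻¹}) (T : LaurentSeries k)
    (f : ↥(ratLocalizedAt ℓ) →+* O)
    (hf : ∀ r : ↥(ratLocalizedAt ℓ), algebraMap O k (f r) = algebraMap ℚ k (r : ℚ))
    (hπ : f (ℓ : ↥(ratLocalizedAt ℓ)) ∈ IsLocalRing.maximalIdeal O)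
    (hbig : ∀ x : ↥(modularFunctionFieldFull N),
      (DescentLemma.iota (x : LaurentSeries ℚ) : LaurentSeries k) ∈ bigField k N)
    (hconv : ∀ x : ↥(modularFunctionFieldFull N), x ∈ chartAlg N ℓ S →
      IsIntegral (Algebra.adjoin O {T}) (DescentLemma.iota (x : LaurentSeries ℚ) : LaurentSeries k))
    (hcore : CoreAt N k O T (f (ℓ : ↥(ratLocalizedAt ℓ))))
    (hdesc : ∀ y : ↥(modularFunctionFieldFull N),
      IsIntegral (Algebra.adjoin O {T}) (DescentLemma.iota (y : LaurentSeries ℚ) : LaurentSeries k) →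
        y ∈ chartAlg N ℓ S)
    (x : ↥(chartAlg N ℓ S)) (hx : chartRed N ℓ hS x = 0) :
    ∃ y : ↥(chartAlg N ℓ S),
      x = algebraMap ↥(ratLocalizedAt ℓ) ↥(chartAlg N ℓ S) (ℓ : ↥(ratLocalizedAt ℓ)) * y := by
  have hf' : ∀ r : ↥(ratLocalizedAt ℓ),
      algebraMap O k (f r) = algebraMap ℚ k (algebraMap ↥(ratLocalizedAt ℓ) ℚ r) := hf
  have hXmem := coe_mem_gaussRing N ℓ hS x.2
  rw [chartRed_apply] at hx
  have hmem2 := coeffMap_mem_gaussRing f (algebraMap ℚ k) hf' hXmem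
  have hred2 := gaussRed_coeffMap_eq_zero f (algebraMap ℚ k) hf' (irreducible_ell ℓ) hπ hXmem hx
  have hint := hcore _ (hbig x) (hconv x x.2) hmem2 hred2
  -- the quotient `x / ℓ` in the function field
  have hℓ0 : ((ℓ : ℕ) : ℚ) ≠ 0 := by
    exact_mod_cast (Fact.out : ℓ.Prime).ne_zero
  have hℓF : ((ℓ : ℕ) : ↥(modularFunctionFieldFull N)) ≠ 0 := by
    exact_mod_cast (Fact.out : ℓ.Prime).ne_zero
  set y0 : ↥(modularFunctionFieldFull N) :=
    ((ℓ : ℕ) : ↥(modularFunctionFieldFull N))⁻¹ * (x : ↥(modularFunctionFieldFull N)) with hy0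
  have hcoe : ((y0 : ↥(modularFunctionFieldFull N)) : LaurentSeries ℚ) =
      (HahnSeries.C ((ℓ : ℕ) : ℚ))⁻¹ * ((x : ↥(modularFunctionFieldFull N)) : LaurentSeries ℚ) := by
    rw [hy0, IntermediateField.coe_mul, IntermediateField.coe_inv]
    congr 2
  have hiota : (DescentLemma.iota ((y0 : ↥(modularFunctionFieldFull N)) : LaurentSeries ℚ) :
      LaurentSeries k) = (HahnSeries.C (algebraMap O k (f (ℓ : ↥(ratLocalizedAt ℓ)))))⁻¹ *
        DescentLemma.iota ((x : ↥(modularFunctionFieldFull N)) : LaurentSeries ℚ) := by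
    rw [hcoe, map_mul, map_inv₀, algebraMap_map_ell f hf]
    congr 2
    rw [HahnSeries.C_apply, coeffMap_single, map_natCast, HahnSeries.C_apply]
  have hy0mem : y0 ∈ chartAlg N ℓ S := hdesc y0 (by rw [hiota]; exact hint)
  refine ⟨⟨y0, hy0mem⟩, Subtype.ext ?_⟩
  rw [Subalgebra.coe_mul, Subalgebra.coe_algebraMap]
  show (x : ↥(modularFunctionFieldFull N)) =
    algebraMap ↥(ratLocalizedAt ℓ) ↥(modularFunctionFieldFull N) (ℓ : ↥(ratLocalizedAt ℓ)) * y0
  rw [map_natCast, hy0, mul_inv_cancel_left₀ hℓF]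

end Kernel

/-! ### The fibres of the charts -/

section Tensor

open TensorProduct

variable {N : ℕ} [NeZero N] {ℓ : ℕ} [Fact ℓ.Prime]
variable (K : Type*) [Field K] [CharP K ℓ] [Algebra ↥(ratLocalizedAt ℓ) K]

theorem residue_surjective_ratLocalizedAt :
    Function.Surjective (algebraMap ↥(ratLocalizedAt ℓ)
      (IsLocalRing.ResidueField ↥(ratLocalizedAt ℓ))) :=
  IsLocalRing.residue_surjective

theorem ker_algebraMap_residueField :
    RingHom.ker (algebraMap ↥(ratLocalizedAt ℓ)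
      (IsLocalRing.ResidueField ↥(ratLocalizedAt ℓ))) =
      Ideal.span {(ℓ : ↥(ratLocalizedAt ℓ))} := by
  rw [IsLocalRing.ResidueField.algebraMap_eq, IsLocalRing.ker_residue,
    maximalIdeal_ratLocalizedAt]

/-- a chart whose reduction has kernel `(ℓ)` has integral fibre over every field of
characteristic `ℓ` -/
theorem isDomain_tensor_of_ker {S : Set ↥(modularFunctionFieldFull N)}
    (hS : S ⊆ {jFull N, (jFull N)⁻¹})
    (hker : ∀ x : ↥(chartAlg N ℓ S), chartRed N ℓ hS x = 0 → ∃ y : ↥(chartAlg N ℓ S),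
      x = algebraMap ↥(ratLocalizedAt ℓ) ↥(chartAlg N ℓ S) (ℓ : ↥(ratLocalizedAt ℓ)) * y) :
    IsDomain (↥(chartAlg N ℓ S) ⊗[↥(ratLocalizedAt ℓ)] K) := by
  refine Fermat.Agent.S28_helper54.isDomain_tensorProduct
    (κ := IsLocalRing.ResidueField ↥(ratLocalizedAt ℓ)) residue_surjective_ratLocalizedAt
    (chartRed N ℓ hS) (chartRed_algebraMap N ℓ hS) ?_
  intro a ha
  obtain ⟨y, rfl⟩ := hker a ha
  refine Ideal.mul_mem_right _ _ (Ideal.mem_map_of_mem _ ?_)
  rw [ker_algebraMap_residueField]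
  exact Ideal.mem_span_singleton_self _

/-- the fibre of every chart is nonzero -/
theorem nontrivial_tensor {S : Set ↥(modularFunctionFieldFull N)}
    (hS : S ⊆ {jFull N, (jFull N)⁻¹}) :
    Nontrivial (↥(chartAlg N ℓ S) ⊗[↥(ratLocalizedAt ℓ)] K) :=
  (Fermat.Agent.S28_helper54.tensorToLaurent (K := K)
    (κ := IsLocalRing.ResidueField ↥(ratLocalizedAt ℓ))
    (chartRed N ℓ hS) (chartRed_algebraMap N ℓ hS)).domain_nontrivial

end Tensor

/-! ### The chart inputs and the final statement -/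

section Input

open TensorProduct

variable (N : ℕ) [NeZero N] (ℓ : ℕ) [Fact ℓ.Prime]
variable (k : Type) [Field k] [Algebra ℚ k]
variable (O : Type) [CommRing O] [IsDomain O] [IsDiscreteValuationRing O] [Algebra O k]
  [IsFractionRing O k]

/-- The inputs of the chart reduction, over a field `k ⊇ ℚ` and a discrete valuation ring `O`
with fraction field `k` dominating `ℤ_(ℓ)` and with uniformizer `ℓ`: transport of the charts to
`k((q))` and the two core statements.

WARNING: all statements are elaborated in this *generic* context, so that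
`Algebra O (LaurentSeries k)` is the instance found from `[Algebra O k]` alone.  (For
`O = cycO N ℓ`, a subalgebra of `k`, instance search in the concrete context finds
`Subalgebra.toAlgebra` instead, which is not syntactically the same.) -/
structure ChartInput (f : ↥(ratLocalizedAt ℓ) →+* O) : Prop where
  compat : ∀ r : ↥(ratLocalizedAt ℓ), algebraMap O k (f r) = algebraMap ℚ k (r : ℚ)
  ell_mem : f (ℓ : ↥(ratLocalizedAt ℓ)) ∈ IsLocalRing.maximalIdeal O
  hZ : ∀ x : ℚ, algebraMap ℚ k x ∈ (algebraMap O k).range → x ∈ ratLocalizedAt ℓ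
  big : ∀ x : ↥(modularFunctionFieldFull N),
    (DescentLemma.iota (x : LaurentSeries ℚ) : LaurentSeries k) ∈ bigField k N
  convFin : ∀ x : ↥(modularFunctionFieldFull N), x ∈ chartAlgFin N ℓ →
    IsIntegral (Algebra.adjoin O {jqModC k})
      (DescentLemma.iota (x : LaurentSeries ℚ) : LaurentSeries k)
  convInf : ∀ x : ↥(modularFunctionFieldFull N), x ∈ chartAlgInf N ℓ →
    IsIntegral (Algebra.adjoin O {(jqModC k)⁻¹})
      (DescentLemma.iota (x : LaurentSeries ℚ) : LaurentSeries k)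
  coreFin : CoreFin N k O (f (ℓ : ↥(ratLocalizedAt ℓ)))
  coreInf : CoreInf N k O (f (ℓ : ↥(ratLocalizedAt ℓ)))

variable {N ℓ k O} {f : ↥(ratLocalizedAt ℓ) →+* O}

theorem ChartInput.ker_fin (h : ChartInput N ℓ k O f) (x : ↥(chartAlgFin N ℓ))
    (hx : chartRed N ℓ (sFin_subset N) x = 0) :
    ∃ y : ↥(chartAlgFin N ℓ),
      x = algebraMap ↥(ratLocalizedAt ℓ) ↥(chartAlgFin N ℓ) (ℓ : ↥(ratLocalizedAt ℓ)) * y :=
  exists_eq_ell_mul_of_chartRed_eq_zero (sFin_subset N) (jqModC k) f h.compat h.ell_mem h.big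
    h.convFin h.coreFin
    (fun y hy => DescentLemma.mem_chartAlgFin_of_isIntegral O h.hZ y hy) x hx

theorem ChartInput.ker_inf (h : ChartInput N ℓ k O f) (x : ↥(chartAlgInf N ℓ))
    (hx : chartRed N ℓ (sInf_subset N) x = 0) :
    ∃ y : ↥(chartAlgInf N ℓ),
      x = algebraMap ↥(ratLocalizedAt ℓ) ↥(chartAlgInf N ℓ) (ℓ : ↥(ratLocalizedAt ℓ)) * y :=
  exists_eq_ell_mul_of_chartRed_eq_zero (sInf_subset N) (jqModC k)⁻¹ f h.compat h.ell_mem h.big
    h.convInf h.coreInf
    (fun y hy => DescentLemma.mem_chartAlgInf_of_isIntegral O h.hZ y hy) x hx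

variable (K : Type) [Field K] [CharP K ℓ] [Algebra ↥(ratLocalizedAt ℓ) K]

theorem ChartInput.isDomain_fin (h : ChartInput N ℓ k O f) :
    IsDomain (↥(chartAlgFin N ℓ) ⊗[↥(ratLocalizedAt ℓ)] K) :=
  isDomain_tensor_of_ker K (sFin_subset N) h.ker_fin

theorem ChartInput.isDomain_inf (h : ChartInput N ℓ k O f) :
    IsDomain (↥(chartAlgInf N ℓ) ⊗[↥(ratLocalizedAt ℓ)] K) :=
  isDomain_tensor_of_ker K (sInf_subset N) h.ker_inf

theorem nontrivial_mid : Nontrivial (↥(chartAlgMid N ℓ) ⊗[↥(ratLocalizedAt ℓ)] K) :=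
  nontrivial_tensor K (subset_refl _)

/-- **The special fibre of the Igusa scheme is integral**, given the chart inputs. -/
theorem ChartInput.isIntegral_pullback (h : ChartInput N ℓ k O f) :
    AlgebraicGeometry.IsIntegral
      (CategoryTheory.Limits.pullback (igusaTo N ℓ) (baseK ℓ K)) :=
  isIntegral_pullback_of_algebra N ℓ K (h.isDomain_fin K) (h.isDomain_inf K) (nontrivial_mid K)

end Input

/-! ### The cyclotomic instantiation -/

section Cyclo

variable (N : ℕ) [NeZero N] (ℓ : ℕ) [Fact ℓ.Prime]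

theorem hZ_cycO (x : ℚ)
    (hx : algebraMap ℚ ↥(cycK N) x ∈ (algebraMap ↥(cycO N ℓ) ↥(cycK N)).range) :
    x ∈ ratLocalizedAt ℓ := by
  obtain ⟨y, hy⟩ := hx
  rw [← rat_mem_cycO_iff N ℓ, ← hy]
  exact y.2

theorem ratLocToCycO_ell :
    ratLocToCycO N ℓ ((ℓ : ℕ) : ↥(ratLocalizedAt ℓ)) = ((ℓ : ℕ) : ↥(cycO N ℓ)) :=
  map_natCast _ _

theorem ratLocToCycO_ell_mem :
    ratLocToCycO N ℓ ((ℓ : ℕ) : ↥(ratLocalizedAt ℓ)) ∈ IsLocalRing.maximalIdeal ↥(cycO N ℓ) := by
  rw [ratLocToCycO_ell]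
  exact ell_mem_maximalIdeal_cycO N ℓ

end Cyclo

end Fermat.Agent.S28.ChartReduction
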