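import Fermat.Agent.S28.CoreGauss5
import Fermat.Agent.S28.DescentLemma

/-!
# Bridges between the abstract core (`ChartHyp`) and the chart reduction

* `IsIntegralElem` for `evalE O k G` on an intermediate field of `k((q))` versus
  `IsIntegral (Algebra.adjoin O {G})` inside `k((q))`;
* `qExpand k N` preserves the Gauss ring, the constants and the multiples of a uniformizer.

Everything is generic in `(O, k)`.
-/

set_option autoImplicit false
set_option linter.unusedSectionVars false

noncomputable section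

namespace Fermat.Agent.S28.CoreBridge

open Polynomial ModularCurve Fermat.Agent.S28

section Integral

variable {O : Type*} {k : Type*} [CommRing O] [IsDomain O] [IsDiscreteValuationRing O]
  [Field k] [Algebra O k] [IsFractionRing O k]

/-- integrality over `O[Gs]` inside `k((q))` in terms of the evaluation map `evalL` -/
theorem isIntegralElem_evalL_iff (Gs w : LaurentSeries k) :
    (evalL O Gs).IsIntegralElem w ↔ IsIntegral (Algebra.adjoin O {Gs}) w :=
  (DescentLemma.isIntegral_adjoin_singleton_iff_evHom Gs w).symm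

variable (E : IntermediateField k (LaurentSeries k))

theorem val_comp_evalE (G : E) :
    ((E.val : E →ₐ[k] LaurentSeries k) : E →+* LaurentSeries k).comp (evalE O k G) =
      evalL O (G : LaurentSeries k) :=
  sigma_comp_evalE (O := O) E.val G

/-- integrality over `O[G]` inside an intermediate field `E` of `k((q))` is integrality inside
`k((q))` -/
theorem isIntegralElem_evalE_iff (G x : E) :
    (evalE O k G).IsIntegralElem x ↔
      IsIntegral (Algebra.adjoin O {(G : LaurentSeries k)}) (x : LaurentSeries k) := by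
  rw [← isIntegralElem_evalL_iff, ← val_comp_evalE E G]
  constructor
  · intro h
    exact h.map ((E.val : E →ₐ[k] LaurentSeries k) : E →+* LaurentSeries k)
  · intro h
    exact h.of_map ((E.val : E →ₐ[k] LaurentSeries k) : E →+* LaurentSeries k).injective

theorem coe_algebraMap_mul (c : k) (x : E) :
    ((algebraMap k E c * x : E) : LaurentSeries k) = HahnSeries.C c * (x : LaurentSeries k) := by
  rw [IntermediateField.coe_mul]
  congr 1
  exact algebraMap_eq_C c

end Integral

section QExpand

variable {O : Type*} {k : Type*} [CommRing O] [IsDomain O] [IsDiscreteValuationRing O]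
  [Field k] [Algebra O k] [IsFractionRing O k] (N : ℕ) [NeZero N]

theorem qExpand_serEmb (g : LaurentSeries O) :
    qExpand k N (serEmb O k g) = serEmb O k (qExpand O N g) :=
  (coeffMap_qExpand (algebraMap O k) N g).symm

theorem serRed_qExpand (g : LaurentSeries O) :
    serRed O (qExpand O N g) = qExpand (IsLocalRing.ResidueField O) N (serRed O g) :=
  coeffMap_qExpand (IsLocalRing.residue O) N g

/-- `q ↦ q^N` preserves the Gauss ring -/
theorem qExpand_mem_gaussRing {x : LaurentSeries k} (hx : x ∈ gaussRing O k) :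
    qExpand k N x ∈ gaussRing O k := by
  obtain ⟨g, h, hh, hxgh⟩ := hx
  refine ⟨qExpand O N g, qExpand O N h, ?_, ?_⟩
  · rw [serRed_qExpand]
    exact fun h0 => hh (qExpand_injective N (by rw [h0, map_zero]))
  · rw [← qExpand_serEmb, ← qExpand_serEmb, ← map_mul, hxgh]

/-- `q ↦ q^N` commutes with the Gauss reduction -/
theorem gaussRed_qExpand {x : LaurentSeries k} (hx : x ∈ gaussRing O k) :
    gaussRed O k ⟨qExpand k N x, qExpand_mem_gaussRing N hx⟩ =
      qExpand (IsLocalRing.ResidueField O) N (gaussRed O k ⟨x, hx⟩) := by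
  obtain ⟨g, h, hh, hxgh⟩ := mem_gaussRing_iff.mp hx
  have hh' : serRed O (qExpand O N h) ≠ 0 := by
    rw [serRed_qExpand]
    exact fun h0 => hh (qExpand_injective N (by rw [h0, map_zero]))
  have hx' : qExpand k N x * serEmb O k (qExpand O N h) = serEmb O k (qExpand O N g) := by
    rw [← qExpand_serEmb, ← qExpand_serEmb, ← map_mul, hxgh]
  rw [gaussRed_mk_eq _ hh' hx', gaussRed_mk_eq hx hh hxgh, serRed_qExpand, serRed_qExpand,
    map_div₀]

/-- multiples of a constant in the Gauss ring are preserved by `q ↦ q^N` -/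
theorem qExpand_eq_C_mul {x : LaurentSeries k} {c : k}
    (hx : ∃ v ∈ gaussRing O k, x = HahnSeries.C c * v) :
    ∃ v ∈ gaussRing O k, qExpand k N x = HahnSeries.C c * v := by
  obtain ⟨v, hv, rfl⟩ := hx
  exact ⟨qExpand k N v, qExpand_mem_gaussRing N hv, by rw [map_mul, qExpand_C]⟩

end QExpand

/-! ### The core statements from `ChartHyp` for a cusp datum -/

section Wrapper

variable {k : Type} [Field k] {O : Type} [CommRing O] [IsDomain O] [IsDiscreteValuationRing O]
  [Algebra O k] [IsFractionRing O k] {N : ℕ} [NeZero N]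

/-- the parameter `j` of the big field -/
def jBig (k : Type) [Field k] (N : ℕ) : ↥(bigField k N) := ⟨jqModC k, jqModC_mem_bigField k N⟩

@[simp] theorem coe_jBig : ((jBig k N : ↥(bigField k N)) : LaurentSeries k) = jqModC k := rfl

@[simp] theorem coe_jBig_inv :
    (((jBig k N)⁻¹ : ↥(bigField k N)) : LaurentSeries k) = (jqModC k)⁻¹ := by
  rw [IntermediateField.coe_inv, coe_jBig]

/-- **Core statement, chart `j`**, from the chart hypotheses of a cusp datum. -/
theorem coreFin_of_chartHyp (D : CuspDatum k N O)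
    (h : ChartHyp (O := O) (fun i => D.σ i) (jBig k N) (qExpand k N (jqModC k)))
    (hunits : ∀ d ∈ N.divisors, ∃ u : (intSubring (evalE O k (jBig k N)))ˣ, ∀ i,
      (h.rho i (u : intSubring (evalE O k (jBig k N)))).order =
        ((N / d : ℕ) : ℤ) * ((Nat.gcd (D.cI i) d : ℕ) : ℤ) ^ 2 - (N : ℤ))
    {ϖ : O} (hϖ : Irreducible ϖ) (x : LaurentSeries k) (hx : x ∈ bigField k N)
    (hint : IsIntegral (Algebra.adjoin O {jqModC k}) x)
    (hred : ∃ v ∈ gaussRing O k, x = HahnSeries.C (algebraMap O k ϖ) * v) :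
    IsIntegral (Algebra.adjoin O {jqModC k}) (HahnSeries.C (algebraMap O k ϖ)⁻¹ * x) := by
  set a : ↥(bigField k N) := ⟨x, hx⟩ with ha
  have hint' : (evalE O k (jBig k N)).IsIntegralElem a :=
    (isIntegralElem_evalE_iff (bigField k N) (jBig k N) a).mpr hint
  have hdiv : ∃ v ∈ gaussRing O k, D.σ D.i₀ a = HahnSeries.C (algebraMap O k ϖ) * v := by
    rw [D.σ_i₀]
    exact qExpand_eq_C_mul N hred
  have h1 := h.coreFin N (NeZero.ne N) D.cI D.cI_dvd D.i₀ D.cI_eq_iff hunits hϖ hint' hdiv
  have h2 := (isIntegralElem_evalE_iff (bigField k N) (jBig k N) _).mp h1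
  rwa [coe_algebraMap_mul] at h2

/-- **Core statement, chart `1/j`**, from the chart hypotheses of a cusp datum. -/
theorem coreInf_of_chartHyp (D : CuspDatum k N O)
    (h : ChartHyp (O := O) (fun i => D.σ i) (jBig k N) (qExpand k N (jqModC k)))
    (h' : ChartHyp (O := O) (fun i => D.σ i) (jBig k N)⁻¹ (qExpand k N (jqModC k))⁻¹)
    (hunits : ∀ d ∈ N.divisors, ∃ u : (intSubring (evalE O k (jBig k N)))ˣ, ∀ i,
      (h.rho i (u : intSubring (evalE O k (jBig k N)))).order =
        ((N / d : ℕ) : ℤ) * ((Nat.gcd (D.cI i) d : ℕ) : ℤ) ^ 2 - (N : ℤ))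
    {ϖ : O} (hϖ : Irreducible ϖ) (x : LaurentSeries k) (hx : x ∈ bigField k N)
    (hint : IsIntegral (Algebra.adjoin O {(jqModC k)⁻¹}) x)
    (hred : ∃ v ∈ gaussRing O k, x = HahnSeries.C (algebraMap O k ϖ) * v) :
    IsIntegral (Algebra.adjoin O {(jqModC k)⁻¹}) (HahnSeries.C (algebraMap O k ϖ)⁻¹ * x) := by
  set a : ↥(bigField k N) := ⟨x, hx⟩ with ha
  have hiff := isIntegralElem_evalE_iff (O := O) (bigField k N) (jBig k N)⁻¹
  rw [coe_jBig_inv] at hiff
  have hint' : (evalE O k (jBig k N)⁻¹).IsIntegralElem a := (hiff a).mpr hint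
  have hdiv : ∃ v ∈ gaussRing O k, D.σ D.i₀ a = HahnSeries.C (algebraMap O k ϖ) * v := by
    rw [D.σ_i₀]
    exact qExpand_eq_C_mul N hred
  have h1 := h.coreInf h' N (NeZero.ne N) D.cI D.cI_dvd D.i₀ D.cI_eq_iff hunits hϖ hint' hdiv
  have h2 := (hiff _).mp h1
  rwa [coe_algebraMap_mul] at h2

end Wrapper

end Fermat.Agent.S28.CoreBridge
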