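import Fermat.Agent.S28.PolyDescent

/-!
# T28 / A4c (continued): Gauss descent for an arbitrary transcendental series, and for `1/j`

* `exists_map_eq_of_isGaussInt_gen`: over the fraction field `k` of a discrete valuation ring `𝒪`,
  for a series `x` with `𝒪`-coefficients whose reduction is transcendental over the residue field:
  if `P(x)(t^N)` is Gauss-integral (`P ∈ k[X]`) then `P ∈ 𝒪[X]`.
* `jInvS R`: the formal inverse `1/j = q - 744 q^2 + ⋯` over any commutative ring, with
  `jqModC R * jInvS R = 1`, base change, transcendence.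
* `exists_map_eq_of_isGaussInt_jInv`, `mem_image_adjoin_inv_of_isGaussInt`: the chart at infinity.
-/

set_option autoImplicit false

noncomputable section

namespace Fermat.Agent.S28.PolyDescent

open ModularCurve HahnSeries Polynomial

section General

variable {S R : Type*} [CommRing S] [CommRing R] (φ : S →+* R)

/-- base change of `Q(x)` along a ring hom of coefficients, for an arbitrary series `x` -/
theorem coeffMap_aeval (x : LaurentSeries S) (Q : S[X]) :
    coeffMap φ (aeval x Q) = aeval (coeffMap φ x) (Q.map φ) := by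
  induction Q using Polynomial.induction_on' with
  | add p q hp hq => rw [map_add, map_add, hp, hq, Polynomial.map_add, map_add]
  | monomial n a =>
    rw [Polynomial.map_monomial, Polynomial.aeval_monomial, Polynomial.aeval_monomial, map_mul,
      map_pow, algebraMap_eq_C, algebraMap_eq_C, HahnSeries.C_apply, HahnSeries.C_apply,
      coeffMap_single]

end General

section GaussGen

variable (𝒪 k : Type*) [CommRing 𝒪] [IsDomain 𝒪] [IsDiscreteValuationRing 𝒪] [Field k]
  [Algebra 𝒪 k] [IsFractionRing 𝒪 k]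

/-- Key step (general series). -/
theorem map_residue_eq_zero_of_isGaussInt_gen (x : LaurentSeries 𝒪)
    (htr : ∀ P : (IsLocalRing.ResidueField 𝒪)[X],
      aeval (coeffMap (IsLocalRing.residue 𝒪) x) P = 0 → P = 0)
    (N : ℕ) [NeZero N] {ϖ : 𝒪} (P : k[X]) (Q₀ : 𝒪[X])
    (n : ℕ) (hQ₀ : Q₀.map (algebraMap 𝒪 k) = Polynomial.C (algebraMap 𝒪 k ϖ ^ (n + 1)) * P)
    (hϖ : ϖ ∈ IsLocalRing.maximalIdeal 𝒪)
    (hG : IsGaussInt 𝒪 k (qExpand k N (aeval (coeffMap (algebraMap 𝒪 k) x) P))) :
    Q₀.map (IsLocalRing.residue 𝒪) = 0 := by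
  obtain ⟨h, g, hh, hhg⟩ := hG
  have hinj : Function.Injective (coeffMap (algebraMap 𝒪 k)) :=
    coeffMap_injective _ (IsFractionRing.injective 𝒪 k)
  have key : h * qExpand 𝒪 N (aeval x Q₀) = HahnSeries.C (ϖ ^ (n + 1)) * g := by
    apply hinj
    have hC : ∀ c : 𝒪, coeffMap (algebraMap 𝒪 k) (HahnSeries.C c) =
        HahnSeries.C (algebraMap 𝒪 k c) := fun c => by
      rw [HahnSeries.C_apply, HahnSeries.C_apply, coeffMap_single]
    calc coeffMap (algebraMap 𝒪 k) (h * qExpand 𝒪 N (aeval x Q₀))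
        = coeffMap (algebraMap 𝒪 k) h * qExpand k N (aeval (coeffMap (algebraMap 𝒪 k) x)
            (Polynomial.C (algebraMap 𝒪 k ϖ ^ (n + 1)) * P)) := by
          rw [map_mul, coeffMap_qExpand, coeffMap_aeval, hQ₀]
      _ = HahnSeries.C (algebraMap 𝒪 k ϖ ^ (n + 1)) *
            (coeffMap (algebraMap 𝒪 k) h *
              qExpand k N (aeval (coeffMap (algebraMap 𝒪 k) x) P)) := by
          rw [map_mul, Polynomial.aeval_C, algebraMap_eq_C, map_mul, qExpand_C]
          ring
      _ = coeffMap (algebraMap 𝒪 k) (HahnSeries.C (ϖ ^ (n + 1)) * g) := by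
          rw [hhg, map_mul, hC]
          simp only [map_pow]
  have hred := congrArg (coeffMap (IsLocalRing.residue 𝒪)) key
  rw [map_mul, map_mul, HahnSeries.C_apply, coeffMap_single, map_pow,
    (IsLocalRing.residue_eq_zero_iff ϖ).mpr hϖ, zero_pow (Nat.succ_ne_zero n),
    HahnSeries.single_eq_zero, zero_mul, coeffMap_qExpand, coeffMap_aeval] at hred
  have h2 : qExpand (IsLocalRing.ResidueField 𝒪) N
      (aeval (coeffMap (IsLocalRing.residue 𝒪) x) (Q₀.map (IsLocalRing.residue 𝒪))) = 0 :=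
    (mul_eq_zero.mp hred).resolve_left hh
  have h3 : aeval (coeffMap (IsLocalRing.residue 𝒪) x) (Q₀.map (IsLocalRing.residue 𝒪)) = 0 := by
    apply qExpand_injective (R := IsLocalRing.ResidueField 𝒪) N
    rw [h2, map_zero]
  exact htr _ h3

/-- **Descent of coefficients, Gauss form, general series.** -/
theorem exists_map_eq_of_isGaussInt_gen (x : LaurentSeries 𝒪)
    (htr : ∀ P : (IsLocalRing.ResidueField 𝒪)[X],
      aeval (coeffMap (IsLocalRing.residue 𝒪) x) P = 0 → P = 0)
    (N : ℕ) [NeZero N] (P : k[X])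
    (hG : IsGaussInt 𝒪 k (qExpand k N (aeval (coeffMap (algebraMap 𝒪 k) x) P))) :
    ∃ Q : 𝒪[X], Q.map (algebraMap 𝒪 k) = P := by
  obtain ⟨ϖ, hϖ⟩ := IsDiscreteValuationRing.exists_irreducible 𝒪
  have hϖm : ϖ ∈ IsLocalRing.maximalIdeal 𝒪 := by
    rw [hϖ.maximalIdeal_eq]; exact Ideal.mem_span_singleton_self ϖ
  have hϖk : algebraMap 𝒪 k ϖ ≠ 0 := by
    intro h0
    exact hϖ.ne_zero ((IsFractionRing.injective 𝒪 k) (by rw [h0, map_zero]))
  have main : ∀ (n : ℕ) (P : k[X]),
      IsGaussInt 𝒪 k (qExpand k N (aeval (coeffMap (algebraMap 𝒪 k) x) P)) →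
      (∃ Q₀ : 𝒪[X], Q₀.map (algebraMap 𝒪 k) = Polynomial.C (algebraMap 𝒪 k ϖ ^ n) * P) →
      ∃ Q : 𝒪[X], Q.map (algebraMap 𝒪 k) = P := by
    intro n
    induction n with
    | zero =>
      rintro P - ⟨Q₀, hQ₀⟩
      exact ⟨Q₀, by simpa using hQ₀⟩
    | succ n ih =>
      rintro P hP ⟨Q₀, hQ₀⟩
      have hres := map_residue_eq_zero_of_isGaussInt_gen 𝒪 k x htr N P Q₀ n hQ₀ hϖm hP
      have hdvd : Polynomial.C ϖ ∣ Q₀ := by
        rw [Polynomial.C_dvd_iff_dvd_coeff]
        intro i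
        have hi : IsLocalRing.residue 𝒪 (Q₀.coeff i) = 0 := by
          have := congrArg (fun q => q.coeff i) hres
          simpa [Polynomial.coeff_map] using this
        rw [IsLocalRing.residue_eq_zero_iff, hϖ.maximalIdeal_eq, Ideal.mem_span_singleton] at hi
        exact hi
      obtain ⟨Q₁, hQ₁⟩ := hdvd
      refine ih P hP ⟨Q₁, ?_⟩
      have h1 : Polynomial.C (algebraMap 𝒪 k ϖ) * Q₁.map (algebraMap 𝒪 k) =
          Polynomial.C (algebraMap 𝒪 k ϖ) * (Polynomial.C (algebraMap 𝒪 k ϖ ^ n) * P) := by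
        rw [← Polynomial.map_C, ← Polynomial.map_mul, ← hQ₁, hQ₀, pow_succ, Polynomial.map_C,
          map_mul, map_pow]
        ring
      exact mul_left_cancel₀ (by simpa using hϖk) h1
  obtain ⟨b, hb, hbP⟩ :=
    IsLocalization.integerNormalization_spec (nonZeroDivisors 𝒪) (S := k) P
  have hb0 : b ≠ 0 := nonZeroDivisors.ne_zero hb
  obtain ⟨n, u, hbu⟩ := IsDiscreteValuationRing.eq_unit_mul_pow_irreducible hb0 hϖ
  refine main n P hG
    ⟨Polynomial.C (↑u⁻¹ : 𝒪) * IsLocalization.integerNormalization (nonZeroDivisors 𝒪) P, ?_⟩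
  have hb' : (b : 𝒪) • P = Polynomial.C (algebraMap 𝒪 k b) * P := by
    rw [Algebra.smul_def, Polynomial.algebraMap_apply]
  rw [Polynomial.map_mul, hbP, Polynomial.map_C, hb', hbu, map_mul, map_pow, ← mul_assoc,
    ← Polynomial.C_mul, ← mul_assoc, ← map_mul, Units.inv_mul, map_one, one_mul]

end GaussGen

/-! ### The formal inverse of `j` -/

section JInv

/-- the inverse of the unit part of `j`, over `ℤ` -/
def jNumInv : PowerSeries ℤ := jNum.invOfUnit 1

theorem jNum_mul_jNumInv : jNum * jNumInv = 1 :=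
  PowerSeries.mul_invOfUnit _ _ (by rw [constantCoeff_jNum]; rfl)

variable (R : Type*) [CommRing R]

/-- `1/j = q - 744 q² + ⋯` as a formal Laurent series over any commutative ring -/
def jInvS : LaurentSeries R :=
  HahnSeries.single (1 : ℤ) 1 * HahnSeries.ofPowerSeries ℤ R (jNumInv.map (Int.castRingHom R))

theorem jqModC_mul_jInvS : jqModC R * jInvS R = 1 := by
  rw [jqModC, jInvS, mul_mul_mul_comm, HahnSeries.single_mul_single, ← map_mul, ← map_mul,
    jNum_mul_jNumInv]
  simp

theorem jInvS_mul_jqModC : jInvS R * jqModC R = 1 := by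
  rw [mul_comm, jqModC_mul_jInvS]

theorem inv_jqModC_eq (k : Type*) [Field k] : (jqModC k)⁻¹ = jInvS k :=
  inv_eq_of_mul_eq_one_right (jqModC_mul_jInvS k)

variable {R} in
theorem coeffMap_jInvS {S : Type*} [CommRing S] (f : R →+* S) : coeffMap f (jInvS R) = jInvS S := by
  rw [jInvS, map_mul, coeffMap_single, map_one, coeffMap_ofPowerSeries,
    ← RingHom.comp_apply (PowerSeries.map f) (PowerSeries.map (Int.castRingHom R)),
    ← PowerSeries.map_comp, RingHom.ext_int (f.comp (Int.castRingHom R)) (Int.castRingHom S)]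
  rfl

theorem jInvS_pow (n : ℕ) :
    jInvS R ^ n = HahnSeries.single (n : ℤ) 1 *
      HahnSeries.ofPowerSeries ℤ R ((jNumInv.map (Int.castRingHom R)) ^ n) := by
  have h : n • (1 : ℤ) = (n : ℤ) := by simp
  rw [jInvS, mul_pow, HahnSeries.single_pow, one_pow, h, ← map_pow]

theorem constantCoeff_jNumInv : PowerSeries.constantCoeff jNumInv = 1 := by
  have h := congrArg (PowerSeries.constantCoeff (R := ℤ)) jNum_mul_jNumInv
  rwa [map_mul, constantCoeff_jNum, one_mul, map_one] at h

theorem coeff_jInvS_pow_self (n : ℕ) : (jInvS R ^ n).coeff (n : ℤ) = 1 := by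
  rw [jInvS_pow, HahnSeries.coeff_single_mul, one_mul, sub_self,
    show (0 : ℤ) = ((0 : ℕ) : ℤ) from rfl, HahnSeries.ofPowerSeries_apply_coeff,
    PowerSeries.coeff_zero_eq_constantCoeff, map_pow]
  have : PowerSeries.constantCoeff (jNumInv.map (Int.castRingHom R)) = 1 := by
    rw [← PowerSeries.coeff_zero_eq_constantCoeff, PowerSeries.coeff_map,
      PowerSeries.coeff_zero_eq_constantCoeff, constantCoeff_jNumInv]
    simp
  rw [this, one_pow]

theorem coeff_jInvS_pow_of_lt {n : ℕ} {m : ℤ} (hm : m < (n : ℤ)) : (jInvS R ^ n).coeff m = 0 := by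
  rw [jInvS_pow, HahnSeries.coeff_single_mul, one_mul]
  exact ofPowerSeries_coeff_of_neg _ (by omega)

theorem coeff_aeval_jInvS (P : R[X]) (m : ℤ) :
    (aeval (jInvS R) P).coeff m =
      ∑ i ∈ Finset.range (P.natDegree + 1), P.coeff i * ((jInvS R) ^ i).coeff m := by
  rw [Polynomial.aeval_eq_sum_range, coeff_finset_sum]
  refine Finset.sum_congr rfl fun i _ => ?_
  rw [Algebra.smul_def, coeff_algebraMap_mul]

/-- the coefficient of `P(1/j)` at the trailing degree of `P` is the trailing coefficient -/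
theorem coeff_aeval_jInvS_natTrailingDegree (P : R[X]) :
    (aeval (jInvS R) P).coeff (P.natTrailingDegree : ℤ) = P.trailingCoeff := by
  rw [coeff_aeval_jInvS, Finset.sum_eq_single_of_mem P.natTrailingDegree
    (Finset.mem_range.mpr (Nat.lt_succ_of_le (Polynomial.natTrailingDegree_le_natDegree P)))]
  · rw [coeff_jInvS_pow_self, mul_one, Polynomial.trailingCoeff]
  · intro i _ hne
    rcases lt_or_gt_of_ne hne with hlt | hgt
    · rw [Polynomial.coeff_eq_zero_of_lt_natTrailingDegree hlt, zero_mul]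
    · rw [coeff_jInvS_pow_of_lt R (n := i) (m := (P.natTrailingDegree : ℤ)) (by omega), mul_zero]

/-- `1/j` is transcendental over any commutative ring. -/
theorem eq_zero_of_aeval_jInvS_eq_zero (P : R[X]) (h : aeval (jInvS R) P = 0) : P = 0 := by
  have := coeff_aeval_jInvS_natTrailingDegree R P
  rw [h, HahnSeries.coeff_zero] at this
  exact Polynomial.trailingCoeff_eq_zero.mp this.symm

end JInv

section GaussInv

variable (𝒪 k : Type*) [CommRing 𝒪] [IsDomain 𝒪] [IsDiscreteValuationRing 𝒪] [Field k]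
  [Algebra 𝒪 k] [IsFractionRing 𝒪 k]

/-- **Descent of coefficients, Gauss form, in the variable `1/j`** (chart at infinity). -/
theorem exists_map_eq_of_isGaussInt_jInv (N : ℕ) [NeZero N] (P : k[X])
    (hG : IsGaussInt 𝒪 k (qExpand k N (aeval (jqModC k)⁻¹ P))) :
    ∃ Q : 𝒪[X], Q.map (algebraMap 𝒪 k) = P := by
  refine exists_map_eq_of_isGaussInt_gen 𝒪 k (jInvS 𝒪) ?_ N P ?_
  · intro P hP
    rw [coeffMap_jInvS] at hP
    exact eq_zero_of_aeval_jInvS_eq_zero _ P hP
  · rwa [coeffMap_jInvS, ← inv_jqModC_eq]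

/-- Subalgebra form in the variable `1/j`. -/
theorem mem_image_adjoin_inv_of_isGaussInt (N : ℕ) [NeZero N] (y : LaurentSeries k)
    (hy : y ∈ (qExpand k N) '' (Algebra.adjoin k {(jqModC k)⁻¹} : Set (LaurentSeries k)))
    (hG : IsGaussInt 𝒪 k y) :
    y ∈ (qExpand k N) '' (Algebra.adjoin 𝒪 {(jqModC k)⁻¹} : Set (LaurentSeries k)) := by
  obtain ⟨x, hx, rfl⟩ := hy
  rw [SetLike.mem_coe, Algebra.adjoin_singleton_eq_range_aeval] at hx
  obtain ⟨P, rfl⟩ := hx
  obtain ⟨Q, hQ⟩ := exists_map_eq_of_isGaussInt_jInv 𝒪 k N P hG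
  refine ⟨_, ?_, rfl⟩
  rw [SetLike.mem_coe, Algebra.adjoin_singleton_eq_range_aeval]
  refine ⟨Q, ?_⟩
  show aeval (jqModC k)⁻¹ Q = aeval (jqModC k)⁻¹ P
  have := IsScalarTower.of_algebraMap_eq (R := 𝒪) (S := k) (A := LaurentSeries k) (fun x => by
    rw [HahnSeries.algebraMap_apply', HahnSeries.algebraMap_apply']
    congr 1
    exact IsScalarTower.algebraMap_apply 𝒪 k (PowerSeries k) x)
  rw [← hQ, Polynomial.aeval_map_algebraMap]

end GaussInv

end Fermat.Agent.S28.PolyDescent
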