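import Fermat.Agent.S28.CoreGauss5
import Fermat.Agent.S28.PolyDescentInv

/-!
# T28 / B : instantiation of the abstract chart hypotheses `ChartHyp` for a `CuspDatum`

`E := bigField k N`, `σ := D.σ`, `G := j` (as an element of the big field),
`Gs := qExpand k N (jqModC k)`; also the chart at infinity `G⁻¹`, `Gs⁻¹`.
-/

set_option autoImplicit false
set_option linter.unusedSectionVars false
set_option synthInstance.maxHeartbeats 400000
set_option maxHeartbeats 1000000

noncomputable section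

namespace Fermat.Agent.S28.ChartHypInst

open Polynomial ModularCurve

section Basic

variable (k : Type) [Field k] (N : ℕ) [NeZero N]

/-- `j` as an element of the big field -/
def Gj : bigField k N := ⟨jqModC k, jqModC_mem_bigField k N⟩

/-- the common expansion `j(t^N)` of `j` at all cusps -/
def Gs : LaurentSeries k := qExpand k N (jqModC k)

@[simp] theorem coe_Gj : ((Gj k N : bigField k N) : LaurentSeries k) = jqModC k := rfl

theorem evalLk_qExpand {κ : Type*} [Field κ] (g : LaurentSeries κ) (P : κ[X]) :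
    evalLk (qExpand κ N g) P = qExpand κ N (evalLk g P) := by
  simp only [evalLk, Polynomial.coe_eval₂RingHom]
  rw [Polynomial.hom_eval₂]
  congr 1
  ext c
  simp

theorem evalLk_eq_aeval {κ : Type*} [Field κ] (g : LaurentSeries κ) (P : κ[X]) :
    evalLk g P = Polynomial.aeval g P := by
  simp only [evalLk, Polynomial.coe_eval₂RingHom, Polynomial.aeval_def]
  congr 1
  ext c
  rw [PolyDescent.algebraMap_eq_C]

theorem evalκ_eq_evalLk {κ : Type*} [Field κ] (g : LaurentSeries κ) : evalκ g = evalLk g := rfl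

theorem evalLk_Gs_injective {κ : Type*} [Field κ] :
    Function.Injective (evalLk (qExpand κ N (jqModC κ))) := by
  intro P Q h
  rw [evalLk_qExpand, evalLk_qExpand, evalLk_eq_aeval, evalLk_eq_aeval] at h
  exact PolyDescent.aeval_jqModC_injective κ (qExpand_injective N h)

theorem inv_qExpand_jqModC {κ : Type*} [Field κ] :
    (qExpand κ N (jqModC κ))⁻¹ = qExpand κ N (PolyDescent.jInvS κ) := by
  rw [← PolyDescent.inv_jqModC_eq, map_inv₀]

theorem evalLk_GsInv_injective {κ : Type*} [Field κ] :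
    Function.Injective (evalLk (qExpand κ N (jqModC κ))⁻¹) := by
  intro P Q h
  rw [inv_qExpand_jqModC, evalLk_qExpand, evalLk_qExpand, evalLk_eq_aeval, evalLk_eq_aeval] at h
  have h1 := qExpand_injective N h
  have h2 : Polynomial.aeval (PolyDescent.jInvS κ) (P - Q) = 0 := by rw [map_sub, h1, sub_self]
  exact sub_eq_zero.mp (PolyDescent.eq_zero_of_aeval_jInvS_eq_zero κ _ h2)

end Basic

section Gauss

variable (O : Type) (k : Type) [CommRing O] [IsDomain O] [IsDiscreteValuationRing O]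
  [Field k] [Algebra O k] [IsFractionRing O k] (N : ℕ) [NeZero N]

theorem Gs_eq_serEmb : Gs k N = serEmb O k (qExpand O N (jqModC O)) := by
  rw [Gs, serEmb, coeffMap_qExpand, coeffMap_jqModC]

theorem Gs_mem : Gs k N ∈ gaussRing O k := by
  rw [Gs_eq_serEmb O]
  exact serEmb_mem_gaussRing _

theorem gaussRed_Gs : gaussRed O k ⟨Gs k N, Gs_mem O k N⟩ =
    qExpand (IsLocalRing.ResidueField O) N (jqModC (IsLocalRing.ResidueField O)) := by
  have h : (⟨Gs k N, Gs_mem O k N⟩ : gaussRing O k) =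
      ⟨serEmb O k (qExpand O N (jqModC O)), serEmb_mem_gaussRing _⟩ :=
    Subtype.ext (Gs_eq_serEmb O k N)
  rw [h, gaussRed_serEmb, serRed, coeffMap_qExpand, coeffMap_jqModC]

theorem GsInv_eq_serEmb : (Gs k N)⁻¹ = serEmb O k (qExpand O N (PolyDescent.jInvS O)) := by
  rw [Gs, inv_qExpand_jqModC, serEmb, coeffMap_qExpand, PolyDescent.coeffMap_jInvS]

theorem GsInv_mem : (Gs k N)⁻¹ ∈ gaussRing O k := by
  rw [GsInv_eq_serEmb O]
  exact serEmb_mem_gaussRing _

theorem gaussRed_GsInv : gaussRed O k ⟨(Gs k N)⁻¹, GsInv_mem O k N⟩ =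
    (qExpand (IsLocalRing.ResidueField O) N (jqModC (IsLocalRing.ResidueField O)))⁻¹ := by
  have h : (⟨(Gs k N)⁻¹, GsInv_mem O k N⟩ : gaussRing O k) =
      ⟨serEmb O k (qExpand O N (PolyDescent.jInvS O)), serEmb_mem_gaussRing _⟩ :=
    Subtype.ext (GsInv_eq_serEmb O k N)
  rw [h, gaussRed_serEmb, serRed, coeffMap_qExpand, PolyDescent.coeffMap_jInvS,
    inv_qExpand_jqModC]

end Gauss

section Scale

/-- scaling the roots of a split polynomial -/
theorem coeff_prod_X_sub_C_mul {L : Type*} [CommRing L] {I : Type*} [Fintype I] (γ : L)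
    (a : I → L) (m : ℕ) :
    (∏ i, (X - C (γ * a i))).coeff m * γ ^ m =
      γ ^ Fintype.card I * (∏ i, (X - C (a i))).coeff m := by
  have h : (∏ i, (X - C (γ * a i))).comp (C γ * X) = C (γ ^ Fintype.card I) * ∏ i, (X - C (a i)) := by
    rw [Polynomial.prod_comp, map_pow, ← Finset.card_univ, ← Finset.prod_const,
      ← Finset.prod_mul_distrib]
    refine Finset.prod_congr rfl fun i _ => ?_
    rw [sub_comp, X_comp, C_comp, C_mul]
    ring
  have h1 := congrArg (fun p => p.coeff m) h
  simp only [Polynomial.comp_C_mul_X_coeff, Polynomial.coeff_C_mul] at h1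
  exact h1

end Scale

section Datum

variable {k : Type} [Field k] {N : ℕ} [NeZero N] {O : Type} [CommRing O] [IsDomain O]
  [IsDiscreteValuationRing O] [Algebra O k] [IsFractionRing O k] (D : CuspDatum k N O)

/-- every expansion of an element of the big field lies in the Gauss field -/
theorem sigma_mem_gaussField (i : D.I) (x : bigField k N) : D.σ i x ∈ gaussField O k := by
  obtain ⟨x, hx⟩ := x
  induction hx using IntermediateField.adjoin_induction with
  | mem y hy =>
    exact gaussRing_le_gaussField (intSeries_le_gaussRing (D.σ_int i ⟨y, _⟩ hy))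
  | algebraMap c =>
    have h1 : (⟨algebraMap k (LaurentSeries k) c, IntermediateField.algebraMap_mem _ c⟩ :
        bigField k N) = algebraMap k (bigField k N) c := rfl
    rw [h1, AlgHom.commutes, algebraMap_eq_C]
    exact C_mem_gaussField c
  | add y z hy hz ihy ihz =>
    have h1 : (⟨y + z, add_mem hy hz⟩ : bigField k N) = ⟨y, hy⟩ + ⟨z, hz⟩ := rfl
    rw [h1, map_add]
    exact add_mem ihy ihz
  | inv y hy ihy =>
    have h1 : (⟨y⁻¹, inv_mem hy⟩ : bigField k N) = (⟨y, hy⟩ : bigField k N)⁻¹ := rfl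
    rw [h1, map_inv₀]
    exact inv_mem ihy
  | mul y z hy hz ihy ihz =>
    have h1 : (⟨y * z, mul_mem hy hz⟩ : bigField k N) = ⟨y, hy⟩ * ⟨z, hz⟩ := rfl
    rw [h1, map_mul]
    exact mul_mem ihy ihz

/-- the value of a polynomial in `j`, inside the big field -/
theorem coe_evalEk (c : k[X]) :
    ((evalEk k (Gj k N) c : bigField k N) : LaurentSeries k) = aeval (jqModC k) c := by
  have h := Polynomial.hom_eval₂ c (algebraMap k (bigField k N))
    ((bigField k N).val : bigField k N →+* LaurentSeries k) (Gj k N)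
  simp only [evalEk, Polynomial.coe_eval₂RingHom]
  rw [Polynomial.aeval_def]
  exact h

theorem sigma_evalEk (i : D.I) (c : k[X]) :
    D.σ i (evalEk k (Gj k N) c) = evalLk (Gs k N) c := by
  have h := congrArg (fun f => f c) (sigma_comp_evalEk (D.σ i) (Gj k N))
  simp only [RingHom.comp_apply] at h
  rw [show D.σ i (Gj k N) = Gs k N from D.σ_j i] at h
  exact h

/-- the coefficients of the characteristic polynomial of an element of `bigAlg` are polynomials
in `j(t^N)` -/
theorem sym_evalLk (x : bigField k N) (hx : (x : LaurentSeries k) ∈ bigAlg k N) (m : ℕ) :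
    ∃ w : k[X], (∏ i, (X - C (D.σ i x))).coeff m = evalLk (Gs k N) w := by
  obtain ⟨y, hy, hyx⟩ := D.sym x hx m
  rw [SetLike.mem_coe, Algebra.adjoin_singleton_eq_range_aeval] at hy
  obtain ⟨w, rfl⟩ := hy
  refine ⟨w, ?_⟩
  rw [← hyx, Gs, evalLk_qExpand, evalLk_eq_aeval]
  rfl

/-- **root pull-back**: if the coefficients of the characteristic polynomial of `x` are
polynomials in `j(t^N)`, then `x` is integral over `k[j]`. -/
theorem isIntegralElem_of_coeff (x : bigField k N)
    (h : ∀ m, ∃ w : k[X], (∏ i, (X - C (D.σ i x))).coeff m = evalLk (Gs k N) w) :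
    (evalEk k (Gj k N)).IsIntegralElem x := by
  have hmonic : (∏ i, (X - C (D.σ i x))).Monic :=
    monic_prod_of_monic _ _ fun i _ => monic_X_sub_C _
  have hlifts : (∏ i, (X - C (D.σ i x))) ∈ Polynomial.lifts (evalLk (Gs k N)) :=
    (Polynomial.lifts_iff_coeff_lifts _).mpr fun m => by
      obtain ⟨w, hw⟩ := h m
      exact ⟨w, hw.symm⟩
  obtain ⟨Q, hQ, -, hQm⟩ := Polynomial.lifts_and_natDegree_eq_and_monic hlifts hmonic
  have h1 : (evalLk (Gs k N)).IsIntegralElem (D.σ D.i₀ x) := by
    refine ⟨Q, hQm, ?_⟩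
    rw [Polynomial.eval₂_eq_eval_map, hQ, Polynomial.eval_prod]
    exact Finset.prod_eq_zero (Finset.mem_univ D.i₀) (by simp)
  rw [show Gs k N = D.σ D.i₀ (Gj k N) from (D.σ_j D.i₀).symm, ← sigma_comp_evalEk] at h1
  exact h1.of_map (D.σ D.i₀ : bigField k N →+* LaurentSeries k).injective

include D in
theorem isIntegralElem_of_mem_bigAlg (x : bigField k N) (hx : (x : LaurentSeries k) ∈ bigAlg k N) :
    (evalEk k (Gj k N)).IsIntegralElem x :=
  isIntegralElem_of_coeff D x (sym_evalLk D x hx)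

theorem jqModC_mem_bigAlg : jqModC k ∈ bigAlg k N := by
  have h : jS k 1 ∈ bigAlg k N :=
    Algebra.subset_adjoin ⟨1, inferInstance, one_dvd N, Or.inl rfl⟩
  rwa [jS, qExpand_one_apply] at h

theorem aeval_jqModC_mem_bigAlg (c : k[X]) : aeval (jqModC k) c ∈ bigAlg k N := by
  rw [Polynomial.aeval_eq_sum_range]
  refine Subalgebra.sum_mem _ fun i _ => ?_
  exact Subalgebra.smul_mem _ (Subalgebra.pow_mem _ (jqModC_mem_bigAlg) i) _

include D in
/-- inverse of a nonzero element of `bigAlg`, up to a polynomial in `j` -/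
theorem exists_mul_eq_aeval (b : LaurentSeries k) (hb : b ∈ bigAlg k N) (hb0 : b ≠ 0) :
    ∃ b' ∈ bigAlg k N, ∃ r : k[X], r ≠ 0 ∧ b' * b = aeval (jqModC k) r := by
  set x : bigField k N := ⟨b, bigAlg_le_bigField k N hb⟩ with hx
  choose w hw using sym_evalLk D x hb
  have hw' : ∀ m, (∏ i, (X - C (D.σ i x))).coeff m = qExpand k N (aeval (jqModC k) (w m)) := by
    intro m
    rw [hw m, Gs, evalLk_qExpand, evalLk_eq_aeval]
  set P : (LaurentSeries k)[X] := ∏ i, (X - C (D.σ i x)) with hP
  have hroot : P.eval (qExpand k N b) = 0 := by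
    rw [hP, Polynomial.eval_prod]
    refine Finset.prod_eq_zero (Finset.mem_univ D.i₀) ?_
    rw [eval_sub, eval_X, eval_C, D.σ_i₀, sub_self]
  rw [Polynomial.eval_eq_sum_range, Finset.sum_range_succ'] at hroot
  simp only [hw', pow_zero, mul_one] at hroot
  have h1 : qExpand k N (b * (∑ i ∈ Finset.range P.natDegree,
      aeval (jqModC k) (w (i + 1)) * b ^ i) + aeval (jqModC k) (w 0)) = 0 := by
    rw [← hroot, map_add, map_mul, map_sum, Finset.mul_sum]
    congr 1
    refine Finset.sum_congr rfl fun i _ => ?_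
    rw [map_mul, map_pow, pow_succ]
    ring
  have h2 := qExpand_injective (R := k) N (h1.trans (map_zero _).symm)
  have h0 : aeval (jqModC k) (w 0) ≠ 0 := by
    intro h0
    have h3 : P.coeff 0 = 0 := by rw [hw' 0, h0, map_zero]
    rw [Polynomial.coeff_zero_eq_eval_zero, hP, Polynomial.eval_prod,
      Finset.prod_eq_zero_iff] at h3
    obtain ⟨i, -, hi⟩ := h3
    rw [eval_sub, eval_X, eval_C, zero_sub, neg_eq_zero] at hi
    have : x = 0 := (map_eq_zero_iff _ (D.σ i : bigField k N →+* LaurentSeries k).injective).mp hi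
    exact hb0 (congrArg Subtype.val this)
  refine ⟨-(∑ i ∈ Finset.range P.natDegree, aeval (jqModC k) (w (i + 1)) * b ^ i), ?_,
    w 0, fun h => h0 (by rw [h, map_zero]), ?_⟩
  · refine Subalgebra.neg_mem _ (Subalgebra.sum_mem _ fun i _ => ?_)
    exact Subalgebra.mul_mem _ (aeval_jqModC_mem_bigAlg _) (Subalgebra.pow_mem _ hb i)
  · linear_combination (-1 : LaurentSeries k) * h2

include D in
/-- **rational form**: every element of the big field is `b / c(j)` with `b ∈ bigAlg`. -/
theorem ratForm (x : LaurentSeries k) (hx : x ∈ bigField k N) :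
    ∃ b ∈ bigAlg k N, ∃ c : k[X], c ≠ 0 ∧ x * aeval (jqModC k) c = b := by
  induction hx using IntermediateField.adjoin_induction with
  | mem y hy => exact ⟨y, Algebra.subset_adjoin hy, 1, one_ne_zero, by simp⟩
  | algebraMap c =>
    exact ⟨algebraMap k _ c, Subalgebra.algebraMap_mem _ c, 1, one_ne_zero, by simp⟩
  | add y z hy hz ihy ihz =>
    obtain ⟨b₁, hb₁, c₁, hc₁, h₁⟩ := ihy
    obtain ⟨b₂, hb₂, c₂, hc₂, h₂⟩ := ihz
    refine ⟨b₁ * aeval (jqModC k) c₂ + b₂ * aeval (jqModC k) c₁,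
      Subalgebra.add_mem _ (Subalgebra.mul_mem _ hb₁ (aeval_jqModC_mem_bigAlg _))
        (Subalgebra.mul_mem _ hb₂ (aeval_jqModC_mem_bigAlg _)), c₁ * c₂, mul_ne_zero hc₁ hc₂, ?_⟩
    rw [map_mul, ← h₁, ← h₂]
    ring
  | mul y z hy hz ihy ihz =>
    obtain ⟨b₁, hb₁, c₁, hc₁, h₁⟩ := ihy
    obtain ⟨b₂, hb₂, c₂, hc₂, h₂⟩ := ihz
    refine ⟨b₁ * b₂, Subalgebra.mul_mem _ hb₁ hb₂, c₁ * c₂, mul_ne_zero hc₁ hc₂, ?_⟩
    rw [map_mul, ← h₁, ← h₂]
    ring
  | inv y hy ihy =>
    obtain ⟨b, hb, c, hc, h⟩ := ihy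
    by_cases hy0 : y = 0
    · exact ⟨0, Subalgebra.zero_mem _, 1, one_ne_zero, by simp [hy0]⟩
    have hc0 : aeval (jqModC k) c ≠ 0 := fun h0 =>
      hc (PolyDescent.eq_zero_of_aeval_jqModC_eq_zero k c h0)
    have hb0 : b ≠ 0 := by rw [← h]; exact mul_ne_zero hy0 hc0
    obtain ⟨b', hb', r, hr, hbr⟩ := exists_mul_eq_aeval D b hb hb0
    refine ⟨b' * aeval (jqModC k) c, Subalgebra.mul_mem _ hb' (aeval_jqModC_mem_bigAlg _), r, hr, ?_⟩
    rw [← hbr, ← h]
    field_simp

/-- the `symrat` field of `ChartHyp`: the coefficients of the characteristic polynomial of any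
element of the big field are rational functions of `j(t^N)`. -/
theorem symrat (x : bigField k N) (m : ℕ) : ∃ p q : k[X], q ≠ 0 ∧
    (∏ i, (X - C (D.σ i x))).coeff m * evalLk (Gs k N) q = evalLk (Gs k N) p := by
  obtain ⟨b, hb, c, hc, hxc⟩ := ratForm D (x : LaurentSeries k) x.2
  set bE : bigField k N := ⟨b, bigAlg_le_bigField k N hb⟩ with hbE
  have hbx : bE = evalEk k (Gj k N) c * x := by
    apply Subtype.ext
    rw [MulMemClass.coe_mul, coe_evalEk, mul_comm]
    exact hxc.symm
  have hσ : ∀ i, D.σ i bE = evalLk (Gs k N) c * D.σ i x := by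
    intro i
    rw [hbx, map_mul, sigma_evalEk]
  obtain ⟨w, hw⟩ := sym_evalLk D bE hb m
  have hscale := coeff_prod_X_sub_C_mul (evalLk (Gs k N) c) (fun i => D.σ i x) m
  refine ⟨w * c ^ m, c ^ Fintype.card D.I, pow_ne_zero _ hc, ?_⟩
  rw [map_pow, map_mul, map_pow, mul_comm _ (evalLk (Gs k N) c ^ Fintype.card D.I), ← hscale,
    ← hw]
  congr 2
  refine Finset.prod_congr rfl fun i _ => ?_
  rw [hσ i]

/-- **the chart hypotheses for the finite chart** (`G = j`) -/
theorem chartHyp : ChartHyp (O := O) D.σ (Gj k N) (Gs k N) where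
  map_G := D.σ_j
  mem := Gs_mem O k N
  inj_k := evalLk_Gs_injective N
  inj_κ := by
    rw [gaussRed_Gs]
    exact evalLk_Gs_injective N
  field := sigma_mem_gaussField D
  symrat := symrat D

theorem Gs_ne_zero : Gs k N ≠ 0 := by
  intro h
  have h1 : evalLk (Gs k N) X = evalLk (Gs k N) 0 := by simp [evalLk, h]
  exact Polynomial.X_ne_zero (evalLk_Gs_injective (κ := k) N h1)

end Datum

section Reflect

/-- rational functions of `g` are rational functions of `g⁻¹` -/
theorem exists_evalLk_inv {κ : Type*} [Field κ] {g : LaurentSeries κ} (hg : g ≠ 0)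
    {y : LaurentSeries κ} (h : ∃ p q : κ[X], q ≠ 0 ∧ y * evalLk g q = evalLk g p) :
    ∃ p q : κ[X], q ≠ 0 ∧ y * evalLk g⁻¹ q = evalLk g⁻¹ p := by
  obtain ⟨p, q, hq, hpq⟩ := h
  let _ : Invertible g := invertibleOfNonzero hg
  set n := max p.natDegree q.natDegree with hn
  have hp' := Polynomial.eval₂_reflect_mul_pow (HahnSeries.C : κ →+* LaurentSeries κ) g n p
    (le_max_left _ _)
  have hq' := Polynomial.eval₂_reflect_mul_pow (HahnSeries.C : κ →+* LaurentSeries κ) g n q
    (le_max_right _ _)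
  rw [invOf_eq_inv] at hp' hq'
  refine ⟨p.reflect n, q.reflect n, fun h0 => hq ((Polynomial.reflect_eq_zero_iff).mp h0), ?_⟩
  have hgn : g ^ n ≠ 0 := pow_ne_zero _ hg
  apply mul_right_cancel₀ hgn
  simp only [evalLk, Polynomial.coe_eval₂RingHom] at hpq ⊢
  rw [mul_assoc, hq', hp', hpq]

end Reflect

section DatumInf

variable {k : Type} [Field k] {N : ℕ} [NeZero N] {O : Type} [CommRing O] [IsDomain O]
  [IsDiscreteValuationRing O] [Algebra O k] [IsFractionRing O k] (D : CuspDatum k N O)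

/-- alias of `sigma_mem_gaussField` (the `field` field of `ChartHyp`) -/
theorem field (i : D.I) (x : bigField k N) : D.σ i x ∈ gaussField O k :=
  sigma_mem_gaussField D i x

/-- the `symrat` field of `ChartHyp` for the chart at infinity -/
theorem symrat_inv (x : bigField k N) (m : ℕ) : ∃ p q : k[X], q ≠ 0 ∧
    (∏ i, (X - C (D.σ i x))).coeff m * evalLk (Gs k N)⁻¹ q = evalLk (Gs k N)⁻¹ p :=
  exists_evalLk_inv Gs_ne_zero (symrat D x m)

/-- **the chart hypotheses for the chart at infinity** (`G = j⁻¹`) -/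
theorem chartHyp_inv : ChartHyp (O := O) D.σ (Gj k N)⁻¹ (Gs k N)⁻¹ where
  map_G := fun i => by rw [map_inv₀]; exact congrArg _ (D.σ_j i)
  mem := GsInv_mem O k N
  inj_k := evalLk_GsInv_injective N
  inj_κ := by
    rw [gaussRed_GsInv]
    exact evalLk_GsInv_injective N
  field := sigma_mem_gaussField D
  symrat := fun x m => exists_evalLk_inv Gs_ne_zero (symrat D x m)

end DatumInf

end Fermat.Agent.S28.ChartHypInst
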