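import Fermat.Agent.S28.ChartHypInst

/-!
# T28 / B : the modular units as units of the integral closure, with the orders of their
reductions (the `hunits` hypothesis of `ChartHyp.coreFin` / `ChartHyp.coreInf`)
-/

set_option autoImplicit false
set_option linter.unusedSectionVars false
set_option synthInstance.maxHeartbeats 400000
set_option maxHeartbeats 1000000

noncomputable section

namespace Fermat.Agent.S28.ChartUnits

open Polynomial ModularCurve ChartHypInst

variable {k : Type} [Field k] {N : ℕ} [NeZero N] {O : Type} [CommRing O] [IsDomain O]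
  [IsDiscreteValuationRing O] [Algebra O k] [IsFractionRing O k] (D : CuspDatum k N O)

include D in
/-- generators of the big field are integral over `O[j]` -/
theorem isIntegralElem_of_mem_bigGens (x : bigField k N)
    (hx : (x : LaurentSeries k) ∈ bigGens k N) :
    (evalE O k (Gj k N)).IsIntegralElem x :=
  (chartHyp D).isIntegralElem_of_forall_mem D.i₀
    (isIntegralElem_of_mem_bigAlg D x (Algebra.subset_adjoin hx))
    (fun i => intSeries_le_gaussRing (D.σ_int i x hx))

/-- the modular unit `Δ(q^d)/Δ(q)` as a unit of the integral closure of `O[j]` -/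
def unitU (d : ℕ) [NeZero d] (hd : d ∣ N) : (intSubring (evalE O k (Gj k N)))ˣ where
  val := ⟨⟨uS k d, uS_mem_bigField k N hd⟩,
    isIntegralElem_of_mem_bigGens D _ ⟨d, ‹_›, hd, Or.inr (Or.inl rfl)⟩⟩
  inv := ⟨⟨uInvS k d, uInvS_mem_bigField k N hd⟩,
    isIntegralElem_of_mem_bigGens D _ ⟨d, ‹_›, hd, Or.inr (Or.inr rfl)⟩⟩
  val_inv := by
    apply Subtype.ext
    apply Subtype.ext
    exact uS_mul_uInvS k d
  inv_val := by
    apply Subtype.ext
    apply Subtype.ext
    rw [mul_comm]
    exact uS_mul_uInvS k d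

theorem order_rho_unitU (d : ℕ) [NeZero d] (hd : d ∣ N) (i : D.I) :
    ((chartHyp D).rho i (unitU D d hd : intSubring (evalE O k (Gj k N)))).order =
      ((N / d : ℕ) : ℤ) * ((Nat.gcd (D.cI i) d : ℕ) : ℤ) ^ 2 - (N : ℤ) := by
  obtain ⟨s, hs, -, hord⟩ := D.ord_u i d hd
  rw [ChartHyp.rho_apply]
  have h : (⟨D.σ i ((unitU D d hd : intSubring (evalE O k (Gj k N))) : bigField k N),
      (chartHyp D).sigma_mem_gaussRing (unitU D d hd : intSubring (evalE O k (Gj k N))).2 i⟩ :
        gaussRing O k) = ⟨serEmb O k s, serEmb_mem_gaussRing s⟩ :=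
    Subtype.ext hs.symm
  rw [h, gaussRed_serEmb, Int.natCast_div]
  exact hord

/-- the `hunits` hypothesis of `ChartHyp.coreFin` / `ChartHyp.coreInf` -/
theorem hunits : ∀ d ∈ N.divisors, ∃ u : (intSubring (evalE O k (Gj k N)))ˣ, ∀ i,
    ((chartHyp D).rho i (u : intSubring (evalE O k (Gj k N)))).order =
      ((N / d : ℕ) : ℤ) * ((Nat.gcd (D.cI i) d : ℕ) : ℤ) ^ 2 - (N : ℤ) := by
  intro d hd
  have hdN : d ∣ N := Nat.dvd_of_mem_divisors hd
  have : NeZero d := ⟨fun h0 => by
    rw [h0, zero_dvd_iff] at hdN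
    exact NeZero.ne N hdN⟩
  exact ⟨unitU D d hdN, fun i => order_rho_unitU D d hdN i⟩

end Fermat.Agent.S28.ChartUnits
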