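import Mathlib

/-!
# T28 / B: extension of the symmetric function property to the fraction field

If the characteristic polynomials `∏ (X - σ i y)` of the elements `y` of a subring `B` of a field
`E` have coefficients in the image of `φL`, then those of all elements of the fraction field of `B`
have coefficients which are quotients of elements of the image of `φL`.
-/

set_option autoImplicit false
set_option linter.unusedSectionVars false

noncomputable section

namespace Fermat.Agent.S28.SymExtend

open Polynomial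

theorem scaleRoots_prod_X_sub_C {L : Type*} [Field L] {I : Type*} (s : Finset I) (b : I → L)
    (Q : L) :
    (∏ i ∈ s, (X - C (b i))).scaleRoots Q = ∏ i ∈ s, (X - C (b i * Q)) := by
  classical
  induction s using Finset.induction_on with
  | empty => simp
  | insert a s ha ih =>
    rw [Finset.prod_insert ha, Finset.prod_insert ha, Polynomial.mul_scaleRoots', ih,
      Polynomial.X_sub_C_scaleRoots]
    have h1 : (X - C (b a)).leadingCoeff = 1 := (Polynomial.monic_X_sub_C _).leadingCoeff
    have h2 : (∏ i ∈ s, (X - C (b i))).leadingCoeff = 1 :=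
      (Polynomial.monic_prod_of_monic _ _ fun i _ => Polynomial.monic_X_sub_C _).leadingCoeff
    rw [h1, h2, one_mul]
    exact one_ne_zero

theorem eval₂_mem_subring {A E : Type*} [CommRing A] [CommRing E] (φ : A →+* E) (B : Subring E)
    (hφB : ∀ a, φ a ∈ B) {s : E} (hs : s ∈ B) (P : A[X]) : eval₂ φ s P ∈ B := by
  rw [Polynomial.eval₂_eq_sum_range]
  exact sum_mem fun j _ => mul_mem (hφB _) (pow_mem hs j)

section

variable {A E L : Type*} [CommRing A] [Field E] [Field L] {I : Type*} [Fintype I]
  [DecidableEq I] (τ : I → (E →+* L)) (φE : A →+* E) (φL : A →+* L)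
  (hφ : ∀ i, (τ i).comp φE = φL) (B : Subring E) (hφB : ∀ a, φE a ∈ B) (i₀ : I)
  (hsym : ∀ y ∈ B, ∀ m, (∏ i, (X - C (τ i y))).coeff m ∈ Set.range φL)

include hφ hφB i₀ hsym in
/-- conorm: a nonzero element of `B` divides a nonzero element of the image of `φE` in `B` -/
theorem exists_mul_eq_of_mem {s : E} (hs : s ∈ B) (hs0 : s ≠ 0) :
    ∃ s' ∈ B, ∃ n : A, φL n ≠ 0 ∧ s * s' = φE n := by
  have hmonic : (∏ i, (X - C (τ i s))).Monic :=
    Polynomial.monic_prod_of_monic _ _ fun i _ => Polynomial.monic_X_sub_C _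
  obtain ⟨P, hP, -, -⟩ := Polynomial.lifts_and_natDegree_eq_and_monic
    ((Polynomial.lifts_iff_coeff_lifts _).mpr (hsym s hs)) hmonic
  have hroot : eval₂ φE s P = 0 := by
    apply (τ i₀).injective
    rw [Polynomial.hom_eval₂, hφ i₀, Polynomial.eval₂_eq_eval_map, hP, Polynomial.eval_prod,
      map_zero]
    exact Finset.prod_eq_zero (Finset.mem_univ i₀) (by simp)
  have hsplit : eval₂ φE s (divX P) * s + φE (P.coeff 0) = 0 := by
    conv_rhs => rw [← hroot, ← Polynomial.divX_mul_X_add P]
    simp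
  refine ⟨-eval₂ φE s (divX P), neg_mem (eval₂_mem_subring φE B hφB hs _), P.coeff 0, ?_, ?_⟩
  · have h0 : φL (P.coeff 0) = (∏ i, (X - C (τ i s))).coeff 0 := by
      rw [← hP, Polynomial.coeff_map]
    rw [h0, Polynomial.coeff_zero_eq_eval_zero, Polynomial.eval_prod, Finset.prod_ne_zero_iff]
    intro i _
    simp only [eval_sub, eval_X, eval_C, zero_sub, ne_eq, neg_eq_zero]
    exact (map_ne_zero_iff _ (τ i).injective).mpr hs0
  · have := eq_neg_of_add_eq_zero_right hsplit
    rw [this]
    ring

include hφ hφB i₀ hsym in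
/-- **Extension of the symmetric function property to the fraction field of `B`.** -/
theorem symrat_extend
    (hfrac : ∀ x : E, ∃ r ∈ B, ∃ s ∈ B, s ≠ 0 ∧ x * s = r) (x : E) (m : ℕ) :
    ∃ p q : A, φL q ≠ 0 ∧ (∏ i, (X - C (τ i x))).coeff m * φL q = φL p := by
  obtain ⟨r, hr, s, hs, hs0, hxs⟩ := hfrac x
  obtain ⟨s', hs', n, hn, hss'⟩ := exists_mul_eq_of_mem τ φE φL hφ B hφB i₀ hsym hs hs0
  -- `x * φE n = y` with `y ∈ B`
  have hy : r * s' ∈ B := mul_mem hr hs'
  have hxy : x * φE n = r * s' := by rw [← hss', ← mul_assoc, hxs]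
  have hτ : ∀ i, τ i x * φL n = τ i (r * s') := fun i => by
    rw [← hxy, map_mul, ← hφ i]; rfl
  have hscale : (∏ i, (X - C (τ i x))).scaleRoots (φL n) = ∏ i, (X - C (τ i (r * s'))) := by
    rw [scaleRoots_prod_X_sub_C]
    exact Finset.prod_congr rfl fun i _ => by rw [hτ i]
  obtain ⟨p, hp⟩ := hsym (r * s') hy m
  refine ⟨p, n ^ ((∏ i, (X - C (τ i x))).natDegree - m), ?_, ?_⟩
  · rw [map_pow]; exact pow_ne_zero _ hn
  · rw [hp, ← hscale, Polynomial.coeff_scaleRoots, map_pow]

end

end Fermat.Agent.S28.SymExtend
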