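import Fermat.Agent.S28.CoreGauss4

set_option autoImplicit false
set_option linter.unusedSectionVars false

noncomputable section

namespace Fermat.Agent.S28

open Polynomial ModularCurve

section Key

variable {O : Type*} {k : Type*} [CommRing O] [IsDomain O] [IsDiscreteValuationRing O]
  [Field k] [Algebra O k] [IsFractionRing O k]
variable {E : Type*} [Field E] [Algebra k E] {I : Type*} [Fintype I] [DecidableEq I]
variable {σ : I → (E →ₐ[k] LaurentSeries k)} {G : E} {Gs : LaurentSeries k}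

/-- **Key**: if the orders of the reductions of enough units are the cusp orders of the modular
units, then all the reduction maps have the same kernel. -/
theorem ChartHyp.rho_ker_eq (h : ChartHyp (O := O) σ G Gs) (N : ℕ) (hN : N ≠ 0) (cI : I → ℕ)
    (cI_dvd : ∀ i, cI i ∣ N) (i₀ : I) (cI_eq_iff : ∀ i, cI i = N ↔ i = i₀)
    (hunits : ∀ d ∈ N.divisors, ∃ u : (intSubring (evalE O k G))ˣ, ∀ i,
      (h.rho i (u : intSubring (evalE O k G))).order =
        ((N / d : ℕ) : ℤ) * ((Nat.gcd (cI i) d : ℕ) : ℤ) ^ 2 - (N : ℤ))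
    (i j : I) : RingHom.ker (h.rho i) = RingHom.ker (h.rho j) := by
  have : Nonempty I := ⟨i₀⟩
  -- moments for any admissible pair `(S, e)`
  have hmom : ∀ (S : Finset I) (e : intSubring (evalE O k G)), (∀ i ∉ S, h.rho i e = 0) →
      (∀ i ∈ S, h.rho i e ≠ 0) → ∀ d ∈ N.divisors,
      ∑ e' ∈ N.divisors, (S.filter (fun i => cI i = e')).card * (Nat.gcd e' d) ^ 2 =
        d * S.card := by
    intro S e he0 he1 d hd
    obtain ⟨u, hu⟩ := hunits d hd
    refine gcd_moment_of_sum_order S N cI cI_dvd hN d hd ?_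
    rw [← h.sum_order_rho_unit S e he0 he1 u]
    exact Finset.sum_congr rfl fun i _ => (hu i).symm
  obtain ⟨S, e, hSne, he0, he1, hker⟩ := CoreAlg.exists_minimal_class (fun i => h.rho i)
  have hx := hmom S e he0 he1
  have hy := hmom Finset.univ 1 (fun i hi => absurd (Finset.mem_univ i) hi)
    (fun i _ => by rw [map_one]; exact one_ne_zero)
  have hyN : (Finset.univ.filter (fun i => cI i = N)).card = 1 := by
    have : Finset.univ.filter (fun i => cI i = N) = {i₀} := by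
      ext i
      simp [cI_eq_iff]
    rw [this, Finset.card_singleton]
  have hcard : S.card = (Finset.univ : Finset I).card :=
    GcdMatrix.count_eq_of_gcd_moments hN (fun e' => (S.filter (fun i => cI i = e')).card)
      (fun e' => (Finset.univ.filter (fun i => cI i = e')).card) S.card Finset.univ.card
      hx hy hyN (Finset.card_ne_zero.mpr hSne) (Finset.card_le_univ S)
  have hSuniv : S = Finset.univ := (Finset.card_eq_iff_eq_univ S).mp hcard
  exact hker i (hSuniv ▸ Finset.mem_univ i) j (hSuniv ▸ Finset.mem_univ j)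

/-- divisibility by the uniformizer at the distinguished expansion propagates to all -/
theorem ChartHyp.key (h : ChartHyp (O := O) σ G Gs) (N : ℕ) (hN : N ≠ 0) (cI : I → ℕ)
    (cI_dvd : ∀ i, cI i ∣ N) (i₀ : I) (cI_eq_iff : ∀ i, cI i = N ↔ i = i₀)
    (hunits : ∀ d ∈ N.divisors, ∃ u : (intSubring (evalE O k G))ˣ, ∀ i,
      (h.rho i (u : intSubring (evalE O k G))).order =
        ((N / d : ℕ) : ℤ) * ((Nat.gcd (cI i) d : ℕ) : ℤ) ^ 2 - (N : ℤ))
    {ϖ : O} (hϖ : Irreducible ϖ) {a : E} (ha : (evalE O k G).IsIntegralElem a)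
    (hdiv : ∃ v ∈ gaussRing O k, σ i₀ a = HahnSeries.C (algebraMap O k ϖ) * v) (i : I) :
    ∃ v ∈ gaussRing O k, σ i a = HahnSeries.C (algebraMap O k ϖ) * v := by
  have hker := h.rho_ker_eq N hN cI cI_dvd i₀ cI_eq_iff hunits i₀ i
  have h0 : h.rho i₀ ⟨a, ha⟩ = 0 := by
    rw [ChartHyp.rho_apply]
    exact (gaussRed_eq_zero_iff hϖ _).mpr hdiv
  have h1 : h.rho i ⟨a, ha⟩ = 0 := by
    have : (⟨a, ha⟩ : intSubring (evalE O k G)) ∈ RingHom.ker (h.rho i₀) := (RingHom.mem_ker).mpr h0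
    rw [hker] at this
    exact (RingHom.mem_ker).mp this
  rw [ChartHyp.rho_apply] at h1
  exact (gaussRed_eq_zero_iff hϖ _).mp h1

/-- **Abstract core, finite chart.** -/
theorem ChartHyp.coreFin (h : ChartHyp (O := O) σ G Gs) (N : ℕ) (hN : N ≠ 0) (cI : I → ℕ)
    (cI_dvd : ∀ i, cI i ∣ N) (i₀ : I) (cI_eq_iff : ∀ i, cI i = N ↔ i = i₀)
    (hunits : ∀ d ∈ N.divisors, ∃ u : (intSubring (evalE O k G))ˣ, ∀ i,
      (h.rho i (u : intSubring (evalE O k G))).order =
        ((N / d : ℕ) : ℤ) * ((Nat.gcd (cI i) d : ℕ) : ℤ) ^ 2 - (N : ℤ))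
    {ϖ : O} (hϖ : Irreducible ϖ) {a : E} (ha : (evalE O k G).IsIntegralElem a)
    (hdiv : ∃ v ∈ gaussRing O k, σ i₀ a = HahnSeries.C (algebraMap O k ϖ) * v) :
    (evalE O k G).IsIntegralElem (algebraMap k E (algebraMap O k ϖ)⁻¹ * a) :=
  h.div_unif i₀ hϖ ha (h.key N hN cI cI_dvd i₀ cI_eq_iff hunits hϖ ha hdiv)

/-- **Abstract core, chart at infinity.** -/
theorem ChartHyp.coreInf (h : ChartHyp (O := O) σ G Gs) (h' : ChartHyp (O := O) σ G⁻¹ Gs⁻¹)
    (N : ℕ) (hN : N ≠ 0) (cI : I → ℕ)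
    (cI_dvd : ∀ i, cI i ∣ N) (i₀ : I) (cI_eq_iff : ∀ i, cI i = N ↔ i = i₀)
    (hunits : ∀ d ∈ N.divisors, ∃ u : (intSubring (evalE O k G))ˣ, ∀ i,
      (h.rho i (u : intSubring (evalE O k G))).order =
        ((N / d : ℕ) : ℤ) * ((Nat.gcd (cI i) d : ℕ) : ℤ) ^ 2 - (N : ℤ))
    {ϖ : O} (hϖ : Irreducible ϖ) {b : E} (hb : (evalE O k G⁻¹).IsIntegralElem b)
    (hdiv : ∃ v ∈ gaussRing O k, σ i₀ b = HahnSeries.C (algebraMap O k ϖ) * v) :
    (evalE O k G⁻¹).IsIntegralElem (algebraMap k E (algebraMap O k ϖ)⁻¹ * b) := by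
  have hG0 : G ≠ 0 := by
    rintro rfl
    have h1 := h.map_G i₀
    rw [map_zero] at h1
    have h2 : evalLk Gs Polynomial.X = evalLk Gs 0 := by simp [evalLk, ← h1]
    exact Polynomial.X_ne_zero (h.inj_k h2)
  have hGs0 : Gs ≠ 0 := by
    intro h0
    apply hG0
    have h1 := h.map_G i₀
    rw [h0] at h1
    exact (map_eq_zero_iff _ (σ i₀ : E →+* LaurentSeries k).injective).mp h1
  obtain ⟨m, hm⟩ := CoreAlg.exists_pow_mul_isIntegralElem
    ((algebraMap k E).comp (algebraMap O k)) G hG0 hb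
  have hdiv' : ∃ v ∈ gaussRing O k, σ i₀ (G ^ m * b) = HahnSeries.C (algebraMap O k ϖ) * v := by
    obtain ⟨v, hv, hbv⟩ := hdiv
    refine ⟨Gs ^ m * v, mul_mem (pow_mem h.mem m) hv, ?_⟩
    rw [map_mul, map_pow, h.map_G, hbv]
    ring
  have hall := h.key N hN cI cI_dvd i₀ cI_eq_iff hunits hϖ hm hdiv'
  refine h'.div_unif i₀ hϖ hb fun i => ?_
  obtain ⟨v, hv, hav⟩ := hall i
  refine ⟨Gs⁻¹ ^ m * v, mul_mem (pow_mem h'.mem m) hv, ?_⟩
  rw [map_mul, map_pow, h.map_G] at hav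
  have h3 : σ i b = Gs⁻¹ ^ m * (Gs ^ m * σ i b) := by
    rw [← mul_assoc, ← mul_pow, inv_mul_cancel₀ hGs0, one_pow, one_mul]
  rw [h3, hav]
  ring

end Key

end Fermat.Agent.S28
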