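/-
T28 / A5e (helper68): the function `FP G P : τ ↦ P(G x τ)` attached to a polynomial `P` over a
subfield `k ⊆ ℂ` and a family of functions `G x : ℍ → ℂ`; its expansion, invariance and
holomorphy.  (Abstract `MeroExp` interface; see `EvalBridge.lean`.)
-/
import Fermat.Agent.S28.EvalBridge

set_option autoImplicit false

namespace Fermat.Agent.S28.EvalBridge

open UpperHalfPlane ModularCurve
open scoped Manifold MatrixGroups

noncomputable section

variable {k : Type*} [CommRing k] (φ : k →+* ℂ) {X : Type*}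

/-- The function `τ ↦ P(G · τ)` for `P : MvPolynomial X k`, coefficients mapped to `ℂ` by `φ`. -/
def FP (G : X → ℍ → ℂ) (P : MvPolynomial X k) : ℍ → ℂ :=
  fun τ => MvPolynomial.eval (fun x => G x τ) (MvPolynomial.map φ P)

lemma FP_apply (G : X → ℍ → ℂ) (P : MvPolynomial X k) (τ : ℍ) :
    FP φ G P τ = MvPolynomial.eval (fun x => G x τ) (MvPolynomial.map φ P) := rfl

@[simp] lemma FP_C (G : X → ℍ → ℂ) (c : k) : FP φ G (MvPolynomial.C c) = fun _ => φ c := by
  funext τ; simp [FP]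

@[simp] lemma FP_X (G : X → ℍ → ℂ) (x : X) : FP φ G (MvPolynomial.X x) = G x := by
  funext τ; simp [FP]

lemma FP_add (G : X → ℍ → ℂ) (P Q : MvPolynomial X k) :
    FP φ G (P + Q) = FP φ G P + FP φ G Q := by
  funext τ; simp [FP]

lemma FP_mul (G : X → ℍ → ℂ) (P Q : MvPolynomial X k) :
    FP φ G (P * Q) = FP φ G P * FP φ G Q := by
  funext τ; simp [FP]

/-- Precomposition. -/
lemma FP_comp (G : X → ℍ → ℂ) (P : MvPolynomial X k) (g : ℍ → ℍ) (τ : ℍ) :
    FP φ G P (g τ) = FP φ (fun x τ => G x (g τ)) P τ := rfl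

/-- Invariance of `FP` under any map fixing all the `G x`. -/
lemma FP_invariant (G : X → ℍ → ℂ) (P : MvPolynomial X k) (g : ℍ → ℍ)
    (hinv : ∀ x τ, G x (g τ) = G x τ) (τ : ℍ) : FP φ G P (g τ) = FP φ G P τ := by
  rw [FP_comp]
  have : (fun x τ => G x (g τ)) = G := by funext x τ; exact hinv x τ
  rw [this]

/-- `FP` is holomorphic when all the `G x` are. -/
lemma mdifferentiable_FP (G : X → ℍ → ℂ) (hG : ∀ x, MDifferentiable 𝓘(ℂ) 𝓘(ℂ) (G x))
    (P : MvPolynomial X k) : MDifferentiable 𝓘(ℂ) 𝓘(ℂ) (FP φ G P) := by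
  induction P using MvPolynomial.induction_on with
  | C a => rw [FP_C]; exact mdifferentiable_const
  | add p q hp hq => rw [FP_add]; exact hp.add hq
  | mul_X p x hp => rw [FP_mul, FP_X]; exact hp.mul (hG x)

variable {IsMC : (ℍ → ℂ) → Prop} {LE : (ℍ → ℂ) → LaurentSeries ℂ}

lemma isMC_FP (H : MeroExp IsMC LE) (G : X → ℍ → ℂ) (hG : ∀ x, IsMC (G x))
    (P : MvPolynomial X k) : IsMC (FP φ G P) :=
  H.isMC_eval G hG _

/-- The expansion of `FP G P` is `P` evaluated at the formal expansions. -/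
lemma exp_FP (H : MeroExp IsMC LE) (G : X → ℍ → ℂ) (hG : ∀ x, IsMC (G x))
    (gen : X → LaurentSeries k) (hgen : ∀ x, LE (G x) = coeffMap φ (gen x))
    (P : MvPolynomial X k) : LE (FP φ G P) = coeffMap φ (MvPolynomial.aeval gen P) := by
  show LE (fun τ => MvPolynomial.eval (fun x => G x τ) (MvPolynomial.map φ P)) = _
  rw [H.exp_eval G hG, coeffMap_aeval]
  have : (fun x => LE (G x)) = fun x => coeffMap φ (gen x) := funext hgen
  rw [this]

/-- `FP G P = 0` iff the formal polynomial relation holds (needs injectivity of the expansion and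
of `φ`). -/
lemma FP_eq_zero_iff (H : MeroExp IsMC LE) (hinj : ∀ f, IsMC f → LE f = 0 → f = 0)
    (hφ : Function.Injective φ) (G : X → ℍ → ℂ) (hG : ∀ x, IsMC (G x))
    (gen : X → LaurentSeries k) (hgen : ∀ x, LE (G x) = coeffMap φ (gen x))
    (P : MvPolynomial X k) : FP φ G P = 0 ↔ MvPolynomial.aeval gen P = 0 := by
  constructor
  · intro h
    have h1 := exp_FP φ H G hG gen hgen P
    rw [h] at h1
    have h0 : LE (0 : ℍ → ℂ) = 0 := H.exp_zero
    rw [h0] at h1
    exact (coeffMap_eq_zero_iff φ hφ _).mp h1.symm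
  · intro h
    apply hinj _ (isMC_FP φ H G hG P)
    rw [exp_FP φ H G hG gen hgen P, h, map_zero]

end

end Fermat.Agent.S28.EvalBridge
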