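import Fermat.Agent.S28.CuspCore1

set_option autoImplicit false
set_option linter.unusedSectionVars false

noncomputable section

namespace Fermat.Agent.S28

open Polynomial ModularCurve

section Wrap

variable {O : Type*} {k : Type*} [CommRing O] [Field k] [Algebra O k]

theorem algebraMap_O_eq_C (a : O) :
    algebraMap O (LaurentSeries k) a = HahnSeries.C (algebraMap O k a) := by
  rw [HahnSeries.algebraMap_apply']
  have : algebraMap O (PowerSeries k) a = PowerSeries.C (algebraMap O k a) := by
    rw [IsScalarTower.algebraMap_apply O k (PowerSeries k)]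
    rfl
  rw [this, HahnSeries.ofPowerSeries_C]

/-- the canonical surjection `O[X] → O[g]` -/
def adjoinHom (O : Type*) {k : Type*} [CommRing O] [Field k] [Algebra O k] (g : LaurentSeries k) :
    O[X] →+* Algebra.adjoin O {g} :=
  (Polynomial.aeval (⟨g, Algebra.self_mem_adjoin_singleton O g⟩ : Algebra.adjoin O {g}) :
    O[X] →ₐ[O] Algebra.adjoin O {g}).toRingHom

theorem algebraMap_comp_adjoinHom (g : LaurentSeries k) :
    (algebraMap (Algebra.adjoin O {g}) (LaurentSeries k)).comp (adjoinHom O g) =
      Polynomial.eval₂RingHom ((HahnSeries.C : k →+* LaurentSeries k).comp (algebraMap O k)) g := by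
  apply Polynomial.ringHom_ext
  · intro a
    simp only [adjoinHom, AlgHom.toRingHom_eq_coe, RingHom.coe_comp, RingHom.coe_coe,
      Function.comp_apply, aeval_C, coe_eval₂RingHom, eval₂_C]
    rw [← algebraMap_O_eq_C]
    rfl
  · simp [adjoinHom]

theorem adjoinHom_surjective (g : LaurentSeries k) : Function.Surjective (adjoinHom O g) := by
  rintro ⟨y, hy⟩
  have hy' := hy
  rw [Algebra.adjoin_singleton_eq_range_aeval] at hy'
  obtain ⟨P, hP⟩ := hy'
  refine ⟨P, Subtype.ext ?_⟩
  have := congrArg (fun f => f P) (algebraMap_comp_adjoinHom (O := O) g)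
  simp only [RingHom.comp_apply] at this
  show ((adjoinHom O g P : Algebra.adjoin O {g}) : LaurentSeries k) = y
  have h2 : ((adjoinHom O g P : Algebra.adjoin O {g}) : LaurentSeries k) =
      algebraMap (Algebra.adjoin O {g}) (LaurentSeries k) (adjoinHom O g P) := rfl
  rw [h2, this, ← hP]
  show eval₂ _ g P = Polynomial.aeval g P
  rw [Polynomial.aeval_def]
  congr 1
  exact RingHom.ext fun a => (algebraMap_O_eq_C a).symm

theorem algebraMap_comp_adjoinHom' (g : LaurentSeries k) :
    (algebraMap (Algebra.adjoin O {g}) (LaurentSeries k)).comp (adjoinHom O g) = evalL O g :=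
  algebraMap_comp_adjoinHom g

/-- integrality over the subalgebra `O[g]` in terms of the evaluation hom -/
theorem isIntegral_adjoin_iff (g x : LaurentSeries k) :
    IsIntegral (Algebra.adjoin O {g}) x ↔ (evalL O g).IsIntegralElem x := by
  constructor
  · rintro ⟨p, hp, hpx⟩
    have hlifts : p ∈ Polynomial.lifts (adjoinHom O g) :=
      (Polynomial.lifts_iff_coeff_lifts p).mpr fun n => adjoinHom_surjective g _
    obtain ⟨P, hP, -, hPm⟩ := Polynomial.lifts_and_natDegree_eq_and_monic hlifts hp
    refine ⟨P, hPm, ?_⟩
    rw [← algebraMap_comp_adjoinHom', ← Polynomial.eval₂_map, hP]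
    exact hpx
  · intro hx
    rw [← algebraMap_comp_adjoinHom'] at hx
    exact hx.of_comp

end Wrap

end Fermat.Agent.S28
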