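import Mathlib
import Fermat.Prelude.Def_GaloisRep_Flat

set_option autoImplicit false

noncomputable section

namespace Fermat.Agent.S28

open GaloisRep

variable (ℓ : ℕ) [hℓ : Fact ℓ.Prime]

omit hℓ in
theorem mem_ratLocalizedAt_iff (q : ℚ) : q ∈ ratLocalizedAt ℓ ↔ q.den.Coprime ℓ := Iff.rfl

omit hℓ in
theorem intCast_mem_ratLocalizedAt (n : ℤ) : (n : ℚ) ∈ ratLocalizedAt ℓ :=
  intCast_mem _ n

instance spanEll_isPrime : (Ideal.span {(ℓ : ℤ)}).IsPrime := by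
  rw [Ideal.span_singleton_prime (by exact_mod_cast hℓ.out.ne_zero)]
  exact Nat.prime_iff_prime_int.mp hℓ.out

theorem spanEll_ne_bot : Ideal.span {(ℓ : ℤ)} ≠ ⊥ := by
  rw [Ne, Ideal.span_singleton_eq_bot]
  exact_mod_cast hℓ.out.ne_zero

theorem mem_primeCompl_iff (y : ℤ) :
    y ∈ (Ideal.span {(ℓ : ℤ)}).primeCompl ↔ ¬ (ℓ : ℤ) ∣ y := by
  rw [Ideal.primeCompl, Submonoid.mem_mk, Subsemigroup.mem_mk]
  simp only [Set.mem_compl_iff, SetLike.mem_coe, Ideal.mem_span_singleton]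

theorem inv_intCast_mem {y : ℤ} (hy : ¬ (ℓ : ℤ) ∣ y) : ((y : ℚ))⁻¹ ∈ ratLocalizedAt ℓ := by
  rw [mem_ratLocalizedAt_iff]
  have h1 : ((y : ℚ))⁻¹.den ∣ y.natAbs := by
    have h2 := Rat.den_dvd 1 y
    have h3 : Rat.divInt 1 y = ((y : ℚ))⁻¹ := by
      rw [Rat.divInt_eq_div]; simp
    rw [h3] at h2
    exact Int.natCast_dvd.mp h2
  refine Nat.Coprime.coprime_dvd_left h1 ?_
  rw [Nat.coprime_comm, Nat.Prime.coprime_iff_not_dvd hℓ.out]
  intro h
  exact hy (Int.natCast_dvd.mpr h)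

instance isLocalization_ratLocalizedAt :
    IsLocalization.AtPrime ↥(ratLocalizedAt ℓ) (Ideal.span {(ℓ : ℤ)}) := by
  rw [IsLocalization.AtPrime, isLocalization_iff]
  refine ⟨?_, ?_, ?_⟩
  · rintro ⟨y, hy⟩
    rw [mem_primeCompl_iff] at hy
    have hy0 : (y : ℚ) ≠ 0 := by
      intro h
      apply hy
      have : y = 0 := by exact_mod_cast h
      rw [this]
      exact dvd_zero _
    refine IsUnit.of_mul_eq_one ⟨((y : ℚ))⁻¹, inv_intCast_mem ℓ hy⟩ (Subtype.ext ?_)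
    show ((algebraMap ℤ ↥(ratLocalizedAt ℓ) y : ↥(ratLocalizedAt ℓ)) : ℚ) * ((y : ℚ))⁻¹ = 1
    rw [show ((algebraMap ℤ ↥(ratLocalizedAt ℓ) y : ↥(ratLocalizedAt ℓ)) : ℚ) = (y : ℚ) by simp]
    exact mul_inv_cancel₀ hy0
  · rintro ⟨z, hz⟩
    have hden : (z.den : ℤ) ∈ (Ideal.span {(ℓ : ℤ)}).primeCompl := by
      rw [mem_primeCompl_iff]
      intro h
      have h1 : ℓ ∣ z.den := Int.natCast_dvd_natCast.mp h
      have h2 : z.den.Coprime ℓ := hz
      have h3 := Nat.Coprime.eq_one_of_dvd h2.symm h1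
      exact hℓ.out.one_lt.ne' h3
    refine ⟨(z.num, ⟨(z.den : ℤ), hden⟩), Subtype.ext ?_⟩
    show z * ((algebraMap ℤ ↥(ratLocalizedAt ℓ) (z.den : ℤ) : ↥(ratLocalizedAt ℓ)) : ℚ) =
      ((algebraMap ℤ ↥(ratLocalizedAt ℓ) z.num : ↥(ratLocalizedAt ℓ)) : ℚ)
    simp [Rat.mul_den_eq_num]
  · intro x y hxy
    refine ⟨1, ?_⟩
    have h1 : ((algebraMap ℤ ↥(ratLocalizedAt ℓ) x : ↥(ratLocalizedAt ℓ)) : ℚ) =
        ((algebraMap ℤ ↥(ratLocalizedAt ℓ) y : ↥(ratLocalizedAt ℓ)) : ℚ) :=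
      congrArg Subtype.val hxy
    have h2 : x = y := by simpa using h1
    rw [h2]

instance isLocalRing_ratLocalizedAt : IsLocalRing ↥(ratLocalizedAt ℓ) :=
  IsLocalization.AtPrime.isLocalRing _ (Ideal.span {(ℓ : ℤ)})

instance isDiscreteValuationRing_ratLocalizedAt : IsDiscreteValuationRing ↥(ratLocalizedAt ℓ) :=
  IsLocalization.AtPrime.isDiscreteValuationRing_of_dedekind_domain ℤ (spanEll_ne_bot ℓ) _

instance isFractionRing_ratLocalizedAt : IsFractionRing ↥(ratLocalizedAt ℓ) ℚ :=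
  IsFractionRing.isFractionRing_of_isDomain_of_isLocalization
    (Ideal.span {(ℓ : ℤ)}).primeCompl ↥(ratLocalizedAt ℓ) ℚ

theorem maximalIdeal_ratLocalizedAt :
    IsLocalRing.maximalIdeal ↥(ratLocalizedAt ℓ) = Ideal.span {(ℓ : ↥(ratLocalizedAt ℓ))} := by
  rw [← IsLocalization.AtPrime.map_eq_maximalIdeal (Ideal.span {(ℓ : ℤ)}) ↥(ratLocalizedAt ℓ),
    Ideal.map_span, Set.image_singleton]
  simp

theorem irreducible_ell : Irreducible (ℓ : ↥(ratLocalizedAt ℓ)) := by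
  rw [IsDiscreteValuationRing.irreducible_iff_uniformizer, maximalIdeal_ratLocalizedAt]

section Field

variable (K : Type*) [Field K] [CharP K ℓ] [Algebra ↥(ratLocalizedAt ℓ) K]

instance isLocalHom_algebraMap_ratLocalizedAt :
    IsLocalHom (algebraMap ↥(ratLocalizedAt ℓ) K) := by
  constructor
  intro a ha
  by_contra hna
  have hmem : a ∈ IsLocalRing.maximalIdeal ↥(ratLocalizedAt ℓ) :=
    (IsLocalRing.mem_maximalIdeal a).mpr hna
  rw [maximalIdeal_ratLocalizedAt, Ideal.mem_span_singleton] at hmem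
  obtain ⟨b, rfl⟩ := hmem
  rw [map_mul, map_natCast, CharP.cast_eq_zero K ℓ, zero_mul] at ha
  exact not_isUnit_zero ha

/-- The residue field of `ℤ_(ℓ)` acts on every field of characteristic `ℓ` over `ℤ_(ℓ)`. -/
instance algebraResidueField :
    Algebra (IsLocalRing.ResidueField ↥(ratLocalizedAt ℓ)) K :=
  (IsLocalRing.ResidueField.lift (algebraMap ↥(ratLocalizedAt ℓ) K)).toAlgebra

instance isScalarTower_residueField :
    IsScalarTower ↥(ratLocalizedAt ℓ) (IsLocalRing.ResidueField ↥(ratLocalizedAt ℓ)) K :=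
  IsScalarTower.of_algebraMap_eq fun x =>
    (IsLocalRing.ResidueField.lift_residue_apply (algebraMap ↥(ratLocalizedAt ℓ) K) x).symm

end Field

end Fermat.Agent.S28
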