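import Mathlib.NumberTheory.ModularForms.LevelOne.Basic
import Mathlib.NumberTheory.ModularForms.QExpansion
import Mathlib.NumberTheory.ModularForms.CongruenceSubgroups
import Mathlib.RingTheory.Polynomial.Vieta

/-!
# Symmetric functions of a finite family of functions permuted by `SL(2, ℤ)`

Module A4b of the S28 plan.
-/

set_option autoImplicit false

open UpperHalfPlane ModularForm Complex Function Periodic MatrixGroups Filter Polynomial
  CongruenceSubgroup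
open scoped Manifold Topology

namespace Fermat.Agent.S28.CosetSym

section Family

variable {ι : Type} [Fintype ι]

/-- the `n`-th elementary symmetric function of the family `f` -/
noncomputable def esymmFun (f : ι → ℍ → ℂ) (n : ℕ) (z : ℍ) : ℂ :=
  ∑ t ∈ Finset.powersetCard n Finset.univ, ∏ i ∈ t, f i z

/-- the polynomial `∏ (X - f i z)` -/
noncomputable def charPoly (f : ι → ℍ → ℂ) (z : ℍ) : ℂ[X] := ∏ i, (X - C (f i z))

theorem charPoly_monic (f : ι → ℍ → ℂ) (z : ℍ) : (charPoly f z).Monic :=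
  monic_prod_of_monic _ _ fun i _ => monic_X_sub_C (f i z)

theorem charPoly_natDegree (f : ι → ℍ → ℂ) (z : ℍ) :
    (charPoly f z).natDegree = Fintype.card ι := by
  unfold charPoly
  rw [natDegree_prod_of_monic _ _ fun i _ => monic_X_sub_C (f i z)]
  simp

theorem charPoly_coeff (f : ι → ℍ → ℂ) (z : ℍ) {r : ℕ} (hr : r ≤ Fintype.card ι) :
    (charPoly f z).coeff r =
      (-1) ^ (Fintype.card ι - r) * esymmFun f (Fintype.card ι - r) z := by
  have h := Multiset.prod_X_sub_C_coeff ((Finset.univ : Finset ι).val.map fun i => f i z)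
    (k := r) (by simpa using hr)
  rw [Multiset.map_map] at h
  simp only [Multiset.card_map, Finset.card_val, Finset.card_univ] at h
  rw [Finset.esymm_map_val] at h
  exact h

theorem charPoly_coeff_of_lt (f : ι → ℍ → ℂ) (z : ℍ) {r : ℕ} (hr : Fintype.card ι < r) :
    (charPoly f z).coeff r = 0 := by
  apply coeff_eq_zero_of_natDegree_lt
  rwa [charPoly_natDegree]

theorem charPoly_eval_self (f : ι → ℍ → ℂ) (z : ℍ) (i : ι) : (charPoly f z).eval (f i z) = 0 := by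
  unfold charPoly
  rw [eval_prod]
  exact Finset.prod_eq_zero (Finset.mem_univ i) (by simp)

end Family

section Analytic

variable {ι : Type} [Fintype ι] {f : ι → ℍ → ℂ}

theorem esymmFun_eq (f : ι → ℍ → ℂ) (n : ℕ) :
    esymmFun f n = ∑ t ∈ Finset.powersetCard n Finset.univ, ∏ i ∈ t, f i := by
  funext z
  simp [esymmFun, Finset.sum_apply, Finset.prod_apply]

theorem esymmFun_eq_esymm (f : ι → ℍ → ℂ) (n : ℕ) (z : ℍ) :
    esymmFun f n z = ((Finset.univ : Finset ι).val.map fun i => f i z).esymm n := by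
  rw [Finset.esymm_map_val]
  rfl

/-- the elementary symmetric functions of holomorphic functions are holomorphic -/
theorem mdiff_esymmFun (hf : ∀ i, MDiff (f i)) (n : ℕ) : MDiff (esymmFun f n) := by
  rw [esymmFun_eq]
  refine MDifferentiable.sum (f := fun t : Finset ι => ∏ i ∈ t, f i) fun t _ => ?_
  exact MDifferentiable.prod (f := f) fun i _ => hf i

/-- a family permuted by `SL(2, ℤ)` -/
def IsPermuted (f : ι → ℍ → ℂ) : Prop :=
  ∀ γ : SL(2, ℤ), ∃ σ : Equiv.Perm ι, ∀ i z, f i (γ • z) = f (σ i) z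

theorem charPoly_smul (hperm : IsPermuted f) (γ : SL(2, ℤ)) (z : ℍ) :
    charPoly f (γ • z) = charPoly f z := by
  obtain ⟨σ, hσ⟩ := hperm γ
  unfold charPoly
  simp_rw [hσ]
  exact Equiv.prod_comp σ fun i => X - C (f i z)

theorem esymmFun_smul (hperm : IsPermuted f) (n : ℕ) (γ : SL(2, ℤ)) (z : ℍ) :
    esymmFun f n (γ • z) = esymmFun f n z := by
  obtain ⟨σ, hσ⟩ := hperm γ
  rw [esymmFun_eq_esymm, esymmFun_eq_esymm]
  simp_rw [hσ]
  have h : ((Finset.univ : Finset ι).val.map fun i => f (σ i) z) =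
      (((Finset.univ : Finset ι).val.map σ).map fun i => f i z) := by
    rw [Multiset.map_map]
    rfl
  rw [h, Multiset.map_univ_val_equiv]

theorem norm_qParam_one_pow_le {h : ℝ} (hh : 0 < h) {a b : ℕ} (hab : (a : ℝ) ≤ h * b) (z : ℍ) :
    ‖qParam 1 (z : ℂ) ^ b‖ ≤ ‖qParam h (z : ℂ) ^ a‖ := by
  rw [norm_pow, norm_pow, norm_qParam, norm_qParam, ← Real.exp_nat_mul, ← Real.exp_nat_mul,
    Real.exp_le_exp]
  have hy : 0 < (z : ℂ).im := z.im_pos
  have h1 : (a : ℝ) / h ≤ b := by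
    rw [div_le_iff₀ hh]
    linarith
  have h2 : (a : ℝ) * (-2 * Real.pi * (z : ℂ).im / h) = -(2 * Real.pi * (z : ℂ).im) * (a / h) := by
    field_simp
  rw [h2]
  have h3 : 0 ≤ 2 * Real.pi * (z : ℂ).im := by positivity
  nlinarith [mul_le_mul_of_nonneg_left h1 h3]

theorem isBoundedAtImInfty_iff_mem (g : ℍ → ℂ) :
    IsBoundedAtImInfty g ↔ g ∈ boundedAtImInftySubalgebra ℂ := Iff.rfl

/-- pole order of the elementary symmetric functions, in the variable `q_h` -/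
theorem isBoundedAtImInfty_esymmFun_aux {h : ℝ} {m : ℕ}
    (hbdd : ∀ i, IsBoundedAtImInfty fun z : ℍ => qParam h (z : ℂ) ^ m * f i z) (n : ℕ) :
    IsBoundedAtImInfty fun z : ℍ => qParam h (z : ℂ) ^ (m * n) * esymmFun f n z := by
  have h1 : (fun z : ℍ => qParam h (z : ℂ) ^ (m * n) * esymmFun f n z) =
      ∑ t ∈ Finset.powersetCard n Finset.univ, ∏ i ∈ t,
        fun z : ℍ => qParam h (z : ℂ) ^ m * f i z := by
    funext z
    rw [Finset.sum_apply, esymmFun, Finset.mul_sum]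
    refine Finset.sum_congr rfl fun t ht => ?_
    rw [Finset.prod_apply, Finset.prod_mul_distrib, Finset.prod_const,
      (Finset.mem_powersetCard.mp ht).2, ← pow_mul]
  rw [h1, isBoundedAtImInfty_iff_mem]
  exact Subalgebra.sum_mem _ fun t _ => Subalgebra.prod_mem _ fun i _ => hbdd i

/-- pole order of the elementary symmetric functions, in the variable `q = q_1` -/
theorem isBoundedAtImInfty_esymmFun {h : ℝ} (hh : 0 < h) {m : ℕ}
    (hbdd : ∀ i, IsBoundedAtImInfty fun z : ℍ => qParam h (z : ℂ) ^ m * f i z) (n m' : ℕ)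
    (hm' : ((m * n : ℕ) : ℝ) ≤ h * m') :
    IsBoundedAtImInfty fun z : ℍ => qParam 1 (z : ℂ) ^ m' * esymmFun f n z := by
  have h1 := isBoundedAtImInfty_esymmFun_aux hbdd n
  refine Asymptotics.IsBigO.trans (Asymptotics.isBigO_of_le _ fun z => ?_) h1
  rw [norm_mul, norm_mul]
  exact mul_le_mul_of_nonneg_right (norm_qParam_one_pow_le hh hm' z) (norm_nonneg _)

end Analytic

section Main

variable {ι : Type} [Fintype ι] {f : ι → ℍ → ℂ}

/-- The statement of the level-one theorem (module A4a) for a given function `J`: holomorphic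
`SL(2, ℤ)`-invariant functions with a pole of order at most `m` at the cusp are polynomials of
degree at most `m` in `J`. -/
def LevelOnePoly (J : ℍ → ℂ) : Prop :=
  ∀ g : ℍ → ℂ, MDiff g → (∀ (γ : SL(2, ℤ)) (z : ℍ), g (γ • z) = g z) → ∀ m : ℕ,
    IsBoundedAtImInfty (fun z : ℍ => qParam 1 (z : ℂ) ^ m * g z) →
    ∃ P : ℂ[X], P.natDegree ≤ m ∧ ∀ z, g z = P.eval (J z)

/-- The elementary symmetric functions of a family permuted by `SL(2, ℤ)` are polynomials in `J`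
(with control of the degree). -/
theorem exists_poly_esymmFun {J : ℍ → ℂ} (hpoly : LevelOnePoly J) (hf : ∀ i, MDiff (f i))
    (hperm : IsPermuted f) {h : ℝ} (hh : 0 < h) {m : ℕ}
    (hbdd : ∀ i, IsBoundedAtImInfty fun z : ℍ => qParam h (z : ℂ) ^ m * f i z) (n m' : ℕ)
    (hm' : ((m * n : ℕ) : ℝ) ≤ h * m') :
    ∃ P : ℂ[X], P.natDegree ≤ m' ∧ ∀ z, esymmFun f n z = P.eval (J z) :=
  hpoly _ (mdiff_esymmFun hf n) (esymmFun_smul hperm n) m'
    (isBoundedAtImInfty_esymmFun hh hbdd n m' hm')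

/-- a convenient pole order when `h ≥ 1` -/
theorem exists_poly_esymmFun' {J : ℍ → ℂ} (hpoly : LevelOnePoly J) (hf : ∀ i, MDiff (f i))
    (hperm : IsPermuted f) {h : ℝ} (hh : 1 ≤ h) {m : ℕ}
    (hbdd : ∀ i, IsBoundedAtImInfty fun z : ℍ => qParam h (z : ℂ) ^ m * f i z) (n : ℕ) :
    ∃ P : ℂ[X], P.natDegree ≤ m * n ∧ ∀ z, esymmFun f n z = P.eval (J z) := by
  refine exists_poly_esymmFun hpoly hf hperm (lt_of_lt_of_le one_pos hh) hbdd n (m * n) ?_
  have h0 : (0 : ℝ) ≤ ((m * n : ℕ) : ℝ) := Nat.cast_nonneg _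
  nlinarith

/-- The coefficients of `∏ (X - f i z)` are polynomials in `J z`. -/
theorem exists_poly_charPoly_coeff {J : ℍ → ℂ} (hpoly : LevelOnePoly J) (hf : ∀ i, MDiff (f i))
    (hperm : IsPermuted f) {h : ℝ} (hh : 0 < h) {m : ℕ}
    (hbdd : ∀ i, IsBoundedAtImInfty fun z : ℍ => qParam h (z : ℂ) ^ m * f i z) (r : ℕ) :
    ∃ P : ℂ[X], ∀ z, (charPoly f z).coeff r = P.eval (J z) := by
  rcases le_or_gt r (Fintype.card ι) with hr | hr
  · obtain ⟨m', hm'⟩ : ∃ m' : ℕ, ((m * (Fintype.card ι - r) : ℕ) : ℝ) ≤ h * m' := by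
      obtain ⟨m', hm'⟩ := exists_nat_ge (((m * (Fintype.card ι - r) : ℕ) : ℝ) / h)
      exact ⟨m', by rwa [div_le_iff₀' hh] at hm'⟩
    obtain ⟨P, -, hP⟩ := exists_poly_esymmFun hpoly hf hperm hh hbdd (Fintype.card ι - r) m' hm'
    refine ⟨C ((-1) ^ (Fintype.card ι - r)) * P, fun z => ?_⟩
    rw [charPoly_coeff f z hr, hP z, eval_mul, eval_C]
  · exact ⟨0, fun z => by rw [charPoly_coeff_of_lt f z hr, eval_zero]⟩

/-- The polynomial `∏ (X - f i z)` is the specialisation at `J z` of one monic polynomial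
with coefficients in `ℂ[J]`. -/
theorem exists_charPoly_eq_map {J : ℍ → ℂ} (hpoly : LevelOnePoly J) (hf : ∀ i, MDiff (f i))
    (hperm : IsPermuted f) {h : ℝ} (hh : 0 < h) {m : ℕ}
    (hbdd : ∀ i, IsBoundedAtImInfty fun z : ℍ => qParam h (z : ℂ) ^ m * f i z) :
    ∃ Q : ℂ[X][X], Q.Monic ∧ Q.natDegree = Fintype.card ι ∧
      ∀ z, charPoly f z = Q.map (evalRingHom (J z)) := by
  choose P hP using exists_poly_charPoly_coeff hpoly hf hperm hh hbdd
  set k := Fintype.card ι with hk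
  have hdeg : (∑ r ∈ Finset.range k, C (P r) * X ^ r : ℂ[X][X]).degree < (k : ℕ) := by
    refine lt_of_le_of_lt (degree_sum_le _ _) ?_
    rw [Finset.sup_lt_iff (by simp)]
    intro r hr
    refine lt_of_le_of_lt (degree_C_mul_X_pow_le _ _) ?_
    exact_mod_cast Finset.mem_range.mp hr
  have hnat : (X ^ k + ∑ r ∈ Finset.range k, C (P r) * X ^ r : ℂ[X][X]).natDegree = k := by
    rw [natDegree_add_eq_left_of_degree_lt (by rwa [degree_X_pow]), natDegree_X_pow]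
  refine ⟨X ^ k + ∑ r ∈ Finset.range k, C (P r) * X ^ r, monic_X_pow_add hdeg, hnat, fun z => ?_⟩
  · ext r
    simp only [Polynomial.map_add, Polynomial.map_pow, map_X, Polynomial.map_sum,
      Polynomial.map_mul, map_C, coe_evalRingHom, coeff_add, coeff_X_pow, finsetSum_coeff,
      coeff_C_mul]
    rcases lt_trichotomy r k with hr | hr | hr
    · rw [if_neg hr.ne, zero_add, Finset.sum_eq_single r]
      · simp [hP r z]
      · intro b _ hb
        simp [Ne.symm hb]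
      · intro hr'
        exact absurd (Finset.mem_range.mpr hr) hr'
    · subst hr
      rw [if_pos rfl, Finset.sum_eq_zero, add_zero]
      · have h1 := (charPoly_monic f z).coeff_natDegree
        rwa [charPoly_natDegree] at h1
      · intro b hb
        have : k ≠ b := (Finset.mem_range.mp hb).ne'
        simp [this]
    · rw [if_neg hr.ne', zero_add, Finset.sum_eq_zero, charPoly_coeff_of_lt f z hr]
      intro b hb
      have : r ≠ b := ((Finset.mem_range.mp hb).trans hr).ne'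
      simp [this]

end Main

section Coset

variable (Γ : Subgroup SL(2, ℤ))

/-- the conjugate `z ↦ f (g⁻¹ • z)` of a `Γ`-invariant function `f` attached to the coset
`q = g Γ` -/
noncomputable def cosetFun (f : ℍ → ℂ) (q : SL(2, ℤ) ⧸ Γ) (z : ℍ) : ℂ :=
  f ((Quotient.out q)⁻¹ • z)

variable {Γ} {f : ℍ → ℂ}

theorem cosetFun_mk (hinv : ∀ γ ∈ Γ, ∀ z, f (γ • z) = f z) (g : SL(2, ℤ)) (z : ℍ) :
    cosetFun Γ f (g : SL(2, ℤ) ⧸ Γ) z = f (g⁻¹ • z) := by
  obtain ⟨γ, hγ⟩ := QuotientGroup.mk_out_eq_mul Γ g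
  unfold cosetFun
  rw [hγ, mul_inv_rev, mul_smul]
  exact hinv _ (inv_mem γ.2) _

theorem cosetFun_one (hinv : ∀ γ ∈ Γ, ∀ z, f (γ • z) = f z) (z : ℍ) :
    cosetFun Γ f ((1 : SL(2, ℤ)) : SL(2, ℤ) ⧸ Γ) z = f z := by
  rw [cosetFun_mk hinv, inv_one, one_smul]

theorem cosetFun_smul (hinv : ∀ γ ∈ Γ, ∀ z, f (γ • z) = f z) (δ : SL(2, ℤ))
    (q : SL(2, ℤ) ⧸ Γ) (z : ℍ) :
    cosetFun Γ f q (δ • z) = cosetFun Γ f (δ⁻¹ • q) z := by
  induction q using QuotientGroup.induction_on with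
  | H g =>
    rw [MulAction.Quotient.smul_mk, cosetFun_mk hinv, cosetFun_mk hinv, smul_eq_mul,
      mul_inv_rev, inv_inv, mul_smul]

theorem isPermuted_cosetFun [Fintype (SL(2, ℤ) ⧸ Γ)] (hinv : ∀ γ ∈ Γ, ∀ z, f (γ • z) = f z) :
    IsPermuted (cosetFun Γ f) :=
  fun δ => ⟨MulAction.toPerm δ⁻¹, fun q z => cosetFun_smul hinv δ q z⟩

theorem mdiff_comp_smul (hf : MDiff f) (g : SL(2, ℤ)) : MDiff fun z : ℍ => f (g • z) := by
  have h : MDiff fun z : ℍ => ((g : GL (Fin 2) ℝ)) • z :=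
    UpperHalfPlane.mdifferentiable_smul (by simp)
  exact hf.comp h

theorem mdiff_cosetFun (hf : MDiff f) (q : SL(2, ℤ) ⧸ Γ) : MDiff (cosetFun Γ f q) :=
  mdiff_comp_smul hf _

theorem isBoundedAtImInfty_qParam_pow_mul_of_le {h : ℝ} (hh : 0 < h) {m m' : ℕ} (hmm' : m ≤ m')
    {F : ℍ → ℂ} (hF : IsBoundedAtImInfty fun z : ℍ => qParam h (z : ℂ) ^ m * F z) :
    IsBoundedAtImInfty fun z : ℍ => qParam h (z : ℂ) ^ m' * F z := by
  refine Asymptotics.IsBigO.trans (Asymptotics.isBigO_of_le _ fun z => ?_) hF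
  rw [norm_mul, norm_mul, norm_pow, norm_pow]
  refine mul_le_mul_of_nonneg_right ?_ (norm_nonneg _)
  exact pow_le_pow_of_le_one (norm_nonneg _) (norm_qParam_lt_one hh z.im_pos).le hmm'

/-- uniform pole order for the conjugates -/
theorem exists_isBoundedAtImInfty_cosetFun [Finite (SL(2, ℤ) ⧸ Γ)] {h : ℝ} (hh : 0 < h)
    (hmero : ∀ g : SL(2, ℤ), ∃ m : ℕ,
      IsBoundedAtImInfty fun z : ℍ => qParam h (z : ℂ) ^ m * f (g • z)) :
    ∃ m : ℕ, ∀ q : SL(2, ℤ) ⧸ Γ,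
      IsBoundedAtImInfty fun z : ℍ => qParam h (z : ℂ) ^ m * cosetFun Γ f q z := by
  choose mm hmm using hmero
  have := Fintype.ofFinite (SL(2, ℤ) ⧸ Γ)
  refine ⟨Finset.univ.sup fun q : SL(2, ℤ) ⧸ Γ => mm (Quotient.out q)⁻¹, fun q => ?_⟩
  exact isBoundedAtImInfty_qParam_pow_mul_of_le hh
    (Finset.le_sup (f := fun q : SL(2, ℤ) ⧸ Γ => mm (Quotient.out q)⁻¹) (Finset.mem_univ q))
    (hmm (Quotient.out q)⁻¹)

/-- **Symmetric functions of the conjugates are polynomials in `J`.** -/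
theorem exists_poly_esymmFun_cosetFun [Fintype (SL(2, ℤ) ⧸ Γ)] {J : ℍ → ℂ}
    (hpoly : LevelOnePoly J) (hf : MDiff f) (hinv : ∀ γ ∈ Γ, ∀ z, f (γ • z) = f z)
    {h : ℝ} (hh : 0 < h)
    (hmero : ∀ g : SL(2, ℤ), ∃ m : ℕ,
      IsBoundedAtImInfty fun z : ℍ => qParam h (z : ℂ) ^ m * f (g • z)) (n : ℕ) :
    ∃ P : ℂ[X], ∀ z, esymmFun (cosetFun Γ f) n z = P.eval (J z) := by
  obtain ⟨m, hm⟩ := exists_isBoundedAtImInfty_cosetFun (Γ := Γ) hh hmero
  obtain ⟨m', hm'⟩ : ∃ m' : ℕ, ((m * n : ℕ) : ℝ) ≤ h * m' := by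
    obtain ⟨m', hm'⟩ := exists_nat_ge (((m * n : ℕ) : ℝ) / h)
    exact ⟨m', by rwa [div_le_iff₀' hh] at hm'⟩
  obtain ⟨P, -, hP⟩ := exists_poly_esymmFun hpoly (mdiff_cosetFun hf) (isPermuted_cosetFun hinv)
    hh hm n m' hm'
  exact ⟨P, hP⟩

/-- **The characteristic polynomial of the conjugates has coefficients in `ℂ[J]`.** -/
theorem exists_charPoly_cosetFun_eq_map [Fintype (SL(2, ℤ) ⧸ Γ)] {J : ℍ → ℂ}
    (hpoly : LevelOnePoly J) (hf : MDiff f) (hinv : ∀ γ ∈ Γ, ∀ z, f (γ • z) = f z)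
    {h : ℝ} (hh : 0 < h)
    (hmero : ∀ g : SL(2, ℤ), ∃ m : ℕ,
      IsBoundedAtImInfty fun z : ℍ => qParam h (z : ℂ) ^ m * f (g • z)) :
    ∃ Q : ℂ[X][X], Q.Monic ∧ Q.natDegree = Fintype.card (SL(2, ℤ) ⧸ Γ) ∧
      (∀ z, charPoly (cosetFun Γ f) z = Q.map (evalRingHom (J z))) ∧
      ∀ z, (Q.map (evalRingHom (J z))).eval (f z) = 0 := by
  obtain ⟨m, hm⟩ := exists_isBoundedAtImInfty_cosetFun (Γ := Γ) hh hmero
  obtain ⟨Q, hQ1, hQ2, hQ3⟩ := exists_charPoly_eq_map hpoly (mdiff_cosetFun hf)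
    (isPermuted_cosetFun hinv) hh hm
  refine ⟨Q, hQ1, hQ2, hQ3, fun z => ?_⟩
  rw [← hQ3 z, ← cosetFun_one hinv z]
  exact charPoly_eval_self _ z _

end Coset

section Gamma0

variable {N : ℕ} [NeZero N] {f : ℍ → ℂ}

/-- `𝕢 1 = (𝕢 N) ^ N` -/
theorem qParam_natCast_pow (z : ℂ) : qParam (N : ℝ) z ^ N = qParam 1 z := by
  have hN : (N : ℂ) ≠ 0 := Nat.cast_ne_zero.mpr (NeZero.ne N)
  unfold qParam
  rw [← Complex.exp_nat_mul]
  congr 1
  push_cast
  field_simp

/-- **Symmetric functions of the `Γ₀(N)`-conjugates are polynomials in `J`**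
(pole orders measured in `𝕢 N = exp (2 π i z / N)`). -/
theorem exists_poly_esymmFun_Gamma0 [Fintype (SL(2, ℤ) ⧸ Gamma0 N)] {J : ℍ → ℂ}
    (hpoly : LevelOnePoly J) (hf : MDiff f) (hinv : ∀ γ ∈ Gamma0 N, ∀ z, f (γ • z) = f z)
    (hmero : ∀ g : SL(2, ℤ), ∃ m : ℕ,
      IsBoundedAtImInfty fun z : ℍ => qParam (N : ℝ) (z : ℂ) ^ m * f (g • z)) (n : ℕ) :
    ∃ P : ℂ[X], ∀ z, esymmFun (cosetFun (Gamma0 N) f) n z = P.eval (J z) :=
  exists_poly_esymmFun_cosetFun hpoly hf hinv (Nat.cast_pos.mpr (NeZero.pos N)) hmero n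

/-- **The characteristic polynomial of the `Γ₀(N)`-conjugates has coefficients in `ℂ[J]`**, and
`f` is a root of it. -/
theorem exists_charPoly_Gamma0_eq_map [Fintype (SL(2, ℤ) ⧸ Gamma0 N)] {J : ℍ → ℂ}
    (hpoly : LevelOnePoly J) (hf : MDiff f) (hinv : ∀ γ ∈ Gamma0 N, ∀ z, f (γ • z) = f z)
    (hmero : ∀ g : SL(2, ℤ), ∃ m : ℕ,
      IsBoundedAtImInfty fun z : ℍ => qParam (N : ℝ) (z : ℂ) ^ m * f (g • z)) :
    ∃ Q : ℂ[X][X], Q.Monic ∧ Q.natDegree = Fintype.card (SL(2, ℤ) ⧸ Gamma0 N) ∧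
      (∀ z, charPoly (cosetFun (Gamma0 N) f) z = Q.map (evalRingHom (J z))) ∧
      ∀ z, (Q.map (evalRingHom (J z))).eval (f z) = 0 :=
  exists_charPoly_cosetFun_eq_map hpoly hf hinv (Nat.cast_pos.mpr (NeZero.pos N)) hmero

end Gamma0

section FunctionLevel

variable {ι : Type} [Fintype ι]

/-- the coefficients of `∏ (X - C (f i))` over the ring of functions, pointwise -/
theorem coeff_prod_X_sub_C_apply (f : ι → ℍ → ℂ) (r : ℕ) (z : ℍ) :
    (∏ i, (X - C (f i)) : (ℍ → ℂ)[X]).coeff r z = (charPoly f z).coeff r := by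
  have h := Polynomial.coeff_map (p := (∏ i, (X - C (f i)) : (ℍ → ℂ)[X]))
    (Pi.evalRingHom (fun _ : ℍ => ℂ) z) r
  rw [Polynomial.map_prod] at h
  simp only [Polynomial.map_sub, map_X, map_C, Pi.evalRingHom_apply] at h
  exact h.symm

end FunctionLevel

end Fermat.Agent.S28.CosetSym
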