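import Mathlib

/-!
# T28 / B : the abstract heart of the core argument (Mathlib only)

`A` is an integral extension of `R`, `ρ i : A →+* L` (`i : ι`, finite) are ring homomorphisms into a
field which agree on `R` and map `R` into a subring `B ⊆ L`.  Assume

* (sym) the coefficients of `∏ i, (X - ρ i a)` lie in `B` for every `a : A`;
* (intcl) `B` is integrally closed inside its fractions in `L`;
* (ord) `ord : L → ℤ` is additive on non-zero elements and vanishes on the units of `B`.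

Then for every `i` and every unit `u` of `A` the sum of `ord (ρ i' u)` over the *component* of `i`
(all `i'` with `ker (ρ i') = ker (ρ i)`) vanishes (`sum_ord_comp_eq_zero`).  With a combinatorial
input (`hcomb`) this forces all kernels to coincide (`ker_eq_of_comb`), and with a lifting input
(`hlift`) one gets `ker (ρ i₀) ⊆ π A` (`core`).
-/

set_option autoImplicit false

namespace Fermat.Agent.S28.AbstractCore

open Polynomial

variable {R A L : Type*} [CommRing R] [CommRing A] [Algebra R A] [Algebra.IsIntegral R A]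
  [Field L] {ι : Type*} [Fintype ι]

open scoped Classical in
/-- the set of indices with the same kernel as `i` (the component of `i`) -/
noncomputable def comp (ρ : ι → A →+* L) (i : ι) : Finset ι :=
  Finset.univ.filter fun i' => RingHom.ker (ρ i') = RingHom.ker (ρ i)

omit [Algebra R A] [Algebra.IsIntegral R A] in
theorem mem_comp {ρ : ι → A →+* L} {i i' : ι} :
    i' ∈ comp ρ i ↔ RingHom.ker (ρ i') = RingHom.ker (ρ i) := by
  simp [comp]

omit [Algebra R A] [Algebra.IsIntegral R A] in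
theorem self_mem_comp (ρ : ι → A →+* L) (i : ι) : i ∈ comp ρ i := mem_comp.2 rfl

variable (ρ : ι → A →+* L)

/-- prime avoidance + incomparability: an element vanishing on all other components but not on
the component of `i` -/
theorem exists_sep (hR : ∀ i j (r : R), ρ i (algebraMap R A r) = ρ j (algebraMap R A r)) (i : ι) :
    ∃ a : A, (∀ i', i' ∉ comp ρ i → ρ i' a = 0) ∧ ρ i a ≠ 0 := by
  classical
  have hQ : (RingHom.ker (ρ i)).IsPrime := RingHom.ker_isPrime (ρ i)
  by_contra hcon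
  push Not at hcon
  set T : Finset ι := Finset.univ.filter fun i' => i' ∉ comp ρ i with hT
  have hle : T.inf (fun i' => RingHom.ker (ρ i')) ≤ RingHom.ker (ρ i) := by
    intro a ha
    rw [Submodule.mem_finsetInf] at ha
    rw [RingHom.mem_ker]
    apply hcon a
    intro i' hi'
    have := ha i' (by simp [hT, hi'])
    rwa [RingHom.mem_ker] at this
  obtain ⟨i', hi'T, hi'le⟩ := hQ.inf_le'.1 hle
  have hi'comp : i' ∉ comp ρ i := by simpa [hT] using hi'T
  have hne : RingHom.ker (ρ i') ≠ RingHom.ker (ρ i) := fun h => hi'comp (mem_comp.2 h)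
  have hlt : RingHom.ker (ρ i') < RingHom.ker (ρ i) := lt_of_le_of_ne hi'le hne
  have : (RingHom.ker (ρ i')).IsPrime := RingHom.ker_isPrime (ρ i')
  have hlt' := Ideal.IsIntegral.comap_lt_comap (R := R) hlt
  rw [RingHom.comap_ker, RingHom.comap_ker] at hlt'
  have heq : RingHom.ker ((ρ i').comp (algebraMap R A)) = RingHom.ker ((ρ i).comp (algebraMap R A)) := by
    ext r
    simp only [RingHom.mem_ker, RingHom.comp_apply]
    rw [hR i' i r]
  rw [heq] at hlt'
  exact lt_irrefl _ hlt'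

omit [Algebra R A] [Algebra.IsIntegral R A] in
/-- if `b` vanishes under all `ρ i'` outside the component of `i`, the product of the `ρ i' b`
over the component lies in `B` -/
theorem prod_comp_mem (B : Subring L)
    (hsym : ∀ (a : A) (m : ℕ), (∏ i, (X - C (ρ i a))).coeff m ∈ B)
    (i : ι) (b : A) (hb : ∀ i', i' ∉ comp ρ i → ρ i' b = 0) :
    ∏ i' ∈ comp ρ i, ρ i' b ∈ B := by
  classical
  have h1 : ∏ i', (X - C (ρ i' b)) =
      (∏ i' ∈ comp ρ i, (X - C (ρ i' b))) * X ^ ((comp ρ i)ᶜ).card := by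
    rw [← Finset.prod_mul_prod_compl (comp ρ i)]
    congr 1
    rw [Finset.prod_congr rfl (g := fun _ => (X : L[X]))]
    · simp
    · intro i' hi'
      rw [hb i' (Finset.mem_compl.1 hi'), map_zero, sub_zero]
  have h2 := hsym b ((comp ρ i)ᶜ).card
  rw [h1, coeff_mul_X_pow', if_pos le_rfl, Nat.sub_self, coeff_zero_eq_eval_zero, eval_prod] at h2
  simp only [eval_sub, eval_X, eval_C, zero_sub] at h2
  have h3 : ((-1 : L) ^ (comp ρ i).card) ∈ B := B.pow_mem (B.neg_mem B.one_mem) _
  have h4 := B.mul_mem h3 h2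
  rwa [Finset.prod_neg, ← mul_assoc, ← mul_pow, neg_mul_neg, one_mul, one_pow, one_mul] at h4

/-- `ord` of a finite product of non-zero elements -/
theorem ord_prod {ord : L → ℤ} (hord_mul : ∀ x y : L, x ≠ 0 → y ≠ 0 → ord (x * y) = ord x + ord y)
    {κ : Type*} (s : Finset κ) (f : κ → L) (hf : ∀ k ∈ s, f k ≠ 0) :
    ord (∏ k ∈ s, f k) = ∑ k ∈ s, ord (f k) := by
  classical
  have h1 : ord 1 = 0 := by
    have := hord_mul 1 1 one_ne_zero one_ne_zero
    rw [one_mul] at this
    linarith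
  induction s using Finset.induction_on with
  | empty => simpa using h1
  | insert k s hk ih =>
    rw [Finset.prod_insert hk, Finset.sum_insert hk,
      hord_mul _ _ (hf k (Finset.mem_insert_self k s))
        (Finset.prod_ne_zero_iff.2 fun k' hk' => hf k' (Finset.mem_insert_of_mem hk')),
      ih fun k' hk' => hf k' (Finset.mem_insert_of_mem hk')]

/-- **Norm of a unit on a component.**  For every `i` and every unit `u` of `A`, the orders of
`ρ i' u` over the component of `i` sum to zero. -/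
theorem sum_ord_comp_eq_zero (B : Subring L) (ord : L → ℤ)
    (hB : ∀ i (r : R), ρ i (algebraMap R A r) ∈ B)
    (hR : ∀ i j (r : R), ρ i (algebraMap R A r) = ρ j (algebraMap R A r))
    (hsym : ∀ (a : A) (m : ℕ), (∏ i, (X - C (ρ i a))).coeff m ∈ B)
    (hint : ∀ x : L, IsIntegral B x → (∃ b c : L, b ∈ B ∧ c ∈ B ∧ c ≠ 0 ∧ x * c = b) → x ∈ B)
    (hord_mul : ∀ x y : L, x ≠ 0 → y ≠ 0 → ord (x * y) = ord x + ord y)
    (hord_unit : ∀ x y : L, x ∈ B → y ∈ B → x * y = 1 → ord x = 0)
    (i : ι) (u : Aˣ) : ∑ i' ∈ comp ρ i, ord (ρ i' u) = 0 := by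
  classical
  obtain ⟨a, ha0, hai⟩ := exists_sep ρ hR i
  -- `ρ i' a ≠ 0` on the component
  have ha_ne : ∀ i' ∈ comp ρ i, ρ i' a ≠ 0 := by
    intro i' hi' h
    have h1 : a ∈ RingHom.ker (ρ i') := h
    rw [mem_comp.1 hi'] at h1
    exact hai h1
  have hca_ne : ∏ i' ∈ comp ρ i, ρ i' a ≠ 0 := Finset.prod_ne_zero_iff.2 ha_ne
  -- every `ρ i' x` is integral over `B`
  have hintB : ∀ (i' : ι) (x : A), IsIntegral B (ρ i' x) := by
    intro i' x
    have hx : IsIntegral R x := Algebra.IsIntegral.isIntegral x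
    refine hx.map_of_comp_eq (((ρ i').comp (algebraMap R A)).codRestrict B (hB i')) (ρ i') ?_
    ext r
    rfl
  -- the key membership for an arbitrary unit
  have key : ∀ w : Aˣ, ∏ i' ∈ comp ρ i, ρ i' (w : A) ∈ B := by
    intro w
    apply hint
    · exact IsIntegral.prod _ fun i' _ => hintB i' w
    · refine ⟨∏ i' ∈ comp ρ i, ρ i' (a * w), ∏ i' ∈ comp ρ i, ρ i' a, ?_, ?_, hca_ne, ?_⟩
      · apply prod_comp_mem ρ B hsym i
        intro i' hi'
        rw [map_mul, ha0 i' hi', zero_mul]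
      · exact prod_comp_mem ρ B hsym i a ha0
      · rw [← Finset.prod_mul_distrib]
        refine Finset.prod_congr rfl fun i' _ => ?_
        rw [map_mul, mul_comm]
  have h1 : (∏ i' ∈ comp ρ i, ρ i' (u : A)) * (∏ i' ∈ comp ρ i, ρ i' ((u⁻¹ : Aˣ) : A)) = 1 := by
    rw [← Finset.prod_mul_distrib]
    refine Finset.prod_eq_one fun i' _ => ?_
    rw [← map_mul, Units.mul_inv, map_one]
  have h2 := hord_unit _ _ (key u) (key u⁻¹) h1
  rw [ord_prod hord_mul] at h2
  · exact h2
  · intro i' _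
    exact ((u.isUnit).map (ρ i')).ne_zero

/-- all kernels coincide, given the combinatorial input -/
theorem ker_eq_of_comb (B : Subring L) (ord : L → ℤ)
    (hB : ∀ i (r : R), ρ i (algebraMap R A r) ∈ B)
    (hR : ∀ i j (r : R), ρ i (algebraMap R A r) = ρ j (algebraMap R A r))
    (hsym : ∀ (a : A) (m : ℕ), (∏ i, (X - C (ρ i a))).coeff m ∈ B)
    (hint : ∀ x : L, IsIntegral B x → (∃ b c : L, b ∈ B ∧ c ∈ B ∧ c ≠ 0 ∧ x * c = b) → x ∈ B)
    (hord_mul : ∀ x y : L, x ≠ 0 → y ≠ 0 → ord (x * y) = ord x + ord y)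
    (hord_unit : ∀ x y : L, x ∈ B → y ∈ B → x * y = 1 → ord x = 0)
    (U : Set Aˣ) (i₀ : ι)
    (hcomb : ∀ S : Finset ι, S.Nonempty → (∀ u ∈ U, ∑ i' ∈ S, ord (ρ i' (u : A)) = 0) → i₀ ∈ S)
    (i : ι) : RingHom.ker (ρ i) = RingHom.ker (ρ i₀) := by
  have h := hcomb (comp ρ i) ⟨i, self_mem_comp ρ i⟩ fun u _ =>
    sum_ord_comp_eq_zero ρ B ord hB hR hsym hint hord_mul hord_unit i u
  exact (mem_comp.1 h).symm

/-- **The core**: an element killed by `ρ i₀` is divisible by `π`. -/
theorem core (B : Subring L) (ord : L → ℤ)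
    (hB : ∀ i (r : R), ρ i (algebraMap R A r) ∈ B)
    (hR : ∀ i j (r : R), ρ i (algebraMap R A r) = ρ j (algebraMap R A r))
    (hsym : ∀ (a : A) (m : ℕ), (∏ i, (X - C (ρ i a))).coeff m ∈ B)
    (hint : ∀ x : L, IsIntegral B x → (∃ b c : L, b ∈ B ∧ c ∈ B ∧ c ≠ 0 ∧ x * c = b) → x ∈ B)
    (hord_mul : ∀ x y : L, x ≠ 0 → y ≠ 0 → ord (x * y) = ord x + ord y)
    (hord_unit : ∀ x y : L, x ∈ B → y ∈ B → x * y = 1 → ord x = 0)
    (U : Set Aˣ) (i₀ : ι)
    (hcomb : ∀ S : Finset ι, S.Nonempty → (∀ u ∈ U, ∑ i' ∈ S, ord (ρ i' (u : A)) = 0) → i₀ ∈ S)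
    (π : A) (hlift : ∀ a : A, (∀ i, ρ i a = 0) → ∃ b : A, a = π * b)
    (a : A) (ha : ρ i₀ a = 0) : ∃ b : A, a = π * b := by
  apply hlift
  intro i
  have h := ker_eq_of_comb ρ B ord hB hR hsym hint hord_mul hord_unit U i₀ hcomb i
  have h1 : a ∈ RingHom.ker (ρ i₀) := ha
  rw [← h] at h1
  exact h1

end Fermat.Agent.S28.AbstractCore
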