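import Fermat.Agent.S28.DatumOfInput
import Fermat.Agent.S28.CuspSeries
import Fermat.Agent.S28.CuspExpansion2
import Fermat.Agent.S28.CosetSymJ
import Fermat.Agent.S28.EvalBridge

/-!
# The analytic interface of A5

`AnalyticFacts N` is the complete list of analytic facts (all about functions on the upper half
plane and Laurent series over `ℂ`) that the assembly of the cusp datum uses.  The assembly
(`Assemble.lean`) is a function of an `AnalyticFacts N`; the instance is provided from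
`MeroCusp`/`MeroSubst`.
-/

set_option autoImplicit false

noncomputable section

namespace Fermat.Agent.S28

open ModularCurve HahnSeries UpperHalfPlane MatrixGroups CuspExp EvalBridge
open scoped Manifold

section

variable (N : ℕ) [NeZero N]

theorem GenIdx.pos (x : GenIdx N) : 0 < x.1.1 := Nat.pos_of_ne_zero (NeZero.ne x.1.1)

/-- the analytic avatars of the generators: `j(d z)`, `Δ(d z)/Δ(z)`, `Δ(z)/Δ(d z)` -/
def genFun (x : GenIdx N) : ℍ → ℂ :=
  match x.2 with
  | 0 => jDil x.1.1 (GenIdx.pos N x)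
  | 1 => modUnit x.1.1 (GenIdx.pos N x)
  | 2 => fun z => (modUnit x.1.1 (GenIdx.pos N x) z)⁻¹

/-- the exponent `(N/d) A²` of `t = q^{1/N}` at the cusp described by the Hermite data -/
def expoX (x : GenIdx N) {g : SL(2, ℤ)} (H : HermiteData x.1.1 g) : ℕ := H.expo N

instance (x : GenIdx N) {g : SL(2, ℤ)} (H : HermiteData x.1.1 g) : NeZero (expoX N x H) :=
  ⟨(H.expo_pos N (Nat.pos_of_ne_zero (NeZero.ne N)) x.1.2).ne'⟩

/-- **The analytic interface.**  A predicate `IsMC` ("holomorphic on `ℍ`, `N`-periodic,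
meromorphic at `∞`") with an expansion map `LE` in the variable `t = exp(2πi z/N)`. -/
structure AnalyticFacts where
  IsMC : (ℍ → ℂ) → Prop
  LE : (ℍ → ℂ) → LaurentSeries ℂ
  H : MeroExp IsMC LE
  inj : ∀ f, IsMC f → LE f = 0 → f = 0
  mdiff : ∀ f, IsMC f → MDifferentiable 𝓘(ℂ) 𝓘(ℂ) f
  bdd : ∀ f, IsMC f → ∃ m : ℕ,
    IsBoundedAtImInfty fun z : ℍ => Function.Periodic.qParam (N : ℝ) (z : ℂ) ^ m * f z
  hauptmodul : CosetSym.IsHauptmodul jFun
  isMC_jFun : IsMC jFun
  exp_jFun : LE jFun = qExpand ℂ N (jqModC ℂ)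
  isMC_gen : ∀ (g : SL(2, ℤ)) (x : GenIdx N), IsMC (fun τ => genFun N x (g • τ))
  exp_gen : ∀ (g : SL(2, ℤ)) (x : GenIdx N) (H : HermiteData x.1.1 g) (ξ δ : ℂˣ),
    (ξ : ℂ) = rootExp H.B H.D → (δ : ℂ) = (H.D : ℂ) →
    LE (fun τ => genFun N x (g • τ)) = cuspGen ℂ N ξ δ (expoX N x H) x.2

end

end Fermat.Agent.S28
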