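import Fermat.Agent.S28.ChartReduction
import Fermat.Agent.S28.ChartTransport

/-!
# The chart inputs over `ℚ(ζ_N)` (module D3, last step)

`ChartInput N ℓ (cycK N) (cycO N ℓ) (ratLocToCycO N ℓ)` from the two core statements, and
hence the integrality of the special fibre of the Igusa scheme.
-/

set_option autoImplicit false
set_option linter.unusedSectionVars false

noncomputable section

namespace Fermat.Agent.S28.ChartInputCyc

open ModularCurve ModularCurve.IgusaScheme HahnSeries GaloisRep Fermat.Agent.S28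
  Fermat.Agent.S28.ChartReduction

section Generic

variable (N : ℕ) [NeZero N]
variable (k : Type) [Field k] [Algebra ℚ k]
variable (O : Type) [CommRing O] [IsDomain O] [IsDiscreteValuationRing O] [Algebra O k]
  [IsFractionRing O k]

/-- The core statement in the "divisible by the uniformizer in the Gauss ring" form implies the
form used by `ChartReduction`. -/
theorem coreAt_of_mul_form {T : LaurentSeries k} {π : O} (hπ : Irreducible π)
    (h : ∀ x : LaurentSeries k, x ∈ bigField k N → IsIntegral (Algebra.adjoin O {T}) x →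
      (∃ v ∈ gaussRing O k, x = HahnSeries.C (algebraMap O k π) * v) →
      IsIntegral (Algebra.adjoin O {T}) (HahnSeries.C (algebraMap O k π)⁻¹ * x)) :
    CoreAt N k O T π := by
  intro x hx hint hmem hred
  have h1 := h x hx hint ((gaussRed_eq_zero_iff hπ hmem).mp hred)
  rwa [map_inv₀] at h1

variable {N k O}

/-- The chart inputs from the two core statements, in the generic setting. -/
theorem chartInput_of_core {ℓ : ℕ} [Fact ℓ.Prime] (f : ↥(ratLocalizedAt ℓ) →+* O)
    (hf : ∀ r : ↥(ratLocalizedAt ℓ), algebraMap O k (f r) = algebraMap ℚ k (r : ℚ))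
    (hmem : f (ℓ : ↥(ratLocalizedAt ℓ)) ∈ IsLocalRing.maximalIdeal O)
    (hZ : ∀ x : ℚ, algebraMap ℚ k x ∈ (algebraMap O k).range → x ∈ ratLocalizedAt ℓ)
    (hcoreFin : CoreFin N k O (f (ℓ : ↥(ratLocalizedAt ℓ))))
    (hcoreInf : CoreInf N k O (f (ℓ : ↥(ratLocalizedAt ℓ)))) :
    ChartInput N ℓ k O f where
  compat := hf
  ell_mem := hmem
  hZ := hZ
  big := fun x => ChartTransport.coeffMap_mem_bigField N k x
  convFin := fun _ hx => ChartTransport.isIntegral_coeffMap_of_mem_chartAlgFin N ℓ k O f hf hx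
  convInf := fun _ hx => ChartTransport.isIntegral_coeffMap_of_mem_chartAlgInf N ℓ k O f hf hx
  coreFin := hcoreFin
  coreInf := hcoreInf

end Generic

section Cyclo

variable (N : ℕ) [NeZero N] (ℓ : ℕ) [Fact ℓ.Prime]

/-- The chart inputs over `ℚ(ζ_N)` from the two core statements. -/
theorem chartInput_cyc
    (hcoreFin : CoreFin N ↥(cycK N) ↥(cycO N ℓ) ((ℓ : ℕ) : ↥(cycO N ℓ)))
    (hcoreInf : CoreInf N ↥(cycK N) ↥(cycO N ℓ) ((ℓ : ℕ) : ↥(cycO N ℓ))) :
    ChartInput N ℓ ↥(cycK N) ↥(cycO N ℓ) (ratLocToCycO N ℓ) :=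
  chartInput_of_core (ratLocToCycO N ℓ) (fun _ => rfl) (ratLocToCycO_ell_mem N ℓ)
    (hZ_cycO N ℓ) (by rw [ratLocToCycO_ell]; exact hcoreFin)
    (by rw [ratLocToCycO_ell]; exact hcoreInf)

variable (K : Type) [Field K] [CharP K ℓ] [Algebra ↥(ratLocalizedAt ℓ) K]

/-- **S28 from the two core statements over `ℚ(ζ_N)`.** -/
theorem isIntegral_pullback_of_core
    (hcoreFin : CoreFin N ↥(cycK N) ↥(cycO N ℓ) ((ℓ : ℕ) : ↥(cycO N ℓ)))
    (hcoreInf : CoreInf N ↥(cycK N) ↥(cycO N ℓ) ((ℓ : ℕ) : ↥(cycO N ℓ))) :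
    AlgebraicGeometry.IsIntegral
      (CategoryTheory.Limits.pullback (igusaTo N ℓ)
        (AlgebraicGeometry.Spec.map
          (CommRingCat.ofHom (algebraMap ↥(ratLocalizedAt ℓ) K)))) :=
  (chartInput_cyc N ℓ hcoreFin hcoreInf).isIntegral_pullback K

end Cyclo

end Fermat.Agent.S28.ChartInputCyc
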