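import Fermat.Agent.S28.Defs
import Fermat.Agent.S28.RatLocal
import Fermat.Agent.S28.PolyDescentInv

set_option autoImplicit false

noncomputable section

namespace Fermat.Agent.S28.ChartSeries

open ModularCurve ModularCurve.IgusaScheme HahnSeries GaloisRep Fermat.Agent.S28
  Fermat.Agent.S28.PolyDescent

/-! ### Integral series -/

section Int

variable (𝒪 k : Type*) [CommRing 𝒪] [Field k] [Algebra 𝒪 k]

theorem coeffMap_mem_intSeries (g : LaurentSeries 𝒪) :
    coeffMap (algebraMap 𝒪 k) g ∈ intSeries 𝒪 k := ⟨g, rfl⟩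

theorem jqModC_mem_intSeries : jqModC k ∈ intSeries 𝒪 k :=
  ⟨jqModC 𝒪, coeffMap_jqModC _⟩

theorem jInvS_mem_intSeries : jInvS k ∈ intSeries 𝒪 k :=
  ⟨jInvS 𝒪, coeffMap_jInvS _⟩

theorem jS_mem_intSeries (d : ℕ) [NeZero d] : jS k d ∈ intSeries 𝒪 k :=
  ⟨jS 𝒪 d, by rw [jS, coeffMap_qExpand, coeffMap_jqModC]; rfl⟩

theorem C_mem_intSeries (r : 𝒪) : HahnSeries.C (algebraMap 𝒪 k r) ∈ intSeries 𝒪 k :=
  ⟨HahnSeries.C r, by rw [HahnSeries.C_apply, coeffMap_single, HahnSeries.C_apply]⟩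

end Int

/-! ### Quotients of integral series form a field -/

section Frac

variable (𝒪 k : Type*) [CommRing 𝒪] [IsDomain 𝒪] [Field k] [Algebra 𝒪 k] [FaithfulSMul 𝒪 k]

omit [IsDomain 𝒪] in
theorem coeffMap_algebraMap_injective :
    Function.Injective (coeffMap (algebraMap 𝒪 k)) := by
  intro x y hxy
  ext n
  have h := congrArg (fun z : LaurentSeries k => z.coeff n) hxy
  simp only [coeffMap_coeff] at h
  exact FaithfulSMul.algebraMap_injective 𝒪 k h

omit [IsDomain 𝒪] in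
theorem coeffMap_ne_zero {h : LaurentSeries 𝒪} (hh : h ≠ 0) :
    coeffMap (algebraMap 𝒪 k) h ≠ 0 := fun h0 =>
  hh (coeffMap_algebraMap_injective 𝒪 k (by rw [h0, map_zero]))

variable [IsLocalRing 𝒪]

/-- the field of quotients of integral series -/
def fracIntField : Subfield (LaurentSeries k) where
  carrier := {x | IsFracInt 𝒪 k x}
  mul_mem' := by
    rintro x y ⟨h₁, g₁, hh₁, e₁⟩ ⟨h₂, g₂, hh₂, e₂⟩
    refine ⟨h₁ * h₂, g₁ * g₂, mul_ne_zero hh₁ hh₂, ?_⟩
    rw [map_mul, map_mul, ← e₁, ← e₂]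
    ring
  one_mem' := ⟨1, 1, one_ne_zero, by simp⟩
  add_mem' := by
    rintro x y ⟨h₁, g₁, hh₁, e₁⟩ ⟨h₂, g₂, hh₂, e₂⟩
    refine ⟨h₁ * h₂, g₁ * h₂ + g₂ * h₁, mul_ne_zero hh₁ hh₂, ?_⟩
    rw [map_mul, map_add, map_mul, map_mul, ← e₁, ← e₂]
    ring
  zero_mem' := ⟨1, 0, one_ne_zero, by simp⟩
  neg_mem' := by
    rintro x ⟨h, g, hh, e⟩
    exact ⟨h, -g, hh, by rw [map_neg, ← e]; ring⟩
  inv_mem' := by
    rintro x ⟨h, g, hh, e⟩
    by_cases hx : x = 0
    · subst hx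
      exact ⟨1, 0, one_ne_zero, by simp⟩
    · have hg : g ≠ 0 := by
        rintro rfl
        rw [map_zero] at e
        exact (mul_ne_zero (coeffMap_ne_zero 𝒪 k hh) hx) e
      refine ⟨g, h, hg, ?_⟩
      rw [← e, mul_assoc, mul_inv_cancel₀ hx, mul_one]

theorem mem_fracIntField_iff {x : LaurentSeries k} :
    x ∈ fracIntField 𝒪 k ↔ IsFracInt 𝒪 k x := Iff.rfl

theorem intSeries_le_fracIntField {x : LaurentSeries k} (hx : x ∈ intSeries 𝒪 k) :
    x ∈ fracIntField 𝒪 k := by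
  obtain ⟨g, rfl⟩ := hx
  exact ⟨1, g, one_ne_zero, by simp⟩

end Frac

/-! ### The charts of the Igusa scheme inside the integral series -/

section Charts

variable (N : ℕ) [NeZero N] (ℓ : ℕ) [Fact ℓ.Prime]

omit [NeZero N] [Fact (Nat.Prime ℓ)] in
theorem coe_algebraMap_eq (r : ↥(ratLocalizedAt ℓ)) :
    ((algebraMap ↥(ratLocalizedAt ℓ) ↥(modularFunctionFieldFull N) r : ↥(modularFunctionFieldFull N)) : LaurentSeries ℚ) = HahnSeries.C (algebraMap ↥(ratLocalizedAt ℓ) ℚ r) := by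
  show ((algebraMap ℚ ↥(modularFunctionFieldFull N) (algebraMap ↥(ratLocalizedAt ℓ) ℚ r) : ↥(modularFunctionFieldFull N)) : LaurentSeries ℚ) = _
  have h1 : ((algebraMap ℚ ↥(modularFunctionFieldFull N) (algebraMap ↥(ratLocalizedAt ℓ) ℚ r) :
      ↥(modularFunctionFieldFull N)) : LaurentSeries ℚ) =
      algebraMap ℚ (LaurentSeries ℚ) (algebraMap ↥(ratLocalizedAt ℓ) ℚ r) := by
    rw [eq_ratCast (algebraMap ℚ ↥(modularFunctionFieldFull N)),
      eq_ratCast (algebraMap ℚ (LaurentSeries ℚ))]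
    rfl
  rw [h1, algebraMap_apply_eq_single]
  rfl

theorem coe_jFull_inv : (((jFull N)⁻¹ : ↥(modularFunctionFieldFull N)) : LaurentSeries ℚ) = jInvS ℚ := by
  rw [IntermediateField.coe_inv, coe_jFull, ← jqModC_rat, inv_jqModC_eq]

/-- elements of `ℤ_(ℓ)[j, 1/j]` have `ℓ`-integral `q`-expansions -/
theorem coe_mem_intSeries_of_mem_adjoin {S : Set ↥(modularFunctionFieldFull N)} (hS : S ⊆ {jFull N, (jFull N)⁻¹}) {y : ↥(modularFunctionFieldFull N)}
    (hy : y ∈ Algebra.adjoin ↥(ratLocalizedAt ℓ) S) : (y : LaurentSeries ℚ) ∈ intSeries ↥(ratLocalizedAt ℓ) ℚ := by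
  induction hy using Algebra.adjoin_induction with
  | mem z hz =>
    rcases hS hz with rfl | rfl
    · rw [coe_jFull, ← jqModC_rat]
      exact jqModC_mem_intSeries ↥(ratLocalizedAt ℓ) ℚ
    · rw [coe_jFull_inv]
      exact jInvS_mem_intSeries ↥(ratLocalizedAt ℓ) ℚ
  | algebraMap r =>
    rw [coe_algebraMap_eq]
    exact C_mem_intSeries ↥(ratLocalizedAt ℓ) ℚ r
  | add a b _ _ ha hb =>
    rw [IntermediateField.coe_add]
    exact add_mem ha hb
  | mul a b _ _ ha hb =>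
    rw [IntermediateField.coe_mul]
    exact mul_mem ha hb

/-- the inclusion of `ℤ_(ℓ)[S]` into the integral series -/
def adjoinToIntSeries {S : Set ↥(modularFunctionFieldFull N)} (hS : S ⊆ {jFull N, (jFull N)⁻¹}) :
    ↥(Algebra.adjoin ↥(ratLocalizedAt ℓ) S) →+* ↥(intSeries ↥(ratLocalizedAt ℓ) ℚ) where
  toFun y := ⟨((y : ↥(modularFunctionFieldFull N)) : LaurentSeries ℚ), coe_mem_intSeries_of_mem_adjoin N ℓ hS y.2⟩
  map_one' := rfl
  map_mul' _ _ := rfl
  map_zero' := rfl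
  map_add' _ _ := rfl

/-- every element of a chart algebra is integral over the integral series -/
theorem isIntegral_intSeries_of_mem_chartAlg {S : Set ↥(modularFunctionFieldFull N)} (hS : S ⊆ {jFull N, (jFull N)⁻¹})
    {x : ↥(modularFunctionFieldFull N)} (hx : x ∈ chartAlg N ℓ S) :
    IsIntegral ↥(intSeries ↥(ratLocalizedAt ℓ) ℚ) (x : LaurentSeries ℚ) := by
  rw [mem_chartAlg_iff] at hx
  exact hx.map_of_comp_eq (adjoinToIntSeries N ℓ hS)
    ((modularFunctionFieldFull N).val : ↥(modularFunctionFieldFull N) →+* LaurentSeries ℚ) (by ext; rfl)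

/-- the constants are quotients of integral series -/
theorem algebraMap_mem_fracIntField (c : ℚ) :
    algebraMap ℚ (LaurentSeries ℚ) c ∈ fracIntField ↥(ratLocalizedAt ℓ) ℚ := by
  rw [algebraMap_apply_eq_single]
  refine ⟨HahnSeries.C ((c.den : ℤ) : ↥(ratLocalizedAt ℓ)), HahnSeries.C ((c.num : ℤ) : ↥(ratLocalizedAt ℓ)), ?_, ?_⟩
  · intro h
    have h0 := congrArg (fun z : LaurentSeries ↥(ratLocalizedAt ℓ) => z.coeff 0) h
    simp only [HahnSeries.C_apply, HahnSeries.coeff_single_same, HahnSeries.coeff_zero] at h0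
    have h1 : ((c.den : ℤ) : ℚ) = 0 := by
      have := congrArg (fun r : ↥(ratLocalizedAt ℓ) => (r : ℚ)) h0
      simp at this
    exact c.den_ne_zero (by exact_mod_cast h1)
  · rw [HahnSeries.C_apply, HahnSeries.C_apply, coeffMap_single, coeffMap_single,
      HahnSeries.single_mul_single]
    congr 1
    · have : algebraMap ↥(ratLocalizedAt ℓ) ℚ ((c.den : ℤ) : ↥(ratLocalizedAt ℓ)) * c = algebraMap ↥(ratLocalizedAt ℓ) ℚ ((c.num : ℤ) : ↥(ratLocalizedAt ℓ)) := by
        simp [Rat.den_mul_eq_num]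
      exact this

omit [NeZero N] in
/-- every modular function of level `N` is a quotient of `ℓ`-integral series -/
theorem coe_mem_fracIntField (x : ↥(modularFunctionFieldFull N)) : (x : LaurentSeries ℚ) ∈ fracIntField ↥(ratLocalizedAt ℓ) ℚ := by
  have hle : modularFunctionFieldFull N ≤
      (fracIntField ↥(ratLocalizedAt ℓ) ℚ).toIntermediateField (algebraMap_mem_fracIntField ℓ) := by
    rw [modularFunctionFieldFull, IntermediateField.adjoin_le_iff]
    rintro y ⟨d, hd, -, rfl⟩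
    have := hd
    refine intSeries_le_fracIntField ↥(ratLocalizedAt ℓ) ℚ ?_
    rw [← jqModC_rat]
    exact jS_mem_intSeries ↥(ratLocalizedAt ℓ) ℚ d
  exact hle x.2

end Charts

end Fermat.Agent.S28.ChartSeries
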