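import Mathlib

/-!
# T28 / B: abstract algebra for the cusp core

Pure commutative algebra used by `CuspCore`: transport of integrality along commutative squares,
a normality lemma, the norm argument on a minimal kernel class, and the chart change trick.
-/

set_option autoImplicit false
set_option linter.unusedSectionVars false

noncomputable section

namespace Fermat.Agent.S28.CoreAlg

open Polynomial

/-- transport of integrality along a commutative square of ring homs -/
theorem isIntegralElem_square {R S R' S' : Type*} [CommRing R] [CommRing S] [CommRing R']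
    [CommRing S'] {f : R →+* S} {g : R' →+* S'} (α : R →+* R') (β : S →+* S')
    (h : β.comp f = g.comp α) {x : S} (hx : f.IsIntegralElem x) : g.IsIntegralElem (β x) := by
  have h1 := hx.map β
  rw [h] at h1
  exact h1.of_comp

/-- normality: an element of a field which is a quotient of two elements of the image of an
integrally closed domain and is integral over that image lies in the image -/
theorem exists_eq_of_isIntegralElem_of_mul_eq {D F : Type*} [CommRing D] [IsDomain D]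
    [IsIntegrallyClosed D] [Field F] (φ : D →+* F) (hφ : Function.Injective φ) {z : F} {c y : D}
    (hc : c ≠ 0) (hz : z * φ c = φ y) (hint : φ.IsIntegralElem z) : ∃ w : D, φ w = z := by
  classical
  let K := FractionRing D
  let Φ : K →+* F := IsFractionRing.lift hφ
  have hΦ : ∀ d : D, Φ (algebraMap D K d) = φ d := fun d => IsFractionRing.lift_algebraMap hφ d
  have hφc : φ c ≠ 0 := fun h => hc (hφ (by rw [h, map_zero]))
  set w : K := algebraMap D K y / algebraMap D K c with hw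
  have hΦw : Φ w = z := by
    rw [hw, map_div₀, hΦ, hΦ, ← hz, mul_div_assoc, div_self hφc, mul_one]
  have hcomp : Φ.comp (algebraMap D K) = φ := RingHom.ext hΦ
  have hwint : IsIntegral D w := by
    obtain ⟨p, hp, hpz⟩ := hint
    refine ⟨p, hp, Φ.injective ?_⟩
    rw [Polynomial.hom_eval₂, hcomp, hΦw, hpz, map_zero]
  obtain ⟨d, hd⟩ := IsIntegrallyClosed.isIntegral_iff.mp hwint
  exact ⟨d, by rw [← hΦ, hd, hΦw]⟩

section NS

variable {A D F : Type*} [CommRing A] [CommRing D] [IsDomain D] [IsIntegrallyClosed D] [Field F]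
  (φ : D →+* F) (hφ : Function.Injective φ) {I : Type*} [Fintype I] [DecidableEq I]
  (ρ : I → A →+* F)

theorem prod_X_sub_C_split (S : Finset I) (a : I → F) (h0 : ∀ i ∉ S, a i = 0) :
    ∏ i, (X - C (a i)) = X ^ (Sᶜ.card) * ∏ i ∈ S, (X - C (a i)) := by
  rw [← Finset.prod_mul_prod_compl S, mul_comm]
  congr 1
  rw [← Finset.prod_const]
  refine Finset.prod_congr rfl fun i hi => ?_
  rw [h0 i (Finset.mem_compl.mp hi), map_zero, sub_zero]

theorem prod_mem_of_coeff_mem (R : Subring F) (S : Finset I) (a : I → F)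
    (h0 : ∀ i ∉ S, a i = 0) (h : (∏ i, (X - C (a i))).coeff Sᶜ.card ∈ R) :
    ∏ i ∈ S, a i ∈ R := by
  rw [prod_X_sub_C_split S a h0] at h
  have h1 : (X ^ Sᶜ.card * ∏ i ∈ S, (X - C (a i))).coeff (0 + Sᶜ.card) =
      (∏ i ∈ S, (X - C (a i))).coeff 0 := Polynomial.coeff_X_pow_mul _ _ _
  rw [zero_add] at h1
  rw [h1, Polynomial.coeff_zero_eq_eval_zero, Polynomial.eval_prod] at h
  simp only [eval_sub, eval_X, eval_C, zero_sub] at h
  have h2 : ∏ i ∈ S, a i = (-1) ^ S.card * ∏ i ∈ S, (- a i) := by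
    rw [← Finset.prod_const, ← Finset.prod_mul_distrib]
    refine Finset.prod_congr rfl fun i _ => ?_
    rw [neg_one_mul, neg_neg]
  rw [h2]
  exact mul_mem (pow_mem (neg_mem (one_mem _)) _) h

include hφ in
theorem prod_mem_range_of_sym
    (hint : ∀ i x, φ.IsIntegralElem (ρ i x))
    (hsym : ∀ (x : A) (m : ℕ), (∏ i, (X - C (ρ i x))).coeff m ∈ φ.range)
    (S : Finset I) (e : A) (he0 : ∀ i ∉ S, ρ i e = 0) (he1 : ∀ i ∈ S, ρ i e ≠ 0) (x : A) :
    ∏ i ∈ S, ρ i x ∈ φ.range := by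
  have key : ∀ y : A, ∏ i ∈ S, ρ i (e * y) ∈ φ.range := fun y =>
    prod_mem_of_coeff_mem φ.range S (fun i => ρ i (e * y))
      (fun i hi => by rw [map_mul, he0 i hi, zero_mul]) (hsym (e * y) _)
  obtain ⟨c, hc⟩ := key 1
  obtain ⟨y, hy⟩ := key x
  rw [mul_one] at hc
  have hNe : ∏ i ∈ S, ρ i e ≠ 0 := Finset.prod_ne_zero_iff.mpr he1
  have hc0 : c ≠ 0 := by
    rintro rfl
    rw [map_zero] at hc
    exact hNe hc.symm
  have hz : (∏ i ∈ S, ρ i x) * φ c = φ y := by
    rw [hc, hy, ← Finset.prod_mul_distrib]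
    refine Finset.prod_congr rfl fun i _ => ?_
    rw [map_mul, mul_comm]
  have hi : φ.IsIntegralElem (∏ i ∈ S, ρ i x) :=
    Finset.prod_induction _ (fun z => φ.IsIntegralElem z)
      (fun a b ha hb => ha.mul φ hb) φ.isIntegralElem_one (fun i _ => hint i x)
  obtain ⟨w, hw⟩ := exists_eq_of_isIntegralElem_of_mul_eq φ hφ hc0 hz hi
  exact ⟨w, hw⟩

include hφ in
theorem exists_unit_of_sym
    (hint : ∀ i x, φ.IsIntegralElem (ρ i x))
    (hsym : ∀ (x : A) (m : ℕ), (∏ i, (X - C (ρ i x))).coeff m ∈ φ.range)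
    (S : Finset I) (e : A) (he0 : ∀ i ∉ S, ρ i e = 0) (he1 : ∀ i ∈ S, ρ i e ≠ 0) (u : Aˣ) :
    ∃ d : Dˣ, φ d = ∏ i ∈ S, ρ i (u : A) := by
  obtain ⟨w, hw⟩ := prod_mem_range_of_sym φ hφ ρ hint hsym S e he0 he1 (u : A)
  obtain ⟨w', hw'⟩ := prod_mem_range_of_sym φ hφ ρ hint hsym S e he0 he1 ((u⁻¹ : Aˣ) : A)
  have h1 : w * w' = 1 := by
    apply hφ
    rw [map_mul, hw, hw', ← Finset.prod_mul_distrib, map_one]
    refine Finset.prod_eq_one fun i _ => ?_
    rw [← map_mul, Units.mul_inv, map_one]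
  exact ⟨Units.mkOfMulEqOne w w' h1, hw⟩

theorem exists_minimal_class [Nonempty I] :
    ∃ (S : Finset I) (e : A), S.Nonempty ∧ (∀ i ∉ S, ρ i e = 0) ∧ (∀ i ∈ S, ρ i e ≠ 0) ∧
      ∀ i ∈ S, ∀ j ∈ S, RingHom.ker (ρ i) = RingHom.ker (ρ j) := by
  classical
  obtain ⟨i₁, -, hmin⟩ := Finset.exists_minimalFor (fun i => RingHom.ker (ρ i)) Finset.univ
    Finset.univ_nonempty
  have hmin' : ∀ j, RingHom.ker (ρ j) ≤ RingHom.ker (ρ i₁) →
      RingHom.ker (ρ j) = RingHom.ker (ρ i₁) := fun j hj =>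
    le_antisymm hj (hmin (Finset.mem_univ j) hj)
  set S : Finset I := Finset.univ.filter fun i => RingHom.ker (ρ i) ≤ RingHom.ker (ρ i₁) with hS
  have hmemS : ∀ i, i ∈ S ↔ RingHom.ker (ρ i) ≤ RingHom.ker (ρ i₁) := fun i => by
    rw [hS, Finset.mem_filter]; simp
  have hex : ∀ j, ∃ a : A, j ∉ S → (ρ j a = 0 ∧ ρ i₁ a ≠ 0) := by
    intro j
    by_cases hj : j ∈ S
    · exact ⟨1, fun h => absurd hj h⟩
    · have : ¬ RingHom.ker (ρ j) ≤ RingHom.ker (ρ i₁) := fun h => hj ((hmemS j).mpr h)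
      obtain ⟨a, ha, ha'⟩ := SetLike.not_le_iff_exists.mp this
      exact ⟨a, fun _ => ⟨(RingHom.mem_ker).mp ha, fun h => ha' ((RingHom.mem_ker).mpr h)⟩⟩
  choose a ha using hex
  refine ⟨S, ∏ j ∈ Sᶜ, a j, ⟨i₁, (hmemS i₁).mpr le_rfl⟩, ?_, ?_, ?_⟩
  · intro i hi
    rw [map_prod]
    exact Finset.prod_eq_zero (Finset.mem_compl.mpr hi) (ha i hi).1
  · intro i hi
    rw [map_prod, Finset.prod_ne_zero_iff]
    intro j hj h0
    have hj' : j ∉ S := Finset.mem_compl.mp hj
    have h1 : a j ∈ RingHom.ker (ρ i) := (RingHom.mem_ker).mpr h0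
    rw [hmin' i ((hmemS i).mp hi)] at h1
    exact (ha j hj').2 ((RingHom.mem_ker).mp h1)
  · intro i hi j hj
    rw [hmin' i ((hmemS i).mp hi), hmin' j ((hmemS j).mp hj)]

end NS

/-- a monic polynomial over the target whose coefficients lie in the range gives integrality -/
theorem isIntegralElem_of_monic_of_coeff_mem_range {R S : Type*} [CommRing R] [CommRing S]
    (f : R →+* S) {x : S} (q : S[X]) (hq : q.Monic) (hcoeff : ∀ n, q.coeff n ∈ Set.range f)
    (hx : q.eval x = 0) : f.IsIntegralElem x := by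
  obtain ⟨P, hP, -, hPm⟩ :=
    Polynomial.lifts_and_natDegree_eq_and_monic ((Polynomial.lifts_iff_coeff_lifts q).mpr hcoeff) hq
  exact ⟨P, hPm, by rw [Polynomial.eval₂_eq_eval_map, hP, hx]⟩

theorem eval₂_inv_mul_pow_mem_range {R E : Type*} [CommRing R] [Field E] (ι : R →+* E) (G : E)
    (hG : G ≠ 0) (c : R[X]) (d : ℕ) (hd : c.natDegree ≤ d) :
    eval₂ ι G⁻¹ c * G ^ d ∈ Set.range (Polynomial.eval₂RingHom ι G) := by
  rw [Polynomial.eval₂_eq_sum_range, Finset.sum_mul]
  have : ∀ j ∈ Finset.range (c.natDegree + 1), ι (c.coeff j) * G⁻¹ ^ j * G ^ d =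
      Polynomial.eval₂RingHom ι G (Polynomial.C (c.coeff j) * Polynomial.X ^ (d - j)) := by
    intro j hj
    have hjd : j ≤ d := by
      have := Finset.mem_range.mp hj
      omega
    have h1 : G⁻¹ ^ j * G ^ d = G ^ (d - j) := by
      have h2 : G ^ d = G ^ j * G ^ (d - j) := by rw [← pow_add, Nat.add_sub_cancel' hjd]
      rw [h2, ← mul_assoc, ← mul_pow, inv_mul_cancel₀ hG, one_pow, one_mul]
    rw [mul_assoc, h1]
    simp
  rw [Finset.sum_congr rfl this, ← map_sum]
  exact ⟨_, rfl⟩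

/-- chart change: integral over `R[G⁻¹]` implies a multiple by a power of `G` is integral
over `R[G]` -/
theorem exists_pow_mul_isIntegralElem {R E : Type*} [CommRing R] [Field E] (ι : R →+* E) (G : E)
    (hG : G ≠ 0) {b : E} (hb : (Polynomial.eval₂RingHom ι G⁻¹).IsIntegralElem b) :
    ∃ m : ℕ, (Polynomial.eval₂RingHom ι G).IsIntegralElem (G ^ m * b) := by
  obtain ⟨p, hp, hpb⟩ := hb
  set n := p.natDegree with hn
  set m : ℕ := (Finset.range (n + 1)).sup fun i => (p.coeff i).natDegree with hm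
  have hdeg : ∀ i, (p.coeff i).natDegree ≤ m * (n - i) := by
    intro i
    rcases lt_trichotomy i n with h | h | h
    · have h1 : (p.coeff i).natDegree ≤ m :=
        Finset.le_sup (f := fun i => (p.coeff i).natDegree) (Finset.mem_range.mpr (by omega))
      have h2 : 1 ≤ n - i := by omega
      calc (p.coeff i).natDegree ≤ m * 1 := by rw [mul_one]; exact h1
        _ ≤ m * (n - i) := Nat.mul_le_mul_left m h2
    · rw [h, hn, hp.coeff_natDegree]; simp
    · rw [Polynomial.coeff_eq_zero_of_natDegree_lt (hn ▸ h)]; simp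
  set pE : E[X] := p.map (Polynomial.eval₂RingHom ι G⁻¹) with hpE
  have hpEm : pE.Monic := hp.map _
  have hpEdeg : pE.natDegree = n := hp.natDegree_map _
  refine ⟨m, isIntegralElem_of_monic_of_coeff_mem_range _ (Polynomial.scaleRoots pE (G ^ m))
    ((Polynomial.monic_scaleRoots_iff _).mpr hpEm) ?_ ?_⟩
  · intro i
    rw [Polynomial.coeff_scaleRoots, hpEdeg, hpE, Polynomial.coeff_map, ← pow_mul]
    exact eval₂_inv_mul_pow_mem_range ι G hG (p.coeff i) _ (hdeg i)
  · have h0 : pE.eval b = 0 := by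
      rw [hpE, ← Polynomial.eval₂_eq_eval_map]; exact hpb
    have := Polynomial.scaleRoots_eval_mul pE b (G ^ m)
    rw [this, h0, mul_zero]

end Fermat.Agent.S28.CoreAlg
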