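import Fermat.Agent.S28.GaussRing
import Fermat.Agent.S28.CoreAlg

set_option autoImplicit false
set_option linter.unusedSectionVars false

noncomputable section

namespace Fermat.Agent.S28

open Polynomial ModularCurve

section Eval

variable (O : Type*) (k : Type*) [CommRing O] [IsDomain O] [IsDiscreteValuationRing O]
  [Field k] [Algebra O k] [IsFractionRing O k]

/-- constants of `O` inside the Gauss ring -/
def constV : O →+* gaussRing O k :=
  ((HahnSeries.C : k →+* LaurentSeries k).comp (algebraMap O k)).codRestrict (gaussRing O k)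
    (fun a => C_mem_gaussRing a)

variable {O k}

@[simp] theorem coe_constV (a : O) :
    ((constV O k a : gaussRing O k) : LaurentSeries k) = HahnSeries.C (algebraMap O k a) := rfl

variable (O) in
/-- evaluation of polynomials over `O` at a Laurent series over `k` -/
def evalL (Gs : LaurentSeries k) : O[X] →+* LaurentSeries k :=
  Polynomial.eval₂RingHom ((HahnSeries.C : k →+* LaurentSeries k).comp (algebraMap O k)) Gs

/-- evaluation of polynomials over `k` at a Laurent series over `k` -/
def evalLk (Gs : LaurentSeries k) : k[X] →+* LaurentSeries k :=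
  Polynomial.eval₂RingHom (HahnSeries.C : k →+* LaurentSeries k) Gs

/-- evaluation of polynomials over `O` at an element of the Gauss ring -/
def evalV {Gs : LaurentSeries k} (hG : Gs ∈ gaussRing O k) : O[X] →+* gaussRing O k :=
  Polynomial.eval₂RingHom (constV O k) ⟨Gs, hG⟩

/-- evaluation of polynomials over a field at a Laurent series -/
def evalκ {κ : Type*} [Field κ] (g : LaurentSeries κ) : κ[X] →+* LaurentSeries κ :=
  Polynomial.eval₂RingHom (HahnSeries.C : κ →+* LaurentSeries κ) g

theorem subtype_comp_evalV {Gs : LaurentSeries k} (hG : Gs ∈ gaussRing O k) :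
    (gaussRing O k).subtype.comp (evalV hG) = evalL O Gs := by
  apply Polynomial.ringHom_ext
  · intro a
    simp [evalV, evalL]
  · simp [evalV, evalL]

theorem coe_evalV {Gs : LaurentSeries k} (hG : Gs ∈ gaussRing O k) (Q : O[X]) :
    ((evalV hG Q : gaussRing O k) : LaurentSeries k) = evalL O Gs Q := by
  rw [← subtype_comp_evalV hG]; rfl

theorem evalLk_comp_map (Gs : LaurentSeries k) :
    (evalLk Gs).comp (Polynomial.mapRingHom (algebraMap O k)) = evalL O Gs := by
  apply Polynomial.ringHom_ext
  · intro a
    simp [evalLk, evalL]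
  · simp [evalLk, evalL]

theorem evalLk_map (Gs : LaurentSeries k) (Q : O[X]) :
    evalLk Gs (Q.map (algebraMap O k)) = evalL O Gs Q := by
  rw [← evalLk_comp_map]; rfl

theorem gaussRed_comp_evalV {Gs : LaurentSeries k} (hG : Gs ∈ gaussRing O k) :
    (gaussRed O k).comp (evalV hG) =
      (evalκ (gaussRed O k ⟨Gs, hG⟩)).comp (Polynomial.mapRingHom (IsLocalRing.residue O)) := by
  apply Polynomial.ringHom_ext
  · intro a
    have : gaussRed O k (constV O k a) = HahnSeries.C (IsLocalRing.residue O a) := gaussRed_C a
    simp [evalV, evalκ, this]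
  · simp [evalV, evalκ]

end Eval


end Fermat.Agent.S28
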