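import Fermat.Agent.S28.GaussRing
import Fermat.Agent.S28.CoreAlg
import Fermat.Agent.S28.CoreGauss0

set_option autoImplicit false
set_option linter.unusedSectionVars false

noncomputable section

namespace Fermat.Agent.S28

open Polynomial ModularCurve

section Generic

/-- the subring of elements integral over the image of a ring hom -/
def intSubring {R S : Type*} [CommRing R] [CommRing S] (f : R →+* S) : Subring S where
  carrier := {x | f.IsIntegralElem x}
  zero_mem' := f.isIntegralElem_zero
  one_mem' := f.isIntegralElem_one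
  add_mem' := fun ha hb => RingHom.IsIntegralElem.add f ha hb
  mul_mem' := fun ha hb => RingHom.IsIntegralElem.mul f ha hb
  neg_mem' := fun ha => RingHom.IsIntegralElem.neg f ha

theorem mem_intSubring {R S : Type*} [CommRing R] [CommRing S] (f : R →+* S) {x : S} :
    x ∈ intSubring f ↔ f.IsIntegralElem x := Iff.rfl

theorem coeff_prod_X_sub_C_mem {L : Type*} [CommRing L] (R : Subring L) {I : Type*} [Fintype I]
    (a : I → L) (ha : ∀ i, a i ∈ R) (m : ℕ) :
    (∏ i, (Polynomial.X - Polynomial.C (a i))).coeff m ∈ R := by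
  have h : (∏ i, (Polynomial.X - Polynomial.C (⟨a i, ha i⟩ : R))).map R.subtype =
      ∏ i, (Polynomial.X - Polynomial.C (a i)) := by
    rw [Polynomial.map_prod]
    refine Finset.prod_congr rfl fun i _ => ?_
    simp
  rw [← h, Polynomial.coeff_map]
  exact Subtype.mem _

theorem order_prod_eq_sum {κ : Type*} [Field κ] {I : Type*} (S : Finset I)
    (f : I → LaurentSeries κ) (hf : ∀ i ∈ S, f i ≠ 0) :
    (∏ i ∈ S, f i).order = ∑ i ∈ S, (f i).order := by
  classical
  induction S using Finset.induction_on with
  | empty => simp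
  | insert a s ha ih =>
    rw [Finset.prod_insert ha, Finset.sum_insert ha, HahnSeries.order_mul
      (hf a (Finset.mem_insert_self a s))
      (Finset.prod_ne_zero_iff.mpr fun i hi => hf i (Finset.mem_insert_of_mem hi)),
      ih fun i hi => hf i (Finset.mem_insert_of_mem hi)]

end Generic

section GaussLemma

variable {O : Type*} {k : Type*} [CommRing O] [IsDomain O] [IsDiscreteValuationRing O]
  [Field k] [Algebra O k] [IsFractionRing O k]

theorem evalLk_C_mul (Gs : LaurentSeries k) (c : k) (P : k[X]) :
    evalLk Gs (Polynomial.C c * P) = HahnSeries.C c * evalLk Gs P := by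
  rw [map_mul]
  congr 1
  simp [evalLk]

/-- **Gauss lemma** for polynomials evaluated at an element of the Gauss ring whose reduction
is transcendental over the residue field. -/
theorem exists_map_eq_of_evalLk_mem_gaussRing {Gs : LaurentSeries k} (hG : Gs ∈ gaussRing O k)
    (htr : Function.Injective (evalκ (gaussRed O k ⟨Gs, hG⟩)))
    (P : k[X]) (hP : evalLk Gs P ∈ gaussRing O k) :
    ∃ Q : O[X], Q.map (algebraMap O k) = P := by
  obtain ⟨ϖ, hϖ⟩ := IsDiscreteValuationRing.exists_irreducible O
  have hϖk : algebraMap O k ϖ ≠ 0 := by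
    intro h0
    exact hϖ.ne_zero ((IsFractionRing.injective O k) (by rw [h0, map_zero]))
  have main : ∀ (n : ℕ) (P : k[X]), evalLk Gs P ∈ gaussRing O k →
      (∃ Q₀ : O[X], Q₀.map (algebraMap O k) = Polynomial.C (algebraMap O k ϖ ^ n) * P) →
      ∃ Q : O[X], Q.map (algebraMap O k) = P := by
    intro n
    induction n with
    | zero =>
      rintro P - ⟨Q₀, hQ₀⟩
      exact ⟨Q₀, by simpa using hQ₀⟩
    | succ n ih =>
      rintro P hP ⟨Q₀, hQ₀⟩
      -- the reduction of `Q₀` vanishes
      have hmemv : HahnSeries.C (algebraMap O k ϖ) ^ n * evalLk Gs P ∈ gaussRing O k :=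
        mul_mem (pow_mem (C_mem_gaussRing ϖ) n) hP
      have hval : ((evalV hG Q₀ : gaussRing O k) : LaurentSeries k) =
          HahnSeries.C (algebraMap O k ϖ) *
            (HahnSeries.C (algebraMap O k ϖ) ^ n * evalLk Gs P) := by
        rw [coe_evalV, ← evalLk_map, hQ₀, evalLk_C_mul, pow_succ, map_mul, map_pow]
        ring
      have hred : gaussRed O k (evalV hG Q₀) = 0 := by
        have := (gaussRed_eq_zero_iff hϖ (evalV hG Q₀).2).mpr ⟨_, hmemv, hval⟩
        exact this
      have hres : Q₀.map (IsLocalRing.residue O) = 0 := by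
        apply htr
        have h1 := congrArg (fun f => f Q₀) (gaussRed_comp_evalV hG)
        simp only [RingHom.comp_apply] at h1
        rw [map_zero, ← hred, h1]
        rfl
      have hdvd : Polynomial.C ϖ ∣ Q₀ := by
        rw [Polynomial.C_dvd_iff_dvd_coeff]
        intro i
        have hi : IsLocalRing.residue O (Q₀.coeff i) = 0 := by
          have := congrArg (fun q => q.coeff i) hres
          simpa [Polynomial.coeff_map] using this
        rw [IsLocalRing.residue_eq_zero_iff, hϖ.maximalIdeal_eq, Ideal.mem_span_singleton] at hi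
        exact hi
      obtain ⟨Q₁, hQ₁⟩ := hdvd
      refine ih P hP ⟨Q₁, ?_⟩
      have h1 : Polynomial.C (algebraMap O k ϖ) * Q₁.map (algebraMap O k) =
          Polynomial.C (algebraMap O k ϖ) * (Polynomial.C (algebraMap O k ϖ ^ n) * P) := by
        rw [← Polynomial.map_C, ← Polynomial.map_mul, ← hQ₁, hQ₀, pow_succ, Polynomial.map_C,
          map_mul, map_pow]
        ring
      exact mul_left_cancel₀ (by simpa using hϖk) h1
  obtain ⟨b, hb, hbP⟩ :=
    IsLocalization.integerNormalization_spec (nonZeroDivisors O) (S := k) P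
  have hb0 : b ≠ 0 := nonZeroDivisors.ne_zero hb
  obtain ⟨n, u, hbu⟩ := IsDiscreteValuationRing.eq_unit_mul_pow_irreducible hb0 hϖ
  refine main n P hP
    ⟨Polynomial.C (↑u⁻¹ : O) * IsLocalization.integerNormalization (nonZeroDivisors O) P, ?_⟩
  have hb' : (b : O) • P = Polynomial.C (algebraMap O k b) * P := by
    rw [Algebra.smul_def, Polynomial.algebraMap_apply]
  rw [Polynomial.map_mul, hbP, Polynomial.map_C, hb', hbu, map_mul, map_pow, ← mul_assoc,
    ← Polynomial.C_mul, ← mul_assoc, ← map_mul, Units.inv_mul, map_one, one_mul]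

end GaussLemma

end Fermat.Agent.S28
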