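


import Fermat.Agent.S28.CoreGauss1

set_option autoImplicit false
set_option linter.unusedSectionVars false

noncomputable section

namespace Fermat.Agent.S28

open Polynomial ModularCurve

section Core

variable {O : Type*} {k : Type*} [CommRing O] [IsDomain O] [IsDiscreteValuationRing O]
  [Field k] [Algebra O k] [IsFractionRing O k]
variable {E : Type*} [Field E] [Algebra k E] {I : Type*} [Fintype I] [DecidableEq I]

variable (O k) in
/-- evaluation of polynomials over `O` at an element of the field `E` -/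
def evalE (G : E) : O[X] →+* E :=
  Polynomial.eval₂RingHom ((algebraMap k E).comp (algebraMap O k)) G

variable (k) in
/-- evaluation of polynomials over `k` at an element of the field `E` -/
def evalEk (G : E) : k[X] →+* E := Polynomial.eval₂RingHom (algebraMap k E) G

theorem evalEk_comp_map (G : E) :
    (evalEk k G).comp (Polynomial.mapRingHom (algebraMap O k)) = evalE O k G := by
  apply Polynomial.ringHom_ext
  · intro a
    simp [evalEk, evalE]
  · simp [evalEk, evalE]

theorem sigma_comp_evalEk (τ : E →ₐ[k] LaurentSeries k) (G : E) :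
    (τ : E →+* LaurentSeries k).comp (evalEk k G) = evalLk (τ G) := by
  apply Polynomial.ringHom_ext
  · intro a
    simp [evalEk, evalLk, algebraMap_eq_C]
  · simp [evalEk, evalLk]

theorem sigma_comp_evalE (τ : E →ₐ[k] LaurentSeries k) (G : E) :
    (τ : E →+* LaurentSeries k).comp (evalE O k G) = evalL O (τ G) := by
  rw [← evalEk_comp_map, ← RingHom.comp_assoc, sigma_comp_evalEk, evalLk_comp_map]

/-- The hypotheses on a chart: a parameter `G` of the field `E`, expanded by all the maps `σ i`
to the same series `Gs`, which is Gauss-integral with transcendental reduction. -/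
structure ChartHyp (σ : I → (E →ₐ[k] LaurentSeries k)) (G : E) (Gs : LaurentSeries k) : Prop where
  map_G : ∀ i, σ i G = Gs
  mem : Gs ∈ gaussRing O k
  inj_k : Function.Injective (evalLk Gs)
  inj_κ : Function.Injective (evalκ (gaussRed O k ⟨Gs, mem⟩))
  field : ∀ i x, σ i x ∈ gaussField O k
  symrat : ∀ (x : E) (m : ℕ), ∃ p q : k[X], q ≠ 0 ∧
    (∏ i, (Polynomial.X - Polynomial.C (σ i x))).coeff m * evalLk Gs q = evalLk Gs p

variable {σ : I → (E →ₐ[k] LaurentSeries k)} {G : E} {Gs : LaurentSeries k}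

theorem ChartHyp.isIntegralElem_sigma_k (h : ChartHyp (O := O) σ G Gs) {x : E}
    (hx : (evalEk k G).IsIntegralElem x) (i : I) : (evalLk Gs).IsIntegralElem (σ i x) := by
  have h1 := hx.map (σ i : E →+* LaurentSeries k)
  rwa [sigma_comp_evalEk, h.map_G i] at h1

theorem ChartHyp.isIntegralElem_sigma (h : ChartHyp (O := O) σ G Gs) {x : E}
    (hx : (evalE O k G).IsIntegralElem x) (i : I) : (evalL O Gs).IsIntegralElem (σ i x) := by
  have h1 := hx.map (σ i : E →+* LaurentSeries k)
  rwa [sigma_comp_evalE, h.map_G i] at h1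

theorem isIntegralElem_evalEk_of_evalE {x : E} (hx : (evalE O k G).IsIntegralElem x) :
    (evalEk k G).IsIntegralElem x := by
  rw [← evalEk_comp_map] at hx
  exact hx.of_comp

/-- characteristic polynomial lemma -/
theorem ChartHyp.charpoly_lifts (h : ChartHyp (O := O) σ G Gs) {x : E}
    (hxk : (evalEk k G).IsIntegralElem x) (hxV : ∀ i, σ i x ∈ gaussRing O k) :
    ∃ P : O[X][X], P.Monic ∧
      P.map (evalL O Gs) = ∏ i, (Polynomial.X - Polynomial.C (σ i x)) := by
  have hmonic : (∏ i, (Polynomial.X - Polynomial.C (σ i x))).Monic :=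
    Polynomial.monic_prod_of_monic _ _ fun i _ => Polynomial.monic_X_sub_C _
  have hcoeff : ∀ m, (∏ i, (Polynomial.X - Polynomial.C (σ i x))).coeff m ∈
      Set.range (evalL O Gs) := by
    intro m
    set c := (∏ i, (Polynomial.X - Polynomial.C (σ i x))).coeff m with hc
    have hcV : c ∈ gaussRing O k := coeff_prod_X_sub_C_mem _ _ hxV m
    have hcint : (evalLk Gs).IsIntegralElem c :=
      coeff_prod_X_sub_C_mem (intSubring (evalLk Gs)) _
        (fun i => h.isIntegralElem_sigma_k hxk i) m
    obtain ⟨p, q, hq, hpq⟩ := h.symrat x m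
    obtain ⟨w, hw⟩ := CoreAlg.exists_eq_of_isIntegralElem_of_mul_eq (evalLk Gs) h.inj_k hq hpq
      hcint
    obtain ⟨Q, hQ⟩ := exists_map_eq_of_evalLk_mem_gaussRing h.mem h.inj_κ w (by rw [hw]; exact hcV)
    exact ⟨Q, by rw [← evalLk_map, hQ, hw]⟩
  obtain ⟨P, hP, -, hPm⟩ := Polynomial.lifts_and_natDegree_eq_and_monic
    ((Polynomial.lifts_iff_coeff_lifts _).mpr hcoeff) hmonic
  exact ⟨P, hPm, hP⟩

/-- an element integral over `k[G]` all of whose expansions are Gauss-integral is integral
over `O[G]` -/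
theorem ChartHyp.isIntegralElem_of_forall_mem (h : ChartHyp (O := O) σ G Gs) (i₀ : I) {x : E}
    (hxk : (evalEk k G).IsIntegralElem x) (hxV : ∀ i, σ i x ∈ gaussRing O k) :
    (evalE O k G).IsIntegralElem x := by
  obtain ⟨P, hPm, hP⟩ := h.charpoly_lifts hxk hxV
  have h1 : (evalL O Gs).IsIntegralElem (σ i₀ x) := by
    refine ⟨P, hPm, ?_⟩
    rw [Polynomial.eval₂_eq_eval_map, hP, Polynomial.eval_prod]
    exact Finset.prod_eq_zero (Finset.mem_univ i₀) (by simp)
  rw [← h.map_G i₀, ← sigma_comp_evalE] at h1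
  exact h1.of_map (σ i₀ : E →+* LaurentSeries k).injective

/-- expansions of integral elements are Gauss-integral -/
theorem ChartHyp.sigma_mem_gaussRing (h : ChartHyp (O := O) σ G Gs) {x : E}
    (hx : (evalE O k G).IsIntegralElem x) (i : I) : σ i x ∈ gaussRing O k := by
  obtain ⟨ϖ, hϖ⟩ := IsDiscreteValuationRing.exists_irreducible O
  have h1 := h.isIntegralElem_sigma hx i
  rw [← subtype_comp_evalV h.mem] at h1
  exact mem_gaussRing_of_isIntegral hϖ (h.field i x) h1.of_comp

/-- Lemma Div -/
theorem ChartHyp.div_unif (h : ChartHyp (O := O) σ G Gs) (i₀ : I) {ϖ : O} (hϖ : Irreducible ϖ)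
    {a : E} (ha : (evalE O k G).IsIntegralElem a)
    (hdiv : ∀ i, ∃ v ∈ gaussRing O k, σ i a = HahnSeries.C (algebraMap O k ϖ) * v) :
    (evalE O k G).IsIntegralElem (algebraMap k E (algebraMap O k ϖ)⁻¹ * a) := by
  have hϖk : algebraMap O k ϖ ≠ 0 := by
    intro h0
    exact hϖ.ne_zero ((IsFractionRing.injective O k) (by rw [h0, map_zero]))
  refine h.isIntegralElem_of_forall_mem i₀ ?_ ?_
  · refine RingHom.IsIntegralElem.mul _ ?_ (isIntegralElem_evalEk_of_evalE ha)
    have : algebraMap k E (algebraMap O k ϖ)⁻¹ =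
        evalEk k G (Polynomial.C (algebraMap O k ϖ)⁻¹) := by simp [evalEk]
    rw [this]
    exact (evalEk k G).isIntegralElem_map
  · intro i
    obtain ⟨v, hv, hav⟩ := hdiv i
    rw [map_mul, hav, AlgHom.commutes, algebraMap_eq_C, ← mul_assoc, ← map_mul,
      inv_mul_cancel₀ hϖk, map_one, one_mul]
    exact hv

end Core

end Fermat.Agent.S28
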