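import Fermat.Agent.S28.CoreGauss2

set_option autoImplicit false
set_option linter.unusedSectionVars false

noncomputable section

namespace Fermat.Agent.S28

open Polynomial ModularCurve

section Comb

theorem gcd_moment_of_sum_order {I : Type*} [DecidableEq I] (S : Finset I) (N : ℕ)
    (cI : I → ℕ) (cI_dvd : ∀ i, cI i ∣ N) (hN : N ≠ 0) (d : ℕ) (hd : d ∈ N.divisors)
    (hsum : ∑ i ∈ S, (((N / d : ℕ) : ℤ) * ((Nat.gcd (cI i) d : ℕ) : ℤ) ^ 2 - (N : ℤ)) = 0) :
    ∑ e ∈ N.divisors, (S.filter (fun i => cI i = e)).card * (Nat.gcd e d) ^ 2 = d * S.card := by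
  have hdN : d ∣ N := Nat.dvd_of_mem_divisors hd
  have h1 : ∑ e ∈ N.divisors, (S.filter (fun i => cI i = e)).card * (Nat.gcd e d) ^ 2 =
      ∑ i ∈ S, (Nat.gcd (cI i) d) ^ 2 := by
    rw [← Finset.sum_fiberwise_of_maps_to (s := S) (t := N.divisors) (g := cI)
      (fun i _ => Nat.mem_divisors.mpr ⟨cI_dvd i, hN⟩)]
    refine Finset.sum_congr rfl fun e _ => ?_
    rw [← smul_eq_mul, ← Finset.sum_const]
    refine Finset.sum_congr rfl fun i hi => ?_
    rw [(Finset.mem_filter.mp hi).2]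
  rw [h1]
  have hNd : ((N / d : ℕ) : ℤ) ≠ 0 := by
    have : N / d ≠ 0 := by
      intro h0
      have := Nat.div_mul_cancel hdN
      rw [h0, zero_mul] at this
      exact hN this.symm
    exact_mod_cast this
  have hNeq : (N : ℤ) = ((N / d : ℕ) : ℤ) * (d : ℤ) := by
    exact_mod_cast (Nat.div_mul_cancel hdN).symm
  rw [Finset.sum_sub_distrib, ← Finset.mul_sum, Finset.sum_const, nsmul_eq_mul, sub_eq_zero] at hsum
  have h2 : ((N / d : ℕ) : ℤ) * ∑ i ∈ S, ((Nat.gcd (cI i) d : ℕ) : ℤ) ^ 2 =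
      ((N / d : ℕ) : ℤ) * ((d : ℤ) * (S.card : ℤ)) := by
    rw [hsum, hNeq]; ring
  have h3 := mul_left_cancel₀ hNd h2
  exact_mod_cast h3

end Comb

end Fermat.Agent.S28
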