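import Mathlib

/-!
# Nonsingularity of the matrix `(gcd(e,d)^2)` indexed by the divisors of `N`

Used in the S28 (Igusa) project: the orders of the modular units
`Δ(q^d)/Δ(q)` at the cusps of `X₀(N)` are `gcd(c,d)^2/d - 1`.
-/

namespace Fermat.Agent.S28.GcdMatrix

open Finset

/-- indicator of divisibility, valued in `ℚ` -/
noncomputable def dvdInd (c e : ℕ) : ℚ := if c ∣ e then 1 else 0

lemma dvdInd_mul_self (c e : ℕ) : dvdInd c e * dvdInd c e = dvdInd c e := by
  unfold dvdInd; split_ifs <;> simp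

lemma dvdInd_nonneg (c e : ℕ) : 0 ≤ dvdInd c e := by
  unfold dvdInd; split_ifs <;> simp

/-- `gcd(e,d) = ∑_{c ∣ N} φ(c) [c ∣ e] [c ∣ d]` for `e ∣ N`. -/
lemma gcd_eq_sum_totient {N e : ℕ} (d : ℕ) (hN : N ≠ 0) (he : e ∣ N) :
    (Nat.gcd e d : ℚ) = ∑ c ∈ N.divisors, (Nat.totient c : ℚ) * dvdInd c e * dvdInd c d := by
  have h1 : ∀ c ∈ N.divisors, (Nat.totient c : ℚ) * dvdInd c e * dvdInd c d
      = if c ∣ Nat.gcd e d then (Nat.totient c : ℚ) else 0 := by
    intro c _
    unfold dvdInd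
    by_cases h1 : c ∣ e <;> by_cases h2 : c ∣ d
    · simp [h1, h2, Nat.dvd_gcd h1 h2]
    · have : ¬ c ∣ Nat.gcd e d := fun h => h2 (h.trans (Nat.gcd_dvd_right e d))
      simp [h1, h2, this]
    · have : ¬ c ∣ Nat.gcd e d := fun h => h1 (h.trans (Nat.gcd_dvd_left e d))
      simp [h1, h2, this]
    · have : ¬ c ∣ Nat.gcd e d := fun h => h1 (h.trans (Nat.gcd_dvd_left e d))
      simp [h1, h2, this]
  rw [Finset.sum_congr rfl h1, ← Finset.sum_filter]
  have hfil : (N.divisors.filter fun c => c ∣ Nat.gcd e d) = (Nat.gcd e d).divisors := by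
    ext c
    simp only [Finset.mem_filter, Nat.mem_divisors]
    constructor
    · rintro ⟨⟨_, _⟩, hc⟩
      refine ⟨hc, fun h0 => ?_⟩
      rw [Nat.gcd_eq_zero_iff] at h0
      rw [h0.1] at he
      exact hN (Nat.eq_zero_of_zero_dvd he)
    · rintro ⟨hc, _⟩
      exact ⟨⟨hc.trans ((Nat.gcd_dvd_left e d).trans he), hN⟩, hc⟩
  rw [hfil]
  exact_mod_cast (Nat.sum_totient (Nat.gcd e d)).symm

/-- The quadratic form of the matrix `gcd(e,d)^2` as a sum of squares. -/
lemma quadForm_gcd_sq {N : ℕ} (hN : N ≠ 0) (x : ℕ → ℚ) :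
    ∑ d ∈ N.divisors, x d * ∑ e ∈ N.divisors, x e * ((Nat.gcd e d : ℚ)) ^ 2
      = ∑ c ∈ N.divisors, ∑ c' ∈ N.divisors, (Nat.totient c : ℚ) * (Nat.totient c' : ℚ) *
          (∑ e ∈ N.divisors, x e * dvdInd c e * dvdInd c' e) ^ 2 := by
  have hg : ∀ d ∈ N.divisors, ∀ e ∈ N.divisors, ((Nat.gcd e d : ℚ)) ^ 2
      = ∑ c ∈ N.divisors, ∑ c' ∈ N.divisors, (Nat.totient c : ℚ) * (Nat.totient c' : ℚ) *
          ((dvdInd c e * dvdInd c' e) * (dvdInd c d * dvdInd c' d)) := by
    intro d _ e he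
    rw [sq, gcd_eq_sum_totient d hN (Nat.dvd_of_mem_divisors he), Finset.sum_mul_sum]
    refine Finset.sum_congr rfl fun c _ => Finset.sum_congr rfl fun c' _ => ?_
    ring
  calc ∑ d ∈ N.divisors, x d * ∑ e ∈ N.divisors, x e * ((Nat.gcd e d : ℚ)) ^ 2
      = ∑ d ∈ N.divisors, ∑ e ∈ N.divisors, ∑ c ∈ N.divisors, ∑ c' ∈ N.divisors,
          (Nat.totient c : ℚ) * (Nat.totient c' : ℚ) *
          ((x e * dvdInd c e * dvdInd c' e) * (x d * dvdInd c d * dvdInd c' d)) := by
        refine Finset.sum_congr rfl fun d hd => ?_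
        rw [Finset.mul_sum]
        refine Finset.sum_congr rfl fun e he => ?_
        rw [hg d hd e he, Finset.mul_sum, Finset.mul_sum]
        refine Finset.sum_congr rfl fun c _ => ?_
        rw [Finset.mul_sum, Finset.mul_sum]
        refine Finset.sum_congr rfl fun c' _ => ?_
        ring
    _ = ∑ c ∈ N.divisors, ∑ c' ∈ N.divisors, ∑ d ∈ N.divisors, ∑ e ∈ N.divisors,
          (Nat.totient c : ℚ) * (Nat.totient c' : ℚ) *
          ((x e * dvdInd c e * dvdInd c' e) * (x d * dvdInd c d * dvdInd c' d)) := by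
        -- move `c` outwards past `e`, then past `d`; then `c'` likewise
        have step1 : ∀ d ∈ N.divisors, (∑ e ∈ N.divisors, ∑ c ∈ N.divisors, ∑ c' ∈ N.divisors,
          (Nat.totient c : ℚ) * (Nat.totient c' : ℚ) *
          ((x e * dvdInd c e * dvdInd c' e) * (x d * dvdInd c d * dvdInd c' d)))
          = ∑ c ∈ N.divisors, ∑ c' ∈ N.divisors, ∑ e ∈ N.divisors,
          (Nat.totient c : ℚ) * (Nat.totient c' : ℚ) *
          ((x e * dvdInd c e * dvdInd c' e) * (x d * dvdInd c d * dvdInd c' d)) := by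
          intro d _
          rw [Finset.sum_comm]
          refine Finset.sum_congr rfl fun c _ => ?_
          rw [Finset.sum_comm]
        rw [Finset.sum_congr rfl step1, Finset.sum_comm]
        refine Finset.sum_congr rfl fun c _ => ?_
        rw [Finset.sum_comm]
    _ = _ := by
        refine Finset.sum_congr rfl fun c _ => Finset.sum_congr rfl fun c' _ => ?_
        rw [sq, Finset.sum_mul_sum, Finset.mul_sum]
        rw [Finset.sum_comm]
        refine Finset.sum_congr rfl fun e _ => ?_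
        rw [Finset.mul_sum]


/-- If `∑_e x_e gcd(e,d)^2 = 0` for all `d ∣ N`, then the partial sums over multiples vanish. -/
lemma sum_multiples_eq_zero {N : ℕ} (hN : N ≠ 0) (x : ℕ → ℚ)
    (h : ∀ d ∈ N.divisors, ∑ e ∈ N.divisors, x e * ((Nat.gcd e d : ℚ)) ^ 2 = 0) :
    ∀ c ∈ N.divisors, ∑ e ∈ N.divisors, x e * dvdInd c e = 0 := by
  have h0 : ∑ d ∈ N.divisors, x d * ∑ e ∈ N.divisors, x e * ((Nat.gcd e d : ℚ)) ^ 2 = 0 :=
    Finset.sum_eq_zero fun d hd => by rw [h d hd, mul_zero]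
  rw [quadForm_gcd_sq hN] at h0
  have hnn : ∀ c ∈ N.divisors, ∀ c' ∈ N.divisors, 0 ≤ (Nat.totient c : ℚ) * (Nat.totient c' : ℚ) *
          (∑ e ∈ N.divisors, x e * dvdInd c e * dvdInd c' e) ^ 2 := by
    intro c _ c' _
    positivity
  intro c hc
  have h1 := (Finset.sum_eq_zero_iff_of_nonneg
    (fun c hc => Finset.sum_nonneg fun c' hc' => hnn c hc c' hc')).1 h0 c hc
  have h2 := (Finset.sum_eq_zero_iff_of_nonneg (fun c' hc' => hnn c hc c' hc')).1 h1 c hc
  have hpos : (Nat.totient c : ℚ) ≠ 0 := by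
    have : 0 < c := Nat.pos_of_mem_divisors hc
    have := Nat.totient_pos.2 this
    exact_mod_cast this.ne'
  have h3 : (∑ e ∈ N.divisors, x e * dvdInd c e * dvdInd c e) = 0 := by
    rcases mul_eq_zero.1 h2 with h | h
    · exact absurd h (mul_ne_zero hpos hpos)
    · exact pow_eq_zero_iff (two_ne_zero) |>.1 h
  rw [← h3]
  refine Finset.sum_congr rfl fun e _ => ?_
  rw [mul_assoc, dvdInd_mul_self]

/-- **Nonsingularity of the GCD-square matrix** on the divisors of `N`. -/
theorem gcdMatrix_injective {N : ℕ} (hN : N ≠ 0) (x : ℕ → ℚ)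
    (h : ∀ d ∈ N.divisors, ∑ e ∈ N.divisors, x e * ((Nat.gcd e d : ℚ)) ^ 2 = 0) :
    ∀ e ∈ N.divisors, x e = 0 := by
  have hy := sum_multiples_eq_zero hN x h
  -- downward induction on `e`
  have key : ∀ m : ℕ, ∀ e ∈ N.divisors, N - e = m → x e = 0 := by
    intro m
    induction m using Nat.strong_induction_on with
    | _ m ih =>
      intro e he hm
      have hsum := hy e he
      rw [← Finset.add_sum_erase _ _ he] at hsum
      have hrest : ∑ e' ∈ N.divisors.erase e, x e' * dvdInd e e' = 0 := by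
        refine Finset.sum_eq_zero fun e' he' => ?_
        rw [Finset.mem_erase] at he'
        unfold dvdInd
        split_ifs with hdiv
        · have hle : e' ≤ N := Nat.divisor_le he'.2
          have hpos' : 0 < e' := Nat.pos_of_mem_divisors he'.2
          have hlt : e < e' := lt_of_le_of_ne (Nat.le_of_dvd hpos' hdiv) (Ne.symm he'.1)
          have : x e' = 0 := ih (N - e') (by omega) e' he'.2 rfl
          rw [this, zero_mul]
        · rw [mul_zero]
      rw [hrest, add_zero] at hsum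
      have : dvdInd e e = 1 := by unfold dvdInd; simp
      rwa [this, mul_one] at hsum
  intro e he
  exact key _ e he rfl

/-- Proportionality form used for the component count: if two vectors have the same
"shape" of `gcd^2`-moments, `∑_e x_e gcd(e,d)^2 = d * a` and `∑_e y_e gcd(e,d)^2 = d * b`
for all `d ∣ N`, then `b • x = a • y` on the divisors of `N`. -/
theorem gcdMatrix_proportional {N : ℕ} (hN : N ≠ 0) (x y : ℕ → ℚ) (a b : ℚ)
    (hx : ∀ d ∈ N.divisors, ∑ e ∈ N.divisors, x e * ((Nat.gcd e d : ℚ)) ^ 2 = d * a)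
    (hy : ∀ d ∈ N.divisors, ∑ e ∈ N.divisors, y e * ((Nat.gcd e d : ℚ)) ^ 2 = d * b) :
    ∀ e ∈ N.divisors, b * x e = a * y e := by
  have := gcdMatrix_injective hN (fun e => b * x e - a * y e) (by
    intro d hd
    have h1 : ∑ e ∈ N.divisors, (b * x e - a * y e) * ((Nat.gcd e d : ℚ)) ^ 2
        = b * ∑ e ∈ N.divisors, x e * ((Nat.gcd e d : ℚ)) ^ 2
          - a * ∑ e ∈ N.divisors, y e * ((Nat.gcd e d : ℚ)) ^ 2 := by
      rw [Finset.mul_sum, Finset.mul_sum, ← Finset.sum_sub_distrib]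
      refine Finset.sum_congr rfl fun e _ => ?_
      ring
    rw [h1, hx d hd, hy d hd]
    ring)
  intro e he
  have := this e he
  linarith

/-- Version with natural-number counts, in the exact shape used for components:
`x`, `y : ℕ → ℕ` counts of cosets by cusp type, `a = ∑ x`, `b = ∑ y`, with
`∑_e x_e gcd(e,d)^2 = d * a` for all `d ∣ N` (and the same for `y`), and `y N = 1`,
`x N ≤ 1`, `a ≠ 0`: then `a = b`. -/
theorem count_eq_of_gcd_moments {N : ℕ} (hN : N ≠ 0) (x y : ℕ → ℕ) (a b : ℕ)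
    (hx : ∀ d ∈ N.divisors, ∑ e ∈ N.divisors, x e * (Nat.gcd e d) ^ 2 = d * a)
    (hy : ∀ d ∈ N.divisors, ∑ e ∈ N.divisors, y e * (Nat.gcd e d) ^ 2 = d * b)
    (hyN : y N = 1) (ha : a ≠ 0) (hab : a ≤ b) : a = b := by
  have hp := gcdMatrix_proportional hN (fun e => (x e : ℚ)) (fun e => (y e : ℚ)) a b
    (by intro d hd; have := hx d hd; exact_mod_cast this)
    (by intro d hd; have := hy d hd; exact_mod_cast this)
    N (Nat.mem_divisors_self N hN)
  simp only [hyN, Nat.cast_one, mul_one] at hp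
  -- b * x N = a with x N a natural number, a ≤ b, a ≠ 0  ⇒  x N = 1 and a = b
  have hp' : b * x N = a := by exact_mod_cast hp
  have hxN : x N ≠ 0 := by
    intro h0
    rw [h0, mul_zero] at hp'
    exact ha hp'.symm
  have : b ≤ b * x N := Nat.le_mul_of_pos_right b (Nat.pos_of_ne_zero hxN)
  omega


/-- Integer-valued version of `gcdMatrix_injective`. -/
theorem gcdMatrix_injective_int {N : ℕ} (hN : N ≠ 0) (x : ℕ → ℤ)
    (h : ∀ d ∈ N.divisors, ∑ e ∈ N.divisors, x e * ((Nat.gcd e d : ℤ)) ^ 2 = 0) :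
    ∀ e ∈ N.divisors, x e = 0 := by
  have := gcdMatrix_injective hN (fun e => (x e : ℚ)) (by
    intro d hd
    have := h d hd
    exact_mod_cast this)
  intro e he
  exact_mod_cast this e he

end Fermat.Agent.S28.GcdMatrix
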