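import Fermat.Agent.S28.CoreGauss3
import Fermat.Agent.S28.GcdMatrix

set_option autoImplicit false
set_option linter.unusedSectionVars false

noncomputable section

namespace Fermat.Agent.S28

open Polynomial ModularCurve

section FinChart

variable {O : Type*} {k : Type*} [CommRing O] [IsDomain O] [IsDiscreteValuationRing O]
  [Field k] [Algebra O k] [IsFractionRing O k]
variable {E : Type*} [Field E] [Algebra k E] {I : Type*} [Fintype I] [DecidableEq I]
variable {σ : I → (E →ₐ[k] LaurentSeries k)} {G : E} {Gs : LaurentSeries k}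

/-- the reduction maps on the integral closure of `O[G]` -/
def ChartHyp.rho (h : ChartHyp (O := O) σ G Gs) (i : I) :
    intSubring (evalE O k G) →+* LaurentSeries (IsLocalRing.ResidueField O) :=
  (gaussRed O k).comp
    (((σ i : E →+* LaurentSeries k).comp (intSubring (evalE O k G)).subtype).codRestrict
      (gaussRing O k) (fun x => h.sigma_mem_gaussRing x.2 i))

theorem ChartHyp.rho_apply (h : ChartHyp (O := O) σ G Gs) (i : I)
    (x : intSubring (evalE O k G)) :
    h.rho i x = gaussRed O k ⟨σ i x, h.sigma_mem_gaussRing x.2 i⟩ := rfl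

theorem ChartHyp.rho_int (h : ChartHyp (O := O) σ G Gs) (i : I)
    (x : intSubring (evalE O k G)) :
    (evalκ (gaussRed O k ⟨Gs, h.mem⟩)).IsIntegralElem (h.rho i x) := by
  have h1 := h.isIntegralElem_sigma x.2 i
  rw [← subtype_comp_evalV h.mem] at h1
  have h2 : (evalV h.mem).IsIntegralElem
      (⟨σ i x, h.sigma_mem_gaussRing x.2 i⟩ : gaussRing O k) :=
    RingHom.IsIntegralElem.of_map (g := (gaussRing O k).subtype) Subtype.coe_injective h1
  exact CoreAlg.isIntegralElem_square (Polynomial.mapRingHom (IsLocalRing.residue O))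
    (gaussRed O k) (gaussRed_comp_evalV h.mem) h2

theorem ChartHyp.rho_sym (h : ChartHyp (O := O) σ G Gs)
    (x : intSubring (evalE O k G)) (m : ℕ) :
    (∏ i, (Polynomial.X - Polynomial.C (h.rho i x))).coeff m ∈
      (evalκ (gaussRed O k ⟨Gs, h.mem⟩)).range := by
  obtain ⟨P, -, hP⟩ := h.charpoly_lifts (isIntegralElem_evalEk_of_evalE x.2)
    (fun i => h.sigma_mem_gaussRing x.2 i)
  have hV : P.map (evalV h.mem) = ∏ i, (Polynomial.X - Polynomial.C
      (⟨σ i x, h.sigma_mem_gaussRing x.2 i⟩ : gaussRing O k)) := by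
    apply Polynomial.map_injective (gaussRing O k).subtype Subtype.coe_injective
    rw [Polynomial.map_map, subtype_comp_evalV, hP, Polynomial.map_prod]
    refine Finset.prod_congr rfl fun i _ => ?_
    simp
  have hκ : (P.map (Polynomial.mapRingHom (IsLocalRing.residue O))).map
      (evalκ (gaussRed O k ⟨Gs, h.mem⟩)) = ∏ i, (Polynomial.X - Polynomial.C (h.rho i x)) := by
    rw [Polynomial.map_map, ← gaussRed_comp_evalV, ← Polynomial.map_map, hV, Polynomial.map_prod]
    refine Finset.prod_congr rfl fun i _ => ?_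
    simp [ChartHyp.rho_apply]
  rw [← hκ, Polynomial.coeff_map]
  exact ⟨_, rfl⟩

theorem ChartHyp.sum_order_rho_unit (h : ChartHyp (O := O) σ G Gs) (S : Finset I)
    (e : intSubring (evalE O k G)) (he0 : ∀ i ∉ S, h.rho i e = 0) (he1 : ∀ i ∈ S, h.rho i e ≠ 0)
    (u : (intSubring (evalE O k G))ˣ) :
    ∑ i ∈ S, (h.rho i (u : intSubring (evalE O k G))).order = 0 := by
  obtain ⟨d, hd⟩ := CoreAlg.exists_unit_of_sym (evalκ (gaussRed O k ⟨Gs, h.mem⟩)) h.inj_κ
    (fun i => h.rho i) (fun i x => h.rho_int i x) (fun x m => h.rho_sym x m) S e he0 he1 u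
  obtain ⟨c, hc, hcd⟩ := Polynomial.isUnit_iff.mp d.isUnit
  have hne : ∀ i ∈ S, h.rho i (u : intSubring (evalE O k G)) ≠ 0 := fun i _ =>
    ((u.isUnit.map (h.rho i))).ne_zero
  rw [← order_prod_eq_sum S _ hne, ← hd, ← hcd]
  have : evalκ (gaussRed O k ⟨Gs, h.mem⟩) (Polynomial.C c) = HahnSeries.C c := by
    simp [evalκ]
  rw [this]
  exact HahnSeries.order_C

end FinChart

end Fermat.Agent.S28
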