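import Mathlib
import Fermat.Agent.S28.Defs
import Fermat.Agent.S28.PolyDescent

/-!
# T28 / B-ord: orders of polynomials in `j` and the norm-of-a-unit order argument

Pure algebra on Laurent series over a field `κ`.  A nonzero element of
`qExpand κ N '' κ[j]` has order `≤ 0`; hence if `E ≠ 0` and `E * U^m`, `E * U⁻¹^m` lie in
`qExpand κ N '' κ[j]` for all `m`, then `U` has order `0`.
-/

set_option autoImplicit false

noncomputable section

namespace Fermat.Agent.S28.PolyOrder

open ModularCurve HahnSeries Polynomial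

variable {κ : Type*} [Field κ] (N : ℕ) [NeZero N]

/-- the set `κ[j](t^N)` -/
def polyJ : Set (LaurentSeries κ) :=
  (qExpand κ N) '' (Algebra.adjoin κ {jqModC κ} : Set (LaurentSeries κ))

theorem mem_polyJ_iff (y : LaurentSeries κ) :
    y ∈ polyJ (κ := κ) N ↔ ∃ P : κ[X], y = qExpand κ N (aeval (jqModC κ) P) := by
  constructor
  · rintro ⟨x, hx, rfl⟩
    rw [SetLike.mem_coe, Algebra.adjoin_singleton_eq_range_aeval] at hx
    obtain ⟨P, rfl⟩ := hx
    exact ⟨P, rfl⟩
  · rintro ⟨P, rfl⟩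
    refine ⟨_, ?_, rfl⟩
    rw [SetLike.mem_coe, Algebra.adjoin_singleton_eq_range_aeval]
    exact ⟨P, rfl⟩

/-- a nonzero polynomial in `j`, expanded in `t = q^{1/N}`, has a nonzero coefficient at
`-N * natDegree` -/
theorem coeff_qExpand_aeval_ne_zero {P : κ[X]} (hP : P ≠ 0) :
    (qExpand κ N (aeval (jqModC κ) P)).coeff ((N : ℤ) * (-(P.natDegree : ℤ))) ≠ 0 := by
  rw [qExpand_coeff_mul, PolyDescent.coeff_aeval_jqModC_neg_natDegree]
  exact Polynomial.leadingCoeff_ne_zero.mpr hP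

/-- nonzero elements of `κ[j](t^N)` have order `≤ 0` -/
theorem order_le_zero_of_mem_polyJ {y : LaurentSeries κ} (hy : y ∈ polyJ (κ := κ) N)
    (hy0 : y ≠ 0) : y.order ≤ 0 := by
  obtain ⟨P, rfl⟩ := (mem_polyJ_iff N y).mp hy
  have hP : P ≠ 0 := by
    rintro rfl
    simp at hy0
  refine (HahnSeries.order_le_of_coeff_ne_zero (coeff_qExpand_aeval_ne_zero N hP)).trans ?_
  have h1 : (0 : ℤ) ≤ (N : ℤ) := Int.natCast_nonneg N
  have h2 : (0 : ℤ) ≤ (P.natDegree : ℤ) := Int.natCast_nonneg _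
  nlinarith

/-- more precisely the order is `-N * natDegree` -/
theorem order_qExpand_aeval {P : κ[X]} (hP : P ≠ 0) :
    (qExpand κ N (aeval (jqModC κ) P)).order = -((N : ℤ) * (P.natDegree : ℤ)) := by
  have hne : qExpand κ N (aeval (jqModC κ) P) ≠ 0 := by
    intro h
    have := coeff_qExpand_aeval_ne_zero N hP
    rw [h] at this
    exact this rfl
  refine le_antisymm ?_ ?_
  · refine (HahnSeries.order_le_of_coeff_ne_zero (coeff_qExpand_aeval_ne_zero N hP)).trans ?_
    exact le_of_eq (by ring)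
  · by_contra hlt
    rw [not_le] at hlt
    have hc : (qExpand κ N (aeval (jqModC κ) P)).coeff
        (qExpand κ N (aeval (jqModC κ) P)).order ≠ 0 :=
      fun h => hne (HahnSeries.coeff_order_eq_zero.mp h)
    set o := (qExpand κ N (aeval (jqModC κ) P)).order with ho
    by_cases hdvd : (N : ℤ) ∣ o
    · obtain ⟨m, hm⟩ := hdvd
      rw [hm, qExpand_coeff_mul] at hc
      have hN : (0 : ℤ) < (N : ℤ) := by exact_mod_cast Nat.pos_of_ne_zero (NeZero.ne N)
      have hm' : m < -(P.natDegree : ℤ) := by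
        rw [hm] at hlt
        have : (N : ℤ) * m < (N : ℤ) * (-(P.natDegree : ℤ)) := by linarith
        exact lt_of_mul_lt_mul_left this hN.le
      exact hc (PolyDescent.coeff_aeval_jqModC_of_lt κ P hm')
    · exact hc (qExpand_coeff_of_not_dvd N _ hdvd)

/-- **Norm-of-a-unit order argument.**  If `E ≠ 0`, `U * U' = 1` and all `E * U^m`,
`E * U'^m` lie in `κ[j](t^N)`, then `U` has order `0`. -/
theorem order_eq_zero_of_forall_mul_pow_mem {E U U' : LaurentSeries κ} (hE : E ≠ 0)
    (hU : U * U' = 1)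
    (hpos : ∀ m : ℕ, E * U ^ m ∈ polyJ (κ := κ) N)
    (hneg : ∀ m : ℕ, E * U' ^ m ∈ polyJ (κ := κ) N) : U.order = 0 := by
  have hU0 : U ≠ 0 := left_ne_zero_of_mul_eq_one hU
  have hU'0 : U' ≠ 0 := right_ne_zero_of_mul_eq_one hU
  have hsum : U.order + U'.order = 0 := by
    rw [← HahnSeries.order_mul hU0 hU'0, hU, HahnSeries.order_one]
  have key : ∀ {W : LaurentSeries κ}, W ≠ 0 → (∀ m : ℕ, E * W ^ m ∈ polyJ (κ := κ) N) →
      W.order ≤ 0 := by
    intro W hW hm
    by_contra hlt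
    rw [not_le] at hlt
    -- choose `m` with `E.order + m * W.order > 0`
    obtain ⟨m, hm'⟩ : ∃ m : ℕ, 0 < E.order + (m : ℤ) * W.order := by
      refine ⟨(-E.order + 1).toNat, ?_⟩
      have h1 : (-E.order + 1) ≤ ((-E.order + 1).toNat : ℤ) := Int.self_le_toNat _
      have h2 : (0 : ℤ) ≤ ((-E.order + 1).toNat : ℤ) := Int.natCast_nonneg _
      nlinarith
    have hne : E * W ^ m ≠ 0 := mul_ne_zero hE (pow_ne_zero m hW)
    have hle := order_le_zero_of_mem_polyJ N (hm m) hne
    rw [HahnSeries.order_mul hE (pow_ne_zero m hW), HahnSeries.order_pow] at hle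
    simp only [nsmul_eq_mul] at hle
    omega
  have h1 := key hU0 hpos
  have h2 := key hU'0 hneg
  omega

end Fermat.Agent.S28.PolyOrder
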