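import Mathlib
import Fermat.Agent.S28.AbstractCore
import Fermat.Agent.S28.PolyOrder

/-!
# T28 / B : instantiation helpers for `AbstractCore`

* `hint_of_isIntegrallyClosed`: the hypothesis `hint` of `AbstractCore` for an integrally closed
  subring of a field;
* `polyJSub κ N : Subring (LaurentSeries κ)`, the ring `κ[j](t^N)`; it is integrally closed and its
  units have order `0` (`polyJSub_hint`, `polyJSub_ord_unit`);
* `ker_eq_of_comb'`, `core'`: variants of `AbstractCore.ker_eq_of_comb`/`core` in which the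
  combinatorial input may also use the vanishing of the total sums over `Finset.univ`
  (which follows from the component sums by partitioning `univ` into components).
-/

set_option autoImplicit false

noncomputable section

namespace Fermat.Agent.S28.CoreInst

open Polynomial ModularCurve Fermat.Agent.S28.AbstractCore Fermat.Agent.S28.PolyOrder

/-- the hypothesis `hint` of `AbstractCore` holds for an integrally closed subring of a field -/
theorem hint_of_isIntegrallyClosed {L : Type*} [Field L] (B : Subring L) [IsIntegrallyClosed B]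
    (x : L) (hx : IsIntegral B x) (hfrac : ∃ b c : L, b ∈ B ∧ c ∈ B ∧ c ≠ 0 ∧ x * c = b) :
    x ∈ B := by
  obtain ⟨b, c, hb, hc, hc0, hxc⟩ := hfrac
  have hinj : Function.Injective (Algebra.ofId B L) := Subtype.coe_injective
  let f : FractionRing B →ₐ[B] L := IsFractionRing.liftAlgHom (K := FractionRing B) hinj
  let y : FractionRing B := algebraMap B (FractionRing B) ⟨b, hb⟩ / algebraMap B (FractionRing B) ⟨c, hc⟩
  have hfy : f y = x := by
    have hc' : (algebraMap B L ⟨c, hc⟩) ≠ 0 := hc0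
    simp only [y, map_div₀, f, IsFractionRing.liftAlgHom_apply, IsFractionRing.lift_algebraMap]
    show b / c = x
    rw [div_eq_iff hc0]
    exact hxc.symm
  have hy : IsIntegral B y := by
    rw [← isIntegral_algHom_iff f f.injective, hfy]
    exact hx
  obtain ⟨z, hz⟩ := IsIntegrallyClosed.isIntegral_iff.1 hy
  have : x = algebraMap B L z := by
    rw [← hfy, ← hz]
    simp [f]
  rw [this]
  exact z.2

variable (κ : Type*) [Field κ] (N : ℕ) [NeZero N]

/-- the ring hom `κ[X] → κ((t))`, `P ↦ P(j)(t^N)` -/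
def polyJHom : κ[X] →+* LaurentSeries κ :=
  (qExpand κ N).comp (aeval (R := κ) (jqModC κ)).toRingHom

theorem polyJHom_apply (P : κ[X]) : polyJHom κ N P = qExpand κ N (aeval (jqModC κ) P) := rfl

theorem qExpand_injective : Function.Injective (qExpand κ N) :=
  (qExpand κ N).injective

theorem polyJHom_injective : Function.Injective (polyJHom κ N) := by
  intro P Q h
  have h1 := qExpand_injective κ N h
  exact PolyDescent.aeval_jqModC_injective κ h1

/-- the ring `κ[j](t^N)` as a subring of `κ((t))` -/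
def polyJSub : Subring (LaurentSeries κ) := (polyJHom κ N).range

theorem mem_polyJSub_iff (y : LaurentSeries κ) :
    y ∈ polyJSub κ N ↔ y ∈ polyJ (κ := κ) N := by
  rw [mem_polyJ_iff]
  constructor
  · rintro ⟨P, rfl⟩; exact ⟨P, rfl⟩
  · rintro ⟨P, rfl⟩; exact ⟨P, rfl⟩

/-- `κ[X] ≃ κ[j](t^N)` -/
def polyJEquiv : κ[X] ≃+* polyJSub κ N :=
  RingEquiv.ofBijective ((polyJHom κ N).rangeRestrict)
    ⟨fun _ _ h => polyJHom_injective κ N (congrArg Subtype.val h),
      (polyJHom κ N).rangeRestrict_surjective⟩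

instance : IsIntegrallyClosed (polyJSub κ N) :=
  IsIntegrallyClosed.of_equiv (polyJEquiv κ N)

theorem polyJSub_hint (x : LaurentSeries κ) (hx : IsIntegral (polyJSub κ N) x)
    (hfrac : ∃ b c : LaurentSeries κ, b ∈ polyJSub κ N ∧ c ∈ polyJSub κ N ∧ c ≠ 0 ∧ x * c = b) :
    x ∈ polyJSub κ N :=
  hint_of_isIntegrallyClosed _ x hx hfrac

theorem polyJSub_ord_unit (x y : LaurentSeries κ) (hx : x ∈ polyJSub κ N) (hy : y ∈ polyJSub κ N)
    (hxy : x * y = 1) : x.order = 0 := by
  have hx0 : x ≠ 0 := left_ne_zero_of_mul_eq_one hxy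
  have hy0 : y ≠ 0 := right_ne_zero_of_mul_eq_one hxy
  have h1 := order_le_zero_of_mem_polyJ N ((mem_polyJSub_iff κ N x).1 hx) hx0
  have h2 := order_le_zero_of_mem_polyJ N ((mem_polyJSub_iff κ N y).1 hy) hy0
  have h3 : x.order + y.order = 0 := by
    rw [← HahnSeries.order_mul hx0 hy0, hxy, HahnSeries.order_one]
  omega

theorem order_mul' (x y : LaurentSeries κ) (hx : x ≠ 0) (hy : y ≠ 0) :
    (x * y).order = x.order + y.order := HahnSeries.order_mul hx hy

/-! ### the total sums vanish, and the variants of `ker_eq_of_comb`, `core` -/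

section Partition

variable {R A L : Type*} [CommRing R] [CommRing A] [Algebra R A] [Algebra.IsIntegral R A]
  [Field L] {ι : Type*} [Fintype ι] (ρ : ι → A →+* L)

omit [Algebra.IsIntegral R A] [Algebra R A] in
/-- if `f` sums to zero over every component, it sums to zero over `univ` -/
theorem sum_univ_eq_zero (f : ι → ℤ) (h : ∀ i, ∑ i' ∈ comp ρ i, f i' = 0) : ∑ i, f i = 0 := by
  classical
  have h1 := Finset.sum_fiberwise_of_maps_to (s := Finset.univ)
    (t := Finset.univ.image (fun i => RingHom.ker (ρ i))) (g := fun i => RingHom.ker (ρ i))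
    (fun i _ => Finset.mem_image_of_mem _ (Finset.mem_univ i)) f
  rw [← h1]
  apply Finset.sum_eq_zero
  intro K hK
  obtain ⟨i₁, -, rfl⟩ := Finset.mem_image.1 hK
  have h2 := h i₁
  rw [← h2]
  apply Finset.sum_congr _ fun _ _ => rfl
  ext i'
  simp [mem_comp]

/-- variant of `AbstractCore.ker_eq_of_comb`: the combinatorial input may use the vanishing of
the sums over `Finset.univ` as well -/
theorem ker_eq_of_comb' (B : Subring L) (ord : L → ℤ)
    (hB : ∀ i (r : R), ρ i (algebraMap R A r) ∈ B)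
    (hR : ∀ i j (r : R), ρ i (algebraMap R A r) = ρ j (algebraMap R A r))
    (hsym : ∀ (a : A) (m : ℕ), (∏ i, (X - C (ρ i a))).coeff m ∈ B)
    (hint : ∀ x : L, IsIntegral B x → (∃ b c : L, b ∈ B ∧ c ∈ B ∧ c ≠ 0 ∧ x * c = b) → x ∈ B)
    (hord_mul : ∀ x y : L, x ≠ 0 → y ≠ 0 → ord (x * y) = ord x + ord y)
    (hord_unit : ∀ x y : L, x ∈ B → y ∈ B → x * y = 1 → ord x = 0)
    (U : Set Aˣ) (i₀ : ι)
    (hcomb : ∀ S : Finset ι, S.Nonempty → (∀ u ∈ U, ∑ i' ∈ S, ord (ρ i' (u : A)) = 0) →
      (∀ u ∈ U, ∑ i', ord (ρ i' (u : A)) = 0) → i₀ ∈ S)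
    (i : ι) : RingHom.ker (ρ i) = RingHom.ker (ρ i₀) := by
  have hS : ∀ (i : ι) (u : Aˣ), ∑ i' ∈ comp ρ i, ord (ρ i' (u : A)) = 0 := fun i u =>
    sum_ord_comp_eq_zero ρ B ord hB hR hsym hint hord_mul hord_unit i u
  have h := hcomb (comp ρ i) ⟨i, self_mem_comp ρ i⟩ (fun u _ => hS i u)
    (fun u _ => sum_univ_eq_zero ρ _ fun i => hS i u)
  exact (mem_comp.1 h).symm

/-- variant of `AbstractCore.core` with the weaker combinatorial input -/
theorem core' (B : Subring L) (ord : L → ℤ)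
    (hB : ∀ i (r : R), ρ i (algebraMap R A r) ∈ B)
    (hR : ∀ i j (r : R), ρ i (algebraMap R A r) = ρ j (algebraMap R A r))
    (hsym : ∀ (a : A) (m : ℕ), (∏ i, (X - C (ρ i a))).coeff m ∈ B)
    (hint : ∀ x : L, IsIntegral B x → (∃ b c : L, b ∈ B ∧ c ∈ B ∧ c ≠ 0 ∧ x * c = b) → x ∈ B)
    (hord_mul : ∀ x y : L, x ≠ 0 → y ≠ 0 → ord (x * y) = ord x + ord y)
    (hord_unit : ∀ x y : L, x ∈ B → y ∈ B → x * y = 1 → ord x = 0)
    (U : Set Aˣ) (i₀ : ι)
    (hcomb : ∀ S : Finset ι, S.Nonempty → (∀ u ∈ U, ∑ i' ∈ S, ord (ρ i' (u : A)) = 0) →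
      (∀ u ∈ U, ∑ i', ord (ρ i' (u : A)) = 0) → i₀ ∈ S)
    (π : A) (hlift : ∀ a : A, (∀ i, ρ i a = 0) → ∃ b : A, a = π * b)
    (a : A) (ha : ρ i₀ a = 0) : ∃ b : A, a = π * b := by
  apply hlift
  intro i
  have h := ker_eq_of_comb' ρ B ord hB hR hsym hint hord_mul hord_unit U i₀ hcomb i
  have h1 : a ∈ RingHom.ker (ρ i₀) := ha
  rw [← h] at h1
  exact h1

end Partition

end Fermat.Agent.S28.CoreInst
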