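import Fermat.Agent.S28.CosetSym

/-!
# The coset index set `SL(2, ℤ) ⧸ Γ₀(N)` (module A5i of the S28 plan)

Pure group theory: the index set `I N` of the cusp embeddings, its base point `i₀`, the invariant
`cI ⟦g⟧ = gcd(|g₁₀|, N)`, and the link with `CosetSym.cosetFun`.
-/

set_option autoImplicit false

open UpperHalfPlane MatrixGroups CongruenceSubgroup

noncomputable section

namespace Fermat.Agent.S28.CosetIndex

variable (N : ℕ)

/-- the index set: left cosets of `Γ₀(N)` in `SL(2, ℤ)` -/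
abbrev I : Type := SL(2, ℤ) ⧸ Gamma0 N

instance instFintypeI [NeZero N] : Fintype (I N) := Subgroup.fintypeQuotientOfFiniteIndex

instance instDecidableEqI : DecidableEq (I N) := Classical.decEq _

/-- the coset of the identity (the cusp `∞`) -/
def i₀ : I N := ((1 : SL(2, ℤ)) : SL(2, ℤ) ⧸ Gamma0 N)

/-- `gcd(|g₁₀|, N)` -/
def cFun (g : SL(2, ℤ)) : ℕ := Nat.gcd (g 1 0).natAbs N

variable {N}

theorem dvd_cFun_iff {d : ℕ} (hd : d ∣ N) (g : SL(2, ℤ)) :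
    d ∣ cFun N g ↔ (d : ℤ) ∣ g 1 0 := by
  rw [cFun, Nat.dvd_gcd_iff, ← Int.natCast_dvd]
  exact ⟨fun h => h.1, fun h => ⟨h, hd⟩⟩

theorem natCast_dvd_of_mem_Gamma0 {h : SL(2, ℤ)} (hh : h ∈ Gamma0 N) : (N : ℤ) ∣ h 1 0 := by
  rw [Gamma0_mem] at hh
  exact (ZMod.intCast_zmod_eq_zero_iff_dvd _ N).mp hh

theorem mem_Gamma0_iff_dvd {h : SL(2, ℤ)} : h ∈ Gamma0 N ↔ (N : ℤ) ∣ h 1 0 := by
  rw [Gamma0_mem]
  exact ZMod.intCast_zmod_eq_zero_iff_dvd _ N

/-- `cFun` is invariant under right multiplication by `Γ₀(N)`. -/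
theorem cFun_mul_of_mem (g : SL(2, ℤ)) {h : SL(2, ℤ)} (hh : h ∈ Gamma0 N) :
    cFun N (g * h) = cFun N g := by
  have hN : (N : ℤ) ∣ h 1 0 := natCast_dvd_of_mem_Gamma0 hh
  have hdet : h 0 0 * h 1 1 - h 0 1 * h 1 0 = 1 := by
    have := h.det_coe
    rwa [Matrix.det_fin_two] at this
  have hentry : (g * h) 1 0 = g 1 0 * h 0 0 + g 1 1 * h 1 0 := by
    have := (Matrix.two_mul_expl g.1 h.1).2.2.1
    simpa using this
  have key : ∀ d : ℕ, d ∣ N → ((d : ℤ) ∣ (g * h) 1 0 ↔ (d : ℤ) ∣ g 1 0) := by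
    intro d hd
    have hdc : (d : ℤ) ∣ h 1 0 := (Int.natCast_dvd_natCast.mpr hd).trans hN
    rw [hentry]
    constructor
    · intro h1
      have h2 : (d : ℤ) ∣ g 1 0 * h 0 0 := (Int.dvd_add_left (hdc.mul_left _)).mp h1
      have h3 : g 1 0 = g 1 0 * h 0 0 * h 1 1 - g 1 0 * h 0 1 * h 1 0 := by
        linear_combination (-(g 1 0)) * hdet
      rw [h3]
      exact dvd_sub (h2.mul_right _) (hdc.mul_left _)
    · intro h1
      exact dvd_add (h1.mul_right _) (hdc.mul_left _)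
  have hdvd : ∀ g' : SL(2, ℤ), cFun N g' ∣ N := fun g' => Nat.gcd_dvd_right _ _
  refine Nat.dvd_antisymm ?_ ?_
  · rw [dvd_cFun_iff (hdvd _), ← key _ (hdvd _), ← dvd_cFun_iff (hdvd _)]
  · rw [dvd_cFun_iff (hdvd _), key _ (hdvd _), ← dvd_cFun_iff (hdvd _)]

variable (N)

/-- `cI ⟦g⟧ = gcd(|g₁₀|, N)` -/
def cI : I N → ℕ :=
  Quotient.lift (s := QuotientGroup.leftRel (Gamma0 N)) (cFun N) (by
    intro a b hab
    have hab : a⁻¹ * b ∈ Gamma0 N := QuotientGroup.leftRel_apply.mp hab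
    have : b = a * (a⁻¹ * b) := by group
    rw [this, cFun_mul_of_mem a hab])

variable {N}

@[simp] theorem cI_mk (g : SL(2, ℤ)) :
    cI N (g : SL(2, ℤ) ⧸ Gamma0 N) = Nat.gcd (g 1 0).natAbs N := rfl

theorem cI_eq_cFun_out (q : I N) : cI N q = Nat.gcd ((Quotient.out q) 1 0).natAbs N := by
  conv_lhs => rw [← QuotientGroup.out_eq' q]
  rfl

theorem cI_dvd (q : I N) : cI N q ∣ N := by
  induction q using QuotientGroup.induction_on with
  | H g => exact Nat.gcd_dvd_right _ _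

theorem cI_eq_iff (q : I N) : cI N q = N ↔ q = i₀ N := by
  induction q using QuotientGroup.induction_on with
  | H g =>
    rw [cI_mk, i₀, QuotientGroup.eq, mul_one, inv_mem_iff, mem_Gamma0_iff_dvd,
      Nat.gcd_eq_right_iff_dvd, ← Int.natCast_dvd]

theorem cI_i₀ : cI N (i₀ N) = N := (cI_eq_iff _).mpr rfl

theorem cI_pos [NeZero N] (q : I N) : 0 < cI N q :=
  Nat.pos_of_dvd_of_pos (cI_dvd q) (Nat.pos_of_ne_zero (NeZero.ne N))

theorem cFun_inv (g : SL(2, ℤ)) : cFun N g⁻¹ = cFun N g := by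
  have h : (g⁻¹ : SL(2, ℤ)) 1 0 = -(g 1 0) := by
    simp [Matrix.SpecialLinearGroup.SL2_inv_expl g]
  rw [cFun, cFun, h, Int.natAbs_neg]

/-- the same invariant read off from the matrix `q.out⁻¹` that is actually applied in
`cosetFun Γ f q z = f (q.out⁻¹ • z)` -/
theorem cI_eq_cFun_out_inv (q : I N) :
    cI N q = Nat.gcd (((Quotient.out q)⁻¹ : SL(2, ℤ)) 1 0).natAbs N := by
  rw [cI_eq_cFun_out]
  exact (cFun_inv (Quotient.out q)).symm

/-- for `d ∣ N`, `gcd(cI q, d) = gcd(|c|, d)` for the lower left entry `c` of any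
representative. -/
theorem gcd_cI_mk {d : ℕ} (hd : d ∣ N) (g : SL(2, ℤ)) :
    Nat.gcd (cI N (g : SL(2, ℤ) ⧸ Gamma0 N)) d = Nat.gcd (g 1 0).natAbs d := by
  rw [cI_mk, Nat.gcd_assoc, Nat.gcd_eq_right hd]

theorem gcd_cI_out {d : ℕ} (hd : d ∣ N) (q : I N) :
    Nat.gcd (cI N q) d = Nat.gcd ((Quotient.out q) 1 0).natAbs d := by
  conv_lhs => rw [← QuotientGroup.out_eq' q]
  exact gcd_cI_mk hd _

theorem gcd_cI_out_inv {d : ℕ} (hd : d ∣ N) (q : I N) :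
    Nat.gcd (cI N q) d = Nat.gcd (((Quotient.out q)⁻¹ : SL(2, ℤ)) 1 0).natAbs d := by
  have h : ((Quotient.out q)⁻¹ : SL(2, ℤ)) 1 0 = -((Quotient.out q) 1 0) := by
    simp [Matrix.SpecialLinearGroup.SL2_inv_expl (Quotient.out q)]
  rw [gcd_cI_out hd, h, Int.natAbs_neg]

/-! ### The translate family of a `Γ₀(N)`-invariant function -/

section Translates

open CosetSym

variable (N)

/-- the family of translates `fT f ⟦g⟧ τ = f (g⁻¹ • τ)`; this is `CosetSym.cosetFun (Gamma0 N) f`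
-/
abbrev fT (f : ℍ → ℂ) : I N → ℍ → ℂ := cosetFun (Gamma0 N) f

variable {N} {f : ℍ → ℂ}

theorem fT_mk (hinv : ∀ γ ∈ Gamma0 N, ∀ z, f (γ • z) = f z) (g : SL(2, ℤ)) (z : ℍ) :
    fT N f (g : SL(2, ℤ) ⧸ Gamma0 N) z = f (g⁻¹ • z) :=
  cosetFun_mk hinv g z

theorem fT_i₀ (hinv : ∀ γ ∈ Gamma0 N, ∀ z, f (γ • z) = f z) : fT N f (i₀ N) = f :=
  funext fun z => cosetFun_one hinv z

/-- the permutation law -/
theorem fT_smul (hinv : ∀ γ ∈ Gamma0 N, ∀ z, f (γ • z) = f z) (γ : SL(2, ℤ)) (i : I N)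
    (z : ℍ) : fT N f i (γ • z) = fT N f (γ⁻¹ • i) z :=
  cosetFun_smul hinv γ i z

theorem fT_isPermuted [NeZero N] (hinv : ∀ γ ∈ Gamma0 N, ∀ z, f (γ • z) = f z) :
    IsPermuted (fT N f) :=
  isPermuted_cosetFun hinv

theorem fT_out (f : ℍ → ℂ) (q : I N) (z : ℍ) :
    fT N f q z = f ((Quotient.out q)⁻¹ • z) := rfl

end Translates

end Fermat.Agent.S28.CosetIndex
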