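import Fermat.Agent.S28.CoreGauss5
import Fermat.Agent.S28.PolyDescent
import Fermat.Agent.S28.SymExtend

set_option autoImplicit false
set_option linter.unusedSectionVars false

noncomputable section

namespace Fermat.Agent.S28

open Polynomial ModularCurve

section Param

/-- `evalκ` is `aeval` -/
theorem evalκ_eq_aeval {κ : Type*} [Field κ] (g : LaurentSeries κ) (P : κ[X]) :
    evalκ g P = Polynomial.aeval g P := by
  rw [Polynomial.aeval_def]
  have : (algebraMap κ (LaurentSeries κ)) = (HahnSeries.C : κ →+* LaurentSeries κ) :=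
    RingHom.ext fun c => PolyDescent.algebraMap_eq_C κ c
  rw [this]
  rfl

theorem evalκ_injective_iff {κ : Type*} [Field κ] (g : LaurentSeries κ) :
    Function.Injective (evalκ g) ↔ Transcendental κ g := by
  rw [transcendental_iff_injective]
  constructor
  · intro h P Q hPQ
    apply h
    rw [evalκ_eq_aeval, evalκ_eq_aeval]; exact hPQ
  · intro h P Q hPQ
    apply h
    rw [← evalκ_eq_aeval, ← evalκ_eq_aeval]; exact hPQ

theorem evalκ_inv_injective {κ : Type*} [Field κ] {g : LaurentSeries κ}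
    (h : Function.Injective (evalκ g)) : Function.Injective (evalκ g⁻¹) := by
  rw [evalκ_injective_iff] at h ⊢
  intro halg
  exact h (IsAlgebraic.inv_iff.mp halg)

theorem evalκ_qExpand_jqModC_injective (κ : Type*) [Field κ] (N : ℕ) [NeZero N] :
    Function.Injective (evalκ (qExpand κ N (jqModC κ))) := by
  have hcomp : evalκ (qExpand κ N (jqModC κ)) = (qExpand κ N).comp (evalκ (jqModC κ)) := by
    apply Polynomial.ringHom_ext
    · intro a
      simp [evalκ]
    · simp [evalκ]
  rw [hcomp]
  intro P Q hPQ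
  have h1 := qExpand_injective (R := κ) N hPQ
  rw [evalκ_eq_aeval, evalκ_eq_aeval] at h1
  exact PolyDescent.aeval_jqModC_injective κ h1

variable (O : Type*) (k : Type*) [CommRing O] [IsDomain O] [IsDiscreteValuationRing O]
  [Field k] [Algebra O k] [IsFractionRing O k] (N : ℕ) [NeZero N]

theorem qExpand_jqModC_eq_serEmb :
    qExpand k N (jqModC k) = serEmb O k (qExpand O N (jqModC O)) := by
  rw [serEmb, coeffMap_qExpand, coeffMap_jqModC]

theorem qExpand_jqModC_mem_gaussRing : qExpand k N (jqModC k) ∈ gaussRing O k := by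
  rw [qExpand_jqModC_eq_serEmb O k N]
  exact serEmb_mem_gaussRing _

theorem gaussRed_qExpand_jqModC (h : qExpand k N (jqModC k) ∈ gaussRing O k) :
    gaussRed O k ⟨qExpand k N (jqModC k), h⟩ =
      qExpand (IsLocalRing.ResidueField O) N (jqModC (IsLocalRing.ResidueField O)) := by
  have h1 : (⟨qExpand k N (jqModC k), h⟩ : gaussRing O k) =
      ⟨serEmb O k (qExpand O N (jqModC O)), serEmb_mem_gaussRing _⟩ :=
    Subtype.ext (qExpand_jqModC_eq_serEmb O k N)
  rw [h1, gaussRed_serEmb, serRed, coeffMap_qExpand, coeffMap_jqModC]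

theorem gaussRed_inv {x : LaurentSeries k} (hx : x ∈ gaussRing O k) (hx' : x⁻¹ ∈ gaussRing O k)
    (hx0 : x ≠ 0) : gaussRed O k ⟨x⁻¹, hx'⟩ = (gaussRed O k ⟨x, hx⟩)⁻¹ := by
  have h1 : (⟨x, hx⟩ : gaussRing O k) * ⟨x⁻¹, hx'⟩ = 1 :=
    Subtype.ext (mul_inv_cancel₀ hx0)
  have h2 := congrArg (gaussRed O k) h1
  rw [map_mul, map_one] at h2
  exact eq_inv_of_mul_eq_one_right h2

end Param

end Fermat.Agent.S28
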