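import Fermat.Agent.S28.CuspCore0

set_option autoImplicit false
set_option linter.unusedSectionVars false

noncomputable section

namespace Fermat.Agent.S28

open Polynomial ModularCurve

section Inst

variable {k : Type} [Field k] {N : ℕ} [NeZero N] {O : Type} [CommRing O] [IsDomain O]
  [IsDiscreteValuationRing O] [Algebra O k] [IsFractionRing O k]

local instance (priority := 2000) bigFieldModule87 : Module k (bigField k N) := Algebra.toModule

/-- the parameter `j` as an element of the big field -/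
def jEl (k : Type) [Field k] (N : ℕ) : bigField k N := ⟨jqModC k, jqModC_mem_bigField k N⟩

theorem CuspDatum.sigma_mem_gaussField (D : CuspDatum k N O) (i : D.I) (x : bigField k N) :
    D.σ i x ∈ gaussField O k := by
  obtain ⟨x, hx⟩ := x
  induction hx using IntermediateField.adjoin_induction with
  | mem x hx =>
    exact gaussRing_le_gaussField (intSeries_le_gaussRing (D.σ_int i ⟨x, _⟩ hx))
  | algebraMap c =>
    have : (⟨algebraMap k (LaurentSeries k) c, IntermediateField.algebraMap_mem _ c⟩ :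
        bigField k N) = algebraMap k (bigField k N) c := rfl
    rw [this, AlgHom.commutes, algebraMap_eq_C]
    exact C_mem_gaussField c
  | add x y hx hy ihx ihy =>
    have : (⟨x + y, add_mem hx hy⟩ : bigField k N) = ⟨x, hx⟩ + ⟨y, hy⟩ := rfl
    rw [this, map_add]
    exact add_mem ihx ihy
  | inv x hx ih =>
    have : (⟨x⁻¹, inv_mem hx⟩ : bigField k N) = (⟨x, hx⟩ : bigField k N)⁻¹ := rfl
    rw [this, map_inv₀]
    exact inv_mem ih
  | mul x y hx hy ihx ihy =>
    have : (⟨x * y, mul_mem hx hy⟩ : bigField k N) = ⟨x, hx⟩ * ⟨y, hy⟩ := rfl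
    rw [this, map_mul]
    exact mul_mem ihx ihy

theorem evalκ_qExpand {κ : Type*} [Field κ] (M : ℕ) [NeZero M] (g : LaurentSeries κ) :
    evalκ (qExpand κ M g) = (qExpand κ M).comp (evalκ g) := by
  apply Polynomial.ringHom_ext
  · intro a
    simp [evalκ]
  · simp [evalκ]

/-- the subring of the big field of elements lying in `bigAlg` -/
def bigAlgSub (k : Type) [Field k] (N : ℕ) : Subring (bigField k N) :=
  (bigAlg k N).toSubring.comap (algebraMap (bigField k N) (LaurentSeries k))

theorem mem_bigAlgSub {x : bigField k N} :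
    x ∈ bigAlgSub k N ↔ (x : LaurentSeries k) ∈ bigAlg k N := Iff.rfl

theorem coe_evalEk (G : bigField k N) (P : k[X]) :
    ((evalEk k G P : bigField k N) : LaurentSeries k) = evalLk (G : LaurentSeries k) P := by
  have h : (algebraMap (bigField k N) (LaurentSeries k)).comp (evalEk k G) =
      evalLk (G : LaurentSeries k) := by
    apply Polynomial.ringHom_ext
    · intro a
      simp [evalEk, evalLk, algebraMap_eq_C]
    · simp [evalEk, evalLk]
  exact congrArg (fun f => f P) h

theorem evalEk_jEl_mem_bigAlgSub (P : k[X]) : evalEk k (jEl k N) P ∈ bigAlgSub k N := by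
  rw [mem_bigAlgSub, coe_evalEk]
  have h1 : evalLk (jqModC k) P = Polynomial.aeval (jqModC k) P := evalκ_eq_aeval _ _
  show evalLk (jqModC k) P ∈ bigAlg k N
  rw [h1]
  have h2 : jqModC k ∈ bigGens k N := by
    refine ⟨1, inferInstance, one_dvd N, Or.inl ?_⟩
    rw [jS, qExpand_one_apply]
  exact Algebra.adjoin_mono (Set.singleton_subset_iff.mpr h2)
    (Polynomial.aeval_mem_adjoin_singleton k (jqModC k))

theorem CuspDatum.sigma_comp_evalEk_jEl (D : CuspDatum k N O) (i : D.I) :
    (D.σ i : bigField k N →+* LaurentSeries k).comp (evalEk k (jEl k N)) =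
      evalLk (qExpand k N (jqModC k)) := by
  rw [sigma_comp_evalEk]
  congr 1
  exact D.σ_j i

theorem CuspDatum.sym_range (D : CuspDatum k N O) (y : bigField k N) (hy : y ∈ bigAlgSub k N)
    (m : ℕ) : (∏ i, (Polynomial.X - Polynomial.C (D.σ i y))).coeff m ∈
      Set.range (evalLk (qExpand k N (jqModC k))) := by
  obtain ⟨z, hz, hzc⟩ := D.sym y hy m
  rw [SetLike.mem_coe, Algebra.adjoin_singleton_eq_range_aeval] at hz
  obtain ⟨P, rfl⟩ := hz
  refine ⟨P, ?_⟩
  rw [← hzc]
  have : evalLk (qExpand k N (jqModC k)) = (qExpand k N).comp (evalLk (jqModC k)) :=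
    evalκ_qExpand N (jqModC k)
  rw [this, RingHom.comp_apply]
  congr 1
  exact evalκ_eq_aeval _ _

theorem bigField_frac (x : bigField k N) :
    ∃ r ∈ bigAlgSub k N, ∃ s ∈ bigAlgSub k N, s ≠ 0 ∧ x * s = r := by
  obtain ⟨r, hr, s, hs, hxrs⟩ := IntermediateField.mem_adjoin_iff_div.mp x.2
  by_cases hs0 : s = 0
  · refine ⟨0, zero_mem _, 1, one_mem _, one_ne_zero, ?_⟩
    rw [mul_one]
    apply Subtype.ext
    rw [hxrs, hs0, div_zero]
    rfl
  · refine ⟨⟨r, bigAlg_le_bigField k N hr⟩, hr, ⟨s, bigAlg_le_bigField k N hs⟩, hs, ?_, ?_⟩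
    · intro h0
      exact hs0 (congrArg Subtype.val h0)
    · apply Subtype.ext
      show (x : LaurentSeries k) * s = r
      rw [hxrs, div_mul_cancel₀ _ hs0]

theorem CuspDatum.symrat (D : CuspDatum k N O) (x : bigField k N) (m : ℕ) :
    ∃ p q : k[X], q ≠ 0 ∧
      (∏ i, (Polynomial.X - Polynomial.C (D.σ i x))).coeff m *
        evalLk (qExpand k N (jqModC k)) q = evalLk (qExpand k N (jqModC k)) p := by
  obtain ⟨p, q, hq, hpq⟩ := SymExtend.symrat_extend
    (fun i => (D.σ i : bigField k N →+* LaurentSeries k)) (evalEk k (jEl k N))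
    (evalLk (qExpand k N (jqModC k))) (fun i => D.sigma_comp_evalEk_jEl i) (bigAlgSub k N)
    (fun a => evalEk_jEl_mem_bigAlgSub a) D.i₀ (fun y hy m => D.sym_range y hy m)
    bigField_frac x m
  refine ⟨p, q, ?_, hpq⟩
  rintro rfl
  exact hq (map_zero _)

/-- rationality in `Gs` implies rationality in `Gs⁻¹` -/
theorem symrat_inv_of_symrat {Gs : LaurentSeries k} (hGs : Gs ≠ 0) {c : LaurentSeries k}
    (h : ∃ p q : k[X], q ≠ 0 ∧ c * evalLk Gs q = evalLk Gs p) :
    ∃ p q : k[X], q ≠ 0 ∧ c * evalLk Gs⁻¹ q = evalLk Gs⁻¹ p := by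
  obtain ⟨p, q, hq, hpq⟩ := h
  let _ : Invertible Gs := invertibleOfNonzero hGs
  set n := max p.natDegree q.natDegree with hn
  have hp' := Polynomial.eval₂_reflect_mul_pow (HahnSeries.C : k →+* LaurentSeries k) Gs n p
    (le_max_left _ _)
  have hq' := Polynomial.eval₂_reflect_mul_pow (HahnSeries.C : k →+* LaurentSeries k) Gs n q
    (le_max_right _ _)
  rw [invOf_eq_inv] at hp' hq'
  refine ⟨Polynomial.reflect n p, Polynomial.reflect n q, Polynomial.reflect_eq_zero_iff.not.mpr hq,
    ?_⟩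
  have hpow : Gs ^ n ≠ 0 := pow_ne_zero n hGs
  apply mul_right_cancel₀ hpow
  show c * eval₂ HahnSeries.C Gs⁻¹ (Polynomial.reflect n q) * Gs ^ n =
    eval₂ HahnSeries.C Gs⁻¹ (Polynomial.reflect n p) * Gs ^ n
  rw [mul_assoc, hq', hp']
  exact hpq

end Inst

end Fermat.Agent.S28
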