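import Fermat.Agent.S28.ChartUnits
import Fermat.Agent.S28.CoreBridge

/-!
# T28 / B : the core statements for a cusp datum (both charts), unconditional

`coreFin D hϖ x hx hint hred` and `coreInf D hϖ x hx hint hred`: if `x` lies in the big field,
is integral over `O[j]` (resp. `O[j⁻¹]`) and is a multiple of the uniformizer in the Gauss ring,
then `x / ϖ` is still integral over `O[j]` (resp. `O[j⁻¹]`).
-/

set_option autoImplicit false
set_option linter.unusedSectionVars false
set_option synthInstance.maxHeartbeats 400000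
set_option maxHeartbeats 1000000

noncomputable section

namespace Fermat.Agent.S28.CuspCoreFinal

open Polynomial ModularCurve

variable {k : Type} [Field k] {N : ℕ} [NeZero N] {O : Type} [CommRing O] [IsDomain O]
  [IsDiscreteValuationRing O] [Algebra O k] [IsFractionRing O k]

/-- **Core statement, chart `j`.** -/
theorem coreFin (D : CuspDatum k N O) {ϖ : O} (hϖ : Irreducible ϖ) (x : LaurentSeries k)
    (hx : x ∈ bigField k N) (hint : IsIntegral (Algebra.adjoin O {jqModC k}) x)
    (hred : ∃ v ∈ gaussRing O k, x = HahnSeries.C (algebraMap O k ϖ) * v) :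
    IsIntegral (Algebra.adjoin O {jqModC k}) (HahnSeries.C (algebraMap O k ϖ)⁻¹ * x) :=
  CoreBridge.coreFin_of_chartHyp D (ChartHypInst.chartHyp D) (ChartUnits.hunits D) hϖ x hx hint
    hred

/-- **Core statement, chart `1/j`.** -/
theorem coreInf (D : CuspDatum k N O) {ϖ : O} (hϖ : Irreducible ϖ) (x : LaurentSeries k)
    (hx : x ∈ bigField k N) (hint : IsIntegral (Algebra.adjoin O {(jqModC k)⁻¹}) x)
    (hred : ∃ v ∈ gaussRing O k, x = HahnSeries.C (algebraMap O k ϖ) * v) :
    IsIntegral (Algebra.adjoin O {(jqModC k)⁻¹}) (HahnSeries.C (algebraMap O k ϖ)⁻¹ * x) :=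
  CoreBridge.coreInf_of_chartHyp D (ChartHypInst.chartHyp D) (ChartHypInst.chartHyp_inv D)
    (ChartUnits.hunits D) hϖ x hx hint hred

end Fermat.Agent.S28.CuspCoreFinal
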