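import Mathlib
import Fermat.Agent.S28.Defs
import Fermat.Agent.S28.GcdMatrix

set_option autoImplicit false
noncomputable section
namespace Fermat.Agent.S28.CuspCount

open Finset

/-- Abstract counting step: a type function `c : I → ℕ` with values in the divisors of `N`,
exactly one index of type `N`; a nonempty subset `S` whose gcd-moments are those of a
"component" must be everything. -/
theorem eq_univ_of_moments {I : Type*} [Fintype I] [DecidableEq I] {N : ℕ} (hN : N ≠ 0)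
    (c : I → ℕ) (hc : ∀ i, c i ∣ N) (i₀ : I) (hc₀ : ∀ i, c i = N ↔ i = i₀)
    (S : Finset I) (hS : S.Nonempty)
    (hS0 : ∀ d ∈ N.divisors, ∑ i ∈ S, (Nat.gcd (c i) d) ^ 2 = d * S.card)
    (hU0 : ∀ d ∈ N.divisors, ∑ i, (Nat.gcd (c i) d) ^ 2 = d * Fintype.card I) :
    S = Finset.univ := by
  classical
  have hmaps : ∀ (T : Finset I), ∀ i ∈ T, c i ∈ N.divisors := fun T i _ =>
    Nat.mem_divisors.mpr ⟨hc i, hN⟩
  have key : ∀ (T : Finset I) (d : ℕ),
      ∑ e ∈ N.divisors, (T.filter (fun i => c i = e)).card * (Nat.gcd e d) ^ 2 =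
        ∑ i ∈ T, (Nat.gcd (c i) d) ^ 2 := by
    intro T d
    rw [← Finset.sum_fiberwise_of_maps_to (hmaps T) (fun i => (Nat.gcd (c i) d) ^ 2)]
    refine Finset.sum_congr rfl fun e _ => ?_
    rw [Finset.card_eq_sum_ones, Finset.sum_mul]
    refine Finset.sum_congr rfl fun i hi => ?_
    rw [(Finset.mem_filter.mp hi).2, one_mul]
  have h1 := GcdMatrix.count_eq_of_gcd_moments hN
    (fun e => (S.filter (fun i => c i = e)).card)
    (fun e => ((Finset.univ : Finset I).filter (fun i => c i = e)).card)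
    S.card (Fintype.card I)
    (fun d hd => by rw [key S d, hS0 d hd])
    (fun d hd => by rw [key Finset.univ d, hU0 d hd])
    (by
      rw [Finset.card_eq_one]
      refine ⟨i₀, ?_⟩
      ext i
      simp [hc₀ i])
    (Finset.card_ne_zero.mpr hS)
    (Finset.card_le_univ S)
  exact Finset.eq_univ_of_card S h1

variable {k : Type} [Field k] {N : ℕ} [NeZero N]
variable {𝒪 : Type} [CommRing 𝒪] [IsLocalRing 𝒪] [Algebra 𝒪 k]

/-- Counting step for a cusp datum, `ℕ`-form. -/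
theorem eq_univ_of_sum_gcd_sq (D : CuspDatum k N 𝒪) (S : Finset D.I) (hS : S.Nonempty)
    (hS0 : ∀ d ∈ N.divisors, ∑ i ∈ S, (Nat.gcd (D.cI i) d) ^ 2 = d * S.card)
    (hU0 : ∀ d ∈ N.divisors, ∑ i, (Nat.gcd (D.cI i) d) ^ 2 = d * Fintype.card D.I) :
    S = Finset.univ :=
  eq_univ_of_moments (NeZero.ne N) D.cI D.cI_dvd D.i₀ D.cI_eq_iff S hS hS0 hU0

/-- the order appearing in `CuspDatum.ord_u`, as a function -/
def ordU (N : ℕ) (c d : ℕ) : ℤ := ((N / d : ℕ) : ℤ) * ((Nat.gcd c d : ℕ) : ℤ) ^ 2 - (N : ℤ)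

theorem ordU_eq (N c d : ℕ) :
    ordU N c d = ((N : ℤ) / (d : ℤ)) * ((Nat.gcd c d : ℕ) : ℤ) ^ 2 - (N : ℤ) := by
  rw [ordU, Int.natCast_div]

/-- from vanishing of the sum of orders to the gcd-moment identity -/
theorem sum_gcd_sq_of_sum_ordU {I : Type*} {N : ℕ} (hN : N ≠ 0) (c : I → ℕ) (S : Finset I)
    {d : ℕ} (hd : d ∈ N.divisors) (h : ∑ i ∈ S, ordU N (c i) d = 0) :
    ∑ i ∈ S, (Nat.gcd (c i) d) ^ 2 = d * S.card := by
  have hdN : d ∣ N := Nat.dvd_of_mem_divisors hd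
  obtain ⟨m, hm⟩ := hdN
  have hd0 : d ≠ 0 := fun h0 => hN (by rw [hm, h0, zero_mul])
  have hm0 : m ≠ 0 := fun h0 => hN (by rw [hm, h0, mul_zero])
  have hdiv : N / d = m := by rw [hm]; exact Nat.mul_div_cancel_left m (Nat.pos_of_ne_zero hd0)
  simp only [ordU, hdiv] at h
  rw [Finset.sum_sub_distrib, Finset.sum_const, ← Finset.mul_sum, sub_eq_zero] at h
  have h2 : (m : ℤ) * ∑ i ∈ S, ((Nat.gcd (c i) d : ℕ) : ℤ) ^ 2 = (m : ℤ) * ((d : ℤ) * S.card) := by
    rw [h, hm]; push_cast; simp only [nsmul_eq_mul]; ring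
  have h3 := mul_left_cancel₀ (by exact_mod_cast hm0 : (m : ℤ) ≠ 0) h2
  exact_mod_cast h3

/-- Counting step for a cusp datum, in the form produced by the norm-of-a-unit argument:
if the orders `ordU N (cI i) d` sum to zero over `S` (nonempty) and over everything, for all
`d ∣ N`, then `S` is everything. -/
theorem eq_univ_of_sum_ordU (D : CuspDatum k N 𝒪) (S : Finset D.I) (hS : S.Nonempty)
    (hS0 : ∀ d ∈ N.divisors, ∑ i ∈ S, ordU N (D.cI i) d = 0)
    (hU0 : ∀ d ∈ N.divisors, ∑ i, ordU N (D.cI i) d = 0) :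
    S = Finset.univ :=
  eq_univ_of_sum_gcd_sq D S hS
    (fun d hd => sum_gcd_sq_of_sum_ordU (NeZero.ne N) D.cI S hd (hS0 d hd))
    (fun d hd => by
      have := sum_gcd_sq_of_sum_ordU (NeZero.ne N) D.cI Finset.univ hd (hU0 d hd)
      simpa using this)

end Fermat.Agent.S28.CuspCount
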