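import Mathlib
import Fermat.Prelude.Def_GaloisRep_Flat
import Fermat.Agent.S28.RatLocal

/-!
# T28 / D1 : the cyclotomic field `ℚ(ζ_N) ⊆ ℂ` and a DVR of it above `ℓ`

* `CycLocal.K N : IntermediateField ℚ ℂ`, the field `ℚ(exp(2πi/N))`;
* `CycLocal.O N ℓ : Subalgebra (𝓞 (K N)) (K N)`, the localization of the ring of integers at a chosen
  prime above `ℓ`, realised inside `K N`; it is a DVR with fraction field `K N`;
  if `ℓ ∤ N` its maximal ideal is generated by `ℓ`;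
* `O ∩ ℚ = ℤ_(ℓ)` (`rat_mem_O_iff`), roots of unity of order dividing `N` and natural numbers
  dividing `N` are units of `O`.
-/

set_option autoImplicit false

noncomputable section

namespace Fermat.Agent.S28.CycLocal

open NumberField Complex

/-- transfer of "the extension of `I` is the maximal ideal" between two localizations at `P` -/
theorem map_eq_maximalIdeal_transfer {A : Type*} [CommRing A] (P : Ideal A) [P.IsPrime]
    (S₁ S₂ : Type*) [CommRing S₁] [CommRing S₂] [Algebra A S₁] [Algebra A S₂]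
    [IsLocalization.AtPrime S₁ P] [IsLocalization.AtPrime S₂ P]
    [IsLocalRing S₁] [IsLocalRing S₂] (I : Ideal A)
    (h : I.map (algebraMap A S₁) = IsLocalRing.maximalIdeal S₁) :
    I.map (algebraMap A S₂) = IsLocalRing.maximalIdeal S₂ := by
  let e : S₁ ≃ₐ[A] S₂ := IsLocalization.algEquiv P.primeCompl S₁ S₂
  have he : (e : S₁ →+* S₂).comp (algebraMap A S₁) = algebraMap A S₂ := by
    ext x; simp [e]
  have h1 : ∀ J : Ideal A,
      (J.map (algebraMap A S₁)).map (e : S₁ →+* S₂) = J.map (algebraMap A S₂) := by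
    intro J
    rw [Ideal.map_map, he]
  rw [← h1 I, h, ← IsLocalization.AtPrime.map_eq_maximalIdeal P S₁, h1 P,
    IsLocalization.AtPrime.map_eq_maximalIdeal]

/-- a prime of a cyclotomic field `ℚ(ζ_m)` above `ℓ ∤ m` is unramified: `ℓ` generates the maximal
ideal of the localization -/
theorem unram_aux (m : ℕ) [NeZero m] (ℓ : ℕ) [Fact ℓ.Prime] (L : Type) [Field L] [NumberField L]
    [IsCyclotomicExtension {m} ℚ L] (P : Ideal (𝓞 L)) [P.IsPrime]
    [P.LiesOver (Ideal.span {(ℓ : ℤ)})] (hm : ¬ ℓ ∣ m) :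
    (Ideal.span {(ℓ : 𝓞 L)}).map (algebraMap (𝓞 L) (Localization.AtPrime P)) =
      IsLocalRing.maximalIdeal (Localization.AtPrime P) := by
  have h := IsCyclotomicExtension.Rat.ramificationIdx_eq_of_not_dvd ℓ L P hm
  rw [Ideal.ramificationIdx_eq (Ideal.span {(ℓ : ℤ)}) P, ENat.toNat_eq_iff_eq_natCast, Nat.cast_one,
    Module.length_eq_one_iff, isSimpleModule_iff_isCoatom, ← Ideal.isMaximal_def,
    IsLocalRing.isMaximal_iff] at h
  rw [IsScalarTower.algebraMap_eq ℤ (𝓞 L) (Localization.AtPrime P), ← Ideal.map_map,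
    Ideal.map_span, Set.image_singleton] at h
  rw [← h]
  simp

/-- `exp(2πi/D)` -/
def zetaC (D : ℕ) : ℂ := Complex.exp (2 * Real.pi * Complex.I / D)

theorem zetaC_isPrimitiveRoot (D : ℕ) [NeZero D] : IsPrimitiveRoot (zetaC D) D :=
  Complex.isPrimitiveRoot_exp D (NeZero.ne D)

/-- `ℚ(ζ_N) ⊆ ℂ` -/
def K (N : ℕ) : IntermediateField ℚ ℂ := IntermediateField.adjoin ℚ {zetaC N}

theorem zetaC_mem_K (N : ℕ) : zetaC N ∈ K N :=
  IntermediateField.subset_adjoin ℚ _ (Set.mem_singleton _)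

variable (N : ℕ) [NeZero N]

instance isCyclotomicExtension : IsCyclotomicExtension {N} ℚ (K N) := by
  have hζ := zetaC_isPrimitiveRoot N
  change IsCyclotomicExtension {N} ℚ (IntermediateField.adjoin ℚ {zetaC N}).toSubalgebra
  rw [IntermediateField.adjoin_simple_toSubalgebra_of_isAlgebraic
    (((hζ.isIntegral (NeZero.pos N)).tower_top (A := ℚ)).isAlgebraic)]
  exact hζ.adjoin_isCyclotomicExtension ℚ

instance numberField : NumberField (K N) := IsCyclotomicExtension.numberField {N} ℚ (K N)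

variable (ℓ : ℕ) [Fact ℓ.Prime]

omit [NeZero N] in
theorem exists_prime : ∃ P : Ideal (𝓞 (K N)), P.IsPrime ∧ P.LiesOver (Ideal.span {(ℓ : ℤ)}) := by
  have : (Ideal.span {(ℓ : ℤ)}).IsPrime := by
    rw [Ideal.span_singleton_prime]
    · exact Nat.prime_iff_prime_int.mp (Fact.out)
    · exact_mod_cast (Fact.out : ℓ.Prime).ne_zero
  obtain ⟨⟨P, h1, h2⟩⟩ := (Ideal.span {(ℓ : ℤ)}).nonempty_primesOver (S := 𝓞 (K N))
  exact ⟨P, h1, h2⟩

/-- the chosen prime above `ℓ` -/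
def P : Ideal (𝓞 (K N)) := (exists_prime N ℓ).choose

instance P_isPrime : (P N ℓ).IsPrime := (exists_prime N ℓ).choose_spec.1

instance P_liesOver : (P N ℓ).LiesOver (Ideal.span {(ℓ : ℤ)}) := (exists_prime N ℓ).choose_spec.2

omit [NeZero N] in
/-- an integer lies in the chosen prime iff it is divisible by `ℓ` -/
theorem intCast_mem_P_iff (a : ℤ) : (a : 𝓞 (K N)) ∈ P N ℓ ↔ (ℓ : ℤ) ∣ a := by
  have h1 := (P_liesOver N ℓ).over
  rw [← Ideal.mem_span_singleton, h1, Ideal.under_def, Ideal.mem_comap]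
  simp

omit [NeZero N] in
theorem natCast_mem_P_iff (a : ℕ) : (a : 𝓞 (K N)) ∈ P N ℓ ↔ ℓ ∣ a := by
  have := intCast_mem_P_iff N ℓ (a : ℤ)
  rw [Int.natCast_dvd_natCast] at this
  rw [← this]
  simp

omit [NeZero N] in
theorem P_ne_bot : P N ℓ ≠ ⊥ := by
  intro h
  have h1 : (ℓ : 𝓞 (K N)) ∈ P N ℓ := (natCast_mem_P_iff N ℓ ℓ).2 dvd_rfl
  rw [h, Ideal.mem_bot] at h1
  exact (Fact.out : ℓ.Prime).ne_zero (by exact_mod_cast h1)

/-- the localization of the ring of integers at the chosen prime, inside `K N` -/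
def O : Subalgebra (𝓞 (K N)) (K N) :=
  Localization.subalgebra.ofField (K N) (P N ℓ).primeCompl (P N ℓ).primeCompl_le_nonZeroDivisors

instance isLocalization_O : IsLocalization.AtPrime (O N ℓ) (P N ℓ) :=
  Localization.subalgebra.isLocalization_ofField (K N) _ _

instance isFractionRing_O : IsFractionRing (O N ℓ) (K N) :=
  Localization.subalgebra.isFractionRing_ofField (K N) _ _

instance isLocalRing_O : IsLocalRing (O N ℓ) := IsLocalization.AtPrime.isLocalRing (O N ℓ) (P N ℓ)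

instance isDiscreteValuationRing_O : IsDiscreteValuationRing (O N ℓ) :=
  IsLocalization.AtPrime.isDiscreteValuationRing_of_dedekind_domain (𝓞 (K N)) (P_ne_bot N ℓ) _

theorem mem_O_iff (x : K N) : x ∈ O N ℓ ↔
    ∃ a s : 𝓞 (K N), s ∉ P N ℓ ∧ x = (a : K N) / (s : K N) := by
  constructor
  · rintro ⟨a, s, hs, rfl⟩
    exact ⟨a, s, hs, by rw [div_eq_mul_inv]⟩
  · rintro ⟨a, s, hs, rfl⟩
    exact ⟨a, s, hs, by rw [div_eq_mul_inv]⟩

theorem integer_mem_O (a : 𝓞 (K N)) : (a : K N) ∈ O N ℓ := (O N ℓ).algebraMap_mem a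

theorem mem_O_of_isIntegral {x : K N} (hx : IsIntegral ℤ x) : x ∈ O N ℓ :=
  integer_mem_O N ℓ ⟨x, hx⟩

/-- an element of `𝓞 K`, viewed in `O`, is in the maximal ideal iff it is in the chosen prime -/
theorem integer_mem_maximalIdeal_iff (a : 𝓞 (K N)) :
    algebraMap (𝓞 (K N)) (O N ℓ) a ∈ IsLocalRing.maximalIdeal (O N ℓ) ↔ a ∈ P N ℓ :=
  IsLocalization.AtPrime.to_map_mem_maximal_iff (O N ℓ) (P N ℓ) a

theorem natCast_mem_maximalIdeal_iff (a : ℕ) :
    (a : O N ℓ) ∈ IsLocalRing.maximalIdeal (O N ℓ) ↔ ℓ ∣ a := by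
  rw [← natCast_mem_P_iff N ℓ a, ← integer_mem_maximalIdeal_iff, map_natCast]

theorem intCast_mem_maximalIdeal_iff (a : ℤ) :
    (a : O N ℓ) ∈ IsLocalRing.maximalIdeal (O N ℓ) ↔ (ℓ : ℤ) ∣ a := by
  rw [← intCast_mem_P_iff N ℓ a, ← integer_mem_maximalIdeal_iff, map_intCast]

/-- natural numbers prime to `ℓ` are units of `O` -/
theorem isUnit_natCast {a : ℕ} (ha : ¬ ℓ ∣ a) : IsUnit (a : O N ℓ) := by
  rw [← IsLocalRing.notMem_maximalIdeal, natCast_mem_maximalIdeal_iff]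
  exact ha

/-- divisors of `N` are units of `O` when `ℓ ∤ N` -/
theorem isUnit_natCast_of_dvd (hℓN : ¬ ℓ ∣ N) {D : ℕ} (hD : D ∣ N) : IsUnit (D : O N ℓ) :=
  isUnit_natCast N ℓ fun h => hℓN (h.trans hD)

/-- `ℓ ∤ N`: the prime above `ℓ` is unramified, i.e. `ℓ` is a uniformizer of `O` -/
theorem maximalIdeal_eq (hℓN : ¬ ℓ ∣ N) :
    IsLocalRing.maximalIdeal (O N ℓ) = Ideal.span {(ℓ : O N ℓ)} := by
  have h := map_eq_maximalIdeal_transfer (P N ℓ) (Localization.AtPrime (P N ℓ)) (O N ℓ) _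
    (unram_aux N ℓ (K N) (P N ℓ) hℓN)
  rw [← h, Ideal.map_span, Set.image_singleton, map_natCast]

theorem irreducible_ell (hℓN : ¬ ℓ ∣ N) : Irreducible (ℓ : O N ℓ) :=
  (IsDiscreteValuationRing.irreducible_iff_uniformizer _).2 (maximalIdeal_eq N ℓ hℓN)

/-! ### `O ∩ ℚ = ℤ_(ℓ)` and the algebra structure over `ℤ_(ℓ)` -/

open GaloisRep

theorem intCast_mem_O (a : ℤ) : ((a : ℤ) : K N) ∈ O N ℓ := intCast_mem _ a

theorem natCast_mem_O (a : ℕ) : ((a : ℕ) : K N) ∈ O N ℓ := natCast_mem _ a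

theorem inv_natCast_mem_O {a : ℕ} (ha : ¬ ℓ ∣ a) : ((a : K N))⁻¹ ∈ O N ℓ := by
  obtain ⟨u, hu⟩ := isUnit_natCast N ℓ ha
  have h1 : ((u : O N ℓ) : K N) = (a : K N) := by rw [hu]; simp
  have h2 : (((u⁻¹ : (O N ℓ)ˣ) : O N ℓ) : K N) = ((a : K N))⁻¹ := by
    have h3 : ((u : O N ℓ) : K N) * (((u⁻¹ : (O N ℓ)ˣ) : O N ℓ) : K N) = 1 := by
      rw [← Subalgebra.coe_mul, Units.mul_inv]; rfl
    rw [h1] at h3
    exact eq_inv_of_mul_eq_one_right h3
  rw [← h2]
  exact Subtype.coe_prop _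

/-- `O ∩ ℚ = ℤ_(ℓ)` -/
theorem rat_mem_O_iff (q : ℚ) : algebraMap ℚ (K N) q ∈ O N ℓ ↔ q ∈ ratLocalizedAt ℓ := by
  have hℓ : ℓ.Prime := Fact.out
  have hq : algebraMap ℚ (K N) q = ((q.num : ℤ) : K N) * ((q.den : K N))⁻¹ := by
    conv_lhs => rw [← Rat.num_div_den q]
    rw [map_div₀, div_eq_mul_inv]
    simp
  constructor
  · intro h
    rw [mem_ratLocalizedAt_iff, Nat.coprime_comm, hℓ.coprime_iff_not_dvd]
    intro hden
    have hden0 : ((q.den : ℕ) : K N) ≠ 0 := by exact_mod_cast q.den_nz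
    -- `x * den = num` in `O`
    have h1 : (⟨algebraMap ℚ (K N) q, h⟩ : O N ℓ) * ((q.den : ℕ) : O N ℓ) = ((q.num : ℤ) : O N ℓ) := by
      apply Subtype.ext
      rw [Subalgebra.coe_mul]
      rw [SubringClass.coe_natCast, SubringClass.coe_intCast]
      show algebraMap ℚ (K N) q * ((q.den : ℕ) : K N) = ((q.num : ℤ) : K N)
      rw [hq, mul_assoc, inv_mul_cancel₀ hden0, mul_one]
    have h2 : ((q.num : ℤ) : O N ℓ) ∈ IsLocalRing.maximalIdeal (O N ℓ) := by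
      rw [← h1]
      exact Ideal.mul_mem_left _ _ ((natCast_mem_maximalIdeal_iff N ℓ q.den).2 hden)
    rw [intCast_mem_maximalIdeal_iff] at h2
    have h3 : ℓ ∣ q.num.natAbs := Int.natCast_dvd.mp h2
    have h4 := Nat.dvd_gcd h3 hden
    rw [q.reduced] at h4
    exact hℓ.one_lt.ne' (Nat.dvd_one.mp h4)
  · intro h
    rw [mem_ratLocalizedAt_iff, Nat.coprime_comm, hℓ.coprime_iff_not_dvd] at h
    rw [hq]
    exact (O N ℓ).mul_mem (intCast_mem_O N ℓ _) (inv_natCast_mem_O N ℓ h)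

/-- the inclusion `ℤ_(ℓ) → O` -/
def ratLocalToO : ratLocalizedAt ℓ →+* O N ℓ where
  toFun x := ⟨algebraMap ℚ (K N) (x : ℚ), (rat_mem_O_iff N ℓ _).2 x.2⟩
  map_one' := Subtype.ext (by simp)
  map_mul' x y := Subtype.ext (by simp)
  map_zero' := Subtype.ext (by simp)
  map_add' x y := Subtype.ext (by simp)

instance algebraRatLocalO : Algebra (ratLocalizedAt ℓ) (O N ℓ) := (ratLocalToO N ℓ).toAlgebra

theorem coe_algebraMap_ratLocal (x : ratLocalizedAt ℓ) :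
    ((algebraMap (ratLocalizedAt ℓ) (O N ℓ) x : O N ℓ) : K N) = algebraMap ℚ (K N) (x : ℚ) := rfl

instance isScalarTower_ratLocal_O_K : IsScalarTower (ratLocalizedAt ℓ) (O N ℓ) (K N) :=
  IsScalarTower.of_algebraMap_eq fun _ => rfl

theorem algebraMap_ratLocal_injective :
    Function.Injective (algebraMap (ratLocalizedAt ℓ) (O N ℓ)) := by
  intro x y h
  have h1 := congrArg (fun z : O N ℓ => (z : K N)) h
  simp only [coe_algebraMap_ratLocal] at h1
  exact Subtype.ext ((algebraMap ℚ (K N)).injective h1)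

theorem algebraMap_ratLocal_natCast (a : ℕ) :
    algebraMap (ratLocalizedAt ℓ) (O N ℓ) (a : ratLocalizedAt ℓ) = (a : O N ℓ) := map_natCast _ a

/-- `ℤ_(ℓ) → O` is a local homomorphism -/
instance isLocalHom_ratLocal_O : IsLocalHom (algebraMap (ratLocalizedAt ℓ) (O N ℓ)) := by
  constructor
  intro a ha
  by_contra hna
  have hmem : a ∈ IsLocalRing.maximalIdeal (ratLocalizedAt ℓ) :=
    (IsLocalRing.mem_maximalIdeal a).mpr hna
  rw [maximalIdeal_ratLocalizedAt, Ideal.mem_span_singleton] at hmem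
  obtain ⟨b, rfl⟩ := hmem
  have h1 : algebraMap (ratLocalizedAt ℓ) (O N ℓ) ((ℓ : ratLocalizedAt ℓ) * b) ∈
      IsLocalRing.maximalIdeal (O N ℓ) := by
    rw [map_mul, map_natCast]
    exact Ideal.mul_mem_right _ _ ((natCast_mem_maximalIdeal_iff N ℓ ℓ).2 dvd_rfl)
  exact (IsLocalRing.mem_maximalIdeal _).1 h1 ha

/-- an element of `ℤ_(ℓ)` lies in the maximal ideal of `O` iff it lies in that of `ℤ_(ℓ)` -/
theorem algebraMap_ratLocal_mem_maximalIdeal_iff (a : ratLocalizedAt ℓ) :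
    algebraMap (ratLocalizedAt ℓ) (O N ℓ) a ∈ IsLocalRing.maximalIdeal (O N ℓ) ↔
      a ∈ IsLocalRing.maximalIdeal (ratLocalizedAt ℓ) := by
  rw [IsLocalRing.mem_maximalIdeal, IsLocalRing.mem_maximalIdeal, mem_nonunits_iff, mem_nonunits_iff,
    isUnit_map_iff]

/-- the residue field of `O` has characteristic `ℓ` -/
instance charP_residueField : CharP (IsLocalRing.ResidueField (O N ℓ)) ℓ := by
  have hℓ : ℓ.Prime := Fact.out
  have h0 : ((ℓ : ℕ) : IsLocalRing.ResidueField (O N ℓ)) = 0 := by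
    have : IsLocalRing.residue (O N ℓ) (ℓ : O N ℓ) = 0 := by
      rw [IsLocalRing.residue_eq_zero_iff]
      exact (natCast_mem_maximalIdeal_iff N ℓ ℓ).2 dvd_rfl
    simpa using this
  exact (CharP.charP_iff_prime_eq_zero hℓ).mpr h0

/-! ### roots of unity -/

/-- the generator `ζ_N = exp(2πi/N)` as an element of `K N` -/
def zetaGen : K N := ⟨zetaC N, zetaC_mem_K N⟩

omit [NeZero N] in
@[simp] theorem coe_zetaGen : ((zetaGen N : K N) : ℂ) = zetaC N := rfl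

theorem zetaGen_isPrimitiveRoot : IsPrimitiveRoot (zetaGen N) N := by
  have h := zetaC_isPrimitiveRoot N
  rw [← coe_zetaGen N] at h
  exact IsPrimitiveRoot.coe_submonoidClass_iff.mp h

theorem zetaGen_pow : zetaGen N ^ N = 1 := (zetaGen_isPrimitiveRoot N).pow_eq_one

theorem zetaGen_ne_zero : zetaGen N ≠ 0 := (zetaGen_isPrimitiveRoot N).ne_zero (NeZero.ne N)

theorem zetaGen_isIntegral : IsIntegral ℤ (zetaGen N) :=
  (zetaGen_isPrimitiveRoot N).isIntegral (NeZero.pos N)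

/-- `exp(2πi B/D)` as a unit of `K N` (meaningful for `D ∣ N`) -/
def zetaK (D B : ℕ) : (K N)ˣ := Units.mk0 (zetaGen N) (zetaGen_ne_zero N) ^ ((N / D) * B)

theorem coe_zetaK_eq_pow (D B : ℕ) : ((zetaK N D B : (K N)ˣ) : K N) = zetaGen N ^ ((N / D) * B) := by
  simp [zetaK]

/-- the value of `zetaK N D B` in `ℂ` is `exp(2πi B/D)` -/
theorem coe_zetaK {D : ℕ} (hD : D ∣ N) (B : ℕ) :
    (((zetaK N D B : (K N)ˣ) : K N) : ℂ) = Complex.exp (2 * Real.pi * Complex.I * B / D) := by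
  obtain ⟨E, rfl⟩ := hD
  have hD0 : D ≠ 0 := fun h => NeZero.ne (D * E) (by rw [h, zero_mul])
  have hE0 : E ≠ 0 := fun h => NeZero.ne (D * E) (by rw [h, mul_zero])
  rw [coe_zetaK_eq_pow, Nat.mul_div_cancel_left _ (Nat.pos_of_ne_zero hD0)]
  simp only [SubmonoidClass.coe_pow, coe_zetaGen, zetaC]
  rw [← Complex.exp_nat_mul]
  congr 1
  have h1 : ((D : ℕ) : ℂ) ≠ 0 := Nat.cast_ne_zero.mpr hD0
  have h2 : ((E : ℕ) : ℂ) ≠ 0 := Nat.cast_ne_zero.mpr hE0
  push_cast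
  field_simp

theorem zetaK_pow (D B : ℕ) {D' : ℕ} (hD : D ∣ N) (h : D ∣ D') : zetaK N D B ^ D' = 1 := by
  obtain ⟨c, rfl⟩ := h
  obtain ⟨E, hE⟩ := hD
  have hD0 : D ≠ 0 := fun h => NeZero.ne N (by rw [hE, h, zero_mul])
  apply Units.ext
  rw [Units.val_pow_eq_pow_val, coe_zetaK_eq_pow, ← pow_mul, Units.val_one]
  have : N / D * B * (D * c) = N * (B * c) := by
    rw [hE, Nat.mul_div_cancel_left _ (Nat.pos_of_ne_zero hD0)]; ring
  rw [this, pow_mul, zetaGen_pow, one_pow]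

theorem zetaGen_mem_O : zetaGen N ∈ O N ℓ := mem_O_of_isIntegral N ℓ (zetaGen_isIntegral N)

/-- `ζ_N` as a unit of `O` -/
def zetaGenO : (O N ℓ)ˣ where
  val := ⟨zetaGen N, zetaGen_mem_O N ℓ⟩
  inv := ⟨zetaGen N ^ (N - 1), (O N ℓ).pow_mem (zetaGen_mem_O N ℓ) _⟩
  val_inv := Subtype.ext (by
    show zetaGen N * zetaGen N ^ (N - 1) = 1
    rw [← pow_succ', Nat.sub_add_cancel (NeZero.pos N), zetaGen_pow])
  inv_val := Subtype.ext (by
    show zetaGen N ^ (N - 1) * zetaGen N = 1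
    rw [← pow_succ, Nat.sub_add_cancel (NeZero.pos N), zetaGen_pow])

/-- `exp(2πi B/D)` as a unit of `O` -/
def zetaO (D B : ℕ) : (O N ℓ)ˣ := zetaGenO N ℓ ^ ((N / D) * B)

theorem coe_zetaO (D B : ℕ) : (((zetaO N ℓ D B : (O N ℓ)ˣ) : O N ℓ) : K N) = (zetaK N D B : (K N)ˣ) := by
  rw [coe_zetaK_eq_pow]
  simp [zetaO, zetaGenO]

theorem algebraMap_zetaO (D B : ℕ) :
    algebraMap (O N ℓ) (K N) (zetaO N ℓ D B : (O N ℓ)ˣ) = (zetaK N D B : (K N)ˣ) := coe_zetaO N ℓ D B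

theorem zetaK_mem_O (D B : ℕ) : ((zetaK N D B : (K N)ˣ) : K N) ∈ O N ℓ := by
  rw [← coe_zetaO N ℓ]; exact Subtype.coe_prop _

theorem zetaK_inv_mem_O (D B : ℕ) : (((zetaK N D B)⁻¹ : (K N)ˣ) : K N) ∈ O N ℓ := by
  have : (((zetaK N D B)⁻¹ : (K N)ˣ) : K N) = (((zetaO N ℓ D B)⁻¹ : (O N ℓ)ˣ) : O N ℓ) := by
    rw [Units.val_inv_eq_inv_val]
    symm
    apply eq_inv_of_mul_eq_one_left
    rw [← coe_zetaO N ℓ, ← Subalgebra.coe_mul, Units.inv_mul]; rfl
  rw [this]; exact Subtype.coe_prop _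

/-- integer powers of `zetaK` are in `O` (as needed for the coefficients `ξ^n c_n` of `cuspS`) -/
theorem zetaK_zpow_mem_O (D B : ℕ) (n : ℤ) : (((zetaK N D B) ^ n : (K N)ˣ) : K N) ∈ O N ℓ := by
  have : (((zetaK N D B) ^ n : (K N)ˣ) : K N) = (((zetaO N ℓ D B) ^ n : (O N ℓ)ˣ) : O N ℓ) := by
    have h := congrArg (fun u : (K N)ˣ => (u : K N))
      (map_zpow (Units.map ((algebraMap (O N ℓ) (K N)) : O N ℓ →* K N)) (zetaO N ℓ D B) n)
    have h2 : Units.map ((algebraMap (O N ℓ) (K N)) : O N ℓ →* K N) (zetaO N ℓ D B) = zetaK N D B :=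
      Units.ext (coe_zetaO N ℓ D B)
    rw [h2] at h
    exact h.symm
  rw [this]; exact Subtype.coe_prop _

end Fermat.Agent.S28.CycLocal
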