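import Mathlib

set_option autoImplicit false

noncomputable section

namespace Fermat.Agent.S28

open IntermediateField IntermediateField.algebraAdjoinAdjoin

section

variable {k L : Type*} [Field k] [Field L] [Algebra k L] {X : Type*}

/-- If two families `gen, s : X → L` satisfy the same polynomial relations over `k`, there is a
`k`-algebra embedding of the subalgebra generated by `gen` sending `gen x` to `s x`. -/
theorem exists_algHom_adjoin (gen s : X → L)
    (hker : ∀ P : MvPolynomial X k, MvPolynomial.aeval gen P = 0 ↔ MvPolynomial.aeval s P = 0) :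
    ∃ σ : Algebra.adjoin k (Set.range gen) →ₐ[k] L, Function.Injective σ ∧
      ∀ P : MvPolynomial X k, ∀ h : MvPolynomial.aeval gen P ∈ Algebra.adjoin k (Set.range gen),
        σ ⟨MvPolynomial.aeval gen P, h⟩ = MvPolynomial.aeval s P := by
  classical
  set f : MvPolynomial X k →ₐ[k] L := MvPolynomial.aeval gen with hf
  set g : MvPolynomial X k →ₐ[k] L := MvPolynomial.aeval s with hg
  have hrange : Algebra.adjoin k (Set.range gen) = f.range :=
    Algebra.adjoin_range_eq_range_aeval k gen
  -- work with `f.range`
  have hsurj : Function.Surjective f.rangeRestrict := f.rangeRestrict_surjective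
  let e : (MvPolynomial X k ⧸ RingHom.ker f.rangeRestrict) ≃ₐ[k] f.range :=
    Ideal.quotientKerAlgEquivOfSurjective hsurj
  have hkerle : ∀ a ∈ RingHom.ker f.rangeRestrict, g a = 0 := by
    intro a ha
    rw [RingHom.mem_ker] at ha
    have : f a = 0 := congrArg Subtype.val ha
    exact (hker a).mp this
  let τ : f.range →ₐ[k] L :=
    (Ideal.Quotient.liftₐ (RingHom.ker f.rangeRestrict) g hkerle).comp e.symm.toAlgHom
  have hτ : ∀ P, τ (f.rangeRestrict P) = g P := by
    intro P
    have h1 : e.symm (f.rangeRestrict P) = Ideal.Quotient.mk _ P := by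
      rw [AlgEquiv.symm_apply_eq]
      rfl
    show (Ideal.Quotient.liftₐ (RingHom.ker f.rangeRestrict) g hkerle)
      (e.symm (f.rangeRestrict P)) = g P
    rw [h1]
    rfl
  have hτinj : Function.Injective τ := by
    rw [injective_iff_map_eq_zero]
    intro a ha
    obtain ⟨P, rfl⟩ := hsurj a
    rw [hτ] at ha
    have : f P = 0 := (hker P).mpr ha
    exact Subtype.ext this
  refine ⟨τ.comp (Subalgebra.equivOfEq _ _ hrange).toAlgHom, ?_, ?_⟩
  · exact hτinj.comp (Subalgebra.equivOfEq _ _ hrange).injective
  · intro P h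
    exact hτ P

/-- Extension to the generated field. -/
theorem exists_algHom_adjoin_field (gen s : X → L)
    (hker : ∀ P : MvPolynomial X k, MvPolynomial.aeval gen P = 0 ↔ MvPolynomial.aeval s P = 0) :
    ∃ σ : IntermediateField.adjoin k (Set.range gen) →ₐ[k] L,
      ∀ P : MvPolynomial X k,
        ∀ h : MvPolynomial.aeval gen P ∈ IntermediateField.adjoin k (Set.range gen),
        σ ⟨MvPolynomial.aeval gen P, h⟩ = MvPolynomial.aeval s P := by
  obtain ⟨σ₀, hinj, hσ₀⟩ := exists_algHom_adjoin gen s hker
  refine ⟨IsFractionRing.liftAlgHom (K := IntermediateField.adjoin k (Set.range gen)) hinj, ?_⟩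
  intro P h
  have hmem : MvPolynomial.aeval gen P ∈ Algebra.adjoin k (Set.range gen) := by
    rw [Algebra.adjoin_range_eq_range_aeval]
    exact ⟨P, rfl⟩
  have : (⟨MvPolynomial.aeval gen P, h⟩ : IntermediateField.adjoin k (Set.range gen)) =
      algebraMap (Algebra.adjoin k (Set.range gen)) (IntermediateField.adjoin k (Set.range gen))
        ⟨MvPolynomial.aeval gen P, hmem⟩ := rfl
  rw [this, IsFractionRing.liftAlgHom_apply, IsFractionRing.lift_algebraMap]
  exact hσ₀ P hmem

end

end Fermat.Agent.S28
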