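import Fermat.Agent.S28.Defs
import Fermat.Agent.S28.Extend

set_option autoImplicit false

noncomputable section

namespace Fermat.Agent.S28

open ModularCurve HahnSeries Polynomial

section

variable (k : Type) [Field k] (N : ℕ) [NeZero N]

/-- index type of the generators: a positive divisor `d` of `N` and a tag `0,1,2` for
`j(q^d)`, `u_d`, `u_d⁻¹`. -/
abbrev GenIdx : Type := {d : ℕ // d ∣ N} × Fin 3

instance (x : GenIdx N) : NeZero x.1.1 :=
  ⟨fun h => NeZero.ne N (Nat.eq_zero_of_zero_dvd (h ▸ x.1.2))⟩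

/-- the generators as a family -/
def genFam (x : GenIdx N) : LaurentSeries k :=
  match x.2 with
  | 0 => jS k x.1.1
  | 1 => uS k x.1.1
  | 2 => uInvS k x.1.1

theorem range_genFam : Set.range (genFam k N) = bigGens k N := by
  ext y
  constructor
  · rintro ⟨⟨⟨d, hd⟩, t⟩, rfl⟩
    have hne : NeZero d := ⟨fun h => NeZero.ne N (Nat.eq_zero_of_zero_dvd (h ▸ hd))⟩
    refine ⟨d, hne, hd, ?_⟩
    fin_cases t
    · exact Or.inl rfl
    · exact Or.inr (Or.inl rfl)
    · exact Or.inr (Or.inr rfl)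
  · rintro ⟨d, hne, hd, h | h | h⟩
    · exact ⟨⟨⟨d, hd⟩, 0⟩, h.symm⟩
    · exact ⟨⟨⟨d, hd⟩, 1⟩, h.symm⟩
    · exact ⟨⟨⟨d, hd⟩, 2⟩, h.symm⟩

theorem bigField_eq : bigField k N = IntermediateField.adjoin k (Set.range (genFam k N)) := by
  rw [bigField, range_genFam]

theorem bigAlg_eq : bigAlg k N = Algebra.adjoin k (Set.range (genFam k N)) := by
  rw [bigAlg, range_genFam]

theorem aeval_genFam_mem_bigField (P : MvPolynomial (GenIdx N) k) :
    MvPolynomial.aeval (genFam k N) P ∈ bigField k N := by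
  apply bigAlg_le_bigField
  rw [SetLike.mem_coe, bigAlg_eq, Algebra.adjoin_range_eq_range_aeval]
  exact ⟨P, rfl⟩

theorem exists_aeval_of_mem_bigAlg {x : LaurentSeries k} (hx : x ∈ bigAlg k N) :
    ∃ P : MvPolynomial (GenIdx N) k, MvPolynomial.aeval (genFam k N) P = x := by
  rw [bigAlg_eq, Algebra.adjoin_range_eq_range_aeval] at hx
  exact hx

variable (𝒪 : Type) [CommRing 𝒪] [IsLocalRing 𝒪] [Algebra 𝒪 k]

/-- The input needed to build a `CuspDatum`: explicit expansions `s i x` of the generators at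
every cusp embedding satisfying the same relations as the generators. -/
structure CuspInput where
  I : Type
  [fintypeI : Fintype I]
  [decEqI : DecidableEq I]
  i₀ : I
  cI : I → ℕ
  cI_dvd : ∀ i, cI i ∣ N
  cI_eq_iff : ∀ i, cI i = N ↔ i = i₀
  /-- expansions of the generators -/
  s : I → GenIdx N → LaurentSeries k
  hker : ∀ i, ∀ P : MvPolynomial (GenIdx N) k,
    MvPolynomial.aeval (genFam k N) P = 0 ↔ MvPolynomial.aeval (s i) P = 0
  s_i₀ : ∀ x, s i₀ x = qExpand k N (genFam k N x)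
  s_j : ∀ i, s i (⟨1, one_dvd N⟩, 0) = qExpand k N (jqModC k)
  s_int : ∀ i x, s i x ∈ intSeries 𝒪 k
  sym : ∀ (P : MvPolynomial (GenIdx N) k) (m : ℕ),
    (∏ i, (Polynomial.X - Polynomial.C (MvPolynomial.aeval (s i) P))).coeff m ∈
      (qExpand k N) '' (Algebra.adjoin k {jqModC k} : Set (LaurentSeries k))
  ord_u : ∀ (i : I) (d : {d : ℕ // d ∣ N}), ∃ t : LaurentSeries 𝒪,
    coeffMap (algebraMap 𝒪 k) t = s i (d, 1) ∧
    coeffMap (IsLocalRing.residue 𝒪) t ≠ 0 ∧
    (coeffMap (IsLocalRing.residue 𝒪) t).order =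
      ((N / d.1 : ℕ) * (Nat.gcd (cI i) d.1) ^ 2 : ℤ) - N

attribute [instance] CuspInput.fintypeI CuspInput.decEqI

end

end Fermat.Agent.S28

namespace Fermat.Agent.S28

open ModularCurve HahnSeries Polynomial

section

variable {k : Type} [Field k] {N : ℕ} [NeZero N]
variable {𝒪 : Type} [CommRing 𝒪] [IsLocalRing 𝒪] [Algebra 𝒪 k]

/-- two algebra homs out of `bigField` that agree on polynomial expressions in the generators
are equal -/
theorem algHom_bigField_ext {σ τ : bigField k N →ₐ[k] LaurentSeries k}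
    (h : ∀ P : MvPolynomial (GenIdx N) k,
      σ ⟨MvPolynomial.aeval (genFam k N) P, aeval_genFam_mem_bigField k N P⟩ =
      τ ⟨MvPolynomial.aeval (genFam k N) P, aeval_genFam_mem_bigField k N P⟩)
    (x : bigField k N) : σ x = τ x := by
  obtain ⟨x, hx⟩ := x
  have hx' := hx
  rw [bigField, IntermediateField.mem_adjoin_iff_div] at hx'
  obtain ⟨a, ha, b, hb, rfl⟩ := hx'
  obtain ⟨P, rfl⟩ := exists_aeval_of_mem_bigAlg k N ha
  obtain ⟨Q, rfl⟩ := exists_aeval_of_mem_bigAlg k N hb
  have hdiv : (⟨MvPolynomial.aeval (genFam k N) P / MvPolynomial.aeval (genFam k N) Q, hx⟩ :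
      bigField k N) =
      ⟨MvPolynomial.aeval (genFam k N) P, aeval_genFam_mem_bigField k N P⟩ /
      ⟨MvPolynomial.aeval (genFam k N) Q, aeval_genFam_mem_bigField k N Q⟩ := rfl
  rw [hdiv, map_div₀, map_div₀, h P, h Q]

variable (inp : CuspInput k N 𝒪)

theorem CuspInput.exists_σ (i : inp.I) : ∃ σ : bigField k N →ₐ[k] LaurentSeries k,
    ∀ P : MvPolynomial (GenIdx N) k,
      σ ⟨MvPolynomial.aeval (genFam k N) P, aeval_genFam_mem_bigField k N P⟩ =
        MvPolynomial.aeval (inp.s i) P := by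
  obtain ⟨σ, hσ⟩ := exists_algHom_adjoin_field (k := k) (genFam k N) (inp.s i) (inp.hker i)
  refine ⟨σ.comp (IntermediateField.equivOfEq (bigField_eq k N)).toAlgHom, fun P => ?_⟩
  exact hσ P _

/-- the expansion maps -/
def CuspInput.σ (i : inp.I) : bigField k N →ₐ[k] LaurentSeries k := (inp.exists_σ i).choose

theorem CuspInput.σ_aeval (i : inp.I) (P : MvPolynomial (GenIdx N) k) :
    inp.σ i ⟨MvPolynomial.aeval (genFam k N) P, aeval_genFam_mem_bigField k N P⟩ =
      MvPolynomial.aeval (inp.s i) P := (inp.exists_σ i).choose_spec P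

theorem CuspInput.σ_gen (i : inp.I) (x : GenIdx N) (h : genFam k N x ∈ bigField k N) :
    inp.σ i ⟨genFam k N x, h⟩ = inp.s i x := by
  have := inp.σ_aeval i (MvPolynomial.X x)
  simpa using this

/-- `qExpand` as an algebra hom on the big field -/
def qExpandBig : bigField k N →ₐ[k] LaurentSeries k :=
  (qExpandAlgHomC k N).comp (bigField k N).val

theorem CuspInput.σ_i₀_eq (x : bigField k N) :
    inp.σ inp.i₀ x = qExpand k N (x : LaurentSeries k) := by
  have key : ∀ y, inp.σ inp.i₀ y = qExpandBig (k := k) (N := N) y := by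
    apply algHom_bigField_ext
    intro P
    rw [inp.σ_aeval]
    show _ = qExpandAlgHomC k N (MvPolynomial.aeval (genFam k N) P)
    have hs : inp.s inp.i₀ = fun x => qExpandAlgHomC k N (genFam k N x) := by
      funext x
      rw [inp.s_i₀]
      rfl
    rw [hs, MvPolynomial.comp_aeval_apply]
  exact key x

/-- The cusp datum built from the input. -/
def CuspInput.toDatum : CuspDatum k N 𝒪 where
  I := inp.I
  i₀ := inp.i₀
  cI := inp.cI
  cI_dvd := inp.cI_dvd
  cI_eq_iff := inp.cI_eq_iff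
  σ := inp.σ
  σ_i₀ := inp.σ_i₀_eq
  σ_j := fun i => by
    have h1 : jqModC k = genFam k N (⟨1, one_dvd N⟩, 0) := by
      show jqModC k = jS k 1
      rw [jS, qExpand_one_apply]
    have h2 := inp.σ_gen i (⟨1, one_dvd N⟩, 0) (h1 ▸ jqModC_mem_bigField k N)
    rw [inp.s_j] at h2
    rw [← h2]
    congr 1
    exact Subtype.ext h1
  σ_int := fun i x hx => by
    rw [← range_genFam] at hx
    obtain ⟨y, hy⟩ := hx
    have : x = ⟨genFam k N y, hy ▸ x.2⟩ := Subtype.ext hy.symm
    rw [this, inp.σ_gen]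
    exact inp.s_int i y
  sym := fun x hx m => by
    obtain ⟨P, hP⟩ := exists_aeval_of_mem_bigAlg k N hx
    have : x = ⟨MvPolynomial.aeval (genFam k N) P, aeval_genFam_mem_bigField k N P⟩ :=
      Subtype.ext hP.symm
    rw [this]
    simp only [inp.σ_aeval]
    exact inp.sym P m
  ord_u := fun i d _ hd => by
    obtain ⟨t, h1, h2, h3⟩ := inp.ord_u i ⟨d, hd⟩
    refine ⟨t, ?_, h2, h3⟩
    rw [h1]
    exact (inp.σ_gen i (⟨d, hd⟩, 1) _).symm

end

end Fermat.Agent.S28
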