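import Fermat.Agent.S28.DescentLemma

/-!
# Companions of the descent lemma (module D2 of the S28 plan)

* the easy converse: elements of the chart algebras become integral over `𝒪[j]` / `𝒪[1/j]` after
  the coefficient extension `iota : ℚ((q)) → k((q))`;
* the coefficient extension maps the function field `modularFunctionFieldFull N` into
  `bigField k N`.
-/

set_option autoImplicit false

noncomputable section

namespace Fermat.Agent.S28.DescentLemma

open Polynomial HahnSeries ModularCurve ModularCurve.IgusaScheme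

section Converse

variable {k : Type*} [Field k] [Algebra ℚ k] {N : ℕ} [NeZero N] {ℓ : ℕ} [Fact ℓ.Prime]

/-- from integrality over `ℤ_(ℓ)[s]` in the function field to an explicit monic relation in
`ℚ((q))` -/
theorem exists_monic_of_isIntegral_adjoin (s x : modularFunctionFieldFull N)
    (h : IsIntegral (Algebra.adjoin (GaloisRep.ratLocalizedAt ℓ) {s}) x) :
    ∃ Q : (Polynomial (GaloisRep.ratLocalizedAt ℓ))[X], Q.Monic ∧
      eval₂ (evHom (GaloisRep.ratLocalizedAt ℓ).subtype (s : LaurentSeries ℚ))
        (x : LaurentSeries ℚ) Q = 0 := by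
  rw [isIntegral_adjoin_singleton_iff] at h
  obtain ⟨Q, hQ, hQ0⟩ := h
  refine ⟨Q, hQ, ?_⟩
  have h1 := congrArg (algebraMap (modularFunctionFieldFull N) (LaurentSeries ℚ)) hQ0
  rw [map_zero, Polynomial.hom_eval₂] at h1
  have hcomp : (algebraMap (modularFunctionFieldFull N) (LaurentSeries ℚ)).comp
      ((aeval s : (Polynomial (GaloisRep.ratLocalizedAt ℓ)) →ₐ[GaloisRep.ratLocalizedAt ℓ]
        modularFunctionFieldFull N) :
        (Polynomial (GaloisRep.ratLocalizedAt ℓ)) →+* modularFunctionFieldFull N) =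
      evHom (GaloisRep.ratLocalizedAt ℓ).subtype (s : LaurentSeries ℚ) := by
    refine Polynomial.ringHom_ext (fun a => ?_) ?_
    · simp only [RingHom.comp_apply, RingHom.coe_coe, aeval_C, evHom, coe_eval₂RingHom, eval₂_C]
      rw [IntermediateField.algebraMap_apply]
      change ((algebraMap ℚ (modularFunctionFieldFull N) (a : ℚ) :
        modularFunctionFieldFull N) : LaurentSeries ℚ) = _
      simp
    · simp [evHom]
  rw [hcomp] at h1
  exact h1

variable (𝒪 : Type*) [CommRing 𝒪] [Algebra 𝒪 k]

/-- transport of a monic relation over `ℤ_(ℓ)[t]` to a monic relation over `𝒪[ι t]` -/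
theorem isIntegral_iota_of_monic (f : GaloisRep.ratLocalizedAt ℓ →+* 𝒪)
    (hf : ∀ r : GaloisRep.ratLocalizedAt ℓ, algebraMap 𝒪 k (f r) = algebraMap ℚ k (r : ℚ))
    (t y : LaurentSeries ℚ)
    (h : ∃ Q : (Polynomial (GaloisRep.ratLocalizedAt ℓ))[X], Q.Monic ∧
      eval₂ (evHom (GaloisRep.ratLocalizedAt ℓ).subtype t) y Q = 0) :
    IsIntegral (Algebra.adjoin 𝒪 {(iota t : LaurentSeries k)}) (iota y : LaurentSeries k) := by
  rw [isIntegral_adjoin_singleton_iff_evHom]
  obtain ⟨Q, hQ, hQ0⟩ := h
  refine ⟨Q.map (mapRingHom f), hQ.map _, ?_⟩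
  rw [Polynomial.eval₂_map]
  have hcomp : (evHom (algebraMap 𝒪 k) (iota t : LaurentSeries k)).comp (mapRingHom f) =
      (iota (k := k)).comp (evHom (GaloisRep.ratLocalizedAt ℓ).subtype t) := by
    refine Polynomial.ringHom_ext (fun a => ?_) ?_
    · simp only [evHom, RingHom.comp_apply, coe_mapRingHom, Polynomial.map_C, coe_eval₂RingHom,
        eval₂_C, hf]
      rw [HahnSeries.C_apply, HahnSeries.C_apply, coeffMap_single]
      rfl
    · simp [evHom]
  rw [hcomp, ← Polynomial.hom_eval₂, hQ0, map_zero]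

/-- **Converse, chart `j`**. -/
theorem isIntegral_iota_of_mem_chartAlgFin (f : GaloisRep.ratLocalizedAt ℓ →+* 𝒪)
    (hf : ∀ r : GaloisRep.ratLocalizedAt ℓ, algebraMap 𝒪 k (f r) = algebraMap ℚ k (r : ℚ))
    (x : modularFunctionFieldFull N) (hx : x ∈ chartAlgFin N ℓ) :
    IsIntegral (Algebra.adjoin 𝒪 {jqModC k}) (iota (x : LaurentSeries ℚ) : LaurentSeries k) := by
  rw [mem_chartAlg_iff] at hx
  have h := isIntegral_iota_of_monic 𝒪 f hf _ _ (exists_monic_of_isIntegral_adjoin _ x hx)
  rwa [coe_jFull, iota_jq] at h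

/-- **Converse, chart `1/j`**. -/
theorem isIntegral_iota_of_mem_chartAlgInf (f : GaloisRep.ratLocalizedAt ℓ →+* 𝒪)
    (hf : ∀ r : GaloisRep.ratLocalizedAt ℓ, algebraMap 𝒪 k (f r) = algebraMap ℚ k (r : ℚ))
    (x : modularFunctionFieldFull N) (hx : x ∈ chartAlgInf N ℓ) :
    IsIntegral (Algebra.adjoin 𝒪 {(jqModC k)⁻¹})
      (iota (x : LaurentSeries ℚ) : LaurentSeries k) := by
  rw [mem_chartAlg_iff] at hx
  have h := isIntegral_iota_of_monic 𝒪 f hf _ _ (exists_monic_of_isIntegral_adjoin _ x hx)
  rwa [IntermediateField.coe_inv, coe_jFull, iota_jq_inv] at h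

end Converse

section BigField

variable (k : Type) [Field k] [Algebra ℚ k] (N : ℕ)

/-- the coefficient extension of the generator `j(q^d)` -/
theorem iota_qExpand_jq (d : ℕ) [NeZero d] :
    (iota (qExpand ℚ d jq) : LaurentSeries k) = jS k d := by
  rw [iota, coeffMap_qExpand, ← jqModC_rat, coeffMap_jqModC, jS]

/-- the coefficient extension maps the function field into the big field -/
theorem iota_mem_bigField (x : LaurentSeries ℚ) (hx : x ∈ modularFunctionFieldFull N) :
    (iota x : LaurentSeries k) ∈ bigField k N := by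
  rw [modularFunctionFieldFull] at hx
  induction hx using IntermediateField.adjoin_induction with
  | mem y hy =>
    obtain ⟨d, hd, hdN, rfl⟩ := hy
    rw [iota_qExpand_jq]
    exact jS_mem_bigField k N hdN
  | algebraMap r =>
    have h : (iota (algebraMap ℚ (LaurentSeries ℚ) r) : LaurentSeries k) =
        algebraMap k (LaurentSeries k) (algebraMap ℚ k r) := by
      rw [algebraMap_laurentSeries_apply, algebraMap_laurentSeries_apply, HahnSeries.C_apply,
        HahnSeries.C_apply, coeffMap_single]
      rfl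
    rw [h]
    exact (bigField k N).algebraMap_mem _
  | add y z _ _ hy hz => rw [map_add]; exact add_mem hy hz
  | mul y z _ _ hy hz => rw [map_mul]; exact mul_mem hy hz
  | inv y _ hy => rw [map_inv₀]; exact inv_mem hy

theorem iota_coe_mem_bigField (x : modularFunctionFieldFull N) :
    (iota (x : LaurentSeries ℚ) : LaurentSeries k) ∈ bigField k N :=
  iota_mem_bigField k N x x.2

end BigField

end Fermat.Agent.S28.DescentLemma
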