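import Fermat.Agent.S28.Defs

/-!
# The Gauss valuation ring inside `k((t))` (spare copy of module V of the S28 project)

`𝒪` a DVR with fraction field `k` and residue field `κ`.
`gaussRing 𝒪 k = {x ∈ k((t)) | ∃ h g ∈ 𝒪((t)), red h ≠ 0, h x = g}`, the reduction map
`gaussRed : gaussRing 𝒪 k →+* κ((t))`, its kernel, and integral closedness inside the
field of fractions of integral series.
-/

set_option autoImplicit false

noncomputable section

namespace Fermat.Agent.S28.GaussSpare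

open ModularCurve HahnSeries Polynomial

section Basic

variable (𝒪 k : Type*) [CommRing 𝒪] [IsDomain 𝒪] [IsDiscreteValuationRing 𝒪] [Field k]
  [Algebra 𝒪 k] [IsFractionRing 𝒪 k]

/-- the residue field -/
local notation "κ" => IsLocalRing.ResidueField 𝒪

/-- coefficient extension `𝒪((t)) → k((t))` -/
abbrev iota : LaurentSeries 𝒪 →+* LaurentSeries k := coeffMap (algebraMap 𝒪 k)

/-- coefficient reduction `𝒪((t)) → κ((t))` -/
abbrev red : LaurentSeries 𝒪 →+* LaurentSeries κ := coeffMap (IsLocalRing.residue 𝒪)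

omit [IsDomain 𝒪] [IsDiscreteValuationRing 𝒪] in
theorem iota_injective : Function.Injective (iota 𝒪 k) := by
  intro a b h
  ext n
  have := congrArg (fun z => z.coeff n) h
  simp only [coeffMap_coeff] at this
  exact IsFractionRing.injective 𝒪 k this

/-- The Gauss valuation ring. -/
def gaussRing : Subring (LaurentSeries k) where
  carrier := {x | IsGaussInt 𝒪 k x}
  mul_mem' := by
    rintro x y ⟨h, g, hh, hx⟩ ⟨h', g', hh', hy⟩
    refine ⟨h * h', g * g', ?_, ?_⟩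
    · rw [map_mul]; exact mul_ne_zero hh hh'
    · rw [map_mul, map_mul, ← hx, ← hy]; ring
  one_mem' := ⟨1, 1, by rw [map_one]; exact one_ne_zero, by rw [map_one, one_mul]⟩
  add_mem' := by
    rintro x y ⟨h, g, hh, hx⟩ ⟨h', g', hh', hy⟩
    refine ⟨h * h', g * h' + g' * h, ?_, ?_⟩
    · rw [map_mul]; exact mul_ne_zero hh hh'
    · rw [map_mul, map_add, map_mul, map_mul, ← hx, ← hy]; ring
  zero_mem' := ⟨1, 0, by rw [map_one]; exact one_ne_zero, by rw [map_zero, mul_zero]⟩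
  neg_mem' := by
    rintro x ⟨h, g, hh, hx⟩
    exact ⟨h, -g, hh, by rw [map_neg, ← hx, mul_neg]⟩

variable {𝒪 k}

omit [IsFractionRing 𝒪 k] in
theorem mem_gaussRing_iff {x : LaurentSeries k} : x ∈ gaussRing 𝒪 k ↔ IsGaussInt 𝒪 k x := Iff.rfl

omit [IsFractionRing 𝒪 k] in
theorem iota_mem_gaussRing (g : LaurentSeries 𝒪) : iota 𝒪 k g ∈ gaussRing 𝒪 k :=
  ⟨1, g, by rw [map_one]; exact one_ne_zero, by rw [map_one, one_mul]⟩

theorem intSeries_le_gaussRing : intSeries 𝒪 k ≤ gaussRing 𝒪 k := by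
  rintro x ⟨g, rfl⟩
  exact iota_mem_gaussRing g

/-- independence of the representation -/
theorem red_div_eq {x : LaurentSeries k} {h g h' g' : LaurentSeries 𝒪}
    (hh : red 𝒪 h ≠ 0) (hx : iota 𝒪 k h * x = iota 𝒪 k g)
    (hh' : red 𝒪 h' ≠ 0) (hx' : iota 𝒪 k h' * x = iota 𝒪 k g') :
    red 𝒪 g / red 𝒪 h = red 𝒪 g' / red 𝒪 h' := by
  have h1 : g * h' = g' * h := by
    apply iota_injective 𝒪 k
    rw [map_mul, map_mul, ← hx, ← hx']; ring
  rw [div_eq_div_iff hh hh', ← map_mul, ← map_mul, h1]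

variable (𝒪 k)

/-- the reduction as a function -/
def gaussRedFun (x : gaussRing 𝒪 k) : LaurentSeries κ :=
  red 𝒪 (Classical.choose (Classical.choose_spec x.2)) / red 𝒪 (Classical.choose x.2)

variable {𝒪 k}

theorem gaussRedFun_eq (x : gaussRing 𝒪 k) {h g : LaurentSeries 𝒪}
    (hh : red 𝒪 h ≠ 0) (hx : iota 𝒪 k h * (x : LaurentSeries k) = iota 𝒪 k g) :
    gaussRedFun 𝒪 k x = red 𝒪 g / red 𝒪 h := by
  have hspec := Classical.choose_spec (Classical.choose_spec x.2)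
  exact red_div_eq hspec.1 hspec.2 hh hx

variable (𝒪 k)

/-- The reduction map `gaussRing 𝒪 k →+* κ((t))`. -/
def gaussRed : gaussRing 𝒪 k →+* LaurentSeries κ where
  toFun := gaussRedFun 𝒪 k
  map_one' := by
    rw [gaussRedFun_eq (1 : gaussRing 𝒪 k) (h := 1) (g := 1)
      (by rw [map_one]; exact one_ne_zero) (by simp)]
    simp
  map_zero' := by
    rw [gaussRedFun_eq (0 : gaussRing 𝒪 k) (h := 1) (g := 0)
      (by rw [map_one]; exact one_ne_zero) (by simp)]
    simp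
  map_mul' := by
    rintro ⟨x, h, g, hh, hx⟩ ⟨y, h', g', hh', hy⟩
    rw [gaussRedFun_eq ⟨x, h, g, hh, hx⟩ hh hx, gaussRedFun_eq ⟨y, h', g', hh', hy⟩ hh' hy,
      gaussRedFun_eq (⟨x, h, g, hh, hx⟩ * ⟨y, h', g', hh', hy⟩ : gaussRing 𝒪 k)
        (h := h * h') (g := g * g')
        (by rw [map_mul]; exact mul_ne_zero hh hh')
        (by
          show iota 𝒪 k (h * h') * (x * y) = iota 𝒪 k (g * g')
          rw [map_mul, map_mul, ← hx, ← hy]; ring)]
    rw [map_mul, map_mul, div_mul_div_comm]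
  map_add' := by
    rintro ⟨x, h, g, hh, hx⟩ ⟨y, h', g', hh', hy⟩
    rw [gaussRedFun_eq ⟨x, h, g, hh, hx⟩ hh hx, gaussRedFun_eq ⟨y, h', g', hh', hy⟩ hh' hy,
      gaussRedFun_eq (⟨x, h, g, hh, hx⟩ + ⟨y, h', g', hh', hy⟩ : gaussRing 𝒪 k)
        (h := h * h') (g := g * h' + g' * h)
        (by rw [map_mul]; exact mul_ne_zero hh hh')
        (by
          show iota 𝒪 k (h * h') * (x + y) = iota 𝒪 k (g * h' + g' * h)
          rw [map_mul, map_add, map_mul, map_mul, ← hx, ← hy]; ring)]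
    rw [map_add, map_mul, map_mul, map_mul, div_add_div _ _ hh hh']
    ring

variable {𝒪 k}

theorem gaussRed_eq (x : gaussRing 𝒪 k) {h g : LaurentSeries 𝒪}
    (hh : red 𝒪 h ≠ 0) (hx : iota 𝒪 k h * (x : LaurentSeries k) = iota 𝒪 k g) :
    gaussRed 𝒪 k x = red 𝒪 g / red 𝒪 h := gaussRedFun_eq x hh hx

theorem gaussRed_mul_red (x : gaussRing 𝒪 k) {h g : LaurentSeries 𝒪}
    (hh : red 𝒪 h ≠ 0) (hx : iota 𝒪 k h * (x : LaurentSeries k) = iota 𝒪 k g) :
    gaussRed 𝒪 k x * red 𝒪 h = red 𝒪 g := by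
  rw [gaussRed_eq x hh hx, div_mul_cancel₀ _ hh]

theorem gaussRed_iota (g : LaurentSeries 𝒪) :
    gaussRed 𝒪 k ⟨iota 𝒪 k g, iota_mem_gaussRing g⟩ = red 𝒪 g := by
  rw [gaussRed_eq _ (h := 1) (g := g) (by rw [map_one]; exact one_ne_zero) (by simp)]
  simp

/-! ### Factoring out the uniformizer -/

omit [IsFractionRing 𝒪 k] in
theorem iota_C (a : 𝒪) : iota 𝒪 k (HahnSeries.C a) = HahnSeries.C (algebraMap 𝒪 k a) := by
  rw [HahnSeries.C_apply, coeffMap_single, HahnSeries.C_apply]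

theorem red_C (a : 𝒪) : red 𝒪 (HahnSeries.C a) = HahnSeries.C (IsLocalRing.residue 𝒪 a) := by
  rw [HahnSeries.C_apply, coeffMap_single, HahnSeries.C_apply]

theorem coeff_C_mul (a : 𝒪) (f : LaurentSeries 𝒪) (n : ℤ) :
    (HahnSeries.C a * f).coeff n = a * f.coeff n := by
  rw [HahnSeries.C_mul_eq_smul, HahnSeries.coeff_smul, smul_eq_mul]

/-- a series with zero reduction is divisible by the uniformizer -/
theorem exists_eq_C_mul_of_red_eq_zero {π : 𝒪} (hπ : Irreducible π) (f : LaurentSeries 𝒪)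
    (hf : red 𝒪 f = 0) : ∃ f' : LaurentSeries 𝒪, f = HahnSeries.C π * f' := by
  have hc : ∀ n, ∃ c, f.coeff n = π * c := by
    intro n
    have h1 : IsLocalRing.residue 𝒪 (f.coeff n) = 0 := by
      have := congrArg (fun z => z.coeff n) hf
      simpa using this
    rw [IsLocalRing.residue_eq_zero_iff, hπ.maximalIdeal_eq, Ideal.mem_span_singleton'] at h1
    obtain ⟨a, ha⟩ := h1
    exact ⟨a, by rw [← ha, mul_comm]⟩
  choose c hc using hc
  have hsupp : Function.support c ⊆ f.support := by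
    intro n hn
    simp only [Function.mem_support, ne_eq, HahnSeries.mem_support] at hn ⊢
    rw [hc n]
    exact mul_ne_zero hπ.ne_zero hn
  refine ⟨⟨c, f.isPWO_support.mono hsupp⟩, ?_⟩
  ext n
  rw [coeff_C_mul, hc n]

theorem exists_pow_mul_aux {π : 𝒪} (hπ : Irreducible π) :
    ∀ m : ℕ, ∀ f : LaurentSeries 𝒪, (∃ n₀ : ℤ, ∃ u : 𝒪ˣ, f.coeff n₀ = u * π ^ m) →
      ∃ (a : ℕ) (f₀ : LaurentSeries 𝒪), red 𝒪 f₀ ≠ 0 ∧ f = HahnSeries.C (π ^ a) * f₀ := by
  intro m
  induction m with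
  | zero =>
    rintro f ⟨n₀, u, hu⟩
    refine ⟨0, f, ?_, by rw [pow_zero, map_one, one_mul]⟩
    intro h0
    have := congrArg (fun z => z.coeff n₀) h0
    simp only [coeffMap_coeff, HahnSeries.coeff_zero] at this
    rw [hu, pow_zero, mul_one, IsLocalRing.residue_eq_zero_iff, IsLocalRing.mem_maximalIdeal] at this
    exact this u.isUnit
  | succ m ih =>
    rintro f ⟨n₀, u, hu⟩
    by_cases hred : red 𝒪 f = 0
    · obtain ⟨f', hf'⟩ := exists_eq_C_mul_of_red_eq_zero hπ f hred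
      have h1 : f'.coeff n₀ = u * π ^ m := by
        have h2 : π * f'.coeff n₀ = π * (u * π ^ m) := by
          rw [← coeff_C_mul, ← hf', hu, pow_succ]; ring
        exact mul_left_cancel₀ hπ.ne_zero h2
      obtain ⟨a, f₀, hf₀, hf'₀⟩ := ih f' ⟨n₀, u, h1⟩
      refine ⟨a + 1, f₀, hf₀, ?_⟩
      rw [hf', hf'₀, pow_succ, map_mul]; ring
    · exact ⟨0, f, hred, by rw [pow_zero, map_one, one_mul]⟩

/-- every nonzero integral series is a power of the uniformizer times a series with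
nonzero reduction -/
theorem exists_pow_mul {π : 𝒪} (hπ : Irreducible π) (f : LaurentSeries 𝒪) (hf : f ≠ 0) :
    ∃ (a : ℕ) (f₀ : LaurentSeries 𝒪), red 𝒪 f₀ ≠ 0 ∧ f = HahnSeries.C (π ^ a) * f₀ := by
  have : ∃ n₀, f.coeff n₀ ≠ 0 := by
    by_contra hcon
    push Not at hcon
    exact hf (by ext n; rw [hcon n, HahnSeries.coeff_zero])
  obtain ⟨n₀, hn₀⟩ := this
  obtain ⟨m, hm⟩ := IsDiscreteValuationRing.associated_pow_irreducible hn₀ hπ
  obtain ⟨u, hu⟩ := hm
  refine exists_pow_mul_aux hπ m f ⟨n₀, u⁻¹, ?_⟩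
  rw [← hu]
  simp [mul_comm]

/-! ### The kernel of the reduction -/

theorem gaussRed_C (a : 𝒪) :
    gaussRed 𝒪 k ⟨HahnSeries.C (algebraMap 𝒪 k a),
      by rw [← iota_C]; exact iota_mem_gaussRing _⟩ = HahnSeries.C (IsLocalRing.residue 𝒪 a) := by
  have := gaussRed_iota (k := k) (HahnSeries.C a)
  rw [red_C] at this
  rw [← this]
  congr 1
  exact Subtype.ext (iota_C a).symm

theorem gaussRed_eq_zero_iff {π : 𝒪} (hπ : Irreducible π) (x : gaussRing 𝒪 k) :
    gaussRed 𝒪 k x = 0 ↔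
      ∃ y : gaussRing 𝒪 k,
        (x : LaurentSeries k) = HahnSeries.C (algebraMap 𝒪 k π) * (y : LaurentSeries k) := by
  constructor
  · intro hx0
    obtain ⟨h, g, hh, hx⟩ := x.2
    have hg : red 𝒪 g = 0 := by
      rw [← gaussRed_mul_red x hh hx, hx0, zero_mul]
    obtain ⟨g', hg'⟩ := exists_eq_C_mul_of_red_eq_zero hπ g hg
    have hh0 : iota 𝒪 k h ≠ 0 := by
      intro h0
      apply hh
      have : h = 0 := iota_injective 𝒪 k (by rw [h0, map_zero])
      rw [this, map_zero]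
    refine ⟨⟨iota 𝒪 k g' / iota 𝒪 k h, h, g', hh, by rw [mul_div_cancel₀ _ hh0]⟩, ?_⟩
    apply mul_left_cancel₀ hh0
    rw [hx, hg', map_mul, iota_C]
    show _ = iota 𝒪 k h * (HahnSeries.C (algebraMap 𝒪 k π) * (iota 𝒪 k g' / iota 𝒪 k h))
    field_simp
  · rintro ⟨y, hy⟩
    have hx : x = ⟨HahnSeries.C (algebraMap 𝒪 k π),
        by rw [← iota_C]; exact iota_mem_gaussRing _⟩ * y := Subtype.ext hy
    rw [hx, map_mul, gaussRed_C, (IsLocalRing.residue_eq_zero_iff π).2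
      (by rw [hπ.maximalIdeal_eq]; exact Ideal.mem_span_singleton_self π), map_zero, zero_mul]

/-! ### Integral closedness inside the field of fractions of integral series -/

theorem iota_ne_zero {h : LaurentSeries 𝒪} (hh : h ≠ 0) : iota 𝒪 k h ≠ 0 := fun h0 =>
  hh (iota_injective 𝒪 k (by rw [h0, map_zero]))

theorem ne_zero_of_red_ne_zero {h : LaurentSeries 𝒪} (hh : red 𝒪 h ≠ 0) : h ≠ 0 := by
  rintro rfl
  exact hh (map_zero _)

/-- `gaussRing 𝒪 k` is integrally closed in the field `{x | IsFracInt 𝒪 k x}`. -/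
theorem mem_gaussRing_of_isIntegral {x : LaurentSeries k} (hx : IsFracInt 𝒪 k x)
    (hint : IsIntegral (gaussRing 𝒪 k) x) : x ∈ gaussRing 𝒪 k := by
  classical
  obtain ⟨π, hπ⟩ := IsDiscreteValuationRing.exists_irreducible 𝒪
  obtain ⟨h, g, hh, hxe⟩ := hx
  by_cases hg : g = 0
  · have : x = 0 := by
      rw [hg, map_zero] at hxe
      exact (mul_eq_zero.1 hxe).resolve_left (iota_ne_zero hh)
    rw [this]; exact (gaussRing 𝒪 k).zero_mem
  obtain ⟨b, h₀, hh₀, hhb⟩ := exists_pow_mul hπ h hh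
  obtain ⟨a, g₀, hg₀, hga⟩ := exists_pow_mul hπ g hg
  set ϖ : LaurentSeries k := HahnSeries.C (algebraMap 𝒪 k π) with hϖ
  have hϖ0 : ϖ ≠ 0 := by
    rw [hϖ, ← iota_C]
    apply iota_ne_zero
    intro h0
    exact hπ.ne_zero (HahnSeries.C_injective (h0.trans (map_zero _).symm))
  have hιh : iota 𝒪 k h = ϖ ^ b * iota 𝒪 k h₀ := by
    rw [hhb, map_mul, iota_C, map_pow, map_pow]
  have hιg : iota 𝒪 k g = ϖ ^ a * iota 𝒪 k g₀ := by
    rw [hga, map_mul, iota_C, map_pow, map_pow]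
  have hh₀0 : iota 𝒪 k h₀ ≠ 0 := iota_ne_zero (ne_zero_of_red_ne_zero hh₀)
  rw [hιh, hιg] at hxe
  rcases le_or_gt b a with hba | hab
  · -- `x` is Gauss-integral
    refine ⟨h₀, HahnSeries.C (π ^ (a - b)) * g₀, hh₀, ?_⟩
    apply mul_left_cancel₀ (pow_ne_zero b hϖ0)
    rw [map_mul, iota_C, map_pow, map_pow, ← mul_assoc, ← mul_assoc, ← _root_.pow_add,
      Nat.add_sub_cancel' hba, hxe]
  · -- contradiction with integrality
    exfalso
    obtain ⟨c, hc⟩ := Nat.exists_eq_add_of_lt hab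
    -- `ϖ^(c+1) * ι h₀ * x = ι g₀`
    have hxe' : ϖ ^ (c + 1) * (iota 𝒪 k h₀ * x) = iota 𝒪 k g₀ := by
      apply mul_left_cancel₀ (pow_ne_zero a hϖ0)
      rw [← hxe, hc, ← mul_assoc, ← _root_.pow_add, mul_assoc, add_assoc]
    set u : LaurentSeries k := iota 𝒪 k g₀ / iota 𝒪 k h₀ with hu
    have hu_mem : u ∈ gaussRing 𝒪 k := ⟨h₀, g₀, hh₀, by rw [hu, mul_div_cancel₀ _ hh₀0]⟩
    have hux : ϖ ^ (c + 1) * x = u := by
      rw [hu, eq_div_iff hh₀0, ← hxe']; ring
    have hϖ_mem : ϖ ∈ gaussRing 𝒪 k := by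
      rw [hϖ, ← iota_C]; exact iota_mem_gaussRing _
    set uV : gaussRing 𝒪 k := ⟨u, hu_mem⟩ with huV
    set ϖV : gaussRing 𝒪 k := ⟨ϖ, hϖ_mem⟩ with hϖV
    have hredϖ : gaussRed 𝒪 k ϖV = 0 := by
      rw [hϖV]
      have := gaussRed_C (k := k) π
      rw [(IsLocalRing.residue_eq_zero_iff π).2
        (by rw [hπ.maximalIdeal_eq]; exact Ideal.mem_span_singleton_self π), map_zero] at this
      exact this
    have hredu : gaussRed 𝒪 k uV ≠ 0 := by
      intro h0
      have := gaussRed_mul_red uV hh₀ (show iota 𝒪 k h₀ * (uV : LaurentSeries k) = iota 𝒪 k g₀ by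
        rw [huV]; show iota 𝒪 k h₀ * u = _; rw [hu, mul_div_cancel₀ _ hh₀0])
      rw [h0, zero_mul] at this
      exact hg₀ this.symm
    obtain ⟨P, hPm, hPx⟩ := hint
    set f : gaussRing 𝒪 k →+* LaurentSeries k := algebraMap (gaussRing 𝒪 k) (LaurentSeries k)
      with hf
    have hfinj : Function.Injective f := Subtype.val_injective
    set Q : (gaussRing 𝒪 k)[X] := P.scaleRoots (ϖV ^ (c + 1)) with hQ
    have hQu : Q.eval uV = 0 := by
      apply hfinj
      rw [map_zero, ← Polynomial.eval₂_at_apply]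
      have h1 : f uV = f (ϖV ^ (c + 1)) * x := by
        rw [map_pow]
        show u = ϖ ^ (c + 1) * x
        exact hux.symm
      rw [h1, hQ, Polynomial.scaleRoots_eval₂_mul, hPx, mul_zero]
    have hQmap : Q.map (gaussRed 𝒪 k) = Polynomial.X ^ P.natDegree := by
      ext i
      rw [Polynomial.coeff_map, hQ, Polynomial.coeff_scaleRoots, map_mul, map_pow, map_pow, hredϖ,
        Polynomial.coeff_X_pow]
      split_ifs with hi
      · rw [hi, hPm.coeff_natDegree, map_one, Nat.sub_self, pow_zero, mul_one]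
      · rcases lt_or_gt_of_ne hi with hlt | hgt
        · have : P.natDegree - i ≠ 0 := by omega
          rw [zero_pow (Nat.succ_ne_zero c), zero_pow this, mul_zero]
        · rw [Polynomial.coeff_eq_zero_of_natDegree_lt hgt, map_zero, zero_mul]
    have h2 : (Q.map (gaussRed 𝒪 k)).eval (gaussRed 𝒪 k uV) = 0 := by
      rw [Polynomial.eval_map, Polynomial.eval₂_at_apply, hQu, map_zero]
    rw [hQmap, Polynomial.eval_pow, Polynomial.eval_X] at h2
    exact hredu (pow_eq_zero_iff' .. |>.1 h2).1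

end Basic

end Fermat.Agent.S28.GaussSpare
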