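import Fermat.Agent.S28.CuspCore

/-!
# The `q`-expansion principle for the function field of `X₀(N)`

For a cusp datum `D : CuspDatum k N O` (`O` a discrete valuation ring with fraction field `k`,
uniformizer `ϖ`), the Gauss valuations of the expansions `D.σ i x` of an element `x` of the big
field at the various cusps all coincide:

`D.σ i x ∈ ϖ ^ n • gaussRing O k ↔ D.σ j x ∈ ϖ ^ n • gaussRing O k`.

In particular integrality (`n = 0`) and vanishing of the reduction (`n = 1`) can be read off at any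
single cusp, e.g. at `∞` where `D.σ D.i₀ x = qExpand k N x`.
-/

set_option autoImplicit false
set_option linter.unusedSectionVars false
set_option synthInstance.maxHeartbeats 400000
set_option maxHeartbeats 1000000

noncomputable section

namespace Fermat.Agent.S28.GaussTransfer

open Polynomial ModularCurve Fermat.Agent.S28

variable {k : Type} [Field k] {N : ℕ} [NeZero N] {O : Type} [CommRing O] [IsDomain O]
  [IsDiscreteValuationRing O] [Algebra O k] [IsFractionRing O k]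

local instance (priority := 2000) bigFieldModuleGT : Module k (bigField k N) := Algebra.toModule

/-- the uniformizer, as an element of the big field -/
def unifE (k : Type) [Field k] (N : ℕ) {O : Type} [CommRing O] [Algebra O k] (ϖ : O) :
    bigField k N := algebraMap k (bigField k N) (algebraMap O k ϖ)

theorem sigma_unifE (D : CuspDatum k N O) (ϖ : O) (i : D.I) :
    D.σ i (unifE k N ϖ) = HahnSeries.C (algebraMap O k ϖ) := by
  rw [unifE, AlgHom.commutes, algebraMap_eq_C]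

theorem unifE_ne_zero {ϖ : O} (hϖ : Irreducible ϖ) : unifE k N ϖ ≠ 0 := by
  intro h
  have h1 : algebraMap O k ϖ = 0 :=
    (map_eq_zero_iff _ (algebraMap k (bigField k N)).injective).mp h
  exact hϖ.ne_zero ((IsFractionRing.injective O k) (by rw [h1, map_zero]))

theorem C_unif_ne_zero' {ϖ : O} (hϖ : Irreducible ϖ) :
    (HahnSeries.C (algebraMap O k ϖ) : LaurentSeries k) ≠ 0 := by
  intro h
  have h1 : algebraMap O k ϖ = 0 := by
    have := congrArg (fun s : LaurentSeries k => s.coeff 0) h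
    simpa using this
  exact hϖ.ne_zero ((IsFractionRing.injective O k) (by rw [h1, map_zero]))

theorem unifE_mem (ϖ : O) : unifE k N ϖ ∈ intSubring (evalE O k (jEl k N)) := by
  have : unifE k N ϖ = evalE O k (jEl k N) (Polynomial.C ϖ) := by simp [unifE, evalE]
  rw [mem_intSubring, this]
  exact (evalE O k (jEl k N)).isIntegralElem_map

section Core

variable (D : CuspDatum k N O)

/-- all the reduction maps vanish simultaneously -/
theorem rho_eq_zero_iff (a : intSubring (evalE O k (jEl k N))) (i j : D.I) :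
    D.chartHypFin.rho i a = 0 ↔ D.chartHypFin.rho j a = 0 := by
  have h := D.chartHypFin.rho_ker_eq N (NeZero.ne N) D.cI D.cI_dvd D.i₀ D.cI_eq_iff D.hunits i j
  rw [← RingHom.mem_ker, ← RingHom.mem_ker, h]

/-- divisibility of an expansion of an integral element by the uniformizer does not depend on
the cusp -/
theorem sigma_dvd_of_sigma_dvd {ϖ : O} (hϖ : Irreducible ϖ) {a : bigField k N}
    (ha : (evalE O k (jEl k N)).IsIntegralElem a) (i j : D.I)
    (h : ∃ v ∈ gaussRing O k, D.σ i a = HahnSeries.C (algebraMap O k ϖ) * v) :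
    ∃ v ∈ gaussRing O k, D.σ j a = HahnSeries.C (algebraMap O k ϖ) * v := by
  have h0 : D.chartHypFin.rho i ⟨a, ha⟩ = 0 := by
    rw [ChartHyp.rho_apply]
    exact (gaussRed_eq_zero_iff hϖ _).mpr h
  have h1 := (rho_eq_zero_iff D ⟨a, ha⟩ i j).mp h0
  rw [ChartHyp.rho_apply] at h1
  exact (gaussRed_eq_zero_iff hϖ _).mp h1

/-- an integral element one of whose expansions is divisible by the uniformizer is divisible by
the uniformizer in the integral closure -/
theorem exists_eq_unif_mul {ϖ : O} (hϖ : Irreducible ϖ) {a : bigField k N}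
    (ha : (evalE O k (jEl k N)).IsIntegralElem a) (i : D.I)
    (h : ∃ v ∈ gaussRing O k, D.σ i a = HahnSeries.C (algebraMap O k ϖ) * v) :
    ∃ a' : bigField k N, (evalE O k (jEl k N)).IsIntegralElem a' ∧ a = unifE k N ϖ * a' := by
  have hall : ∀ j, ∃ v ∈ gaussRing O k, D.σ j a = HahnSeries.C (algebraMap O k ϖ) * v :=
    fun j => sigma_dvd_of_sigma_dvd D hϖ ha i j h
  refine ⟨_, D.chartHypFin.div_unif D.i₀ hϖ ha hall, ?_⟩
  have hne : algebraMap k (bigField k N) (algebraMap O k ϖ) ≠ 0 := unifE_ne_zero hϖ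
  rw [unifE, ← mul_assoc, ← map_mul, mul_inv_cancel₀
    (fun h0 => hne (by rw [h0, map_zero])), map_one, one_mul]

/-- iterated version -/
theorem exists_eq_unif_pow_mul {ϖ : O} (hϖ : Irreducible ϖ) (n : ℕ) : ∀ {a : bigField k N}
    (_ : (evalE O k (jEl k N)).IsIntegralElem a) (i : D.I)
    (_ : ∃ v ∈ gaussRing O k, D.σ i a = HahnSeries.C (algebraMap O k ϖ) ^ n * v),
    ∃ a' : bigField k N, (evalE O k (jEl k N)).IsIntegralElem a' ∧ a = unifE k N ϖ ^ n * a' := by
  induction n with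
  | zero =>
    intro a ha i _
    exact ⟨a, ha, by rw [pow_zero, one_mul]⟩
  | succ n ih =>
    intro a ha i h
    obtain ⟨v, hv, hav⟩ := h
    have h1 : ∃ w ∈ gaussRing O k, D.σ i a = HahnSeries.C (algebraMap O k ϖ) * w :=
      ⟨HahnSeries.C (algebraMap O k ϖ) ^ n * v, mul_mem (pow_mem (C_mem_gaussRing ϖ) n) hv, by
        rw [hav, pow_succ]; ring⟩
    obtain ⟨a₁, ha₁, haa₁⟩ := exists_eq_unif_mul D hϖ ha i h1
    have h2 : D.σ i a₁ = HahnSeries.C (algebraMap O k ϖ) ^ n * v := by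
      have h3 : HahnSeries.C (algebraMap O k ϖ) * D.σ i a₁ =
          HahnSeries.C (algebraMap O k ϖ) * (HahnSeries.C (algebraMap O k ϖ) ^ n * v) := by
        rw [← sigma_unifE D ϖ i, ← map_mul, ← haa₁, hav, sigma_unifE, pow_succ]
        ring
      exact mul_left_cancel₀ (C_unif_ne_zero' hϖ) h3
    obtain ⟨a', ha', haa'⟩ := ih ha₁ i ⟨v, hv, h2⟩
    exact ⟨a', ha', by rw [haa₁, haa', pow_succ]; ring⟩

/-- a nonzero element of the Gauss ring is divisible only by boundedly many powers of the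
uniformizer -/
theorem exists_bound_of_ne_zero {ϖ : O} (hϖ : Irreducible ϖ) {y : LaurentSeries k}
    (hy : y ∈ gaussField O k) (hy0 : y ≠ 0) :
    ∃ B : ℕ, ∀ m : ℕ, (∃ w ∈ gaussRing O k, y = HahnSeries.C (algebraMap O k ϖ) ^ m * w) →
      m ≤ B := by
  obtain ⟨a, b, v, hv, hvred, hyv⟩ := exists_pow_mul_eq_pow_mul hϖ hy hy0
  refine ⟨a, fun m hm => ?_⟩
  obtain ⟨w, hw, hyw⟩ := hm
  by_contra hlt
  rw [not_le] at hlt
  apply hvred
  refine (gaussRed_eq_zero_iff hϖ hv).mpr
    ⟨HahnSeries.C (algebraMap O k ϖ) ^ (m - a - 1 + b) * w,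
      mul_mem (pow_mem (C_mem_gaussRing ϖ) _) hw, ?_⟩
  have hπ := C_unif_ne_zero' (k := k) hϖ
  have h1 : HahnSeries.C (algebraMap O k ϖ) ^ a * v =
      HahnSeries.C (algebraMap O k ϖ) ^ a *
        (HahnSeries.C (algebraMap O k ϖ) * (HahnSeries.C (algebraMap O k ϖ) ^ (m - a - 1 + b) * w)) := by
    rw [← hyv, hyw]
    have hm' : m = a + (m - a - 1) + 1 := by omega
    conv_lhs => rw [hm']
    ring
  exact mul_left_cancel₀ (pow_ne_zero a hπ) h1

/-- every nonzero integral element is a power of the uniformizer times an integral element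
all of whose expansions have nonzero reduction -/
theorem exists_unif_pow_mul_of_ne_zero {ϖ : O} (hϖ : Irreducible ϖ) {c : bigField k N}
    (hc : (evalE O k (jEl k N)).IsIntegralElem c) (hc0 : c ≠ 0) :
    ∃ (γ : ℕ) (c' : bigField k N) (hc' : (evalE O k (jEl k N)).IsIntegralElem c'),
      c = unifE k N ϖ ^ γ * c' ∧ ∀ i, D.chartHypFin.rho i ⟨c', hc'⟩ ≠ 0 := by
  have hy0 : D.σ D.i₀ c ≠ 0 :=
    fun h => hc0 ((map_eq_zero_iff _ (D.σ D.i₀ : bigField k N →+* LaurentSeries k).injective).mp h)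
  obtain ⟨B, hB⟩ := exists_bound_of_ne_zero hϖ (D.sigma_mem_gaussField D.i₀ c) hy0
  clear hy0
  induction B generalizing c with
  | zero =>
    refine ⟨0, c, hc, by rw [pow_zero, one_mul], fun i hi => ?_⟩
    have h0 := (rho_eq_zero_iff D ⟨c, hc⟩ i D.i₀).mp hi
    rw [ChartHyp.rho_apply] at h0
    obtain ⟨v, hv, hcv⟩ := (gaussRed_eq_zero_iff hϖ _).mp h0
    have := hB 1 ⟨v, hv, by rw [pow_one]; exact hcv⟩
    omega
  | succ B ih =>
    by_cases hρ : D.chartHypFin.rho D.i₀ ⟨c, hc⟩ = 0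
    · rw [ChartHyp.rho_apply] at hρ
      have hdiv := (gaussRed_eq_zero_iff hϖ _).mp hρ
      obtain ⟨c₁, hc₁, hcc₁⟩ := exists_eq_unif_mul D hϖ hc D.i₀ hdiv
      have hc₁0 : c₁ ≠ 0 := by
        rintro rfl
        exact hc0 (by rw [hcc₁, mul_zero])
      have hB₁ : ∀ m : ℕ, (∃ w ∈ gaussRing O k,
          D.σ D.i₀ c₁ = HahnSeries.C (algebraMap O k ϖ) ^ m * w) → m ≤ B := by
        intro m ⟨w, hw, hcw⟩
        have := hB (m + 1) ⟨w, hw, by
          rw [hcc₁, map_mul, sigma_unifE, hcw, pow_succ]; ring⟩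
        omega
      obtain ⟨γ, c', hc', hcc', hne⟩ := ih hc₁ hc₁0 hB₁
      exact ⟨γ + 1, c', hc', by rw [hcc₁, hcc', pow_succ]; ring, hne⟩
    · exact ⟨0, c, hc, by rw [pow_zero, one_mul],
        fun i hi => hρ ((rho_eq_zero_iff D ⟨c, hc⟩ i D.i₀).mp hi)⟩

/-- constants of `k` can be cleared into the integral closure -/
theorem exists_mul_algebraMap_mem (c : k) :
    ∃ d : O, d ≠ 0 ∧ unifE k N d * algebraMap k (bigField k N) c ∈
      intSubring (evalE O k (jEl k N)) := by
  obtain ⟨⟨a, d⟩, hd⟩ := IsLocalization.surj (nonZeroDivisors O) c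
  refine ⟨d, nonZeroDivisors.ne_zero d.2, ?_⟩
  have h1 : unifE k N (d : O) * algebraMap k (bigField k N) c = unifE k N a := by
    rw [unifE, unifE, ← map_mul, mul_comm]
    exact congrArg _ hd
  rw [h1]
  exact unifE_mem a

include D in
/-- elements of `bigAlg` can be cleared into the integral closure of `O[j]` -/
theorem exists_mul_mem_of_mem_bigAlg (y : LaurentSeries k) (hy : y ∈ bigAlg k N) :
    ∃ d : O, d ≠ 0 ∧ unifE k N d * ⟨y, bigAlg_le_bigField k N hy⟩ ∈
      intSubring (evalE O k (jEl k N)) := by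
  induction hy using Algebra.adjoin_induction with
  | mem y hy =>
    refine ⟨1, one_ne_zero, ?_⟩
    have h1 : unifE k N (1 : O) = 1 := by simp [unifE]
    rw [h1, one_mul, mem_intSubring]
    exact D.chartHypFin.isIntegralElem_of_forall_mem D.i₀
      (D.isIntegralElem_evalEk_of_mem _ (Algebra.subset_adjoin hy))
      (fun i => intSeries_le_gaussRing (D.σ_int i _ hy))
  | algebraMap c => exact exists_mul_algebraMap_mem c
  | add y z hy hz ihy ihz =>
    obtain ⟨d₁, hd₁, h₁⟩ := ihy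
    obtain ⟨d₂, hd₂, h₂⟩ := ihz
    refine ⟨d₁ * d₂, mul_ne_zero hd₁ hd₂, ?_⟩
    have h3 : unifE k N (d₁ * d₂) * ⟨y + z, bigAlg_le_bigField k N (add_mem hy hz)⟩ =
        unifE k N d₂ * (unifE k N d₁ * ⟨y, bigAlg_le_bigField k N hy⟩) +
          unifE k N d₁ * (unifE k N d₂ * ⟨z, bigAlg_le_bigField k N hz⟩) := by
      have h4 : (⟨y + z, bigAlg_le_bigField k N (add_mem hy hz)⟩ : bigField k N) =
          ⟨y, bigAlg_le_bigField k N hy⟩ + ⟨z, bigAlg_le_bigField k N hz⟩ := rfl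
      rw [h4]
      simp only [unifE, map_mul]
      ring
    rw [h3]
    exact add_mem (mul_mem (unifE_mem d₂) h₁) (mul_mem (unifE_mem d₁) h₂)
  | mul y z hy hz ihy ihz =>
    obtain ⟨d₁, hd₁, h₁⟩ := ihy
    obtain ⟨d₂, hd₂, h₂⟩ := ihz
    refine ⟨d₁ * d₂, mul_ne_zero hd₁ hd₂, ?_⟩
    have h3 : unifE k N (d₁ * d₂) * ⟨y * z, bigAlg_le_bigField k N (mul_mem hy hz)⟩ =
        (unifE k N d₁ * ⟨y, bigAlg_le_bigField k N hy⟩) *
          (unifE k N d₂ * ⟨z, bigAlg_le_bigField k N hz⟩) := by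
      have h4 : (⟨y * z, bigAlg_le_bigField k N (mul_mem hy hz)⟩ : bigField k N) =
          ⟨y, bigAlg_le_bigField k N hy⟩ * ⟨z, bigAlg_le_bigField k N hz⟩ := rfl
      rw [h4]
      simp only [unifE, map_mul]
      ring
    rw [h3]
    exact mul_mem h₁ h₂

include D in
/-- every element of the big field is a quotient of two elements integral over `O[j]` -/
theorem exists_frac (x : bigField k N) :
    ∃ r s : bigField k N, (evalE O k (jEl k N)).IsIntegralElem r ∧
      (evalE O k (jEl k N)).IsIntegralElem s ∧ s ≠ 0 ∧ x * s = r := by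
  obtain ⟨r₀, hr₀, s₀, hs₀, hs₀0, hx⟩ := bigField_frac x
  obtain ⟨d₁, hd₁, h₁⟩ := exists_mul_mem_of_mem_bigAlg D (r₀ : LaurentSeries k) hr₀
  obtain ⟨d₂, hd₂, h₂⟩ := exists_mul_mem_of_mem_bigAlg D (s₀ : LaurentSeries k) hs₀
  have hd : ∀ d : O, d ≠ 0 → unifE k N d ≠ 0 := by
    intro d hd0 h
    have h1 : algebraMap O k d = 0 :=
      (map_eq_zero_iff _ (algebraMap k (bigField k N)).injective).mp h
    exact hd0 ((IsFractionRing.injective O k) (by rw [h1, map_zero]))
  refine ⟨unifE k N d₂ * (unifE k N d₁ * r₀), unifE k N d₁ * (unifE k N d₂ * s₀),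
    mul_mem (unifE_mem d₂) h₁, mul_mem (unifE_mem d₁) h₂,
    mul_ne_zero (hd d₁ hd₁) (mul_ne_zero (hd d₂ hd₂) hs₀0), ?_⟩
  rw [← hx]
  ring

/-- **`q`-expansion principle**: the Gauss valuation of the expansions of an element of the big
field is the same at all cusps. -/
theorem sigma_dvd_pow_of_sigma_dvd_pow {ϖ : O} (hϖ : Irreducible ϖ) (x : bigField k N) (n : ℕ)
    (i j : D.I)
    (h : ∃ v ∈ gaussRing O k, D.σ i x = HahnSeries.C (algebraMap O k ϖ) ^ n * v) :
    ∃ v ∈ gaussRing O k, D.σ j x = HahnSeries.C (algebraMap O k ϖ) ^ n * v := by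
  obtain ⟨v, hv, hxv⟩ := h
  obtain ⟨r, s, hr, hs, hs0, hxs⟩ := exists_frac D x
  obtain ⟨γ, s', hs', hss', hne⟩ := exists_unif_pow_mul_of_ne_zero D hϖ hs hs0
  -- `r` is divisible by `ϖ ^ (n + γ)`
  have hr1 : ∃ w ∈ gaussRing O k,
      D.σ i r = HahnSeries.C (algebraMap O k ϖ) ^ (n + γ) * w := by
    refine ⟨v * D.σ i s', mul_mem hv (D.chartHypFin.sigma_mem_gaussRing hs' i), ?_⟩
    rw [← hxs, map_mul, hxv, hss', map_mul, map_pow, sigma_unifE, pow_add]
    ring
  obtain ⟨r', hr', hrr'⟩ := exists_eq_unif_pow_mul D hϖ (n + γ) hr i hr1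
  -- cancel `ϖ ^ γ`
  have hπ : unifE k N ϖ ≠ 0 := unifE_ne_zero hϖ
  have h2 : x * s' = unifE k N ϖ ^ n * r' := by
    have h3 : unifE k N ϖ ^ γ * (x * s') = unifE k N ϖ ^ γ * (unifE k N ϖ ^ n * r') := by
      have h5 : unifE k N ϖ ^ γ * (unifE k N ϖ ^ n * r') = r := by
        rw [hrr', pow_add]; ring
      rw [h5, ← hxs, hss']
      ring
    exact mul_left_cancel₀ (pow_ne_zero γ hπ) h3
  have h4 : D.σ j x * D.σ j s' = HahnSeries.C (algebraMap O k ϖ) ^ n * D.σ j r' := by
    rw [← map_mul, h2, map_mul, map_pow, sigma_unifE]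
  have hs'j : D.σ j s' ∈ gaussRing O k := D.chartHypFin.sigma_mem_gaussRing hs' j
  have hinv : (D.σ j s')⁻¹ ∈ gaussRing O k := inv_mem_gaussRing hs'j (hne j)
  have hs'0 : D.σ j s' ≠ 0 := by
    intro h0
    apply hne j
    rw [ChartHyp.rho_apply]
    have : (⟨D.σ j s', D.chartHypFin.sigma_mem_gaussRing hs' j⟩ : gaussRing O k) = 0 :=
      Subtype.ext h0
    rw [this, map_zero]
  refine ⟨D.σ j r' * (D.σ j s')⁻¹,
    mul_mem (D.chartHypFin.sigma_mem_gaussRing hr' j) hinv, ?_⟩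
  rw [← mul_assoc, ← h4, mul_assoc, mul_inv_cancel₀ hs'0, mul_one]

theorem sigma_dvd_pow_iff {ϖ : O} (hϖ : Irreducible ϖ) (x : bigField k N) (n : ℕ) (i j : D.I) :
    (∃ v ∈ gaussRing O k, D.σ i x = HahnSeries.C (algebraMap O k ϖ) ^ n * v) ↔
      ∃ v ∈ gaussRing O k, D.σ j x = HahnSeries.C (algebraMap O k ϖ) ^ n * v :=
  ⟨sigma_dvd_pow_of_sigma_dvd_pow D hϖ x n i j, sigma_dvd_pow_of_sigma_dvd_pow D hϖ x n j i⟩

/-- Gauss-integrality of the expansions does not depend on the cusp -/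
theorem sigma_mem_gaussRing_iff (x : bigField k N) (i j : D.I) :
    D.σ i x ∈ gaussRing O k ↔ D.σ j x ∈ gaussRing O k := by
  obtain ⟨ϖ, hϖ⟩ := IsDiscreteValuationRing.exists_irreducible O
  have h := sigma_dvd_pow_iff D hϖ x 0 i j
  constructor
  · intro hi
    obtain ⟨v, hv, hxv⟩ := h.mp ⟨D.σ i x, hi, by rw [pow_zero, one_mul]⟩
    rw [hxv, pow_zero, one_mul]; exact hv
  · intro hj
    obtain ⟨v, hv, hxv⟩ := h.mpr ⟨D.σ j x, hj, by rw [pow_zero, one_mul]⟩
    rw [hxv, pow_zero, one_mul]; exact hv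

/-- vanishing of the reduction of the expansions does not depend on the cusp -/
theorem gaussRed_sigma_eq_zero_iff (x : bigField k N) (i j : D.I)
    (hi : D.σ i x ∈ gaussRing O k) (hj : D.σ j x ∈ gaussRing O k) :
    gaussRed O k ⟨D.σ i x, hi⟩ = 0 ↔ gaussRed O k ⟨D.σ j x, hj⟩ = 0 := by
  obtain ⟨ϖ, hϖ⟩ := IsDiscreteValuationRing.exists_irreducible O
  rw [gaussRed_eq_zero_iff hϖ hi, gaussRed_eq_zero_iff hϖ hj]
  have h := sigma_dvd_pow_iff D hϖ x 1 i j
  simpa only [pow_one] using h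

/-- the expansion at `∞` is the `q`-expansion in `t = q^{1/N}`: Gauss-integrality of all
expansions can be read off from the `q`-expansion of `x` itself -/
theorem sigma_mem_gaussRing_of_mem (x : bigField k N) (hx : (x : LaurentSeries k) ∈ gaussRing O k)
    (i : D.I) : D.σ i x ∈ gaussRing O k := by
  rw [sigma_mem_gaussRing_iff D x i D.i₀, D.σ_i₀]
  exact qExpand_mem_gaussRing hx

/-- if the `q`-expansion of `x` is divisible by `ϖ ^ n` in the Gauss ring, so are all its
expansions at the other cusps -/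
theorem sigma_dvd_pow_of_dvd_pow {ϖ : O} (hϖ : Irreducible ϖ) (x : bigField k N) (n : ℕ)
    (h : ∃ v ∈ gaussRing O k, (x : LaurentSeries k) = HahnSeries.C (algebraMap O k ϖ) ^ n * v)
    (i : D.I) : ∃ v ∈ gaussRing O k, D.σ i x = HahnSeries.C (algebraMap O k ϖ) ^ n * v := by
  refine sigma_dvd_pow_of_sigma_dvd_pow D hϖ x n D.i₀ i ?_
  obtain ⟨v, hv, hxv⟩ := h
  exact ⟨qExpand k N v, qExpand_mem_gaussRing hv, by
    rw [D.σ_i₀, hxv, map_mul, map_pow, qExpand_C]⟩

end Core

end Fermat.Agent.S28.GaussTransfer
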