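import Fermat.Agent.S28.PolyDescent
import Fermat.Agent.S28.CosetSymJ

/-!
# The `sym` field of the cusp datum

From an abstract expansion setup (a class `M` of functions on the upper half plane closed under
the ring operations, with a multiplicative additive expansion map `L` to Laurent series), we
deduce that the coefficients of `∏ (X - C (expansion of the i-th conjugate))` are polynomials
in `j(t^N)`, first over `ℂ` and then over any subfield containing the coefficients.
-/

set_option autoImplicit false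

open UpperHalfPlane ModularForm Complex Function Periodic MatrixGroups Filter Polynomial
  CongruenceSubgroup ModularCurve
open scoped Manifold Topology

namespace Fermat.Agent.S28.SymExpansion

open Fermat.Agent.S28.CosetSym

/-- An abstract expansion setup: `M` is a class of holomorphic functions, meromorphic at the cusp
in the variable `𝕢 h`, closed under the ring operations; `L` is an expansion map which is additive
and multiplicative on `M`.  (Intended: `M = IsMeroCusp h`, `L = laurentExp h`.) -/
structure ExpSetup (h : ℝ) (M : (ℍ → ℂ) → Prop) (L : (ℍ → ℂ) → LaurentSeries ℂ) : Prop where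
  mdiff : ∀ {f : ℍ → ℂ}, M f → MDiff f
  bdd : ∀ {f : ℍ → ℂ}, M f →
    ∃ m : ℕ, IsBoundedAtImInfty fun z : ℍ => qParam h (z : ℂ) ^ m * f z
  const : ∀ c : ℂ, M fun _ => c
  add : ∀ {f g : ℍ → ℂ}, M f → M g → M (f + g)
  mul : ∀ {f g : ℍ → ℂ}, M f → M g → M (f * g)
  L_const : ∀ c : ℂ, L (fun _ => c) = HahnSeries.C c
  L_add : ∀ {f g : ℍ → ℂ}, M f → M g → L (f + g) = L f + L g
  L_mul : ∀ {f g : ℍ → ℂ}, M f → M g → L (f * g) = L f * L g

namespace ExpSetup

variable {h : ℝ} {M : (ℍ → ℂ) → Prop} {L : (ℍ → ℂ) → LaurentSeries ℂ} (E : ExpSetup h M L)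
include E

theorem one : M 1 := E.const 1

theorem L_one : L 1 = 1 := by
  have h1 := E.L_const 1
  rw [map_one] at h1
  exact h1

theorem zero : M 0 := E.const 0

theorem L_zero : L 0 = 0 := by
  have h1 := E.L_const 0
  rw [map_zero] at h1
  exact h1

theorem sum {α : Type*} (s : Finset α) (f : α → ℍ → ℂ) (hf : ∀ a ∈ s, M (f a)) :
    M (∑ a ∈ s, f a) ∧ L (∑ a ∈ s, f a) = ∑ a ∈ s, L (f a) := by
  classical
  induction s using Finset.induction_on with
  | empty => exact ⟨by simpa using E.zero, by simpa using E.L_zero⟩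
  | insert a s ha ih =>
    obtain ⟨h1, h2⟩ := ih fun b hb => hf b (Finset.mem_insert_of_mem hb)
    have h3 := hf a (Finset.mem_insert_self a s)
    rw [Finset.sum_insert ha, Finset.sum_insert ha]
    exact ⟨E.add h3 h1, by rw [E.L_add h3 h1, h2]⟩

theorem prod {α : Type*} (s : Finset α) (f : α → ℍ → ℂ) (hf : ∀ a ∈ s, M (f a)) :
    M (∏ a ∈ s, f a) ∧ L (∏ a ∈ s, f a) = ∏ a ∈ s, L (f a) := by
  classical
  induction s using Finset.induction_on with
  | empty => exact ⟨by simpa using E.one, by simpa using E.L_one⟩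
  | insert a s ha ih =>
    obtain ⟨h1, h2⟩ := ih fun b hb => hf b (Finset.mem_insert_of_mem hb)
    have h3 := hf a (Finset.mem_insert_self a s)
    rw [Finset.prod_insert ha, Finset.prod_insert ha]
    exact ⟨E.mul h3 h1, by rw [E.L_mul h3 h1, h2]⟩

theorem pow {f : ℍ → ℂ} (hf : M f) (n : ℕ) : M (f ^ n) ∧ L (f ^ n) = L f ^ n := by
  induction n with
  | zero => exact ⟨by simpa using E.one, by simpa using E.L_one⟩
  | succ n ih =>
    rw [pow_succ, pow_succ]
    exact ⟨E.mul ih.1 hf, by rw [E.L_mul ih.1 hf, ih.2]⟩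

/-- `L` commutes with polynomial expressions in one function -/
theorem eval_poly {J : ℍ → ℂ} (hJ : M J) (P : ℂ[X]) :
    M (fun z => P.eval (J z)) ∧ L (fun z => P.eval (J z)) = aeval (L J) P := by
  induction P using Polynomial.induction_on' with
  | add p q hp hq =>
    have h1 : (fun z => (p + q).eval (J z)) = (fun z => p.eval (J z)) + fun z => q.eval (J z) := by
      funext z
      simp
    rw [h1, map_add]
    exact ⟨E.add hp.1 hq.1, by rw [E.L_add hp.1 hq.1, hp.2, hq.2]⟩
  | monomial n a =>
    have h1 : (fun z => (monomial n a).eval (J z)) = (fun _ => a) * J ^ n := by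
      funext z
      simp [eval_monomial]
    have h2 := E.pow hJ n
    rw [h1]
    refine ⟨E.mul (E.const a) h2.1, ?_⟩
    rw [E.L_mul (E.const a) h2.1, h2.2, E.L_const, aeval_monomial,
      Fermat.Agent.S28.PolyDescent.algebraMap_eq_C]

/-- `L` commutes with polynomial expressions in several functions -/
theorem eval_mvPoly {X : Type*} (g : X → ℍ → ℂ) (hg : ∀ x, M (g x)) (P : MvPolynomial X ℂ) :
    M (fun z => MvPolynomial.eval (fun x => g x z) P) ∧
      L (fun z => MvPolynomial.eval (fun x => g x z) P) =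
        MvPolynomial.aeval (fun x => L (g x)) P := by
  induction P using MvPolynomial.induction_on with
  | C a =>
    simp only [MvPolynomial.eval_C, MvPolynomial.aeval_C]
    exact ⟨E.const a, by rw [E.L_const, Fermat.Agent.S28.PolyDescent.algebraMap_eq_C]⟩
  | add p q hp hq =>
    have h1 : (fun z => MvPolynomial.eval (fun x => g x z) (p + q)) =
        (fun z => MvPolynomial.eval (fun x => g x z) p) +
          fun z => MvPolynomial.eval (fun x => g x z) q := by
      funext z
      simp
    rw [h1, map_add]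
    exact ⟨E.add hp.1 hq.1, by rw [E.L_add hp.1 hq.1, hp.2, hq.2]⟩
  | mul_X p x hp =>
    have h1 : (fun z => MvPolynomial.eval (fun x => g x z) (p * MvPolynomial.X x)) =
        (fun z => MvPolynomial.eval (fun x => g x z) p) * g x := by
      funext z
      simp
    rw [h1, map_mul, MvPolynomial.aeval_X]
    exact ⟨E.mul hp.1 (hg x), by rw [E.L_mul hp.1 (hg x), hp.2]⟩

end ExpSetup

section Main

variable {h : ℝ} {M : (ℍ → ℂ) → Prop} {L : (ℍ → ℂ) → LaurentSeries ℂ}

theorem aeval_qExpand (K : Type*) [Field K] (N : ℕ) [NeZero N] (x : LaurentSeries K) (P : K[X]) :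
    aeval (qExpand K N x) P = qExpand K N (aeval x P) := by
  have h1 := Polynomial.aeval_algHom_apply (qExpandAlgHomC K N) x P
  simpa [qExpandAlgHomC_apply] using h1

theorem mem_image_qExpand_adjoin (K : Type*) [Field K] (N : ℕ) [NeZero N] (P : K[X]) :
    qExpand K N (aeval (jqModC K) P) ∈
      qExpand K N '' (Algebra.adjoin K {jqModC K} : Set (LaurentSeries K)) :=
  ⟨_, aeval_mem_adjoin_singleton K (jqModC K), rfl⟩

/-- **Over `ℂ`:** the coefficients of `∏ (X - C (L (f i)))`, for a family `f` permuted by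
`SL(2, ℤ)`, are polynomials in `j(t^N)`. -/
theorem coeff_prod_X_sub_C_mem (E : ExpSetup h M L) (hh : 0 < h) {N : ℕ} [NeZero N] {J : ℍ → ℂ}
    (hJ : IsHauptmodul J) (hMJ : M J) (hLJ : L J = qExpand ℂ N (jqModC ℂ)) {ι : Type}
    [Fintype ι] {f : ι → ℍ → ℂ} (hperm : IsPermuted f) (hMf : ∀ i, M (f i)) (r : ℕ) :
    (∏ i, (X - C (L (f i)))).coeff r ∈
      qExpand ℂ N '' (Algebra.adjoin ℂ {jqModC ℂ} : Set (LaurentSeries ℂ)) := by
  classical
  rcases le_or_gt r (Fintype.card ι) with hr | hr
  · -- uniform pole order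
    choose mm hmm using fun i => E.bdd (hMf i)
    have hbdd : ∀ i, IsBoundedAtImInfty fun z : ℍ =>
        qParam h (z : ℂ) ^ (Finset.univ.sup mm) * f i z := fun i =>
      isBoundedAtImInfty_qParam_pow_mul_of_le hh (Finset.le_sup (Finset.mem_univ i)) (hmm i)
    set n := Fintype.card ι - r with hn
    obtain ⟨P, hP, -⟩ := hJ.exists_poly_esymmFun (fun i => E.mdiff (hMf i)) hperm hh hbdd n
    have h1 : (∏ i, (X - C (L (f i)))).coeff r =
        (-1) ^ n * ∑ t ∈ Finset.powersetCard n Finset.univ, ∏ i ∈ t, L (f i) := by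
      have h2 := Multiset.prod_X_sub_C_coeff ((Finset.univ : Finset ι).val.map fun i => L (f i))
        (k := r) (by simpa using hr)
      rw [Multiset.map_map] at h2
      simp only [Multiset.card_map, Finset.card_val, Finset.card_univ] at h2
      rw [Finset.esymm_map_val] at h2
      exact h2
    have h3 : ∑ t ∈ Finset.powersetCard n Finset.univ, ∏ i ∈ t, L (f i) =
        L (esymmFun f n) := by
      rw [esymmFun_eq, (E.sum _ _ fun t _ => (E.prod t f fun i _ => hMf i).1).2]
      exact Finset.sum_congr rfl fun t _ => ((E.prod t f fun i _ => hMf i).2).symm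
    have h4 : esymmFun f n = fun z => P.eval (J z) := funext hP
    rw [h1, h3, h4, (E.eval_poly hMJ P).2, hLJ, aeval_qExpand]
    have h5 : (-1 : LaurentSeries ℂ) ^ n * qExpand ℂ N (aeval (jqModC ℂ) P) =
        qExpand ℂ N (aeval (jqModC ℂ) (C ((-1) ^ n) * P)) := by
      rw [map_mul, map_mul, aeval_C, Fermat.Agent.S28.PolyDescent.algebraMap_eq_C, qExpand_C,
        map_pow, map_neg, map_one]
    rw [h5]
    exact mem_image_qExpand_adjoin ℂ N _
  · have h1 : (∏ i, (X - C (L (f i)))).coeff r = 0 := by
      apply coeff_eq_zero_of_natDegree_lt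
      rw [natDegree_prod_of_monic _ _ fun i _ => monic_X_sub_C (L (f i))]
      simpa using hr
    rw [h1]
    exact ⟨0, zero_mem _, map_zero _⟩

/-- **Descent of the field of coefficients.** -/
theorem coeff_prod_X_sub_C_descent {S R : Type*} [Field S] [Field R] (φ : S →+* R) (N : ℕ)
    [NeZero N] {ι : Type*} [Fintype ι] (s : ι → LaurentSeries S) (r : ℕ)
    (hmem : (∏ i, (X - C (coeffMap φ (s i)))).coeff r ∈
      qExpand R N '' (Algebra.adjoin R {jqModC R} : Set (LaurentSeries R))) :
    (∏ i, (X - C (s i))).coeff r ∈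
      qExpand S N '' (Algebra.adjoin S {jqModC S} : Set (LaurentSeries S)) := by
  have h1 : (∏ i, (X - C (coeffMap φ (s i)))) = (∏ i, (X - C (s i))).map (coeffMap φ) := by
    rw [Polynomial.map_prod]
    simp
  rw [h1, coeff_map] at hmem
  obtain ⟨y, hy, hy'⟩ := hmem
  rw [SetLike.mem_coe, Algebra.adjoin_singleton_eq_range_aeval] at hy
  obtain ⟨P, rfl⟩ := hy
  obtain ⟨Q, rfl⟩ := Fermat.Agent.S28.PolyDescent.exists_map_eq_of_coeff_qExpand_mem_range φ N P
    fun m => by
      have h2 : (qExpand R N ((aeval (jqModC R)) P)).coeff m =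
          φ (((∏ i, (X - C (s i))).coeff r).coeff m) := by
        have h2' := congrArg (fun x : LaurentSeries R => x.coeff m) hy'
        simp only [coeffMap_coeff] at h2'
        exact h2'
      rw [h2]
      exact ⟨_, rfl⟩
  have h3 : coeffMap φ (qExpand S N (aeval (jqModC S) Q)) =
      coeffMap φ ((∏ i, (X - C (s i))).coeff r) := by
    rw [coeffMap_qExpand, Fermat.Agent.S28.PolyDescent.coeffMap_aeval_jqModC]
    exact hy'
  rw [← Fermat.Agent.S28.PolyDescent.coeffMap_injective φ φ.injective h3]
  exact mem_image_qExpand_adjoin S N Q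

end Main

section SymField

variable {h : ℝ} {M : (ℍ → ℂ) → Prop} {L : (ℍ → ℂ) → LaurentSeries ℂ}

/-- `coeffMap φ` commutes with multivariate polynomial expressions -/
theorem coeffMap_mvAeval {k R : Type*} [Field k] [Field R] (φ : k →+* R) {X : Type*}
    (s : X → LaurentSeries k) (P : MvPolynomial X k) :
    coeffMap φ (MvPolynomial.aeval s P) =
      MvPolynomial.aeval (fun x => coeffMap φ (s x)) (MvPolynomial.map φ P) := by
  induction P using MvPolynomial.induction_on with
  | C a =>
    simp only [MvPolynomial.aeval_C, MvPolynomial.map_C,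
      Fermat.Agent.S28.PolyDescent.algebraMap_eq_C]
    rw [HahnSeries.C_apply, HahnSeries.C_apply, coeffMap_single]
  | add p q hp hq => simp only [map_add, hp, hq]
  | mul_X p x hp => simp only [map_mul, hp, MvPolynomial.aeval_X, MvPolynomial.map_X]

/-- **The `sym` field of the cusp input**, from an expansion setup: if the series `s i x` over `k`
are (after extension of the coefficients to `ℂ`) the expansions of the conjugates of `Γ`-invariant
functions `G x`, then the coefficients of `∏ (X - C (P(s i)))` are polynomials in `j(t^N)`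
over `k`. -/
theorem sym_of_expSetup {k : Type*} [Field k] (φ : k →+* ℂ) (E : ExpSetup h M L) (hh : 0 < h)
    {N : ℕ} [NeZero N] {J : ℍ → ℂ} (hJ : IsHauptmodul J) (hMJ : M J)
    (hLJ : L J = qExpand ℂ N (jqModC ℂ)) {Γ : Subgroup SL(2, ℤ)} [Fintype (SL(2, ℤ) ⧸ Γ)]
    {X : Type*} (G : X → ℍ → ℂ) (hGinv : ∀ x, ∀ γ ∈ Γ, ∀ z, G x (γ • z) = G x z)
    (hGM : ∀ (x : X) (g : SL(2, ℤ)), M fun z => G x (g • z))
    (s : SL(2, ℤ) ⧸ Γ → X → LaurentSeries k)
    (hs : ∀ i x, coeffMap φ (s i x) = L (cosetFun Γ (G x) i))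
    (P : MvPolynomial X k) (r : ℕ) :
    (∏ i, (Polynomial.X - Polynomial.C (MvPolynomial.aeval (s i) P))).coeff r ∈
      qExpand k N '' (Algebra.adjoin k {jqModC k} : Set (LaurentSeries k)) := by
  apply coeff_prod_X_sub_C_descent φ N (fun i => MvPolynomial.aeval (s i) P) r
  -- the analytic avatar of `P`
  set F : ℍ → ℂ := fun z => MvPolynomial.eval (fun x => G x z) (MvPolynomial.map φ P) with hF
  have hFinv : ∀ γ ∈ Γ, ∀ z, F (γ • z) = F z := by
    intro γ hγ z
    simp only [hF]
    have h1 : (fun x => G x (γ • z)) = fun x => G x z := funext fun x => hGinv x γ hγ z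
    rw [h1]
  have hcos : ∀ i, cosetFun Γ F i =
      fun z => MvPolynomial.eval (fun x => cosetFun Γ (G x) i z) (MvPolynomial.map φ P) :=
    fun i => rfl
  have hMc : ∀ i x, M (cosetFun Γ (G x) i) := fun i x => hGM x _
  have hMf : ∀ i, M (cosetFun Γ F i) := fun i => by
    rw [hcos]
    exact (E.eval_mvPoly (fun x => cosetFun Γ (G x) i) (hMc i) _).1
  have hL : ∀ i, L (cosetFun Γ F i) = coeffMap φ (MvPolynomial.aeval (s i) P) := fun i => by
    rw [hcos, (E.eval_mvPoly (fun x => cosetFun Γ (G x) i) (hMc i) _).2, coeffMap_mvAeval]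
    have h1 : (fun x => L (cosetFun Γ (G x) i)) = fun x => coeffMap φ (s i x) :=
      funext fun x => (hs i x).symm
    rw [h1]
  have key := coeff_prod_X_sub_C_mem E hh hJ hMJ hLJ (isPermuted_cosetFun hFinv) hMf r
  simp only [hL] at key
  exact key

end SymField

end Fermat.Agent.S28.SymExpansion
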