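import Fermat.Agent.S28.MeroCusp
import Fermat.Agent.S28.MeroCuspInv
import Fermat.Agent.S28.EvalBridge

/-!
# `MeroExp` structure on `IsMeroCusp` / `laurentExp`, and the concrete kernel transport

The abstract interface `EvalBridge.MeroExp` is instantiated with the predicate
`IsMeroCusp h` and the expansion `laurentExp h` (for `0 < h`), and the abstract
kernel-comparison lemma is specialised to the action of an element of `SL(2,ℤ)`.
-/

set_option autoImplicit false

noncomputable section

namespace Fermat.Agent.S28.TransportMero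

open UpperHalfPlane HahnSeries ModularCurve Fermat.Agent.S28 Fermat.Agent.S28.EvalBridge
open scoped Manifold MatrixGroups

/-- `IsMeroCusp h`, `laurentExp h` satisfy the abstract interface `MeroExp`. -/
theorem meroExp_isMeroCusp {h : ℝ} (hh : 0 < h) : MeroExp (IsMeroCusp h) (laurentExp h) where
  const := fun c => isMeroCusp_const h c
  add := fun _ _ hf hg => hf.add hh hg
  mul := fun _ _ hf hg => hf.mul hg
  exp_const := fun c => laurentExp_const hh c
  exp_add := fun _ _ hf hg => laurentExp_add hh hf hg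
  exp_mul := fun _ _ hf hg => laurentExp_mul hh hf hg

/-- injectivity of the expansion, in the shape used by `EvalBridge.aeval_eq_zero_iff` -/
theorem laurentExp_inj {h : ℝ} (hh : 0 < h) :
    ∀ f, IsMeroCusp h f → laurentExp h f = 0 → f = 0 :=
  fun _ hf h0 => laurentExp_eq_zero hh hf h0

/-- the action of `γ ∈ SL(2,ℤ)` on the upper half plane is surjective -/
theorem smul_surjective (γ : SL(2, ℤ)) : Function.Surjective (fun τ : ℍ => γ • τ) :=
  fun τ => ⟨γ⁻¹ • τ, by simp⟩

/-- **Kernel transport, concrete form.**  Let `G x` (`x : X`) be functions on `ℍ`, meromorphic at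
`∞` for the period `h₁` with expansions `coeffMap φ (gen x)`, and such that the translates
`G x ∘ γ` are meromorphic at `∞` for the period `h₂` with expansions `coeffMap φ (s x)`
(`gen x`, `s x` Laurent series over the field `k`, `φ : k →+* ℂ`).  Then `gen` and `s` satisfy
the same polynomial relations over `k`. -/
theorem aeval_eq_zero_iff_of_smul {h₁ h₂ : ℝ} (hh₁ : 0 < h₁) (hh₂ : 0 < h₂)
    {k : Type*} [Field k] (φ : k →+* ℂ) {X : Type*}
    (G : X → ℍ → ℂ) (γ : SL(2, ℤ)) (gen s : X → LaurentSeries k)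
    (hG : ∀ x, IsMeroCusp h₁ (G x)) (hgen : ∀ x, laurentExp h₁ (G x) = coeffMap φ (gen x))
    (hGγ : ∀ x, IsMeroCusp h₂ (fun τ => G x (γ • τ)))
    (hs : ∀ x, laurentExp h₂ (fun τ => G x (γ • τ)) = coeffMap φ (s x))
    (P : MvPolynomial X k) :
    MvPolynomial.aeval gen P = 0 ↔ MvPolynomial.aeval s P = 0 :=
  aeval_eq_zero_iff (meroExp_isMeroCusp hh₁) (meroExp_isMeroCusp hh₂)
    (laurentExp_inj hh₁) (laurentExp_inj hh₂) φ G (fun x τ => G x (γ • τ)) hG hGγ
    (fun τ => γ • τ) (smul_surjective γ) (fun _ _ => rfl) gen s hgen hs P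

/-- The same with an abstract pair `(IsMC, LE)` on both sides (for instance the one hidden in an
`AnalyticFacts` structure). -/
theorem aeval_eq_zero_iff_of_smul' {IsMC : (ℍ → ℂ) → Prop} {LE : (ℍ → ℂ) → LaurentSeries ℂ}
    (H : MeroExp IsMC LE) (hinj : ∀ f, IsMC f → LE f = 0 → f = 0)
    {k : Type*} [Field k] (φ : k →+* ℂ) {X : Type*}
    (G : X → ℍ → ℂ) (γ : SL(2, ℤ)) (gen s : X → LaurentSeries k)
    (hG : ∀ x, IsMC (G x)) (hgen : ∀ x, LE (G x) = coeffMap φ (gen x))
    (hGγ : ∀ x, IsMC (fun τ => G x (γ • τ)))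
    (hs : ∀ x, LE (fun τ => G x (γ • τ)) = coeffMap φ (s x))
    (P : MvPolynomial X k) :
    MvPolynomial.aeval gen P = 0 ↔ MvPolynomial.aeval s P = 0 :=
  aeval_eq_zero_iff H H hinj hinj φ G (fun x τ => G x (γ • τ)) hG hGγ
    (fun τ => γ • τ) (smul_surjective γ) (fun _ _ => rfl) gen s hgen hs P

end Fermat.Agent.S28.TransportMero
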